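import Fermat.Agent.Corollaries.Isog.Open
import Fermat.Agent.Corollaries.Surj.Sub

/-!
# Torsion over the maximal abelian extension of `ℚ` (Ribet)

`W` is a Weierstrass equation over `ℤ` of a semistable elliptic curve `E` over `ℚ`. The points of
`E(ℚ̄)` on which any two automorphisms commute are the points over the maximal abelian extension
`ℚ^ab`. We show that only finitely many of them have odd finite order (`finite_ab_odd`), and that
the number of torsion points of odd order over an abelian number field is bounded, independently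
of the field (`exists_card_le_ab_odd`).

If the image of Galois on `T_p E` contains the matrices congruent to `1` modulo `p ^ n`, the
commutators of `1 + p ^ n E₁₁` with `1 + p ^ n E₁₂` and `1 + p ^ n E₂₁` show that a point `x` of
`p`-power order over `ℚ^ab` is killed by `p ^ (2 n)`. If `p = 11` or `p ≥ 17`, the image is
everything and `x = 0`.
-/

set_option autoImplicit false

noncomputable section

open WeierstrassCurve WeierstrassCurve.Affine.Point Module
open scoped WeierstrassCurve.Affine Pointwise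
open Fermat.Agent.Tate Fermat.Agent.S30aux

namespace Fermat.Agent.Cor.Isog

open Fermat.Agent.Cor.Serre Matrix
open Fermat.Agent.Cor.K1 (Gam Pts)
open Fermat.Agent.Cor.Mazur (Pt)

local notation "Γℚ" => (AlgebraicClosure ℚ ≃ₐ[ℚ] AlgebraicClosure ℚ)

/-- **The points over the maximal abelian extension of `ℚ`**: any two automorphisms commute on
them. -/
def abPts (W : WeierstrassCurve ℤ) : AddSubgroup (Pt W) where
  carrier := {x | ∀ σ τ : Gam, σ • τ • x = τ • σ • x}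
  zero_mem' _ _ := rfl
  add_mem' {x y} hx hy σ τ := by
    change act W σ (act W τ (x + y)) = act W τ (act W σ (x + y))
    rw [map_add, map_add, map_add, map_add]
    exact congrArg₂ (· + ·) (hx σ τ) (hy σ τ)
  neg_mem' {x} hx σ τ := by
    change act W σ (act W τ (-x)) = act W τ (act W σ (-x))
    rw [map_neg, map_neg, map_neg, map_neg]
    exact congrArg (- ·) (hx σ τ)

theorem mem_abPts {W : WeierstrassCurve ℤ} {x : Pt W} :
    x ∈ abPts W ↔ ∀ σ τ : Gam, σ • τ • x = τ • σ • x := Iff.rfl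

section Tate

variable {W : WeierstrassCurve ℤ} {p : ℕ} [hp : Fact p.Prime]

/-- The additive commutator of two matrices of the image on the coordinates of a point over
`ℚ^ab`. -/
theorem dvd_of_mem_abPts (X : Tb W p) {k : ℕ} {f : TMod p (Pt W)} (hab : f k ∈ abPts W)
    (σ τ : Gam) (i : Fin 2) :
    (p : ℤ_[p]) ^ k ∣ ((X.M σ * X.M τ - X.M τ * X.M σ) *ᵥ (⇑(X.b.repr f) : Fin 2 → ℤ_[p])) i := by
  set g : TMod p (Pt W) := TMod.rep p Γℚ (Pt W) σ (TMod.rep p Γℚ (Pt W) τ f) -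
    TMod.rep p Γℚ (Pt W) τ (TMod.rep p Γℚ (Pt W) σ f) with hg
  have h1 : g k = 0 := sub_eq_zero.mpr (hab σ τ)
  obtain ⟨y, hy⟩ := (TMod.apply_eq_zero_iff g k).mp h1
  have h2 : (X.M σ * X.M τ - X.M τ * X.M σ) *ᵥ (⇑(X.b.repr f) : Fin 2 → ℤ_[p]) =
      ⇑(X.b.repr g) := by
    have h3 : ∀ (ρ : Gam) (f : TMod p (Pt W)), X.M ρ *ᵥ (⇑(X.b.repr f) : Fin 2 → ℤ_[p]) =
        ⇑(X.b.repr (TMod.rep p Γℚ (Pt W) ρ f)) := fun ρ f =>
      LinearMap.toMatrix_mulVec_repr X.b X.b (TMod.rep p Γℚ (Pt W) ρ) f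
    rw [Matrix.sub_mulVec, ← Matrix.mulVec_mulVec, ← Matrix.mulVec_mulVec, h3, h3, h3, h3, hg,
      map_sub, Finsupp.coe_sub]
  rw [h2, hy, map_smul, Finsupp.smul_apply, smul_eq_mul]
  exact dvd_mul_right _ _

/-- Two commutators kill a point over `ℚ^ab`. -/
theorem nsmul_eq_zero_of_comm (hΔ : W.Δ ≠ 0) (X : Tb W p) {m : ℕ}
    (h12 : ∃ σ τ, X.M σ * X.M τ - X.M τ * X.M σ = !![0, (p : ℤ_[p]) ^ m; 0, 0])
    (h21 : ∃ σ τ, X.M σ * X.M τ - X.M τ * X.M σ = !![0, 0; (p : ℤ_[p]) ^ m, 0])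
    {k : ℕ} {x : Pt W} (hx : p ^ k • x = 0) (hab : x ∈ abPts W) : p ^ m • x = 0 := by
  obtain ⟨f, hf⟩ := TMod.exists_apply_eq (p := p) (A := Pt W)
    (fun y _ _ => exists_nsmul_eq hΔ hp.out.ne_zero y) hx
  rw [← hf] at hab ⊢
  have hdvd : ∀ i, (p : ℤ_[p]) ^ k ∣ (p : ℤ_[p]) ^ m * X.b.repr f i := by
    intro i
    fin_cases i
    · obtain ⟨σ, τ, h⟩ := h21
      have h1 := dvd_of_mem_abPts X hab σ τ 1
      rw [h] at h1
      simpa [Matrix.mulVec, dotProduct, Fin.sum_univ_two] using h1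
    · obtain ⟨σ, τ, h⟩ := h12
      have h1 := dvd_of_mem_abPts X hab σ τ 0
      rw [h] at h1
      simpa [Matrix.mulVec, dotProduct, Fin.sum_univ_two] using h1
  choose w hw using hdvd
  have h1 : (p : ℤ_[p]) ^ m • f = (p : ℤ_[p]) ^ k • X.b.equivFun.symm w := by
    apply X.b.repr.injective
    ext i
    rw [map_smul, map_smul, Finsupp.smul_apply, Finsupp.smul_apply, smul_eq_mul, smul_eq_mul, hw i]
    have h2 := congrFun (X.b.equivFun.apply_symm_apply w) i
    rw [Basis.equivFun_apply] at h2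
    rw [h2]
  have h2 : ((p : ℤ_[p]) ^ m • f) k = 0 := (TMod.apply_eq_zero_iff _ k).mpr ⟨_, h1⟩
  rwa [TMod.pow_smul_apply'] at h2

/-- The commutators in an open image. -/
theorem exists_comm_of_open (X : Tb W p) {n : ℕ} (hn : ∀ g, Cg p n g 1 → ∃ σ, X.M σ = g) :
    (∃ σ τ, X.M σ * X.M τ - X.M τ * X.M σ = !![0, (p : ℤ_[p]) ^ (n + n); 0, 0]) ∧
      ∃ σ τ, X.M σ * X.M τ - X.M τ * X.M σ = !![0, 0; (p : ℤ_[p]) ^ (n + n), 0] := by
  obtain ⟨σ, hσ⟩ := hn !![1 + (p : ℤ_[p]) ^ n, 0; 0, 1] (by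
    rw [cg_iff]
    intro i j
    fin_cases i <;> fin_cases j <;> simp)
  obtain ⟨τ, hτ⟩ := hn !![1, (p : ℤ_[p]) ^ n; 0, 1] (by
    rw [cg_iff]
    intro i j
    fin_cases i <;> fin_cases j <;> simp)
  obtain ⟨υ, hυ⟩ := hn !![1, 0; (p : ℤ_[p]) ^ n, 1] (by
    rw [cg_iff]
    intro i j
    fin_cases i <;> fin_cases j <;> simp)
  refine ⟨⟨σ, τ, ?_⟩, υ, σ, ?_⟩
  · rw [hσ, hτ]
    ext i j
    fin_cases i <;> fin_cases j <;> simp [pow_add]
    ring
  · rw [hσ, hυ]
    ext i j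
    fin_cases i <;> fin_cases j <;> simp [pow_add]
    ring

/-- The commutators if the image is everything. -/
theorem exists_comm_of_surjMod (X : Tb W p) (hp5 : 5 ≤ p) (h : SurjMod W p) :
    (∃ σ τ, X.M σ * X.M τ - X.M τ * X.M σ = !![0, (p : ℤ_[p]) ^ 0; 0, 0]) ∧
      ∃ σ τ, X.M σ * X.M τ - X.M τ * X.M σ = !![0, 0; (p : ℤ_[p]) ^ 0, 0] := by
  have h2 : IsUnit (2 : ℤ_[p]) := by
    by_contra hcon
    rw [Serre.not_isUnit_iff] at hcon
    have h3 : (p : ℤ_[p]) ∣ ((2 : ℤ) : ℤ_[p]) := by exact_mod_cast hcon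
    have h4 : (p : ℤ) ∣ 2 := by
      have := (PadicInt.norm_int_lt_one_iff_dvd (p := p) 2).mp
        ((PadicInt.norm_lt_one_iff_dvd _).mpr h3)
      exact this
    have := Int.le_of_dvd (by norm_num) h4
    omega
  obtain ⟨σ, hσ⟩ := X.exists_M_eq hp5 h (g := !![2, 0; 0, 1]) (by simpa using h2)
  obtain ⟨τ, hτ⟩ := X.exists_M_eq hp5 h (g := !![1, 1; 0, 1]) (by simp)
  obtain ⟨υ, hυ⟩ := X.exists_M_eq hp5 h (g := !![1, 0; 1, 1]) (by simp)
  refine ⟨⟨σ, τ, ?_⟩, υ, σ, ?_⟩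
  · rw [hσ, hτ]
    ext i j
    fin_cases i <;> fin_cases j <;> simp
    norm_num
  · rw [hσ, hυ]
    ext i j
    fin_cases i <;> fin_cases j <;> simp
    norm_num

/-- **The `p`-power torsion over `ℚ^ab` is bounded**, `p` odd. -/
theorem exists_bound_ab (hΔ : W.Δ ≠ 0) (hW : W.IsSemistableModel) (hp2 : p ≠ 2) :
    ∃ m : ℕ, ∀ (k : ℕ) (x : Pt W), p ^ k • x = 0 → x ∈ abPts W → p ^ m • x = 0 := by
  obtain ⟨X⟩ := exists_tb (W := W) (p := p) hΔ
  by_cases hex : ∃ ℓ : ℕ, ℓ.Prime ∧ ℓ ≠ p ∧ (ℓ : ℤ) ∣ W.Δ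
  · obtain ⟨ℓ, hℓ, hne, hdvd⟩ := hex
    obtain ⟨n, hn⟩ := exists_open_of_dvd hΔ hW hp2 X hℓ hne hdvd
    obtain ⟨h12, h21⟩ := exists_comm_of_open X hn
    exact ⟨n + n, fun k x hx hab => nsmul_eq_zero_of_comm hΔ X h12 h21 hx hab⟩
  · push Not at hex
    have h1 : p = 11 ∨ 17 ≤ p := eleven_or_le_of_unique hΔ hW hp.out fun r hr hrd => by
      by_contra hne
      exact hex r hr hne hrd
    have h2 : SurjMod W p := fun g => surjective_of_semistable_of_ge hΔ h1 hW g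
    obtain ⟨h12, h21⟩ := exists_comm_of_surjMod X (by omega) h2
    exact ⟨0, fun k x hx hab => nsmul_eq_zero_of_comm hΔ X h12 h21 hx hab⟩

/-- **No point of order `p` over `ℚ^ab`**, `p = 11` or `p ≥ 17`. -/
theorem eq_zero_of_mem_abPts (hΔ : W.Δ ≠ 0) (hW : W.IsSemistableModel) (h : p = 11 ∨ 17 ≤ p)
    {k : ℕ} {x : Pt W} (hx : p ^ k • x = 0) (hab : x ∈ abPts W) : x = 0 := by
  obtain ⟨X⟩ := exists_tb (W := W) (p := p) hΔ
  have h2 : SurjMod W p := fun g => surjective_of_semistable_of_ge hΔ h hW g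
  obtain ⟨h12, h21⟩ := exists_comm_of_surjMod X (by omega) h2
  have := nsmul_eq_zero_of_comm hΔ X h12 h21 hx hab
  rwa [pow_zero, one_smul] at this

end Tate

/-! ### All odd primes together -/

/-- Orders of the elements of a subgroup, from the `p`-parts. -/
theorem addOrderOf_dvd_prod {A : Type*} [AddCommGroup A] (H : AddSubgroup A) (P : Finset ℕ)
    {N : ℕ → ℕ} (hN : ∀ p ∈ P, p.Prime → ∀ (k : ℕ) (y : A), p ^ k • y = 0 → y ∈ H →
      p ^ (N p) • y = 0) {x : A} (hx : x ∈ H) (h0 : addOrderOf x ≠ 0)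
    (hP : ∀ p : ℕ, p.Prime → p ∣ addOrderOf x → p ∈ P) :
    addOrderOf x ∣ ∏ p ∈ P, p ^ N p := by
  rw [Nat.dvd_iff_prime_pow_dvd_dvd]
  intro p k hp hk
  rcases Nat.eq_zero_or_pos k with rfl | hk0
  · rw [pow_zero]
    exact one_dvd _
  have hpP := hP p hp ((dvd_pow_self p hk0.ne').trans hk)
  obtain ⟨c, hc⟩ := hk
  have hc0 : c ≠ 0 := fun h => h0 (by rw [hc, h, mul_zero])
  have hord : addOrderOf (c • x) = p ^ k := by
    rw [addOrderOf_nsmul_of_dvd hc0 ⟨p ^ k, by rw [hc, mul_comm]⟩, hc,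
      Nat.mul_div_cancel _ (Nat.pos_of_ne_zero hc0)]
  have h1 := hN p hpP hp k (c • x) (by rw [← hord]; exact addOrderOf_nsmul_eq_zero _)
    (AddSubgroup.nsmul_mem _ hx c)
  have h2 : p ^ k ∣ p ^ N p := by
    rw [← hord]
    exact addOrderOf_dvd_of_nsmul_eq_zero h1
  exact h2.trans (Finset.dvd_prod_of_mem (fun p => p ^ N p) hpP)

theorem mem_of_prime_of_not {p : ℕ} (hp : p.Prime) (h : ¬ (p = 11 ∨ 17 ≤ p)) :
    p ∈ ({2, 3, 5, 7, 13} : Finset ℕ) := by
  have h1 : p ≤ 16 := by omega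
  interval_cases p <;> first | decide | exact absurd (Or.inl rfl) h |
    (exfalso; revert hp; norm_num)

variable {W : WeierstrassCurve ℤ}

/-- The primes dividing the order of a torsion point over `ℚ^ab`. -/
theorem mem_of_dvd_addOrderOf (hΔ : W.Δ ≠ 0) (hW : W.IsSemistableModel) {x : Pt W}
    (hab : x ∈ abPts W) (h0 : addOrderOf x ≠ 0) {p : ℕ} (hp : p.Prime) (hpd : p ∣ addOrderOf x) :
    p ∈ ({2, 3, 5, 7, 13} : Finset ℕ) := by
  have hF : Fact p.Prime := ⟨hp⟩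
  refine mem_of_prime_of_not hp fun h => ?_
  obtain ⟨c, hc⟩ := hpd
  have hc0 : c ≠ 0 := fun h => h0 (by rw [hc, h, mul_zero])
  have hord : addOrderOf (c • x) = p := by
    rw [addOrderOf_nsmul_of_dvd hc0 ⟨p, by rw [hc, mul_comm]⟩, hc,
      Nat.mul_div_cancel _ (Nat.pos_of_ne_zero hc0)]
  have h1 : c • x = 0 := eq_zero_of_mem_abPts hΔ hW h (k := 1)
    (by rw [pow_one, ← hord]; exact addOrderOf_nsmul_eq_zero _) (AddSubgroup.nsmul_mem _ hab c)
  rw [h1, addOrderOf_zero] at hord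
  exact hp.one_lt.ne hord

/-- The order of a torsion point of odd order over `ℚ^ab` divides a fixed number. -/
theorem exists_dvd_ab_odd (hΔ : W.Δ ≠ 0) (hW : W.IsSemistableModel) :
    ∃ M : ℕ, M ≠ 0 ∧ Odd M ∧ ∀ x ∈ abPts W, addOrderOf x ≠ 0 → Odd (addOrderOf x) →
      addOrderOf x ∣ M := by
  have hN : ∀ p : ℕ, ∃ N : ℕ, p.Prime → p ≠ 2 → ∀ (k : ℕ) (x : Pt W), p ^ k • x = 0 →
      x ∈ abPts W → p ^ N • x = 0 := by
    intro p
    by_cases hp : p.Prime ∧ p ≠ 2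
    · have : Fact p.Prime := ⟨hp.1⟩
      obtain ⟨m, hm⟩ := exists_bound_ab (p := p) hΔ hW hp.2
      exact ⟨m, fun _ _ => hm⟩
    · exact ⟨0, fun h1 h2 => absurd ⟨h1, h2⟩ hp⟩
  choose N hN using hN
  refine ⟨∏ p ∈ ({3, 5, 7, 13} : Finset ℕ), p ^ N p, ?_, ?_, fun x hab h0 hodd => ?_⟩
  · refine Finset.prod_ne_zero_iff.mpr fun p hp => pow_ne_zero _ ?_
    rintro rfl
    simp at hp
  · simp only [Finset.mem_insert, Finset.mem_singleton, Finset.prod_insert, Finset.prod_singleton,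
      not_false_eq_true, Nat.reduceEqDiff, or_self]
    exact (Odd.pow (by decide)).mul ((Odd.pow (by decide)).mul
      ((Odd.pow (by decide)).mul (Odd.pow (by decide))))
  · refine addOrderOf_dvd_prod (abPts W) _ (fun p hp hpp => hN p hpp ?_) hab h0
      fun p hp hpd => ?_
    · rintro rfl
      simp at hp
    · have h1 := mem_of_dvd_addOrderOf hΔ hW hab h0 hp hpd
      rw [Finset.mem_insert] at h1
      refine h1.resolve_left ?_
      rintro rfl
      exact (Nat.not_even_iff_odd.mpr hodd) (even_iff_two_dvd.mpr hpd)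

/-- Finitely many points are killed by `M`. -/
theorem finite_killed (hΔ : W.Δ ≠ 0) {M : ℕ} (hM : M ≠ 0) : {x : Pt W | M • x = 0}.Finite := by
  have : Finite {x : Pt W // M • x = 0} := by
    apply Nat.finite_of_card_ne_zero
    rw [card_torsion hΔ hM]
    exact pow_ne_zero _ hM
  exact Set.finite_coe_iff.mp this

/-- **Ribet's theorem for semistable elliptic curves over `ℚ`, odd orders**: only finitely many
points of odd finite order are defined over the maximal abelian extension of `ℚ`. -/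
theorem finite_ab_odd (hΔ : W.Δ ≠ 0) (hW : W.IsSemistableModel) :
    {x : Pt W | x ∈ abPts W ∧ addOrderOf x ≠ 0 ∧ Odd (addOrderOf x)}.Finite := by
  obtain ⟨M, hM0, -, hM⟩ := exists_dvd_ab_odd hΔ hW
  exact (finite_killed hΔ hM0).subset fun x ⟨hab, h0, hodd⟩ =>
    addOrderOf_dvd_iff_nsmul_eq_zero.mp (hM x hab h0 hodd)

/-! ### Abelian number fields -/

/-- The points over an abelian extension of `ℚ` inside `ℚ̄`. -/
theorem mem_abPts_of_fixed (F : IntermediateField ℚ (AlgebraicClosure ℚ)) [IsGalois ℚ F]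
    (hF : ∀ σ τ : F ≃ₐ[ℚ] F, σ * τ = τ * σ) {x : Pt W}
    (hx : ∀ σ ∈ F.fixingSubgroup, σ • x = x) : x ∈ abPts W := by
  intro σ τ
  have h1 : (σ⁻¹ * τ⁻¹ * σ * τ : Gam) ∈ F.fixingSubgroup := by
    have h2 := commutator_le_fixingSubgroup F hF
      (Subgroup.commutator_mem_commutator (Subgroup.mem_top σ⁻¹) (Subgroup.mem_top τ⁻¹))
    rwa [commutatorElement_def, inv_inv, inv_inv] at h2
  have h2 := hx _ h1
  have h3 : σ • τ • x = (τ * σ) • (σ⁻¹ * τ⁻¹ * σ * τ : Gam) • x := by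
    rw [← mul_smul, ← mul_smul]
    congr 1
    group
  rw [h3, h2, mul_smul]

/-- The points over an abstract abelian extension of `ℚ`, embedded in `ℚ̄`. -/
theorem map_mem_abPts {K : Type*} [Field K] [Algebra ℚ K] [DecidableEq K] [IsAbelianGalois ℚ K]
    (f : K →ₐ[ℚ] AlgebraicClosure ℚ) (x : ((W.map (Int.castRingHom ℚ))⁄K).Point) :
    (Affine.Point.map (W' := W.map (Int.castRingHom ℚ)) f x : Pt W) ∈ abPts W := by
  have hab : IsAbelianGalois ℚ f.fieldRange :=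
    IsAbelianGalois.of_algHom (AlgEquiv.ofInjectiveField f).symm.toAlgHom
  refine mem_abPts_of_fixed f.fieldRange (fun σ τ => mul_comm' σ τ) fun σ hσ => ?_
  have h1 : (σ : AlgebraicClosure ℚ →ₐ[ℚ] AlgebraicClosure ℚ).comp f = f := by
    ext a
    exact (IntermediateField.mem_fixingSubgroup_iff _ _).mp hσ _ ⟨a, rfl⟩
  rw [algEquiv_smul_def, Affine.Point.map_map]
  exact congrArg (fun g : K →ₐ[ℚ] AlgebraicClosure ℚ =>
    Affine.Point.map (W' := W.map (Int.castRingHom ℚ)) g x) h1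

/-- **Ribet's theorem for abelian number fields, uniform, odd orders**: the number of torsion
points of odd order of a semistable elliptic curve over `ℚ` over the abelian extensions of `ℚ` (of
finite or infinite degree) is bounded. -/
theorem exists_card_le_ab_odd (hΔ : W.Δ ≠ 0) (hW : W.IsSemistableModel) :
    ∃ B : ℕ, ∀ (K : Type*) [Field K] [Algebra ℚ K] [DecidableEq K] [IsAbelianGalois ℚ K],
      {x : ((W.map (Int.castRingHom ℚ))⁄K).Point |
        addOrderOf x ≠ 0 ∧ Odd (addOrderOf x)}.Finite ∧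
      {x : ((W.map (Int.castRingHom ℚ))⁄K).Point |
        addOrderOf x ≠ 0 ∧ Odd (addOrderOf x)}.ncard ≤ B := by
  have hfin := finite_ab_odd hΔ hW
  refine ⟨{x : Pt W | x ∈ abPts W ∧ addOrderOf x ≠ 0 ∧ Odd (addOrderOf x)}.ncard, ?_⟩
  intro K _ _ _ _
  obtain ⟨f⟩ : Nonempty (K →ₐ[ℚ] AlgebraicClosure ℚ) := ⟨IsAlgClosed.lift⟩
  have hinj : Function.Injective
      (Affine.Point.map (W' := W.map (Int.castRingHom ℚ)) f) := Affine.Point.map_injective f
  have hmaps : Set.MapsTo (Affine.Point.map (W' := W.map (Int.castRingHom ℚ)) f)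
      {x : ((W.map (Int.castRingHom ℚ))⁄K).Point | addOrderOf x ≠ 0 ∧ Odd (addOrderOf x)}
      {x : Pt W | x ∈ abPts W ∧ addOrderOf x ≠ 0 ∧ Odd (addOrderOf x)} := by
    intro x hx
    refine ⟨map_mem_abPts f x, ?_⟩
    rw [addOrderOf_injective _ hinj]
    exact hx
  refine ⟨Set.Finite.of_injOn hmaps hinj.injOn hfin, ?_⟩
  exact Set.ncard_le_ncard_of_injOn _ hmaps hinj.injOn hfin

end Fermat.Agent.Cor.Isog
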