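import Fermat.Agent.Corollaries.Isog.OpenAllP
import Fermat.Agent.Corollaries.Isog.Ab

/-!
# All torsion over the maximal abelian extension of `ℚ` (Ribet)

`W` is a Weierstrass equation over `ℤ` of a semistable elliptic curve `E` over `ℚ`. Only finitely
many torsion points of `E(ℚ̄)` are defined over the maximal abelian extension of `ℚ`
(`finite_torsion_ab`); their orders have no prime factor outside `{2, 3, 5, 7, 13}`. The number of
torsion points over an abelian extension of `ℚ` is bounded, independently of the extension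
(`exists_card_torsion_le_ab`).
-/

set_option autoImplicit false

noncomputable section

open WeierstrassCurve WeierstrassCurve.Affine.Point Module
open scoped WeierstrassCurve.Affine Pointwise
open Fermat.Agent.Tate Fermat.Agent.S30aux

namespace Fermat.Agent.Cor.Isog

open Fermat.Agent.Cor.Serre Matrix
open Fermat.Agent.Cor.K1 (Gam Pts)
open Fermat.Agent.Cor.Mazur (Pt)

variable {W : WeierstrassCurve ℤ}

/-- **The `p`-power torsion over `ℚ^ab` is bounded**, every prime `p`. -/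
theorem exists_bound_ab_all (hΔ : W.Δ ≠ 0) (hW : W.IsSemistableModel) (p : ℕ)
    [hp : Fact p.Prime] :
    ∃ m : ℕ, ∀ (k : ℕ) (x : Pt W), p ^ k • x = 0 → x ∈ abPts W → p ^ m • x = 0 := by
  obtain ⟨X⟩ := exists_tb (W := W) (p := p) hΔ
  by_cases hex : ∃ ℓ : ℕ, ℓ.Prime ∧ ℓ ≠ p ∧ (ℓ : ℤ) ∣ W.Δ
  · obtain ⟨ℓ, hℓ, hne, hdvd⟩ := hex
    obtain ⟨n, hn⟩ := exists_open_of_dvd_all hΔ hW X hℓ hne hdvd
    obtain ⟨h12, h21⟩ := exists_comm_of_open X hn
    exact ⟨n + n, fun k x hx hab => nsmul_eq_zero_of_comm hΔ X h12 h21 hx hab⟩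
  · push Not at hex
    have h1 : p = 11 ∨ 17 ≤ p := eleven_or_le_of_unique hΔ hW hp.out fun r hr hrd => by
      by_contra hne
      exact hex r hr hne hrd
    exact ⟨0, fun k x hx hab => by
      rw [pow_zero, one_smul]
      exact eq_zero_of_mem_abPts hΔ hW h1 hx hab⟩

/-- The order of a torsion point over `ℚ^ab` divides a fixed number. -/
theorem exists_dvd_ab (hΔ : W.Δ ≠ 0) (hW : W.IsSemistableModel) :
    ∃ M : ℕ, M ≠ 0 ∧ (∀ p : ℕ, p.Prime → p ∣ M → p ∈ ({2, 3, 5, 7, 13} : Finset ℕ)) ∧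
      ∀ x ∈ abPts W, addOrderOf x ≠ 0 → addOrderOf x ∣ M := by
  have hN : ∀ p : ℕ, ∃ N : ℕ, p.Prime → ∀ (k : ℕ) (x : Pt W), p ^ k • x = 0 →
      x ∈ abPts W → p ^ N • x = 0 := by
    intro p
    by_cases hp : p.Prime
    · have : Fact p.Prime := ⟨hp⟩
      obtain ⟨m, hm⟩ := exists_bound_ab_all hΔ hW p
      exact ⟨m, fun _ => hm⟩
    · exact ⟨0, fun h1 => absurd h1 hp⟩
  choose N hN using hN
  refine ⟨∏ p ∈ ({2, 3, 5, 7, 13} : Finset ℕ), p ^ N p, ?_, fun p hp hpd => ?_,
    fun x hab h0 => ?_⟩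
  · refine Finset.prod_ne_zero_iff.mpr fun p hp => pow_ne_zero _ ?_
    rintro rfl
    simp at hp
  · obtain ⟨q, hq, hpq⟩ := (Prime.dvd_finsetProd_iff hp.prime _).mp hpd
    have h1 := hp.dvd_of_dvd_pow hpq
    have hqp : q.Prime := by
      simp only [Finset.mem_insert, Finset.mem_singleton] at hq
      rcases hq with rfl | rfl | rfl | rfl | rfl <;> norm_num
    rw [(Nat.prime_dvd_prime_iff_eq hp hqp).mp h1]
    exact hq
  · exact addOrderOf_dvd_prod (abPts W) _ (fun p _ hpp => hN p hpp) hab h0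
      fun p hp hpd => mem_of_dvd_addOrderOf hΔ hW hab h0 hp hpd

/-- **Ribet's theorem for semistable elliptic curves over `ℚ`**: only finitely many torsion points
are defined over the maximal abelian extension of `ℚ`. -/
theorem finite_torsion_ab (hΔ : W.Δ ≠ 0) (hW : W.IsSemistableModel) :
    {x : Pt W | x ∈ abPts W ∧ addOrderOf x ≠ 0}.Finite := by
  obtain ⟨M, hM0, -, hM⟩ := exists_dvd_ab hΔ hW
  exact (finite_killed hΔ hM0).subset fun x ⟨hab, h0⟩ =>
    addOrderOf_dvd_iff_nsmul_eq_zero.mp (hM x hab h0)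

/-- **Ribet's theorem, uniform**: the number of torsion points of a semistable elliptic curve over
`ℚ` over the abelian extensions of `ℚ` (of finite or infinite degree) is bounded. -/
theorem exists_card_torsion_le_ab (hΔ : W.Δ ≠ 0) (hW : W.IsSemistableModel) :
    ∃ B : ℕ, ∀ (K : Type*) [Field K] [Algebra ℚ K] [DecidableEq K] [IsAbelianGalois ℚ K],
      {x : ((W.map (Int.castRingHom ℚ))⁄K).Point | addOrderOf x ≠ 0}.Finite ∧
      {x : ((W.map (Int.castRingHom ℚ))⁄K).Point | addOrderOf x ≠ 0}.ncard ≤ B := by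
  have hfin := finite_torsion_ab hΔ hW
  refine ⟨{x : Pt W | x ∈ abPts W ∧ addOrderOf x ≠ 0}.ncard, ?_⟩
  intro K _ _ _ _
  obtain ⟨f⟩ : Nonempty (K →ₐ[ℚ] AlgebraicClosure ℚ) := ⟨IsAlgClosed.lift⟩
  have hinj : Function.Injective
      (Affine.Point.map (W' := W.map (Int.castRingHom ℚ)) f) := Affine.Point.map_injective f
  have hmaps : Set.MapsTo (Affine.Point.map (W' := W.map (Int.castRingHom ℚ)) f)
      {x : ((W.map (Int.castRingHom ℚ))⁄K).Point | addOrderOf x ≠ 0}
      {x : Pt W | x ∈ abPts W ∧ addOrderOf x ≠ 0} := by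
    intro x hx
    refine ⟨map_mem_abPts f x, ?_⟩
    rw [addOrderOf_injective _ hinj]
    exact hx
  refine ⟨Set.Finite.of_injOn hmaps hinj.injOn hfin, ?_⟩
  exact Set.ncard_le_ncard_of_injOn _ hmaps hinj.injOn hfin

end Fermat.Agent.Cor.Isog
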