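import Fermat.Agent.Corollaries.Isog.AbAll

/-!
# Torsion over the maximal abelian extension of a number field (Ribet, Zarhin)

`W` is a Weierstrass equation over `ℤ` of a semistable elliptic curve `E` over `ℚ`, `H` a subgroup
of finite index of `Γ = Gal(ℚ̄/ℚ)`. Only finitely many torsion points of `E(ℚ̄)` are such that
any two elements of `H` commute on them (`finite_torsion_abOver`). So for every number field `K`
the torsion of `E` over the maximal abelian extension of `K` is finite, and the number of torsion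
points over an abelian extension `L` of `K` is bounded, independently of `L`
(`exists_card_torsion_le_abOver`).

Let `M = m!`, `m` the index of `H`; then `σ ^ M ∈ H` for all `σ ∈ Γ`. If `1 + p ^ n E₁₁` and
`1 + p ^ n E₁₂` are in the image on `T_p E`, the `M`-th powers have additive commutator
`((1 + p ^ n) ^ M - 1) M p ^ n E₁₂`. For `p = 11` or `p ≥ 17` this is true with `n = 0`.
-/

set_option autoImplicit false

noncomputable section

open WeierstrassCurve WeierstrassCurve.Affine.Point Module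
open scoped WeierstrassCurve.Affine Pointwise
open Fermat.Agent.Tate Fermat.Agent.S30aux

namespace Fermat.Agent.Cor.Isog

open Fermat.Agent.Cor.Serre Matrix
open Fermat.Agent.Cor.K1 (Gam Pts)
open Fermat.Agent.Cor.Mazur (Pt)

local notation "Γℚ" => (AlgebraicClosure ℚ ≃ₐ[ℚ] AlgebraicClosure ℚ)

/-- **The points over the maximal abelian extension of the fixed field of `H`**: any two elements
of `H` commute on them. -/
def abPtsOver (W : WeierstrassCurve ℤ) (H : Subgroup Gam) : AddSubgroup (Pt W) where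
  carrier := {x | ∀ σ ∈ H, ∀ τ ∈ H, σ • τ • x = τ • σ • x}
  zero_mem' _ _ _ _ := rfl
  add_mem' {x y} hx hy σ hσ τ hτ := by
    change act W σ (act W τ (x + y)) = act W τ (act W σ (x + y))
    rw [map_add, map_add, map_add, map_add]
    exact congrArg₂ (· + ·) (hx σ hσ τ hτ) (hy σ hσ τ hτ)
  neg_mem' {x} hx σ hσ τ hτ := by
    change act W σ (act W τ (-x)) = act W τ (act W σ (-x))
    rw [map_neg, map_neg, map_neg, map_neg]
    exact congrArg (- ·) (hx σ hσ τ hτ)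

section Tate

variable {W : WeierstrassCurve ℤ} {p : ℕ} [hp : Fact p.Prime] {H : Subgroup Gam}

/-- The additive commutator of two matrices of the image on the coordinates of a point. -/
theorem dvd_of_mem_abPtsOver (X : Tb W p) {k : ℕ} {f : TMod p (Pt W)} (hab : f k ∈ abPtsOver W H)
    {σ τ : Gam} (hσ : σ ∈ H) (hτ : τ ∈ H) (i : Fin 2) :
    (p : ℤ_[p]) ^ k ∣ ((X.M σ * X.M τ - X.M τ * X.M σ) *ᵥ (⇑(X.b.repr f) : Fin 2 → ℤ_[p])) i := by
  set g : TMod p (Pt W) := TMod.rep p Γℚ (Pt W) σ (TMod.rep p Γℚ (Pt W) τ f) -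
    TMod.rep p Γℚ (Pt W) τ (TMod.rep p Γℚ (Pt W) σ f) with hg
  have h1 : g k = 0 := sub_eq_zero.mpr (hab σ hσ τ hτ)
  obtain ⟨y, hy⟩ := (TMod.apply_eq_zero_iff g k).mp h1
  have h2 : (X.M σ * X.M τ - X.M τ * X.M σ) *ᵥ (⇑(X.b.repr f) : Fin 2 → ℤ_[p]) =
      ⇑(X.b.repr g) := by
    have h3 : ∀ (ρ : Gam) (f : TMod p (Pt W)), X.M ρ *ᵥ (⇑(X.b.repr f) : Fin 2 → ℤ_[p]) =
        ⇑(X.b.repr (TMod.rep p Γℚ (Pt W) ρ f)) := fun ρ f =>
      LinearMap.toMatrix_mulVec_repr X.b X.b (TMod.rep p Γℚ (Pt W) ρ) f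
    rw [Matrix.sub_mulVec, ← Matrix.mulVec_mulVec, ← Matrix.mulVec_mulVec, h3, h3, h3, h3, hg,
      map_sub, Finsupp.coe_sub]
  rw [h2, hy, map_smul, Finsupp.smul_apply, smul_eq_mul]
  exact dvd_mul_right _ _

/-- Two commutators kill a point: if `c ∈ ℤ_p` divides `p ^ m`. -/
theorem nsmul_eq_zero_of_commOver (hΔ : W.Δ ≠ 0) (X : Tb W p) {m : ℕ} {c : ℤ_[p]}
    (hc : c ∣ (p : ℤ_[p]) ^ m)
    (h12 : ∃ σ ∈ H, ∃ τ ∈ H, X.M σ * X.M τ - X.M τ * X.M σ = !![0, c; 0, 0])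
    (h21 : ∃ σ ∈ H, ∃ τ ∈ H, X.M σ * X.M τ - X.M τ * X.M σ = !![0, 0; c, 0])
    {k : ℕ} {x : Pt W} (hx : p ^ k • x = 0) (hab : x ∈ abPtsOver W H) : p ^ m • x = 0 := by
  obtain ⟨f, hf⟩ := TMod.exists_apply_eq (p := p) (A := Pt W)
    (fun y _ _ => exists_nsmul_eq hΔ hp.out.ne_zero y) hx
  rw [← hf] at hab ⊢
  have hdvd : ∀ i, (p : ℤ_[p]) ^ k ∣ (p : ℤ_[p]) ^ m * X.b.repr f i := by
    intro i
    have h1 : (p : ℤ_[p]) ^ k ∣ c * X.b.repr f i := by
      fin_cases i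
      · obtain ⟨σ, hσ, τ, hτ, h⟩ := h21
        have h1 := dvd_of_mem_abPtsOver X hab hσ hτ 1
        rw [h] at h1
        simpa [Matrix.mulVec, dotProduct, Fin.sum_univ_two] using h1
      · obtain ⟨σ, hσ, τ, hτ, h⟩ := h12
        have h1 := dvd_of_mem_abPtsOver X hab hσ hτ 0
        rw [h] at h1
        simpa [Matrix.mulVec, dotProduct, Fin.sum_univ_two] using h1
    exact h1.trans (mul_dvd_mul_right hc _)
  choose w hw using hdvd
  have h1 : (p : ℤ_[p]) ^ m • f = (p : ℤ_[p]) ^ k • X.b.equivFun.symm w := by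
    apply X.b.repr.injective
    ext i
    rw [map_smul, map_smul, Finsupp.smul_apply, Finsupp.smul_apply, smul_eq_mul, smul_eq_mul, hw i]
    have h2 := congrFun (X.b.equivFun.apply_symm_apply w) i
    rw [Basis.equivFun_apply] at h2
    rw [h2]
  have h2 : ((p : ℤ_[p]) ^ m • f) k = 0 := (TMod.apply_eq_zero_iff _ k).mpr ⟨_, h1⟩
  rwa [TMod.pow_smul_apply'] at h2

theorem diag_pow (a : ℤ_[p]) (M : ℕ) :
    (!![a, 0; 0, 1] : Matrix (Fin 2) (Fin 2) ℤ_[p]) ^ M = !![a ^ M, 0; 0, 1] := by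
  induction M with
  | zero => simp [Matrix.one_fin_two]
  | succ M ih => rw [pow_succ, ih, Matrix.mul_fin_two]; simp [pow_succ]

theorem upper_pow (a : ℤ_[p]) (M : ℕ) :
    (!![1, a; 0, 1] : Matrix (Fin 2) (Fin 2) ℤ_[p]) ^ M = !![1, M * a; 0, 1] := by
  induction M with
  | zero => simp [Matrix.one_fin_two]
  | succ M ih =>
    rw [pow_succ, ih, Matrix.mul_fin_two]
    push_cast
    congr 1
    simp
    ring

theorem lower_pow (a : ℤ_[p]) (M : ℕ) :
    (!![1, 0; a, 1] : Matrix (Fin 2) (Fin 2) ℤ_[p]) ^ M = !![1, 0; M * a, 1] := by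
  induction M with
  | zero => simp [Matrix.one_fin_two]
  | succ M ih =>
    rw [pow_succ, ih, Matrix.mul_fin_two]
    push_cast
    congr 1
    simp
    ring

/-- The commutators of `M`-th powers. -/
theorem exists_commOver (X : Tb W p) {a b : ℤ_[p]} {M : ℕ} (hM : ∀ σ : Gam, σ ^ M ∈ H)
    (h11 : ∃ σ, X.M σ = !![a, 0; 0, 1]) (h12 : ∃ σ, X.M σ = !![1, b; 0, 1])
    (h21 : ∃ σ, X.M σ = !![1, 0; b, 1]) :
    (∃ σ ∈ H, ∃ τ ∈ H, X.M σ * X.M τ - X.M τ * X.M σ = !![0, (a ^ M - 1) * (M * b); 0, 0]) ∧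
      ∃ σ ∈ H, ∃ τ ∈ H, X.M σ * X.M τ - X.M τ * X.M σ =
        !![0, 0; (a ^ M - 1) * (M * b), 0] := by
  obtain ⟨σ, hσ⟩ := h11
  obtain ⟨τ, hτ⟩ := h12
  obtain ⟨υ, hυ⟩ := h21
  refine ⟨⟨σ ^ M, hM σ, τ ^ M, hM τ, ?_⟩, υ ^ M, hM υ, σ ^ M, hM σ, ?_⟩
  · rw [map_pow, map_pow, hσ, hτ, diag_pow, upper_pow, Matrix.mul_fin_two, Matrix.mul_fin_two]
    ext i j
    fin_cases i <;> fin_cases j <;> simp
    ring
  · rw [map_pow, map_pow, hσ, hυ, diag_pow, lower_pow, Matrix.mul_fin_two, Matrix.mul_fin_two]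
    ext i j
    fin_cases i <;> fin_cases j <;> simp
    ring

/-- Three matrices of the image, if it is everything. -/
theorem exists_two_of_surjMod (X : Tb W p) (hp5 : 5 ≤ p) (h : SurjMod W p) :
    (∃ σ, X.M σ = !![2, 0; 0, 1]) ∧ (∃ σ, X.M σ = !![1, 1; 0, 1]) ∧
      ∃ σ, X.M σ = !![1, 0; 1, 1] := by
  have h2 : IsUnit (2 : ℤ_[p]) := by
    by_contra hcon
    rw [Serre.not_isUnit_iff] at hcon
    have h3 : (p : ℤ_[p]) ∣ ((2 : ℤ) : ℤ_[p]) := by exact_mod_cast hcon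
    have h4 : (p : ℤ) ∣ 2 :=
      (PadicInt.norm_int_lt_one_iff_dvd (p := p) 2).mp ((PadicInt.norm_lt_one_iff_dvd _).mpr h3)
    have := Int.le_of_dvd (by norm_num) h4
    omega
  exact ⟨X.exists_M_eq hp5 h (by simpa using h2), X.exists_M_eq hp5 h (by simp),
    X.exists_M_eq hp5 h (by simp)⟩

/-- **The `p`-power torsion over the maximal abelian extension of the fixed field of `H` is
bounded.** -/
theorem exists_bound_abOver (hΔ : W.Δ ≠ 0) (hW : W.IsSemistableModel) {M : ℕ} (hM0 : M ≠ 0)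
    (hM : ∀ σ : Gam, σ ^ M ∈ H) :
    ∃ m : ℕ, ∀ (k : ℕ) (x : Pt W), p ^ k • x = 0 → x ∈ abPtsOver W H → p ^ m • x = 0 := by
  obtain ⟨X⟩ := exists_tb (W := W) (p := p) hΔ
  obtain ⟨a, b, hab, h11, h12, h21⟩ : ∃ a b : ℕ, (a ^ M - 1 : ℤ) * (M * b) ≠ 0 ∧
      (∃ σ, X.M σ = !![(a : ℤ_[p]), 0; 0, 1]) ∧ (∃ σ, X.M σ = !![1, (b : ℤ_[p]); 0, 1]) ∧
      ∃ σ, X.M σ = !![1, 0; (b : ℤ_[p]), 1] := by
    have hpos : ∀ a : ℕ, 1 < a → (a ^ M - 1 : ℤ) ≠ 0 := by
      intro a ha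
      have h1 : 1 < a ^ M := Nat.one_lt_pow hM0 ha
      have h2 : (1 : ℤ) < (a : ℤ) ^ M := by exact_mod_cast h1
      omega
    by_cases hex : ∃ ℓ : ℕ, ℓ.Prime ∧ ℓ ≠ p ∧ (ℓ : ℤ) ∣ W.Δ
    · obtain ⟨ℓ, hℓ, hne, hdvd⟩ := hex
      obtain ⟨n, hn⟩ := exists_open_of_dvd_all hΔ hW X hℓ hne hdvd
      have hpn : 0 < p ^ n := pow_pos hp.out.pos n
      refine ⟨1 + p ^ n, p ^ n, mul_ne_zero (hpos _ (by omega)) (mul_ne_zero
        (by exact_mod_cast hM0) (by exact_mod_cast hpn.ne')), ?_, ?_, ?_⟩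
      · obtain ⟨σ, hσ⟩ := hn !![1 + (p : ℤ_[p]) ^ n, 0; 0, 1] (by
          rw [cg_iff]
          intro i j
          fin_cases i <;> fin_cases j <;> simp)
        exact ⟨σ, by rw [hσ]; push_cast; rfl⟩
      · obtain ⟨σ, hσ⟩ := hn !![1, (p : ℤ_[p]) ^ n; 0, 1] (by
          rw [cg_iff]
          intro i j
          fin_cases i <;> fin_cases j <;> simp)
        exact ⟨σ, by rw [hσ]; push_cast; rfl⟩
      · obtain ⟨σ, hσ⟩ := hn !![1, 0; (p : ℤ_[p]) ^ n, 1] (by
          rw [cg_iff]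
          intro i j
          fin_cases i <;> fin_cases j <;> simp)
        exact ⟨σ, by rw [hσ]; push_cast; rfl⟩
    · push Not at hex
      have h1 : p = 11 ∨ 17 ≤ p := eleven_or_le_of_unique hΔ hW hp.out fun r hr hrd => by
        by_contra hne
        exact hex r hr hne hrd
      obtain ⟨h11, h12, h21⟩ := exists_two_of_surjMod X (by omega)
        (fun g => surjective_of_semistable_of_ge hΔ h1 hW g)
      exact ⟨2, 1, mul_ne_zero (hpos _ (by omega)) (mul_ne_zero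
        (by exact_mod_cast hM0) (by norm_num)), by simpa using h11, by simpa using h12,
        by simpa using h21⟩
  obtain ⟨h12', h21'⟩ := exists_commOver X hM h11 h12 h21
  have hc0 : ((a : ℤ_[p]) ^ M - 1) * (M * b) ≠ 0 := by
    have : (((a ^ M - 1 : ℤ) * (M * b) : ℤ) : ℤ_[p]) ≠ 0 := Int.cast_ne_zero.mpr hab
    push_cast at this
    exact this
  obtain ⟨m, s, hm⟩ := exists_pow_eq_mul hc0
  exact ⟨m, fun k x hx hab => nsmul_eq_zero_of_commOver hΔ X ⟨s, hm⟩ h12' h21' hx hab⟩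

/-- No `p`-power torsion over the maximal abelian extension of the fixed field of `H`, if `p = 11`
or `p ≥ 17`, and `p` does not divide `(2 ^ M - 1) M`. -/
theorem eq_zero_of_mem_abPtsOver (hΔ : W.Δ ≠ 0) (hW : W.IsSemistableModel) (h : p = 11 ∨ 17 ≤ p)
    {M : ℕ} (hM : ∀ σ : Gam, σ ^ M ∈ H) (hpM : ¬ (p : ℤ) ∣ (2 ^ M - 1) * M)
    {k : ℕ} {x : Pt W} (hx : p ^ k • x = 0) (hab : x ∈ abPtsOver W H) : x = 0 := by
  obtain ⟨X⟩ := exists_tb (W := W) (p := p) hΔ
  obtain ⟨h11, h12, h21⟩ := exists_two_of_surjMod X (by omega)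
    (fun g => surjective_of_semistable_of_ge hΔ h hW g)
  obtain ⟨h12', h21'⟩ := exists_commOver X hM h11 h12 h21
  have hc : ((2 : ℤ_[p]) ^ M - 1) * (M * 1) ∣ (p : ℤ_[p]) ^ 0 := by
    rw [pow_zero, ← isUnit_iff_dvd_one]
    by_contra hcon
    rw [Serre.not_isUnit_iff] at hcon
    apply hpM
    have h3 : (p : ℤ_[p]) ∣ (((2 ^ M - 1) * M : ℤ) : ℤ_[p]) := by
      push_cast
      rwa [mul_one] at hcon
    exact (PadicInt.norm_int_lt_one_iff_dvd (p := p) _).mp ((PadicInt.norm_lt_one_iff_dvd _).mpr h3)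
  have := nsmul_eq_zero_of_commOver hΔ X hc h12' h21' hx hab
  rwa [pow_zero, one_smul] at this

end Tate

variable {W : WeierstrassCurve ℤ} {H : Subgroup Gam}

/-- The order of a torsion point over the maximal abelian extension of the fixed field of `H`
divides a fixed number. -/
theorem exists_dvd_abOver (hΔ : W.Δ ≠ 0) (hW : W.IsSemistableModel) (hH : H.index ≠ 0) :
    ∃ N : ℕ, N ≠ 0 ∧ ∀ x ∈ abPtsOver W H, addOrderOf x ≠ 0 → addOrderOf x ∣ N := by
  obtain ⟨M, hM0, hM⟩ : ∃ M : ℕ, M ≠ 0 ∧ ∀ σ : Gam, σ ^ M ∈ H :=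
    ⟨H.index.factorial, Nat.factorial_ne_zero _, fun σ =>
      Subgroup.pow_mem_of_index_ne_zero_of_dvd hH σ fun m hm0 hm => Nat.dvd_factorial hm0 hm⟩
  have hN : ∀ p : ℕ, ∃ N : ℕ, p.Prime → ∀ (k : ℕ) (x : Pt W), p ^ k • x = 0 →
      x ∈ abPtsOver W H → p ^ N • x = 0 := by
    intro p
    by_cases hp : p.Prime
    · have : Fact p.Prime := ⟨hp⟩
      obtain ⟨m, hm⟩ := exists_bound_abOver (p := p) hΔ hW hM0 hM
      exact ⟨m, fun _ => hm⟩
    · exact ⟨0, fun h1 => absurd h1 hp⟩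
  choose N hN using hN
  have h2M : (2 ^ M - 1) * M ≠ 0 := by
    have : 1 < 2 ^ M := Nat.one_lt_pow hM0 one_lt_two
    exact mul_ne_zero (by omega) hM0
  set P : Finset ℕ := (Finset.range 17 ∪ ((2 ^ M - 1) * M).primeFactors).filter Nat.Prime with hP
  refine ⟨∏ p ∈ P, p ^ N p, ?_, fun x hab h0 => ?_⟩
  · refine Finset.prod_ne_zero_iff.mpr fun p hp => pow_ne_zero _ ?_
    exact (Finset.mem_filter.mp hp).2.ne_zero
  · refine addOrderOf_dvd_prod (abPtsOver W H) _ (fun p _ hpp => hN p hpp) hab h0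
      fun p hp hpd => ?_
    rw [hP, Finset.mem_filter, Finset.mem_union, Finset.mem_range, Nat.mem_primeFactors]
    refine ⟨?_, hp⟩
    by_contra hcon
    push Not at hcon
    obtain ⟨h17, hnd⟩ := hcon
    have hF : Fact p.Prime := ⟨hp⟩
    have hnd' : ¬ (p : ℤ) ∣ (2 ^ M - 1) * M := by
      intro h
      refine h2M (hnd hp ?_)
      have h1 : (1 : ℕ) ≤ 2 ^ M := Nat.one_le_two_pow
      have h2 : (((2 ^ M - 1) * M : ℕ) : ℤ) = (2 ^ M - 1) * M := by
        rw [Nat.cast_mul, Nat.cast_sub h1]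
        push_cast
        ring
      rw [← h2] at h
      exact Int.natCast_dvd_natCast.mp h
    obtain ⟨c, hc⟩ := hpd
    have hc0 : c ≠ 0 := fun h => h0 (by rw [hc, h, mul_zero])
    have hord : addOrderOf (c • x) = p := by
      rw [addOrderOf_nsmul_of_dvd hc0 ⟨p, by rw [hc, mul_comm]⟩, hc,
        Nat.mul_div_cancel _ (Nat.pos_of_ne_zero hc0)]
    have h1 : c • x = 0 := eq_zero_of_mem_abPtsOver hΔ hW (Or.inr h17) hM hnd' (k := 1)
      (by rw [pow_one, ← hord]; exact addOrderOf_nsmul_eq_zero _)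
      (AddSubgroup.nsmul_mem _ hab c)
    rw [h1, addOrderOf_zero] at hord
    exact hp.one_lt.ne hord

/-- **Finitely many torsion points over the maximal abelian extension of a number field.** -/
theorem finite_torsion_abOver (hΔ : W.Δ ≠ 0) (hW : W.IsSemistableModel) (hH : H.index ≠ 0) :
    {x : Pt W | x ∈ abPtsOver W H ∧ addOrderOf x ≠ 0}.Finite := by
  obtain ⟨N, hN0, hN⟩ := exists_dvd_abOver hΔ hW hH
  exact (finite_killed hΔ hN0).subset fun x ⟨hab, h0⟩ =>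
    addOrderOf_dvd_iff_nsmul_eq_zero.mp (hN x hab h0)

/-- An embedding `f` of an abelian extension `L` of `K` into `ℚ̄`: on the image, any two
automorphisms which fix the image of `K` commute. -/
theorem comm_of_abelian {K L : Type*} [Field K] [Field L] [Algebra K L] [IsAbelianGalois K L]
    (g : K →+* AlgebraicClosure ℚ) (f : L →+* AlgebraicClosure ℚ)
    (hfg : ∀ a : K, f (algebraMap K L a) = g a) {σ τ : Gam} (hσ : ∀ a : K, σ (g a) = g a)
    (hτ : ∀ a : K, τ (g a) = g a) (x : L) : σ (τ (f x)) = τ (σ (f x)) := by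
  let _ : Algebra K (AlgebraicClosure ℚ) := g.toAlgebra
  let _ : Algebra L (AlgebraicClosure ℚ) := f.toAlgebra
  have : IsScalarTower K L (AlgebraicClosure ℚ) :=
    IsScalarTower.of_algebraMap_eq fun a => (hfg a).symm
  obtain ⟨σ', hσ'⟩ : ∃ σ' : AlgebraicClosure ℚ ≃ₐ[K] AlgebraicClosure ℚ, ∀ z, σ' z = σ z :=
    ⟨AlgEquiv.ofRingEquiv (f := (σ : AlgebraicClosure ℚ ≃+* AlgebraicClosure ℚ)) hσ, fun _ => rfl⟩
  obtain ⟨τ', hτ'⟩ : ∃ τ' : AlgebraicClosure ℚ ≃ₐ[K] AlgebraicClosure ℚ, ∀ z, τ' z = τ z :=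
    ⟨AlgEquiv.ofRingEquiv (f := (τ : AlgebraicClosure ℚ ≃+* AlgebraicClosure ℚ)) hτ, fun _ => rfl⟩
  have h1 : ∀ (χ : AlgebraicClosure ℚ ≃ₐ[K] AlgebraicClosure ℚ) (y : L),
      χ (f y) = f (χ.restrictNormal L y) := fun χ y =>
    (AlgEquiv.restrictNormal_commutes χ L y).symm
  have h2 : σ'.restrictNormal L * τ'.restrictNormal L =
      τ'.restrictNormal L * σ'.restrictNormal L := mul_comm' _ _
  have h3 : σ'.restrictNormal L (τ'.restrictNormal L x) =
      τ'.restrictNormal L (σ'.restrictNormal L x) := congrArg (fun χ : L ≃ₐ[K] L => χ x) h2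
  rw [← hτ' (f x), ← hσ' (f x), h1 τ' x, h1 σ' x, ← hσ', ← hτ', h1, h1, h3]

/-- **Ribet's theorem over a number field, uniform**: `E` a semistable elliptic curve over `ℚ`, `K`
a number field. The number of torsion points of `E` over the abelian extensions `L` of `K` (of
finite or infinite degree) is bounded. -/
theorem exists_card_torsion_le_abOver (hΔ : W.Δ ≠ 0) (hW : W.IsSemistableModel)
    (K : Type*) [Field K] [NumberField K] :
    ∃ B : ℕ, ∀ (L : Type*) [Field L] [CharZero L] [DecidableEq L] [Algebra K L]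
      [IsAbelianGalois K L],
      {x : ((W.map (Int.castRingHom ℚ))⁄L).Point | addOrderOf x ≠ 0}.Finite ∧
      {x : ((W.map (Int.castRingHom ℚ))⁄L).Point | addOrderOf x ≠ 0}.ncard ≤ B := by
  obtain ⟨g⟩ : Nonempty (K →ₐ[ℚ] AlgebraicClosure ℚ) := ⟨IsAlgClosed.lift⟩
  have hfd : FiniteDimensional ℚ g.fieldRange :=
    (AlgEquiv.ofInjectiveField g).toLinearEquiv.finiteDimensional
  have hidx : g.fieldRange.fixingSubgroup.index ≠ 0 := by
    rw [← IntermediateField.finrank_eq_fixingSubgroup_index]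
    exact Module.finrank_pos.ne'
  have hfin := finite_torsion_abOver hΔ hW hidx
  refine ⟨{x : Pt W | x ∈ abPtsOver W g.fieldRange.fixingSubgroup ∧ addOrderOf x ≠ 0}.ncard, ?_⟩
  intro L _ _ _ _ _
  obtain ⟨f, hf⟩ : ∃ f : L →+* AlgebraicClosure ℚ, ∀ a : K, f (algebraMap K L a) = g a := by
    let _ : Algebra K (AlgebraicClosure ℚ) := g.toRingHom.toAlgebra
    have halg : Algebra.IsAlgebraic K L := inferInstance
    exact ⟨(IsAlgClosed.lift : L →ₐ[K] AlgebraicClosure ℚ),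
      fun a => (IsAlgClosed.lift : L →ₐ[K] AlgebraicClosure ℚ).commutes a⟩
  obtain ⟨f', hf'⟩ : ∃ f' : L →ₐ[ℚ] AlgebraicClosure ℚ, ∀ a, f' a = f a :=
    ⟨f.toRatAlgHom, fun _ => rfl⟩
  have hinj : Function.Injective
      (Affine.Point.map (W' := W.map (Int.castRingHom ℚ)) f') := Affine.Point.map_injective f'
  have hmaps : Set.MapsTo (Affine.Point.map (W' := W.map (Int.castRingHom ℚ)) f')
      {x : ((W.map (Int.castRingHom ℚ))⁄L).Point | addOrderOf x ≠ 0}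
      {x : Pt W | x ∈ abPtsOver W g.fieldRange.fixingSubgroup ∧ addOrderOf x ≠ 0} := by
    intro x hx
    refine ⟨fun σ hσ τ hτ => ?_, ?_⟩
    · have h1 : ((σ : AlgebraicClosure ℚ →ₐ[ℚ] AlgebraicClosure ℚ).comp
          ((τ : AlgebraicClosure ℚ →ₐ[ℚ] AlgebraicClosure ℚ).comp f')) =
          (τ : AlgebraicClosure ℚ →ₐ[ℚ] AlgebraicClosure ℚ).comp
          ((σ : AlgebraicClosure ℚ →ₐ[ℚ] AlgebraicClosure ℚ).comp f') := by
        ext a
        change σ (τ (f' a)) = τ (σ (f' a))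
        rw [hf' a]
        exact comm_of_abelian g.toRingHom f hf
          (fun a => (IntermediateField.mem_fixingSubgroup_iff _ _).mp hσ _ ⟨a, rfl⟩)
          (fun a => (IntermediateField.mem_fixingSubgroup_iff _ _).mp hτ _ ⟨a, rfl⟩) a
      rw [algEquiv_smul_def, algEquiv_smul_def, algEquiv_smul_def, algEquiv_smul_def,
        Affine.Point.map_map, Affine.Point.map_map, Affine.Point.map_map, Affine.Point.map_map]
      exact congrArg (fun g : L →ₐ[ℚ] AlgebraicClosure ℚ =>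
        Affine.Point.map (W' := W.map (Int.castRingHom ℚ)) g x) h1
    · rw [addOrderOf_injective _ hinj]
      exact hx
  refine ⟨Set.Finite.of_injOn hmaps hinj.injOn hfin, ?_⟩
  exact Set.ncard_le_ncard_of_injOn _ hmaps hinj.injOn hfin

end Fermat.Agent.Cor.Isog
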