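import Fermat.Agent.Corollaries.Mazur.Defs
import Fermat.Agent.S12.AtP
import Fermat.Agent.TW.InertiaField

/-!
# A curve with a rational `p`-isogeny is not supersingular at `p`

`W` over `ℤ`, `p` an odd prime, `L ⊂ E(ℚ̄)` a Galois stable subgroup of order `p`. Then some point
of `E[p] ∖ 0` does not lie in the kernel of reduction at `p`. Otherwise all roots of the division
polynomial `Ψ_p ∈ ℤ[X]` (leading coefficient `p`) have negative valuation; the product of the
abscissae of `L` is rational, so of valuation `≤ -v(p)`, while the product of all the roots has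
valuation `≥ -v(p)`.
-/

set_option autoImplicit false

open WeierstrassCurve WeierstrassCurve.Affine WeierstrassCurve.Affine.Point
open Fermat.Agent.ECRed FermatAgent.ECVal Polynomial

namespace Fermat.Agent.Cor.Isog

open Fermat.Agent.Cor.K1 (Gam Pts)

local notation "ℚbar" => AlgebraicClosure ℚ

lemma one_le_prod {A : ValuationSubring ℚbar} (m : Multiset ℚbar)
    (h : ∀ x ∈ m, 1 < A.valuation x) : 1 ≤ A.valuation m.prod ∧ (m ≠ 0 → 1 < A.valuation m.prod) := by
  induction m using Multiset.induction with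
  | empty => simp
  | cons a s ih =>
    have h1 := ih fun x hx => h x (Multiset.mem_cons_of_mem hx)
    have h2 := h a (Multiset.mem_cons_self a s)
    have h3 : 1 < A.valuation (a ::ₘ s).prod := by
      rw [Multiset.prod_cons, map_mul]
      exact one_lt_mul_of_lt_of_le h2 h1.1
    exact ⟨h3.le, fun _ => h3⟩

lemma not_mem_iff {A : ValuationSubring ℚbar} {x : ℚbar} : x ∉ A ↔ 1 < A.valuation x := by
  rw [← A.valuation_le_one_iff, not_le]

/-- Every root of the division polynomial is the abscissa of a torsion point. -/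
lemma exists_point {W : WeierstrassCurve ℤ} (hΔ : W.Δ ≠ 0) {p : ℕ} (hodd : ¬ Even p) {r : ℚbar}
    (hr : (((W.map (Int.castRingHom ℚ))⁄ℚbar).preΨ' p).eval r = 0) :
    ∃ x : Mazur.Pt W, p • x = 0 ∧ x ≠ 0 ∧ xc x = r := by
  set V := (W.map (Int.castRingHom ℚ))⁄ℚbar with hV
  have hVΔ : V.Δ ≠ 0 := by
    have h1 : V.Δ = ((W.Δ : ℤ) : ℚbar) := by
      change ((W.map (Int.castRingHom ℚ)).map (algebraMap ℚ ℚbar)).Δ = _
      rw [WeierstrassCurve.map_Δ, WeierstrassCurve.map_Δ]
      simp
    rw [h1]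
    exact_mod_cast hΔ
  -- the ordinate
  obtain ⟨y, hy⟩ : ∃ y : ℚbar, y ^ 2 + (V.a₁ * r + V.a₃) * y -
      (r ^ 3 + V.a₂ * r ^ 2 + V.a₄ * r + V.a₆) = 0 := by
    have hdeg : (X ^ 2 + C (V.a₁ * r + V.a₃) * X -
        C (r ^ 3 + V.a₂ * r ^ 2 + V.a₄ * r + V.a₆) : ℚbar[X]).degree ≠ 0 := by
      have : (X ^ 2 + C (V.a₁ * r + V.a₃) * X -
        C (r ^ 3 + V.a₂ * r ^ 2 + V.a₄ * r + V.a₆) : ℚbar[X]).degree = 2 := by compute_degree!
      rw [this]
      norm_num
    obtain ⟨y, hy⟩ := IsAlgClosed.exists_root _ hdeg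
    refine ⟨y, ?_⟩
    simpa [IsRoot.def] using hy
  have heq : V.toAffine.Equation r y := by
    rw [WeierstrassCurve.Affine.equation_iff]
    linear_combination hy
  have hns : V.toAffine.Nonsingular r y :=
    (WeierstrassCurve.Affine.equation_iff_nonsingular_of_Δ_ne_zero hVΔ).mp heq
  refine ⟨Point.some r y hns, ?_, by simp, rfl⟩
  rw [Torsion.nsmul_eq_zero_iff hns p, WeierstrassCurve.ΨSq_ofNat, if_neg hodd, mul_one, eval_pow,
    hr, zero_pow two_ne_zero]

/-- **An elliptic curve over `ℚ` with a Galois stable subgroup of odd prime order `p` has a point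
of order `p` outside the kernel of reduction at `p`** (no hypothesis on the reduction). -/
theorem exists_xc_mem {W : WeierstrassCurve ℤ} (hΔ : W.Δ ≠ 0) {p : ℕ} (hp : p.Prime)
    (hp2 : p ≠ 2) {A : ValuationSubring (AlgebraicClosure ℚ)} (hA : A.LiesOverPrime p)
    (L : AddSubgroup (Mazur.Pt W)) (hL : Nat.card L = p)
    (hst : ∀ σ : Gam, ∀ x ∈ L, σ • x ∈ L) :
    ∃ x : Mazur.Pt W, p • x = 0 ∧ x ≠ 0 ∧ xc x ∈ A := by
  classical
  by_contra hcon
  push Not at hcon
  have hodd : ¬ Even p := by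
    rw [Nat.not_even_iff_odd]; exact hp.odd_of_ne_two hp2
  have hpv : A.valuation (p : ℚbar) < 1 := by
    have h : (p : ℚbar) ∈ A.nonunits := hA
    exact h
  have hp0 : A.valuation (p : ℚbar) ≠ 0 := by
    rw [Ne, map_eq_zero]
    exact_mod_cast hp.ne_zero
  -- the division polynomial
  have hlc : (W.preΨ' p).leadingCoeff = (p : ℤ) := by
    rw [WeierstrassCurve.leadingCoeff_preΨ' W (by exact_mod_cast hp.ne_zero), if_neg hodd]
  have hdeg : (W.preΨ' p).natDegree = (p ^ 2 - 1) / 2 := by
    rw [WeierstrassCurve.natDegree_preΨ' W (by exact_mod_cast hp.ne_zero), if_neg hodd]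
  set f : ℚbar[X] := (W.preΨ' p).map (Int.castRingHom ℚbar) with hf
  have hfV : f = ((W.map (Int.castRingHom ℚ))⁄ℚbar).preΨ' p := by
    change f = ((W.map (Int.castRingHom ℚ)).map (algebraMap ℚ ℚbar)).preΨ' p
    rw [WeierstrassCurve.map_preΨ', WeierstrassCurve.map_preΨ', Polynomial.map_map, hf]
    congr 1
  have hinj : Function.Injective (Int.castRingHom ℚbar) := Int.cast_injective
  have hflc : f.leadingCoeff = (p : ℚbar) := by
    rw [hf, leadingCoeff_map_of_injective hinj, hlc]
    simp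
  have hfdeg : f.natDegree = (p ^ 2 - 1) / 2 := by
    rw [hf, natDegree_map_eq_of_injective hinj, hdeg]
  have hf0 : f ≠ 0 := by
    intro h
    rw [h, leadingCoeff_zero] at hflc
    exact hp.ne_zero (by exact_mod_cast hflc.symm)
  have hsplit : f.Splits := IsAlgClosed.splits f
  have hcard : Multiset.card f.roots = (p ^ 2 - 1) / 2 := by
    rw [← hfdeg]
    exact hsplit.natDegree_eq_card_roots.symm
  have hroots : ∀ r ∈ f.roots, 1 < A.valuation r := by
    intro r hr
    rw [mem_roots hf0, IsRoot.def, hfV] at hr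
    obtain ⟨x, hx, hx0, rfl⟩ := exists_point hΔ hodd hr
    exact not_mem_iff.mp (hcon x hx hx0)
  -- the product of all the roots
  have hprod : A.valuation (p : ℚbar) * A.valuation f.roots.prod ≤ 1 := by
    have h1 : f.coeff 0 = (-1) ^ f.natDegree * (f.leadingCoeff * f.roots.prod) := by
      rw [hsplit.coeff_zero_eq_leadingCoeff_mul_prod_roots]
      ring
    have h2 : A.valuation (f.coeff 0) ≤ 1 := by
      rw [hf, coeff_map, A.valuation_le_one_iff, eq_intCast]
      exact intCast_mem A _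
    rw [h1, map_mul, map_pow, Valuation.map_neg, map_one, one_pow, one_mul, hflc, map_mul] at h2
    exact h2
  -- the abscissae of `L`
  have hLfin : Finite L := Nat.finite_of_card_ne_zero (by rw [hL]; exact hp.ne_zero)
  have hfinset : ((L : Set (Mazur.Pt W)) \ {0}).Finite := (Set.toFinite _).subset Set.sdiff_subset
  set S : Finset ℚbar := hfinset.toFinset.image xc with hS
  have hpL : ∀ x ∈ L, p • x = 0 := by
    intro x hx
    have h1 := card_nsmul_eq_zero' (G := L) (x := ⟨x, hx⟩)
    rw [hL] at h1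
    exact congrArg Subtype.val h1
  have hSmem : ∀ s : ℚbar, s ∈ S ↔ ∃ x ∈ L, x ≠ 0 ∧ xc x = s := by
    intro s
    rw [hS, Finset.mem_image]
    constructor
    · rintro ⟨x, hx, rfl⟩
      rw [Set.Finite.mem_toFinset] at hx
      exact ⟨x, hx.1, hx.2, rfl⟩
    · rintro ⟨x, hx, hx0, rfl⟩
      exact ⟨x, by rw [Set.Finite.mem_toFinset]; exact ⟨hx, hx0⟩, rfl⟩
  have hSroots : ∀ s ∈ S, s ∈ f.roots := by
    intro s hs
    obtain ⟨x, hx, hx0, rfl⟩ := (hSmem s).mp hs
    rw [mem_roots hf0, IsRoot.def, hfV]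
    rcases x with _ | ⟨x, y, hxy⟩
    · exact absurd rfl hx0
    have h1 := (Torsion.nsmul_eq_zero_iff hxy p).mp (hpL _ hx)
    rw [WeierstrassCurve.ΨSq_ofNat, if_neg hodd, mul_one, eval_pow, sq_eq_zero_iff] at h1
    exact h1
  have hSle : S.val ≤ f.roots := (Multiset.le_iff_subset S.nodup).mpr fun s hs => hSroots s hs
  have hScard : S.card ≤ p - 1 := by
    refine Finset.card_image_le.trans ?_
    rw [← Set.ncard_eq_toFinset_card _ hfinset,
      Set.ncard_sdiff_singleton_of_mem (by exact L.zero_mem)]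
    have : (L : Set (Mazur.Pt W)).ncard = p := by
      rw [← hL]
      exact (Nat.card_coe_set_eq _).symm
    rw [this]
  have hSne : S.Nonempty := by
    have : ∃ x ∈ L, x ≠ 0 := by
      by_contra h
      push Not at h
      have h1 : Nat.card L = 1 := Nat.card_eq_one_iff_unique.mpr
        ⟨⟨fun a b => by rw [Subtype.ext_iff, h a a.2, h b b.2]⟩, ⟨0⟩⟩
      rw [hL] at h1
      exact hp.one_lt.ne' h1
    obtain ⟨x, hx, hx0⟩ := this
    exact ⟨xc x, (hSmem _).mpr ⟨x, hx, hx0, rfl⟩⟩
  -- its product is fixed by Galois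
  have hfixS : ∀ σ : Gam, σ S.val.prod = S.val.prod := by
    intro σ
    have h1 : S.image (fun s => σ s) = S := by
      apply Finset.eq_of_subset_of_card_le
      · intro s hs
        obtain ⟨t, ht, rfl⟩ := Finset.mem_image.mp hs
        obtain ⟨x, hx, hx0, rfl⟩ := (hSmem t).mp ht
        refine (hSmem _).mpr ⟨σ • x, hst σ x hx, ?_, xc_smul σ x⟩
        intro h0
        exact hx0 ((smul_eq_zero_iff_eq σ).mp h0)
      · rw [Finset.card_image_of_injective _ σ.injective]
    have h2 : ∏ s ∈ S, σ s = ∏ s ∈ S, s := by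
      conv_rhs => rw [← h1]
      rw [Finset.prod_image fun a _ b _ h => σ.injective h]
    rw [Finset.prod_val, map_prod]
    exact h2
  have hSprod : 1 < A.valuation S.val.prod :=
    (one_le_prod S.val fun s hs => hroots s (hSroots s hs)).2 (by
      intro h0
      obtain ⟨s, hs⟩ := hSne
      have : s ∈ S.val := hs
      rw [h0] at this
      exact Multiset.notMem_zero s this)
  have hS0 : S.val.prod ≠ 0 := by
    intro h0
    rw [h0, _root_.map_zero] at hSprod
    exact absurd hSprod (by simp)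
  obtain ⟨n, hn⟩ := TW.exists_valuation_eq_zpow_of_fixed hp hA (fun σ _ => hfixS σ) hS0
  have hn0 : n ≤ -1 := by
    by_contra h
    push Not at h
    have h1 : A.valuation (p : ℚbar) ^ n ≤ 1 := by
      obtain ⟨m, rfl⟩ := Int.eq_ofNat_of_zero_le (show 0 ≤ n by omega)
      rw [zpow_natCast]
      exact pow_le_one₀ zero_le hpv.le
    rw [hn] at hSprod
    exact absurd hSprod (not_lt.mpr h1)
  have hpS : 1 ≤ A.valuation (p : ℚbar) * A.valuation S.val.prod := by
    rw [hn]
    obtain ⟨m, hm⟩ := Int.eq_ofNat_of_zero_le (show 0 ≤ -1 - n by omega)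
    have h1 : A.valuation (p : ℚbar) * A.valuation (p : ℚbar) ^ n =
        (A.valuation (p : ℚbar) ^ m)⁻¹ := by
      rw [← zpow_one_add₀ hp0, ← zpow_natCast, ← zpow_neg]
      congr 1
      have : ((m : ℕ) : ℤ) = -1 - n := by rw [hm]
      rw [this]
      ring
    rw [h1]
    exact (one_le_inv₀ (pow_pos (zero_lt_iff.mpr hp0) m)).mpr (pow_le_one₀ zero_le hpv.le)
  -- the other roots
  obtain ⟨m, hm⟩ := Multiset.le_iff_exists_add.mp hSle
  have hmne : m ≠ 0 := by
    rintro rfl
    have h1 : Multiset.card f.roots = S.card := by rw [hm, add_zero]; rfl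
    rw [hcard] at h1
    have h2 := hp.two_le
    have h3 : 3 ≤ p := by omega
    have h4 : p - 1 < (p ^ 2 - 1) / 2 := by
      obtain ⟨k, rfl⟩ : ∃ k, p = k + 3 := ⟨p - 3, by omega⟩
      have h5 : (k + 3) ^ 2 - 1 = k ^ 2 + 6 * k + 8 := by
        have : (k + 3) ^ 2 = k ^ 2 + 6 * k + 9 := by ring
        omega
      rw [h5]
      have h6 : k + 3 - 1 = k + 2 := by omega
      rw [h6]
      have h7 : 2 * (k + 2 + 1) ≤ k ^ 2 + 6 * k + 8 := by nlinarith [sq_nonneg k]
      omega
    omega
  have hmprod := (one_le_prod m fun s hs => hroots s (by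
    rw [hm]
    exact Multiset.mem_add.mpr (Or.inr hs))).2 hmne
  rw [hm, Multiset.prod_add, map_mul, ← mul_assoc] at hprod
  have h1 := one_lt_mul_of_le_of_lt hpS hmprod
  exact absurd hprod (not_le.mpr h1)

end Fermat.Agent.Cor.Isog
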