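import Fermat.Agent.Corollaries.Isog.Loc
import Fermat.Agent.EC.MultFrob

/-!
# Inertia on the points of `2`-power order of a semistable curve

* away from `2` inertia acts unipotently (`smul_smul_sub_two`);
* at `2`, `σ x - x` is in the kernel of reduction for `σ` in the inertia group
  (`smul_sub_mem_kerR_two`).  At a place of multiplicative reduction above `2`, inertia acts
  trivially on `E / E₀`: the sign is the one on a point of order `3`.
-/

set_option autoImplicit false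

noncomputable section

open WeierstrassCurve WeierstrassCurve.Affine WeierstrassCurve.Affine.Point
open Fermat.Agent.ECRed Fermat.Agent.Tate
open scoped WeierstrassCurve.Affine

namespace Fermat.Agent.Cor.Isog

open Fermat.Agent.Cor.K1 (Gam Pts)
open Fermat.Agent.Cor.Mazur (Pt)

/-- **No `2`-torsion on a nodal cubic in characteristic `2`.** -/
theorem nodal_no_torsion_two {F : Type*} [Field F] [DecidableEq F] {W : Affine F}
    (h2 : (2 : F) = 0) (hΔ : W.Δ = 0) (hc : W.c₄ ≠ 0) {P : W.Point} (hP : 2 • P = 0) : P = 0 := by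
  by_contra hP0
  obtain ⟨x, y, h, rfl⟩ : ∃ x y h, P = Point.some x y h := by
    rcases P with _ | ⟨x, y, h⟩
    · exact absurd rfl hP0
    · exact ⟨x, y, h, rfl⟩
  have h1 : Point.some x y h = -Point.some x y h := by
    rw [eq_neg_iff_add_eq_zero, ← two_nsmul]
    exact hP
  rw [neg_some, some.injEq] at h1
  have hy : 2 * y + W.a₁ * x + W.a₃ = 0 := by
    have h3 := h1.2
    rw [negY] at h3
    linear_combination h3
  have hE := (equation_iff x y).mp h.1
  have ha1 : W.a₁ ≠ 0 := by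
    intro h0
    apply hc
    have : W.c₄ = 2 * (8 * W.a₂ ^ 2 - 24 * W.a₄) := by
      rw [WeierstrassCurve.c₄, WeierstrassCurve.b₂, WeierstrassCurve.b₄, h0]
      ring
    rw [this, h2, zero_mul]
  have hx : W.a₁ * y - (3 * x ^ 2 + 2 * W.a₂ * x + W.a₄) ≠ 0 := by
    rcases ((nonsingular_iff x y).mp h).2 with h3 | h3
    · exact sub_ne_zero.mpr h3
    · exact absurd (by linear_combination hy) h3
  have key : W.a₁ ^ 4 * (W.a₁ * y - (3 * x ^ 2 + 2 * W.a₂ * x + W.a₄)) ^ 2 = 0 := by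
    rw [WeierstrassCurve.Δ, WeierstrassCurve.b₂, WeierstrassCurve.b₄, WeierstrassCurve.b₆,
      WeierstrassCurve.b₈] at hΔ
    generalize W.a₁ = a1 at *
    generalize W.a₂ = a2 at *
    generalize W.a₃ = a3 at *
    generalize W.a₄ = a4 at *
    generalize W.a₆ = a6 at *
    linear_combination hΔ - (a1^5*a2*x + a1^5*a4 + a1^5*x^2 + a1^4*a2*a3 + a1^4*a3*x + a1^3*a3^2
      + a1^3*x^3 + a1^2*a3*x^2 + a1*a3^2*x + a3^3) * hy - a1^6 * (hE - y * hy)
      - (-a1^5*a2*a3*x + a1^5*a2*x*y - a1^5*a3*x^2 + 2*a1^5*x^2*y - 2*a1^4*a2^2*x^2 - a1^4*a2*a3^2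
      - a1^4*a2*a3*y - 2*a1^4*a2*a4*x - 6*a1^4*a2*a6 - 6*a1^4*a2*x^3 - a1^4*a3^2*x - a1^4*a3*x*y
      - 3*a1^4*a4*x^2 - 5*a1^4*x^4 + 4*a1^3*a2*a3*a4 - a1^3*a3^2*y + 18*a1^3*a3*a6 - a1^3*a3*x^3
      - a1^3*x^3*y - 4*a1^2*a2^2*a3^2 - 24*a1^2*a2^2*a6 + 4*a1^2*a2*a4^2 - 15*a1^2*a3^2*a4
      - a1^2*a3^2*x^2 - a1^2*a3*x^2*y + 36*a1^2*a4*a6 + 8*a1*a2^2*a3*a4 + 18*a1*a2*a3^3
      + 72*a1*a2*a3*a6 - a1*a3^3*x - a1*a3^2*x*y - 48*a1*a3*a4^2 - 8*a2^3*a3^2 - 32*a2^3*a6
      + 8*a2^2*a4^2 + 36*a2*a3^2*a4 + 144*a2*a4*a6 - 14*a3^4 - a3^3*y - 108*a3^2*a6 - 32*a4^3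
      - 216*a6^2) * h2
  exact mul_ne_zero (pow_ne_zero _ ha1) (pow_ne_zero _ hx) key

variable {W : WeierstrassCurve ℤ}

/-- **Away from `2` inertia acts unipotently on the points of `2`-power order.** -/
theorem smul_smul_sub_two (hΔ : W.Δ ≠ 0) (hW : W.IsSemistableModel) {ℓ : ℕ} (hℓ : ℓ.Prime)
    (hne : ℓ ≠ 2) {B : ValuationSubring (AlgebraicClosure ℚ)} (hB : B.LiesOverPrime ℓ) {σ : Gam}
    (hσ : σ ∈ B.inertiaSubgroupIn ℚ) {k : ℕ} {x : Pt W} (hx : 2 ^ k • x = 0) :
    σ • (σ • x - x) = σ • x - x := by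
  classical
  have hv := Fermat.Agent.Tate.val_prime_eq_one 2 Nat.prime_two hℓ hne hB k
  have hy : 2 ^ k • (σ • x - x) = 0 := by
    have h3 : 2 ^ k • (σ • x) = σ • (2 ^ k • x) :=
      (map_nsmul (DistribSMul.toAddMonoidHom (Pt W) σ) (2 ^ k) x).symm
    rw [nsmul_sub, h3, hx]
    exact sub_eq_zero.mpr (smul_zero (A := Pt W) σ)
  by_cases hgood : W.IsGoodPrimeFor ℓ
  · have hΔk := Fermat.Agent.ECFlat.Ek_Δ_ne_zero hℓ hgood hB
    exact smul_eq_of_torsion_of_good (W' := W.map (Int.castRingHom ℚ)) hσ hv (redEk W B) hΔk hy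
  · have hM : IsMultAt W ℓ := ⟨hℓ, not_not.mp hgood, hW ℓ hℓ (not_not.mp hgood), hΔ⟩
    obtain ⟨R, hR⟩ := mem_E0_iff.mp (inertia_smul_sub_mem_E0 hM hne hB hσ x)
    exact smul_eq_of_torsion_of_mem_E0 (W' := W.map (Int.castRingHom ℚ)) hσ hv (redEk W B) hR hy

open scoped Classical in
/-- **Inertia acts trivially on `E / E₀`**, at a place above `2` too. -/
theorem inertia_smul_sub_mem_E0_two (hW : IsMultAt W 2)
    {B : ValuationSubring (AlgebraicClosure ℚ)} (hB : B.LiesOverPrime 2) {σ : Gam}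
    (hσ : σ ∈ B.inertiaSubgroupIn ℚ) (x : Pt W) :
    σ • x - x ∈ E0 (redEk W B) (isPlace_valuationSubring B) := by
  have hF : Fact (Nat.Prime 3) := ⟨Nat.prime_three⟩
  set E₀ := E0 (redEk W B) (isPlace_valuationSubring B) with hE₀
  have hσD := mem_decomposition_of_mem_inertia hσ
  -- a point of order `3` outside `E₀`
  obtain ⟨z, hz3, hz⟩ := exists_torsion_notMem_E0_of_ne (p := 3) hW (by norm_num) (by norm_num) hB
  have h2z : (2 : ℕ) • z ∉ E₀ := by
    intro h
    apply hz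
    have h1 : z = (3 : ℕ) • z - (2 : ℕ) • z := by
      rw [show (3 : ℕ) = 2 + 1 from rfl, add_smul, one_smul]
      abel
    rw [h1, hz3]
    exact E₀.sub_mem E₀.zero_mem h
  have hσz : σ • z - z ∈ E₀ := by
    rcases smul_sub_or_add_mem_E0 hW hB hσD z with h | h
    · exact h
    · exfalso
      have hv := Fermat.Agent.Tate.val_prime_eq_one 3 Nat.prime_three Nat.prime_two (by norm_num)
        hB 1
      rw [pow_one] at hv
      have h3 : (3 : ℕ) • (σ • z + z) = 0 := by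
        have h4 : (3 : ℕ) • (σ • z) = σ • ((3 : ℕ) • z) :=
          (map_nsmul (DistribSMul.toAddMonoidHom (Pt W) σ) 3 z).symm
        rw [nsmul_add, h4, hz3, add_zero]
        exact smul_zero (A := Pt W) σ
      obtain ⟨R, hR⟩ := mem_E0_iff.mp h
      have h5 : σ • (σ • z + z) = σ • z + z :=
        smul_eq_of_torsion_of_mem_E0 (W' := W.map (Int.castRingHom ℚ)) hσ hv (redEk W B) hR h3
      -- `σ` is unipotent on the points of order `3`
      have hΔ' : (W.map (Int.castRingHom ℚ)).Δ ≠ 0 := by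
        rw [WeierstrassCurve.map_Δ]; simpa using hW.ne
      obtain ⟨f, hf⟩ := TMod.exists_apply_eq (p := 3) (A := (EQ W).Point) (n := 1)
        (fun y _ _ => exists_nsmul_eq hW.ne three_ne_zero y) (x := z)
        (by rw [pow_one]; exact hz3)
      have h6 := tateRep_unipotent (hΔ := hΔ') 3 hW (by norm_num) (by norm_num) B hB σ hσ
      have h7 := LinearMap.aeval_self_charpoly ((tateRep (W.map (Int.castRingHom ℚ)) hΔ' 3).ρ σ)
      rw [h6, map_pow, map_sub, Polynomial.aeval_X, map_one, sq] at h7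
      have h8 := LinearMap.congr_fun h7 f
      have h9 : (TMod.rep 3 Gam (EQ W).Point σ) ((TMod.rep 3 Gam (EQ W).Point σ) f - f) -
          ((TMod.rep 3 Gam (EQ W).Point σ) f - f) = 0 := h8
      have h10 := congrArg (fun g : TMod 3 (EQ W).Point => g 1) h9
      have h11 : σ • (σ • f 1 - f 1) - (σ • f 1 - f 1) = 0 := h10
      rw [hf] at h11
      have h12 : σ • (σ • z - z) = σ • z - z := sub_eq_zero.mp h11
      have h13 : σ • (σ • z + z) = σ • (σ • z - z) + (2 : ℕ) • (σ • z) := by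
        have h14 : σ • (σ • z + z) = σ • (σ • z) + σ • z := smul_add (A := Pt W) σ _ _
        have h15 : σ • (σ • z - z) = σ • (σ • z) - σ • z := smul_sub (A := Pt W) σ _ _
        rw [h14, h15, two_nsmul]
        abel
      rw [h12, h5] at h13
      -- `σ z + z = σ z - z + 2 σ z`, so `2 σ z = 2 z`
      have h16 : (2 : ℕ) • (σ • z) = (2 : ℕ) • z := by
        rw [two_nsmul z]
        have h17 : σ • z + z = σ • z - z + (2 : ℕ) • (σ • z) := h13
        calc (2 : ℕ) • (σ • z) = (σ • z - z + (2 : ℕ) • (σ • z)) - (σ • z - z) := by abel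
          _ = (σ • z + z) - (σ • z - z) := by rw [← h17]
          _ = z + z := by abel
      apply h2z
      -- `4 z = 2 (σ z + z)`, and `4 z = z`
      have h20 : (2 : ℕ) • z + (2 : ℕ) • z ∈ E₀ := by
        have h21 : (2 : ℕ) • z + (2 : ℕ) • z = (2 : ℕ) • (σ • z + z) := by
          rw [nsmul_add, h16]
        rw [h21]
        exact E₀.nsmul_mem h _
      have h22 : (2 : ℕ) • z + (2 : ℕ) • z = z := by
        have h23 : (2 : ℕ) • z + (2 : ℕ) • z = (3 : ℕ) • z + z := by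
          rw [← add_smul, show (2 + 2 : ℕ) = 3 + 1 from rfl, add_smul, one_smul]
        rw [h23, hz3, zero_add]
      rw [h22] at h20
      exact E₀.nsmul_mem h20 _
  rcases smul_sub_or_add_mem_E0 hW hB hσD x with h | h
  · exact h
  -- if `σ x + x ∈ E₀` use `x + z`
  have hadd : σ • (x + z) = σ • x + σ • z := smul_add (A := Pt W) σ x z
  rcases smul_sub_or_add_mem_E0 hW hB hσD (x + z) with h1 | h1
  · have h2 : σ • x - x = (σ • (x + z) - (x + z)) - (σ • z - z) := by
      rw [hadd]; abel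
    rw [h2]
    exact E₀.sub_mem h1 hσz
  · exfalso
    apply h2z
    have h2 : (2 : ℕ) • z = (σ • (x + z) + (x + z)) - (σ • x + x) - (σ • z - z) := by
      rw [hadd, two_nsmul]; abel
    rw [h2]
    exact E₀.sub_mem (E₀.sub_mem h1 h) hσz

open scoped Classical in
/-- **At `2`, `σ x - x` is in the kernel of reduction.** -/
theorem smul_sub_mem_kerR_two (hΔ : W.Δ ≠ 0) (hW : W.IsSemistableModel)
    {B : ValuationSubring (AlgebraicClosure ℚ)} (hB : B.LiesOverPrime 2) {σ : Gam}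
    (hσ : σ ∈ B.inertiaSubgroupIn ℚ) {k : ℕ} {x : Pt W} (hx : 2 ^ k • x = 0) :
    σ • x - x ∈ kerR W B := by
  have hE := redEk W B
  have hpl := isPlace_valuationSubring B
  rw [mem_kerR]
  by_cases hgood : W.IsGoodPrimeFor 2
  · have hΔk := Fermat.Agent.ECFlat.Ek_Δ_ne_zero Nat.prime_two hgood hB
    obtain ⟨Q, hQ⟩ := exists_isRed_of_Δ_ne_zero hE hpl hΔk x
    exact isRed_zero_right_iff.mp (isRed_smul_sub hσ hE hQ)
  · have hM : IsMultAt W 2 := ⟨Nat.prime_two, not_not.mp hgood,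
      hW 2 Nat.prime_two (not_not.mp hgood), hΔ⟩
    obtain ⟨R, hR⟩ := mem_E0_iff.mp (inertia_smul_sub_mem_E0_two hM hB hσ x)
    have h1 := isRed_nsmul hE hpl hR (2 ^ k)
    have h2 : 2 ^ k • (σ • x - x) = 0 := by
      have h3 : 2 ^ k • (σ • x) = σ • (2 ^ k • x) :=
        (map_nsmul (DistribSMul.toAddMonoidHom (Pt W) σ) (2 ^ k) x).symm
      rw [nsmul_sub, h3, hx]
      exact sub_eq_zero.mpr (smul_zero (A := Pt W) σ)
    rw [h2, isRed_zero_left_iff] at h1
    have hch := S12val.charP_residue Nat.prime_two hB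
    have hR0 : ∀ j : ℕ, ∀ R : (Ek W B).Point, 2 ^ j • R = 0 → R = 0 := by
      intro j
      induction j with
      | zero => intro R h; rwa [pow_zero, one_smul] at h
      | succ j ih =>
        intro R h
        rw [pow_succ, mul_smul] at h
        refine nodal_no_torsion_two ?_ ?_ ?_ (ih _ h)
        · exact_mod_cast CharP.cast_eq_zero (IsLocalRing.ResidueField B) 2
        · change (W.map (Int.castRingHom (IsLocalRing.ResidueField B))).Δ = 0
          rw [WeierstrassCurve.map_Δ, eq_intCast, CharP.intCast_eq_zero_iff _ 2]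
          exact hM.dvd
        · change (W.map (Int.castRingHom (IsLocalRing.ResidueField B))).c₄ ≠ 0
          rw [WeierstrassCurve.map_c₄, eq_intCast, Ne, CharP.intCast_eq_zero_iff _ 2]
          exact hM.ndvd
    rw [hR0 k R h1] at hR
    exact isRed_zero_right_iff.mp hR

end Fermat.Agent.Cor.Isog
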