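import Fermat.Agent.Corollaries.Isog.Finite
import Fermat.Agent.Corollaries.Isog.TwoLoc

/-!
# Stable cyclic subgroups of `2`-power order

`E` a semistable elliptic curve over `ℚ`.  A cyclic subgroup of order `2 ^ n` of `E(ℚ̄)` which is
stable under `Γ = Gal(ℚ̄/ℚ)` exists only for finitely many `n`: the argument of `Stable.lean` for
the subgroup of index `2`.
-/

set_option autoImplicit false

noncomputable section

open WeierstrassCurve WeierstrassCurve.Affine WeierstrassCurve.Affine.Point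
open Fermat.Agent.ECRed

namespace Fermat.Agent.Cor.Isog

open Fermat.Agent.Cor.K1 (Gam Pts isOpen_stabilizer_pt)
open Fermat.Agent.Cor.Mazur (Pt Fix card_Fix_le le_card_Fix)

variable {W : WeierstrassCurve ℤ}

/-- Inertia on the points of `p`-power order. -/
structure LocalData (W : WeierstrassCurve ℤ) (p : ℕ) : Prop where
  unip : ∀ ℓ : ℕ, ℓ.Prime → ℓ ≠ p → ∀ C : ValuationSubring (AlgebraicClosure ℚ),
    C.LiesOverPrime ℓ → ∀ σ ∈ C.inertiaSubgroupIn ℚ, ∀ (k : ℕ) (x : Pt W), p ^ k • x = 0 →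
    σ • (σ • x - x) = σ • x - x
  ker : ∀ B : ValuationSubring (AlgebraicClosure ℚ), B.LiesOverPrime p →
    ∀ σ ∈ B.inertiaSubgroupIn ℚ, ∀ (k : ℕ) (x : Pt W), p ^ k • x = 0 → σ • x - x ∈ kerR W B

theorem localData_two (hΔ : W.Δ ≠ 0) (hW : W.IsSemistableModel) : LocalData W 2 where
  unip _ hℓ hne _ hC _ hσ _ _ hx := smul_smul_sub_two hΔ hW hℓ hne hC hσ hx
  ker _ hB _ hσ _ _ hx := smul_sub_mem_kerR_two hΔ hW hB hσ hx

section

variable (hΔ : W.Δ ≠ 0) {p : ℕ} (hp : p.Prime) (hD : LocalData W p)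
include hp hD

/-- A stable cyclic group on which inertia at `p` acts trivially. -/
theorem fixed_of_inertia {n : ℕ} {g : Pt W} (hg : addOrderOf g = p ^ n)
    (hst : ∀ σ : Gam, σ • g ∈ AddSubgroup.zmultiples g)
    {B : ValuationSubring (AlgebraicClosure ℚ)} (hB : B.LiesOverPrime p)
    (hX : ∀ σ ∈ B.inertiaSubgroupIn ℚ, σ • g = g) {m : ℕ} (hm : n ≤ 2 * m + 1) (σ : Gam) :
    σ • (p ^ m • g) = p ^ m • g := by
  have hgn : p ^ n • g = 0 := by rw [← hg]; exact addOrderOf_nsmul_eq_zero g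
  have h := smul_pow_sub_mem (A := Pt W) (n := n) (m := m) hp ⊥
    (fun σ x hx => by
      rw [AddSubgroup.mem_bot] at hx ⊢
      rw [hx]
      exact smul_zero (A := Pt W) σ) (y := g)
    (by rw [AddSubgroup.mem_bot]; exact hgn)
    (fun k hk => by
      rw [AddSubgroup.mem_bot, ← addOrderOf_dvd_iff_zsmul_eq_zero, hg] at hk
      exact_mod_cast hk)
    (fun σ => by
      obtain ⟨a, ha⟩ := AddSubgroup.mem_zmultiples_iff.mp (hst σ)
      exact ⟨a, by rw [AddSubgroup.mem_bot]; exact sub_eq_zero.mpr ha.symm⟩)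
    (isOpen_stabilizer_pt g)
    (fun ℓ hℓ hne C hC τ hτ => by
      rw [AddSubgroup.mem_bot]
      exact sub_eq_zero.mpr (hD.unip ℓ hℓ hne C hC τ hτ n g hgn))
    hB (fun τ hτ => by rw [AddSubgroup.mem_bot]; exact sub_eq_zero.mpr (hX τ hτ)) hm σ
  exact sub_eq_zero.mp (AddSubgroup.mem_bot.mp h)

include hΔ

/-- A stable cyclic group in the kernel of reduction at `p`: a fixed class in the quotient. -/
theorem exists_fixed_mod_of_local (hNS : NotSS W p) {n : ℕ} (hn : n ≠ 0) {g : Pt W}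
    (hg : addOrderOf g = p ^ n) (hst : ∀ σ : Gam, σ • g ∈ AddSubgroup.zmultiples g)
    {B : ValuationSubring (AlgebraicClosure ℚ)} (hB : B.LiesOverPrime p) (hgB : g ∈ kerR W B)
    {m : ℕ} (hm : n ≤ 2 * m + 1) :
    ∃ h : Pt W, p ^ n • h = 0 ∧ (∀ k : ℤ, k • h ∈ AddSubgroup.zmultiples g → (p : ℤ) ^ n ∣ k) ∧
      ∀ σ : Gam, σ • (p ^ m • h) - p ^ m • h ∈ AddSubgroup.zmultiples g := by
  have hF : Fact p.Prime := ⟨hp⟩
  have hgn : p ^ n • g = 0 := by rw [← hg]; exact addOrderOf_nsmul_eq_zero g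
  have hpn : p ^ n ≠ 0 := pow_ne_zero _ hp.ne_zero
  set L := AddSubgroup.zmultiples g with hL
  have hLst : ∀ σ : Gam, ∀ x ∈ L, σ • x ∈ L := fun σ x hx => smul_mem_zmultiples hst σ hx
  have hLB : L ≤ kerR W B := by
    rw [hL, AddSubgroup.zmultiples_le]
    exact hgB
  have hcardL : Nat.card L = p ^ n := by rw [hL, Nat.card_zmultiples, hg]
  -- a point of order `p` outside the kernel of reduction
  obtain ⟨t, hpt, ht0, htB⟩ : ∃ t : Pt W, p • t = 0 ∧ t ≠ 0 ∧ t ∉ kerR W B := by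
    have hg₁ : addOrderOf (p ^ (n - 1) • g) = p := by
      refine addOrderOf_eq_prime ?_ fun h0 => ?_
      · rw [← mul_smul, ← pow_succ', Nat.sub_add_cancel (by omega)]
        exact hgn
      · have h1 := addOrderOf_dvd_of_nsmul_eq_zero h0
        rw [hg] at h1
        have h2 := (Nat.pow_dvd_pow_iff_le_right hp.one_lt).mp h1
        omega
    obtain ⟨z, hz, hz0, hzB⟩ := hNS B hB (AddSubgroup.zmultiples (p ^ (n - 1) • g))
      (by rw [Nat.card_zmultiples, hg₁])
      (fun σ x hx => smul_mem_zmultiples (nsmul_stable hst _) σ hx)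
    refine ⟨z, hz, hz0, fun hzk => ?_⟩
    rcases mem_kerR.mp hzk with h2 | h2
    · exact hz0 h2
    · rw [← B.valuation_le_one_iff] at hzB
      exact absurd h2 (not_lt.mpr hzB)
  obtain ⟨h, hh⟩ := exists_nsmul_eq hΔ (pow_ne_zero (n - 1) hp.ne_zero) t
  have hhn : p ^ n • h = 0 := by
    have h1 : p ^ n = p * p ^ (n - 1) := by
      rw [← pow_succ', Nat.sub_add_cancel (by omega)]
    rw [h1, mul_smul, hh, hpt]
  have hord : ∀ k : ℤ, k • h ∈ L → (p : ℤ) ^ n ∣ k := by
    intro k hk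
    refine dvd_of_zsmul_mem hp (L := L) (by rw [hhn]; exact L.zero_mem) ?_ hk
    rw [hh]
    exact fun h1 => htB (hLB h1)
  have hordh : addOrderOf h = p ^ n := by
    apply Nat.dvd_antisymm (addOrderOf_dvd_of_nsmul_eq_zero hhn)
    have h1 := hord (addOrderOf h) (by
      rw [natCast_zsmul, addOrderOf_nsmul_eq_zero]
      exact L.zero_mem)
    exact_mod_cast h1
  -- `E[p ^ n] = L + ⟨h⟩`
  have hfinS : Finite {x : Pt W // p ^ n • x = 0} := by
    apply Nat.finite_of_card_ne_zero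
    rw [card_torsion hΔ hpn]
    exact pow_ne_zero _ hpn
  have hLn : ∀ x ∈ L, p ^ n • x = 0 := by
    intro x hx
    obtain ⟨a, rfl⟩ := AddSubgroup.mem_zmultiples_iff.mp hx
    rw [smul_comm, hgn, zsmul_zero]
  have hfinL : Finite L := Nat.finite_of_card_ne_zero (by rw [hcardL]; exact hpn)
  have hfinH : Finite (AddSubgroup.zmultiples h) :=
    Nat.finite_of_card_ne_zero (by rw [Nat.card_zmultiples, hordh]; exact hpn)
  let Φ : L × AddSubgroup.zmultiples h → {x : Pt W // p ^ n • x = 0} := fun u =>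
    ⟨u.1 + u.2, by
      obtain ⟨a, ha⟩ := AddSubgroup.mem_zmultiples_iff.mp u.2.2
      rw [nsmul_add, hLn _ u.1.2, ← ha, smul_comm, hhn, zsmul_zero, zero_add]⟩
  have hinj : Function.Injective Φ := by
    rintro ⟨⟨l, hl⟩, ⟨u, hu⟩⟩ ⟨⟨l', hl'⟩, ⟨u', hu'⟩⟩ heq
    have h1 : l + u = l' + u' := congrArg Subtype.val heq
    obtain ⟨a, ha⟩ := AddSubgroup.mem_zmultiples_iff.mp (AddSubgroup.sub_mem _ hu hu')
    have h2 : u - u' = l' - l := by
      rw [sub_eq_sub_iff_add_eq_add, add_comm u l, h1]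
    have h3 : a • h ∈ L := by
      rw [ha, h2]
      exact L.sub_mem hl' hl
    have h4 : u - u' = 0 := by
      obtain ⟨c, hc⟩ := hord a h3
      rw [← ha, hc, mul_comm, mul_smul, ← Nat.cast_pow, natCast_zsmul, hhn, zsmul_zero]
    have h5 : u = u' := sub_eq_zero.mp h4
    have h6 : l = l' := by
      rw [h5] at h1
      exact add_right_cancel h1
    subst h5 h6
    rfl
  have hsurj : Function.Surjective Φ := by
    have h1 : Nat.card (L × AddSubgroup.zmultiples h) = Nat.card {x : Pt W // p ^ n • x = 0} := by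
      rw [Nat.card_prod, hcardL, Nat.card_zmultiples, hordh, card_torsion hΔ hpn, sq]
    exact ((Nat.bijective_iff_injective_and_card Φ).mpr ⟨hinj, h1⟩).2
  refine ⟨h, hhn, hord, fun σ => ?_⟩
  refine smul_pow_sub_mem (A := Pt W) (n := n) (m := m) hp L hLst (y := h)
    (by rw [hhn]; exact L.zero_mem) hord (fun τ => ?_) (isOpen_stabilizer_pt h)
    (fun ℓ hℓ hne C hC τ hτ => ?_) hB (fun τ hτ => ?_) hm σ
  · have h1 : p ^ n • (τ • h) = 0 := by
      rw [← smul_nsmul', hhn]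
      exact smul_zero (A := Pt W) τ
    obtain ⟨⟨l, u⟩, hlu⟩ := hsurj ⟨τ • h, h1⟩
    have h2 : (l : Pt W) + u = τ • h := congrArg Subtype.val hlu
    obtain ⟨a, ha⟩ := AddSubgroup.mem_zmultiples_iff.mp u.2
    refine ⟨a, ?_⟩
    rw [← h2, ha, add_sub_cancel_right]
    exact l.2
  · rw [hD.unip ℓ hℓ hne C hC τ hτ n h hhn, sub_self]
    exact L.zero_mem
  · exact mem_zmultiples_of_mem_kerR hΔ hp hNS hn hg hst hB hgB (nsmul_smul_sub hhn τ)
      (hD.ker B hB τ hτ n h hhn)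

omit hΔ hD in
/-- A fixed class of order `p ^ (n - m)` in `E(ℚ̄) / ⟨g⟩` gives as many points of `p`-power order
of `E` fixed by `F`. -/
theorem pow_le_of_fixed_mod {F : Gam} (hF : Finite (Fix p (act W F))) {n m : ℕ} (hmn : m ≤ n)
    {g h : Pt W} (hg : addOrderOf g = p ^ n)
    (hst : ∀ σ : Gam, σ • g ∈ AddSubgroup.zmultiples g) (hhn : p ^ n • h = 0)
    (hord : ∀ k : ℤ, k • h ∈ AddSubgroup.zmultiples g → (p : ℤ) ^ n ∣ k)
    (hfix : ∀ σ : Gam, σ • (p ^ m • h) - p ^ m • h ∈ AddSubgroup.zmultiples g) :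
    p ^ (n - m) ≤ Nat.card (Fix p (act W F)) := by
  have hgn : p ^ n • g = 0 := by rw [← hg]; exact addOrderOf_nsmul_eq_zero g
  set L := AddSubgroup.zmultiples g with hL
  have hcardL : Nat.card L = p ^ n := by rw [hL, Nat.card_zmultiples, hg]
  have hfinL : Finite L :=
    Nat.finite_of_card_ne_zero (by rw [hcardL]; exact pow_ne_zero _ hp.ne_zero)
  have hle : L ≤ L.comap (act W F) := fun x hx => smul_mem_zmultiples hst F hx
  obtain ⟨hfin', hcard'⟩ := card_Fix_le (p := p) (QuotientAddGroup.mk' L)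
    (QuotientAddGroup.mk'_surjective L)
    (by rw [QuotientAddGroup.ker_mk']; exact hfinL)
    ⟨n, fun a ha => by
      rw [QuotientAddGroup.ker_mk'] at ha
      obtain ⟨b, rfl⟩ := AddSubgroup.mem_zmultiples_iff.mp ha
      rw [smul_comm, hgn, zsmul_zero]⟩
    (act W F) (QuotientAddGroup.map L L (act W F) hle) (fun a => rfl) hF
  refine le_trans ?_ hcard'
  refine le_card_Fix _ hfin' (a := QuotientAddGroup.mk' L (p ^ m • h)) ?_ ?_
  · change QuotientAddGroup.mk' L (F • (p ^ m • h)) = QuotientAddGroup.mk' L (p ^ m • h)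
    rw [← sub_eq_zero, ← map_sub]
    exact (QuotientAddGroup.eq_zero_iff _).mpr (hfix F)
  · have h0 : addOrderOf (QuotientAddGroup.mk' L h) = p ^ n := by
      apply Nat.dvd_antisymm
      · apply addOrderOf_dvd_of_nsmul_eq_zero
        rw [← map_nsmul, hhn, _root_.map_zero]
      · have h1 := hord (addOrderOf (QuotientAddGroup.mk' L h)) (by
          rw [← QuotientAddGroup.eq_zero_iff]
          change QuotientAddGroup.mk' L _ = 0
          rw [map_zsmul, natCast_zsmul, addOrderOf_nsmul_eq_zero])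
        exact_mod_cast h1
    rw [map_nsmul, addOrderOf_nsmul_of_dvd (pow_ne_zero _ hp.ne_zero)
      (by rw [h0]; exact pow_dvd_pow _ hmn), h0, Nat.pow_div hmn hp.pos]

end

/-- A point of order four in the kernel of reduction at `2` is moved by inertia. -/
def FourMoved (W : WeierstrassCurve ℤ) : Prop :=
  ∀ B : ValuationSubring (AlgebraicClosure ℚ), B.LiesOverPrime 2 → ∀ g : Pt W,
    addOrderOf g = 4 → g ∈ kerR W B → ∃ σ ∈ B.inertiaSubgroupIn ℚ, σ • g ≠ g

/-- **The prime `2`**: a stable cyclic subgroup of order `2 ^ (n + 1)` gives `2 ^ ⌈n/2⌉` points of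
`2`-power order fixed by a given element of `Γ`. -/
theorem two_pow_le_card_Fix_of (hΔ : W.Δ ≠ 0) (hW : W.IsSemistableModel) (hNS : NotSS W 2)
    (hfour : FourMoved W) {F : Gam} (hF : Finite (Fix 2 (act W F))) {n : ℕ} {g : Pt W}
    (hg : addOrderOf g = 2 ^ (n + 1)) (hst : ∀ σ : Gam, σ • g ∈ AddSubgroup.zmultiples g)
    {m : ℕ} (hmn : m ≤ n) (hm : n ≤ 2 * m + 1) :
    2 ^ (n - m) ≤ Nat.card (Fix 2 (act W F)) := by
  have hp := Nat.prime_two
  have hD := localData_two hΔ hW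
  have hFp : Fact (Nat.Prime 2) := ⟨hp⟩
  by_cases hn : n = 0
  · subst hn
    rw [Nat.zero_sub]
    exact le_card_Fix (act W F) hF (a := 0) (_root_.map_zero _) (by rw [addOrderOf_zero, pow_zero])
  obtain ⟨B, hB⟩ : ∃ B : ValuationSubring (AlgebraicClosure ℚ), B.LiesOverPrime 2 :=
    ⟨_, CFT.Bridge.padicPlace_liesOverPrime 2⟩
  have hgn : 2 ^ (n + 1) • g = 0 := by rw [← hg]; exact addOrderOf_nsmul_eq_zero g
  -- the subgroup of index two
  set g' := 2 • g with hg'
  have hordg' : addOrderOf g' = 2 ^ n := by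
    rw [hg', addOrderOf_nsmul_of_dvd two_ne_zero (by rw [hg]; exact dvd_pow_self 2 (by omega)), hg,
      pow_succ, Nat.mul_div_cancel _ two_pos]
  have hg'n : 2 ^ n • g' = 0 := by rw [← hordg']; exact addOrderOf_nsmul_eq_zero g'
  have hst' : ∀ σ : Gam, σ • g' ∈ AddSubgroup.zmultiples g' := nsmul_stable hst 2
  by_cases hcase : ∀ σ ∈ B.inertiaSubgroupIn ℚ, σ • g' = g'
  · have h1 := fixed_of_inertia hp hD hordg' hst' hB hcase hm F
    refine le_card_Fix (act W F) hF (a := 2 ^ m • g') h1 ?_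
    rw [addOrderOf_nsmul_of_dvd (pow_ne_zero _ two_ne_zero)
      (by rw [hordg']; exact pow_dvd_pow _ hmn), hordg', Nat.pow_div hmn two_pos]
  · push Not at hcase
    obtain ⟨τ, hτ, hτg⟩ := hcase
    have hτB : τ • g - g ∈ kerR W B := hD.ker B hB τ hτ _ g hgn
    obtain ⟨c, hc⟩ := AddSubgroup.mem_zmultiples_iff.mp
      (AddSubgroup.sub_mem _ (hst τ) (AddSubgroup.mem_zmultiples g))
    -- `2 ^ n g` and then `2 ^ (n - 1) g` are in the kernel of reduction
    have h2c : τ • g' - g' = (2 * c) • g := by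
      rw [mul_smul, hc, hg', smul_nsmul', ← nsmul_sub]
      exact (natCast_zsmul _ 2).symm
    have hne : (2 * c) • g ≠ 0 := by
      rw [← h2c]
      exact sub_ne_zero.mpr hτg
    have h0 : 2 ^ n • g ∈ kerR W B := by
      refine pow_smul_mem_of_mem (n := n + 1) hp hg (x := c • g)
        (AddSubgroup.zsmul_mem _ (AddSubgroup.mem_zmultiples g) c) (fun h => hne ?_)
        (by rw [hc]; exact hτB)
      rw [mul_smul, h, zsmul_zero]
    set g₂ := 2 ^ (n - 1) • g with hg₂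
    have hg₂B : g₂ ∈ kerR W B := by
      by_contra hcon
      have h1 := dvd_of_zsmul_mem (n := n) hp h0 hcon (k := c) (by rw [hc]; exact hτB)
      apply hne
      rw [← addOrderOf_dvd_iff_zsmul_eq_zero, hg]
      have h2 : ((2 ^ (n + 1) : ℕ) : ℤ) = 2 * 2 ^ n := by push_cast; ring
      rw [h2]
      exact mul_dvd_mul_left 2 (by exact_mod_cast h1)
    have hordg₂ : addOrderOf g₂ = 4 := by
      rw [hg₂, addOrderOf_nsmul_of_dvd (pow_ne_zero _ two_ne_zero)
        (by rw [hg]; exact pow_dvd_pow _ (by omega)), hg, Nat.pow_div (by omega) two_pos]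
      have : n + 1 - (n - 1) = 2 := by omega
      rw [this]
      norm_num
    obtain ⟨ρ, hρ, hρg⟩ := hfour B hB g₂ hordg₂ hg₂B
    obtain ⟨b, hb⟩ := AddSubgroup.mem_zmultiples_iff.mp (hst ρ)
    have hρg₂ : ρ • g₂ - g₂ = (b - 1) • g₂ := by
      rw [hg₂, smul_nsmul', ← hb, sub_smul, one_smul, smul_comm]
    -- `b` is odd
    have hbodd : ¬ (2 : ℤ) ∣ b := by
      rintro ⟨d, rfl⟩
      have h1 : ρ • (2 ^ n • g) = 0 := by
        rw [smul_nsmul', ← hb, smul_comm, mul_comm, mul_smul]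
        have h2 : (2 : ℤ) • (2 ^ n • g) = 2 ^ (n + 1) • g := by
          have h3 : (2 : ℤ) • (2 ^ n • g) = 2 • (2 ^ n • g) := natCast_zsmul _ 2
          rw [h3, ← mul_smul, ← pow_succ']
        rw [h2, hgn, zsmul_zero]
      have h2 : 2 ^ n • g = 0 := by
        have h3 := congrArg (fun z => ρ⁻¹ • z) h1
        have h4 : ρ⁻¹ • (ρ • (2 ^ n • g)) = 2 ^ n • g := inv_smul_smul ρ _
        have h5 : ρ⁻¹ • (0 : Pt W) = 0 := smul_zero (A := Pt W) ρ⁻¹
        exact h4.symm.trans (h3.trans h5)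
      have h6 := addOrderOf_dvd_of_nsmul_eq_zero h2
      rw [hg] at h6
      have h7 := (Nat.pow_dvd_pow_iff_le_right (show 1 < 2 by norm_num)).mp h6
      omega
    obtain ⟨d, hd⟩ : (2 : ℤ) ∣ b - 1 := by omega
    have hdodd : ¬ (2 : ℤ) ∣ d := by
      rintro ⟨e, rfl⟩
      apply hρg
      rw [← sub_eq_zero, hρg₂, hd]
      have h1 : (2 * (2 * e) : ℤ) • g₂ = e • (4 • g₂) := by
        have h2 : (4 • g₂ : Pt W) = (4 : ℤ) • g₂ := (natCast_zsmul _ 4).symm
        rw [h2, ← mul_smul]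
        congr 1
        ring
      rw [h1, ← hordg₂, addOrderOf_nsmul_eq_zero, zsmul_zero]
    have hg'B : g' ∈ kerR W B := by
      refine mem_of_zsmul_mem hp hg'n (c := d) (by exact_mod_cast hdodd) ?_
      have h1 : d • g' = ρ • g - g := by
        have h2 : ρ • g - g = (b - 1) • g := by rw [sub_smul, one_smul, hb]
        rw [h2, hd, hg', mul_comm, mul_smul]
        have h3 : (2 • g : Pt W) = (2 : ℤ) • g := (natCast_zsmul _ 2).symm
        rw [h3]
      rw [h1]
      exact hD.ker B hB ρ hρ _ g hgn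
    obtain ⟨h, hhn, hord, hfix⟩ :=
      exists_fixed_mod_of_local hΔ hp hD hNS hn hordg' hst' hB hg'B hm
    exact pow_le_of_fixed_mod hp hF hmn hordg' hst' hhn hord hfix

/-- The stable cyclic subgroups of `2`-power order have bounded order. -/
theorem exists_bound_stable_two_of (hΔ : W.Δ ≠ 0) (hW : W.IsSemistableModel) (hNS : NotSS W 2)
    (hfour : FourMoved W) : ∃ N : ℕ, ∀ (n : ℕ) (g : Pt W), addOrderOf g = 2 ^ n →
    (∀ σ : Gam, σ • g ∈ AddSubgroup.zmultiples g) → n ≤ N := by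
  obtain ⟨F, hF⟩ := Fermat.Agent.Cor.Mazur.exists_finite_Fix hΔ Nat.prime_two
  refine ⟨2 * Nat.card (Fix 2 (act W F)) + 1, fun n g hg hst => ?_⟩
  rcases Nat.eq_zero_or_pos n with rfl | hn
  · exact Nat.zero_le _
  obtain ⟨k, rfl⟩ : ∃ k, n = k + 1 := ⟨n - 1, by omega⟩
  have h1 := two_pow_le_card_Fix_of hΔ hW hNS hfour hF hg hst (m := k / 2) (by omega) (by omega)
  have h2 : k - k / 2 < 2 ^ (k - k / 2) := Nat.lt_pow_self (by norm_num)
  omega

end Fermat.Agent.Cor.Isog
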