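import Fermat.Agent.Corollaries.Isog.TwoFour
import Fermat.Agent.Corollaries.Isog.TwoStable
import Fermat.Agent.Corollaries.Isog.NotSS

/-!
# A curve with a rational point of order two is not supersingular at `2`

If the three points of order `2` were in the kernel of reduction at `2` and one of them, `t`, is
rational, then `v(x(t)) = -2` (`v(2) = 1`), and `4 x₁ x₂ x₃ = -b₆` shows that the product of the
abscissae of the two others is integral.
-/

set_option autoImplicit false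

noncomputable section

open WeierstrassCurve WeierstrassCurve.Affine
open Fermat.Agent.ECRed FermatAgent.ECVal
open scoped WeierstrassCurve.Affine

namespace Fermat.Agent.Cor.Isog

open Fermat.Agent.Cor.K1 (Gam Pts)
open Fermat.Agent.Cor.Mazur (Pt)

/-- The product of the roots of `4 x³ + b₂ x² + 2 b₄ x + b₆`. -/
theorem four_mul_prod {K : Type*} [Field K] {b₂ b₄ b₆ x₁ x₂ x₃ : K}
    (h1 : 4 * x₁ ^ 3 + b₂ * x₁ ^ 2 + 2 * b₄ * x₁ + b₆ = 0)
    (h2 : 4 * x₂ ^ 3 + b₂ * x₂ ^ 2 + 2 * b₄ * x₂ + b₆ = 0)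
    (h3 : 4 * x₃ ^ 3 + b₂ * x₃ ^ 2 + 2 * b₄ * x₃ + b₆ = 0) (h12 : x₁ ≠ x₂) (h13 : x₁ ≠ x₃)
    (h23 : x₂ ≠ x₃) : 4 * x₁ * (x₂ * x₃) = -b₆ := by
  have e12 : 4 * (x₁ ^ 2 + x₁ * x₂ + x₂ ^ 2) + b₂ * (x₁ + x₂) + 2 * b₄ = 0 := by
    have h : (x₁ - x₂) * (4 * (x₁ ^ 2 + x₁ * x₂ + x₂ ^ 2) + b₂ * (x₁ + x₂) + 2 * b₄) = 0 := by
      linear_combination h1 - h2
    exact (mul_eq_zero.mp h).resolve_left (sub_ne_zero.mpr h12)
  have e13 : 4 * (x₁ ^ 2 + x₁ * x₃ + x₃ ^ 2) + b₂ * (x₁ + x₃) + 2 * b₄ = 0 := by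
    have h : (x₁ - x₃) * (4 * (x₁ ^ 2 + x₁ * x₃ + x₃ ^ 2) + b₂ * (x₁ + x₃) + 2 * b₄) = 0 := by
      linear_combination h1 - h3
    exact (mul_eq_zero.mp h).resolve_left (sub_ne_zero.mpr h13)
  have e : 4 * (x₁ + x₂ + x₃) + b₂ = 0 := by
    have h : (x₂ - x₃) * (4 * (x₁ + x₂ + x₃) + b₂) = 0 := by
      linear_combination e12 - e13
    exact (mul_eq_zero.mp h).resolve_left (sub_ne_zero.mpr h23)
  linear_combination h1 - x₁ * e12 + x₁ * x₂ * e

variable {W : WeierstrassCurve ℤ}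

/-- The abscissa of a rational point of order two in the kernel of reduction at `2` has
value `-2`. -/
theorem is_neg_two {B : ValuationSubring (AlgebraicClosure ℚ)} (hB : B.LiesOverPrime 2)
    {t : Pt W} (ht : t + t = 0) (ht0 : t ≠ 0) (hfix : ∀ σ : Gam, σ • t = t)
    (hxB : xc t ∉ B) : (valOf Nat.prime_two hB).Is (-2) (xc t) := by
  set w := valOf Nat.prime_two hB with hw
  have hxB' : ¬ w.Ge 0 (xc t) := by rwa [hw, valOf_ge_zero_iff]
  have hx0 := (QVal.not_ge_iff.mp hxB').1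
  have hxneg := (QVal.not_ge_iff.mp hxB').2
  obtain ⟨c, hc⟩ := Fermat.Agent.Cor.val_int_of_inertia_fixed Nat.prime_two hB hx0
    (fun σ _ => by rw [← xc_smul, hfix σ])
  have hc0 : (c : ℚ) < 0 := by rw [← hc.2]; exact hxneg
  obtain ⟨htn, et⟩ := exists_eq_some ht0
  have heq := (equation_iff _ _).mp htn.1
  have hga : ∀ {z : AlgebraicClosure ℚ} {a : ℤ}, z = ((a : ℤ) : AlgebraicClosure ℚ) →
      w.Ge 0 z := fun h => h ▸ QVal.ge_intCast _
  obtain ⟨hy0, hyc⟩ := two_mul_eq (w := w) (a₁ := (EQ W).a₁) (a₂ := (EQ W).a₂) (a₃ := (EQ W).a₃)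
    (a₄ := (EQ W).a₄) (a₆ := (EQ W).a₆) (x := xc t) (y := yc t) (hga (EQ_a₁ W))
    (hga (EQ_a₂ W)) (hga (EQ_a₃ W)) (hga (EQ_a₄ W)) (hga (EQ_a₆ W)) (by linear_combination heq)
    hc0 hc
  obtain ⟨m, hm⟩ := Fermat.Agent.Cor.val_int_of_inertia_fixed Nat.prime_two hB hy0
    (fun σ _ => by rw [← yc_smul, hfix σ])
  have hmc : 2 * m = 3 * c := by
    have h1 : (2 : ℚ) * m = 3 * c := by rw [← hyc, ← hm.2]
    exact_mod_cast h1
  have htwo : w.Is 1 (2 : AlgebraicClosure ℚ) := by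
    exact_mod_cast valOf_prime Nat.prime_two hB
  have h5 := neg_two_le_val (hga (EQ_b₂ W)) (hga (EQ_b₄ W)) (hga (EQ_b₆ W)) htwo
    (psi_eq_zero ht0 ht) hx0
  rw [hc.2] at h5
  have h6 : (-2 : ℤ) ≤ c := by exact_mod_cast h5
  have h7 : c < 0 := by exact_mod_cast hc0
  have h8 : c = -2 := by omega
  rw [h8] at hc
  exact_mod_cast hc

/-- **A rational point of order two: some point of order two is not in the kernel of reduction
at `2`.** -/
theorem exists_xc_mem_two (hΔ : W.Δ ≠ 0) {B : ValuationSubring (AlgebraicClosure ℚ)}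
    (hB : B.LiesOverPrime 2) {t : Pt W} (ht : 2 • t = 0) (ht0 : t ≠ 0)
    (hfix : ∀ σ : Gam, σ • t = t) : ∃ x : Pt W, 2 • x = 0 ∧ x ≠ 0 ∧ xc x ∈ B := by
  by_contra hcon
  push Not at hcon
  -- another point of order two
  obtain ⟨u, hu, hu0, hut⟩ : ∃ u : Pt W, 2 • u = 0 ∧ u ≠ 0 ∧ u ≠ t := by
    by_contra h
    push Not at h
    have h1 : Nat.card {x : Pt W // 2 • x = 0} = 2 ^ 2 := card_torsion hΔ two_ne_zero
    have h2 : Nat.card {x : Pt W // 2 • x = 0} ≤ Nat.card (Fin 2) := by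
      refine Nat.card_le_card_of_surjective
        (fun i : Fin 2 => if i = 0 then (⟨0, nsmul_zero 2⟩ : {x : Pt W // 2 • x = 0})
          else ⟨t, ht⟩) ?_
      rintro ⟨x, hx⟩
      by_cases hx0 : x = 0
      · exact ⟨0, by simp [hx0]⟩
      · exact ⟨1, by simp [h x hx hx0]⟩
    rw [h1, Nat.card_fin] at h2
    omega
  have htt : t + t = 0 := by rw [← two_nsmul]; exact ht
  have huu : u + u = 0 := by rw [← two_nsmul]; exact hu
  have hs0 : t + u ≠ 0 := by
    intro h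
    apply hut
    have h1 : u = -t := by rw [eq_neg_iff_add_eq_zero, add_comm]; exact h
    have h2 : t = -t := by rw [eq_neg_iff_add_eq_zero]; exact htt
    rw [h1, ← h2]
  have hss : (t + u) + (t + u) = 0 := by
    have h1 : (t + u) + (t + u) = (t + t) + (u + u) := by abel
    rw [h1, htt, huu, add_zero]
  have hnt : -t = t := by rw [neg_eq_iff_add_eq_zero]; exact htt
  have hnu : -u = u := by rw [neg_eq_iff_add_eq_zero]; exact huu
  have hns : -(t + u) = t + u := by rw [neg_eq_iff_add_eq_zero]; exact hss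
  have h12 : xc t ≠ xc u := fun h => by
    rcases (xc_eq_iff ht0 hu0).mp h with h1 | h1
    · exact hut h1.symm
    · rw [hnu] at h1
      exact hut h1.symm
  have h13 : xc t ≠ xc (t + u) := fun h => by
    rcases (xc_eq_iff ht0 hs0).mp h with h1 | h1
    · exact hu0 (left_eq_add.mp h1)
    · rw [hns] at h1
      exact hu0 (left_eq_add.mp h1)
  have h23 : xc u ≠ xc (t + u) := fun h => by
    rcases (xc_eq_iff hu0 hs0).mp h with h1 | h1
    · exact ht0 (right_eq_add.mp h1)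
    · rw [hns] at h1
      exact ht0 (right_eq_add.mp h1)
  have key := four_mul_prod (psi_eq_zero ht0 htt) (psi_eq_zero hu0 huu) (psi_eq_zero hs0 hss)
    h12 h13 h23
  set w := valOf Nat.prime_two hB with hw
  have hneg : ∀ z : Pt W, 2 • z = 0 → z ≠ 0 → xc z ≠ 0 ∧ w.val (xc z) < 0 := by
    intro z hz hz0
    have h1 := hcon z hz hz0
    have h2 : ¬ w.Ge 0 (xc z) := by rwa [hw, valOf_ge_zero_iff]
    exact QVal.not_ge_iff.mp h2
  obtain ⟨hu1, hu2⟩ := hneg u hu hu0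
  obtain ⟨hs1, hs2⟩ := hneg (t + u) (by rw [two_nsmul]; exact hss) hs0
  have h4 := is_neg_two hB htt ht0 hfix (hcon t ht ht0)
  have htwo : w.Is 1 (2 : AlgebraicClosure ℚ) := by
    exact_mod_cast valOf_prime Nat.prime_two hB
  have hfour : w.Is 2 (4 : AlgebraicClosure ℚ) := by
    have h := (htwo.mul htwo).congr (show (1 : ℚ) + 1 = 2 by norm_num)
    rwa [show (2 : AlgebraicClosure ℚ) * 2 = 4 by norm_num] at h
  have h5 : w.Is (2 + -2 + (w.val (xc u) + w.val (xc (t + u))))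
      (4 * xc t * (xc u * xc (t + u))) :=
    (hfour.mul h4).mul ((QVal.Is.of_ne hu1).mul (QVal.Is.of_ne hs1))
  rw [key] at h5
  have h6 : w.Ge 0 (-(EQ W).b₆) := by
    rw [EQ_b₆]
    exact (QVal.ge_intCast _).neg
  have h7 := h5.le_of_ge h6
  linarith

theorem notSS_two (hΔ : W.Δ ≠ 0) : NotSS W 2 := by
  intro B hB L hL hst
  -- the non-zero element of `L`
  obtain ⟨⟨t, htL⟩, ht0, huniq⟩ := (Nat.card_eq_two_iff' (0 : L)).mp hL
  have ht0' : t ≠ 0 := fun h => ht0 (Subtype.ext h)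
  have hall : ∀ z ∈ L, z ≠ 0 → z = t := fun z hz hz0 =>
    congrArg (fun y : L => (y : Pt W)) (huniq ⟨z, hz⟩
      fun h => hz0 (congrArg (fun y : L => (y : Pt W)) h))
  have h2t : 2 • t = 0 := by
    have h1 : 2 • (⟨t, htL⟩ : L) = 0 := by
      rw [← hL]
      exact card_nsmul_eq_zero'
    exact congrArg (fun z : L => (z : Pt W)) h1
  refine exists_xc_mem_two hΔ hB h2t ht0' fun σ => hall _ (hst σ t htL) fun h => ht0' ?_
  exact (smul_eq_zero_iff_eq (β := Pt W) σ).mp h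

theorem fourMoved : FourMoved W := fun _ hB _ hg hgB => exists_inertia_ne_four hB hg hgB

end Fermat.Agent.Cor.Isog
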