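import Fermat.Agent.Corollaries.Isog.Main
import Fermat.Agent.Corollaries.Isog.TwoSS

/-!
# Isogenies of semistable elliptic curves over `ℚ`, all degrees

* `exists_bound_stable_all`: for every prime `p` the stable cyclic subgroups of `p`-power order of
  `E(ℚ̄)` have bounded order: the Galois module `V_p(E)` is irreducible.
* `finite_stable_all`: `E(ℚ̄)` has only finitely many stable finite cyclic subgroups.
-/

set_option autoImplicit false

noncomputable section

open WeierstrassCurve WeierstrassCurve.Affine WeierstrassCurve.Affine.Point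

namespace Fermat.Agent.Cor.Isog

open Fermat.Agent.Cor.K1 (Gam Pts)
open Fermat.Agent.Cor.Mazur (Pt Fix)

variable {W : WeierstrassCurve ℤ}

/-- **The size of a stable cyclic subgroup of `2`-power order**: if `E(ℚ̄)` has a stable cyclic
subgroup of order `2 ^ (n + 1)`, every `F ∈ Γ` fixes at least `2 ^ ⌈n/2⌉` points of `2`-power
order. -/
theorem two_pow_le_card_Fix (hΔ : W.Δ ≠ 0) (hW : W.IsSemistableModel) {F : Gam}
    (hF : Finite (Fix 2 (act W F))) {n : ℕ} {g : Pt W} (hg : addOrderOf g = 2 ^ (n + 1))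
    (hst : ∀ σ : Gam, σ • g ∈ AddSubgroup.zmultiples g) :
    2 ^ (n - n / 2) ≤ Nat.card (Fix 2 (act W F)) :=
  two_pow_le_card_Fix_of hΔ hW (notSS_two hΔ) fourMoved hF hg hst (by omega) (by omega)

/-- **`V_p(E)` is irreducible, for every prime `p`**: the stable cyclic subgroups of `p`-power
order have bounded order. -/
theorem exists_bound_stable_all (hΔ : W.Δ ≠ 0) (hW : W.IsSemistableModel) {p : ℕ}
    (hp : p.Prime) : ∃ N : ℕ, ∀ (n : ℕ) (g : Pt W), addOrderOf g = p ^ n →
    (∀ σ : Gam, σ • g ∈ AddSubgroup.zmultiples g) → n ≤ N := by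
  rcases eq_or_ne p 2 with rfl | hp2
  · exact exists_bound_stable_two_of hΔ hW (notSS_two hΔ) fourMoved
  · exact exists_bound_stable hΔ hW hp hp2

/-- The orders of the stable finite cyclic subgroups divide a fixed number. -/
theorem exists_dvd_all (hΔ : W.Δ ≠ 0) (hW : W.IsSemistableModel) : ∃ M : ℕ, M ≠ 0 ∧
    ∀ g : Pt W, addOrderOf g ≠ 0 → (∀ σ : Gam, σ • g ∈ AddSubgroup.zmultiples g) →
    addOrderOf g ∣ M := by
  have hN : ∀ p : ℕ, ∃ N : ℕ, p.Prime → ∀ (n : ℕ) (g : Pt W),
      addOrderOf g = p ^ n → (∀ σ : Gam, σ • g ∈ AddSubgroup.zmultiples g) → n ≤ N := by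
    intro p
    by_cases hp : p.Prime
    · obtain ⟨N, hN⟩ := exists_bound_stable_all hΔ hW hp
      exact ⟨N, fun _ => hN⟩
    · exact ⟨0, fun h => absurd h hp⟩
  choose N hN using hN
  refine ⟨∏ p ∈ ({2, 3, 5, 7, 13} : Finset ℕ), p ^ N p, ?_, fun g h0 hst => ?_⟩
  · refine Finset.prod_ne_zero_iff.mpr fun p hp => pow_ne_zero _ ?_
    rintro rfl
    simp at hp
  · rw [Nat.dvd_iff_prime_pow_dvd_dvd]
    intro p k hp hk
    rcases Nat.eq_zero_or_pos k with rfl | hk0
    · rw [pow_zero]
      exact one_dvd _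
    have hpd : p ∣ addOrderOf g := (dvd_pow_self p (by omega)).trans hk
    have hmem := prime_mem_of_dvd hΔ hW h0 hst hp hpd
    obtain ⟨c, hc⟩ := hk
    have hc0 : c ≠ 0 := fun h => h0 (by rw [hc, h, mul_zero])
    have hord : addOrderOf (c • g) = p ^ k := by
      rw [addOrderOf_nsmul_of_dvd hc0 ⟨p ^ k, by rw [hc, mul_comm]⟩, hc,
        Nat.mul_div_cancel _ (Nat.pos_of_ne_zero hc0)]
    have hle := hN p hp k (c • g) hord (nsmul_stable hst c)
    exact (pow_dvd_pow p hle).trans (Finset.dvd_prod_of_mem (fun p => p ^ N p) hmem)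

/-- **Finitely many rational cyclic isogenies** (Shafarevich's isogeny theorem for a semistable
curve): a semistable elliptic curve over `ℚ` has only finitely many finite cyclic subgroups over
`ℚ̄` which are stable under Galois. -/
theorem finite_stable_all (hΔ : W.Δ ≠ 0) (hW : W.IsSemistableModel) :
    {L : AddSubgroup (Pt W) | Finite L ∧ IsAddCyclic L ∧
      ∀ σ : Gam, ∀ x ∈ L, σ • x ∈ L}.Finite := by
  obtain ⟨M, hM0, hM⟩ := exists_dvd_all hΔ hW
  have hS : {x : Pt W | M • x = 0}.Finite := by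
    have : Finite {x : Pt W // M • x = 0} := by
      apply Nat.finite_of_card_ne_zero
      rw [card_torsion hΔ hM0]
      exact pow_ne_zero _ hM0
    exact Set.finite_coe_iff.mp this
  refine Set.Finite.subset (hS.finite_subsets.preimage
    (SetLike.coe_injective (A := AddSubgroup (Pt W))).injOn) ?_
  rintro L ⟨hfin, hcyc, hst⟩
  obtain ⟨g, hg⟩ := IsAddCyclic.exists_generator (α := L)
  have hgen : ∀ x ∈ L, x ∈ AddSubgroup.zmultiples (g : Pt W) := by
    intro x hx
    obtain ⟨a, ha⟩ := AddSubgroup.mem_zmultiples_iff.mp (hg ⟨x, hx⟩)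
    exact AddSubgroup.mem_zmultiples_iff.mpr ⟨a, congrArg (fun y : L => (y : Pt W)) ha⟩
  have hord : addOrderOf (g : Pt W) = Nat.card L := by
    rw [AddSubgroup.addOrderOf_coe]
    exact addOrderOf_eq_card_of_forall_mem_zmultiples hg
  have h1 : addOrderOf (g : Pt W) ∣ M := by
    refine hM g ?_ fun σ => hgen _ (hst σ g g.2)
    rw [hord]
    exact Nat.card_pos.ne'
  intro x hx
  obtain ⟨a, rfl⟩ := AddSubgroup.mem_zmultiples_iff.mp (hgen x hx)
  change M • (a • (g : Pt W)) = 0
  rw [smul_comm, addOrderOf_dvd_iff_nsmul_eq_zero.mp h1, zsmul_zero]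

end Fermat.Agent.Cor.Isog
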