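import Fermat.Agent.Corollaries.Isog.Growth
import Fermat.Agent.Corollaries.Mertens.Rat

/-!
# Breuer's theorem for semistable curves

`n / φ(n) = O(log log n)` (`exists_le_loglog_mul_totient`, from Mertens' theorem), so a semistable
elliptic curve `E` over `ℚ` satisfies `#E(K)_tors ≤ C √([K : ℚ] log log [K : ℚ])` for all number
fields `K` (`exists_card_torsion_le_sqrt`).
-/

set_option autoImplicit false

noncomputable section

open WeierstrassCurve WeierstrassCurve.Affine.Point Module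
open scoped WeierstrassCurve.Affine
open Fermat.Agent.Tate

namespace Fermat.Agent.Cor

/-! ### Euler's function -/

/-- The primes `> y` which divide `n`, `y ≥ log n`. -/
theorem half_le_prod_filter_lt {y : ℝ} (hy : 1 < y) (hlogy : 2 ≤ Real.log y) {n : ℕ} (hn : n ≠ 0)
    (hny : Real.log n ≤ y) :
    (1 : ℝ) / 2 ≤ ∏ p ∈ n.primeFactors.filter fun p : ℕ => ¬ p ≤ ⌊y⌋₊, (1 - (p : ℝ)⁻¹) := by
  classical
  set s := n.primeFactors.filter fun p : ℕ => ¬ p ≤ ⌊y⌋₊ with hs
  have hy0 : 0 < y := by linarith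
  have hlt : ∀ p ∈ s, y ≤ (p : ℝ) := by
    intro p hp
    have h1 := (Finset.mem_filter.mp hp).2
    rw [not_le, Nat.floor_lt hy0.le] at h1
    exact h1.le
  have h1 : y ^ s.card ≤ (n : ℝ) := by
    calc y ^ s.card = ∏ _p ∈ s, y := (Finset.prod_const y).symm
      _ ≤ ∏ p ∈ s, (p : ℝ) := Finset.prod_le_prod (fun _ _ => hy0.le) hlt
      _ = ((∏ p ∈ s, p : ℕ) : ℝ) := by push_cast; rfl
      _ ≤ ((∏ p ∈ n.primeFactors, p : ℕ) : ℝ) := by
        norm_cast
        exact Finset.prod_le_prod_of_subset_of_one_le' (Finset.filter_subset _ _)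
          fun p hp _ => (Nat.prime_of_mem_primeFactors hp).one_le
      _ ≤ n := by
        norm_cast
        exact Nat.le_of_dvd (Nat.pos_of_ne_zero hn) (Nat.prod_primeFactors_dvd n)
  have h2 : (s.card : ℝ) * Real.log y ≤ y := by
    rw [← Real.log_pow]
    exact (Real.log_le_log (pow_pos hy0 _) h1).trans hny
  have h3 : (s.card : ℝ) * y⁻¹ ≤ 1 / 2 := by
    rw [← div_eq_mul_inv, div_le_iff₀ hy0]
    nlinarith [(Nat.cast_nonneg s.card : (0 : ℝ) ≤ s.card)]
  have hinv : y⁻¹ ≤ 1 := inv_le_one_of_one_le₀ hy.le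
  have hinv0 : 0 < y⁻¹ := inv_pos.mpr hy0
  calc (1 : ℝ) / 2 ≤ 1 + (s.card : ℝ) * (-y⁻¹) := by linarith
    _ ≤ (1 + -y⁻¹) ^ s.card := one_add_mul_le_pow (by linarith) _
    _ = ∏ _p ∈ s, (1 + -y⁻¹) := (Finset.prod_const _).symm
    _ ≤ ∏ p ∈ s, (1 - (p : ℝ)⁻¹) := by
      refine Finset.prod_le_prod (fun _ _ => by linarith) fun p hp => ?_
      have h4 : (p : ℝ)⁻¹ ≤ y⁻¹ := inv_anti₀ hy0 (hlt p hp)
      linarith

/-- **`n / φ(n) = O(log log n)`.** -/
theorem exists_le_loglog_mul_totient : ∃ c : ℝ, 0 < c ∧ ∀ n : ℕ, n ≠ 0 →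
    (n : ℝ) ≤ c * max 1 (Real.log (Real.log n)) * n.totient := by
  classical
  set e0 : ℝ := Real.exp (-Real.eulerMascheroniConstant) / 2 with he0
  have hexp := Real.exp_pos (-Real.eulerMascheroniConstant)
  have he0pos : 0 < e0 := by positivity
  have hev := Mert.prod_one_sub_inv.eventually_const_le
    (show e0 < Real.exp (-Real.eulerMascheroniConstant) by rw [he0]; linarith)
  obtain ⟨X, hX⟩ := Filter.eventually_atTop.mp hev
  set Y : ℝ := max (Real.exp 2) X with hY
  have hYpos : 0 < Y := (Real.exp_pos 2).trans_le (le_max_left _ _)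
  have hlogY : 2 ≤ Real.log Y := (Real.le_log_iff_exp_le hYpos).mpr (le_max_left _ _)
  refine ⟨2 * Real.log Y / e0, by positivity, fun n hn => ?_⟩
  set y : ℝ := max Y (Real.log n) with hy
  have hyY : Y ≤ y := le_max_left _ _
  have hypos : 0 < y := hYpos.trans_le hyY
  have hlogy : 2 ≤ Real.log y := hlogY.trans (Real.log_le_log hYpos hyY)
  have hy1 : 1 < y := by
    by_contra hcon
    have := Real.log_nonpos hypos.le (not_lt.mp hcon)
    linarith
  have hL1 : (1 : ℝ) ≤ max 1 (Real.log (Real.log n)) := le_max_left _ _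
  have hlogy' : Real.log y ≤ Real.log Y * max 1 (Real.log (Real.log n)) := by
    rcases le_total Y (Real.log n) with h | h
    · rw [hy, max_eq_right h]
      have h1 := le_max_right 1 (Real.log (Real.log n))
      nlinarith
    · rw [hy, max_eq_left h]
      nlinarith
  -- the primes up to `y`
  have hpos : ∀ p : ℕ, p.Prime → 0 < 1 - (p : ℝ)⁻¹ ∧ 1 - (p : ℝ)⁻¹ ≤ 1 := by
    intro p hp
    have h1 : (1 : ℝ) < p := by exact_mod_cast hp.one_lt
    have h2 : (p : ℝ)⁻¹ < 1 := inv_lt_one_of_one_lt₀ h1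
    have h3 : 0 < (p : ℝ)⁻¹ := by positivity
    exact ⟨by linarith, by linarith⟩
  have hP := hX y ((le_max_right _ _).trans hyY)
  set B := (Finset.Icc 1 ⌊y⌋₊).filter Nat.Prime with hB
  set s₁ := n.primeFactors.filter fun p : ℕ => p ≤ ⌊y⌋₊ with hs₁
  have hsub : s₁ ⊆ B := by
    intro p hp
    have h1 := Finset.mem_filter.mp hp
    have h2 := Nat.prime_of_mem_primeFactors h1.1
    exact Finset.mem_filter.mpr ⟨Finset.mem_Icc.mpr ⟨h2.one_le, h1.2⟩, h2⟩
  have hs₁pos : 0 < ∏ p ∈ s₁, (1 - (p : ℝ)⁻¹) := Finset.prod_pos fun p hp =>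
    (hpos p (Nat.prime_of_mem_primeFactors (Finset.mem_filter.mp hp).1)).1
  have h1 : ∏ p ∈ B, (1 - (p : ℝ)⁻¹) ≤ ∏ p ∈ s₁, (1 - (p : ℝ)⁻¹) := by
    rw [← Finset.prod_sdiff hsub]
    refine mul_le_of_le_one_left hs₁pos.le (Finset.prod_le_one (fun p hp => ?_) fun p hp => ?_)
    · exact (hpos p (Finset.mem_filter.mp (Finset.mem_sdiff.mp hp).1).2).1.le
    · exact (hpos p (Finset.mem_filter.mp (Finset.mem_sdiff.mp hp).1).2).2
  have h2 : e0 / Real.log y ≤ ∏ p ∈ s₁, (1 - (p : ℝ)⁻¹) := by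
    rw [div_le_iff₀ (by linarith)]
    exact hP.trans (mul_le_mul_of_nonneg_right h1 (by linarith))
  have h3 := half_le_prod_filter_lt hy1 hlogy hn (le_max_right _ _)
  have h4 : (n.totient : ℝ) = n * ∏ p ∈ n.primeFactors, (1 - (p : ℝ)⁻¹) := by
    have h5 := congrArg (fun q : ℚ => (q : ℝ)) (Nat.totient_eq_mul_prod_factors n)
    push_cast at h5
    exact h5
  have h5 : ∏ p ∈ n.primeFactors, (1 - (p : ℝ)⁻¹) = (∏ p ∈ s₁, (1 - (p : ℝ)⁻¹)) *
      ∏ p ∈ n.primeFactors.filter fun p : ℕ => ¬ p ≤ ⌊y⌋₊, (1 - (p : ℝ)⁻¹) :=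
    (Finset.prod_filter_mul_prod_filter_not _ _ _).symm
  have h6 : e0 / (2 * Real.log y) ≤ ∏ p ∈ n.primeFactors, (1 - (p : ℝ)⁻¹) := by
    rw [h5]
    calc e0 / (2 * Real.log y) = e0 / Real.log y * (1 / 2) := by
          field_simp
      _ ≤ _ := mul_le_mul h2 h3 (by norm_num) hs₁pos.le
  have hn0 : (0 : ℝ) < n := by exact_mod_cast Nat.pos_of_ne_zero hn
  have h7 : e0 * n ≤ 2 * Real.log y * n.totient := by
    rw [h4]
    rw [div_le_iff₀ (by linarith)] at h6
    nlinarith
  have h8 : (2 * Real.log y * n.totient : ℝ) ≤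
      2 * (Real.log Y * max 1 (Real.log (Real.log n))) * n.totient := by
    gcongr
  calc (n : ℝ) = (e0 * n) / e0 := by field_simp
    _ ≤ (2 * (Real.log Y * max 1 (Real.log (Real.log n))) * n.totient) / e0 :=
        div_le_div_of_nonneg_right (h7.trans h8) he0pos.le
    _ = 2 * Real.log Y / e0 * max 1 (Real.log (Real.log n)) * n.totient := by ring

theorem loglog_le_of_le_mul {C a d : ℕ} (hC : C ≠ 0) (ha : a ≠ 0) (hd : d ≠ 0) (h : a ≤ C * d) :
    max 1 (Real.log (Real.log a)) ≤ (Real.log C + 1) * max 1 (Real.log (Real.log d)) := by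
  have hC1 : (1 : ℝ) ≤ C := by exact_mod_cast Nat.pos_of_ne_zero hC
  have ha1 : (1 : ℝ) ≤ a := by exact_mod_cast Nat.pos_of_ne_zero ha
  have hd1 : (1 : ℝ) ≤ d := by exact_mod_cast Nat.pos_of_ne_zero hd
  have hlC := Real.log_nonneg hC1
  have hla := Real.log_nonneg ha1
  have hld := Real.log_nonneg hd1
  have hL : (1 : ℝ) ≤ max 1 (Real.log (Real.log d)) := le_max_left _ _
  refine max_le (by nlinarith) ?_
  rcases hla.eq_or_lt with h0 | h0
  · rw [← h0, Real.log_zero]
    positivity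
  have h1 : Real.log a ≤ Real.log C + Real.log d := by
    rw [← Real.log_mul (by linarith) (by linarith)]
    apply Real.log_le_log (by linarith)
    exact_mod_cast h
  have h2 : Real.log a ≤ (1 + Real.log C) * max 1 (Real.log d) := by
    have h3 : (1 : ℝ) ≤ max 1 (Real.log d) := le_max_left _ _
    have h4 : Real.log d ≤ max 1 (Real.log d) := le_max_right _ _
    nlinarith
  have hmax : (0 : ℝ) < max 1 (Real.log d) := zero_lt_one.trans_le (le_max_left _ _)
  have h5 : Real.log (Real.log a) ≤ Real.log (1 + Real.log C) + Real.log (max 1 (Real.log d)) := by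
    rw [← Real.log_mul (by linarith) hmax.ne']
    exact Real.log_le_log h0 h2
  have h6 : Real.log (1 + Real.log C) ≤ Real.log C := by
    have := Real.log_le_sub_one_of_pos (show 0 < 1 + Real.log C by linarith)
    linarith
  have h7 : Real.log (max 1 (Real.log d)) ≤ max 1 (Real.log (Real.log d)) := by
    rcases le_total 1 (Real.log d) with h8 | h8
    · rw [max_eq_right h8]
      exact le_max_right _ _
    · rw [max_eq_left h8, Real.log_one]
      linarith
  nlinarith

/-! ### Semistable curves -/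

variable {W : WeierstrassCurve ℤ}

/-- **Breuer's theorem, semistable curves**: there is a constant `C` such that
`#E(K)_tors ≤ C √(d log log d)` for every number field `K` of degree `d` (`log log d` is replaced by
`1` if it is smaller than `1`). -/
theorem exists_card_torsion_le_sqrt (hΔ : W.Δ ≠ 0) (hW : W.IsSemistableModel) :
    ∃ C : ℝ, 0 < C ∧ ∀ (K : Type*) [Field K] [NumberField K] [DecidableEq K],
      (Nat.card (AddCommGroup.torsion ((W.map (Int.castRingHom ℚ))⁄K).Point) : ℝ) ≤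
        C * √((Module.finrank ℚ K : ℝ) * max 1 (Real.log (Real.log (Module.finrank ℚ K)))) := by
  obtain ⟨C, hC0, hC⟩ := exists_torsion_structure_le hΔ hW
  obtain ⟨c, hc, hphi⟩ := exists_le_loglog_mul_totient
  have hC1 : (1 : ℝ) ≤ C := by exact_mod_cast Nat.pos_of_ne_zero hC0
  have hlC := Real.log_nonneg hC1
  have hpos : 0 < c * (Real.log C + 1) * C := by positivity
  refine ⟨√(c * (Real.log C + 1) * C), Real.sqrt_pos.mpr hpos, ?_⟩
  intro K _ _ _
  obtain ⟨a, n, hn, han, ⟨e⟩, hle⟩ := hC K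
  have ha : a ≠ 0 := fun h => hn (Nat.eq_zero_of_zero_dvd (h ▸ han))
  have hd : Module.finrank ℚ K ≠ 0 := Module.finrank_pos.ne'
  have hcard : Nat.card (AddCommGroup.torsion ((W.map (Int.castRingHom ℚ))⁄K).Point) = a * n := by
    rw [Nat.card_congr e.toEquiv, Nat.card_prod, Nat.card_zmod, Nat.card_zmod]
  have had : a ≤ C * Module.finrank ℚ K := by
    refine le_trans ?_ hle
    have h1 : 1 ≤ n ^ 2 * a.totient := Nat.one_le_iff_ne_zero.mpr
      (mul_ne_zero (pow_ne_zero _ hn) (Nat.totient_pos.mpr (Nat.pos_of_ne_zero ha)).ne')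
    calc a = 1 * a := (one_mul a).symm
      _ ≤ (n ^ 2 * a.totient) * a := Nat.mul_le_mul_right _ h1
      _ = n ^ 2 * (a * a.totient) := by ring
  have hL := loglog_le_of_le_mul hC0 ha hd had
  have hphia := hphi a ha
  have hleR : (n : ℝ) ^ 2 * (a * a.totient) ≤ C * Module.finrank ℚ K := by exact_mod_cast hle
  rw [hcard, ← Real.sqrt_mul hpos.le]
  apply Real.le_sqrt_of_sq_le
  have hLpos : (0 : ℝ) < max 1 (Real.log (Real.log a)) := zero_lt_one.trans_le (le_max_left _ _)
  calc ((a * n : ℕ) : ℝ) ^ 2 = (n : ℝ) ^ 2 * a * a := by push_cast; ring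
    _ ≤ (n : ℝ) ^ 2 * a * (c * max 1 (Real.log (Real.log a)) * a.totient) := by gcongr
    _ = c * max 1 (Real.log (Real.log a)) * ((n : ℝ) ^ 2 * (a * a.totient)) := by ring
    _ ≤ c * ((Real.log C + 1) * max 1 (Real.log (Real.log (Module.finrank ℚ K)))) *
        (C * Module.finrank ℚ K) := by gcongr
    _ = c * (Real.log C + 1) * C * ((Module.finrank ℚ K : ℝ) *
        max 1 (Real.log (Real.log (Module.finrank ℚ K)))) := by ring

end Fermat.Agent.Cor
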