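import Fermat.Agent.Corollaries.Isog.AllP
import Fermat.Agent.Corollaries.K1.Quot

/-!
# The isogeny class of a semistable elliptic curve over `ℚ` is finite

A finite subgroup `N` of `E(ℚ̄)` is *primitive* if it contains no `E[p]`, `p` prime.  Every finite
stable subgroup is the inverse image of a primitive stable one under a multiplication by `n > 0`
(`exists_comap`), and for `E` semistable there are only finitely many primitive stable subgroups
(`finite_prim`).  So finitely many curves over `ℚ` are enough for all quotients of `E` by stable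
subgroups of odd order (`exists_finite_curves_odd`).
-/

set_option autoImplicit false

noncomputable section

open WeierstrassCurve WeierstrassCurve.Affine WeierstrassCurve.Affine.Point

namespace Fermat.Agent.Cor.Isog

open Fermat.Agent.Cor.K1 (Gam Pts)
open Fermat.Agent.Cor.Mazur (Pt)

variable {W : WeierstrassCurve ℤ}

/-- Stable under Galois. -/
def Stable (N : AddSubgroup (Pt W)) : Prop := ∀ σ : Gam, ∀ x ∈ N, σ • x ∈ N

/-- `N` contains no `E[p]`. -/
def Prim (N : AddSubgroup (Pt W)) : Prop := ∀ p : ℕ, p.Prime → ¬ ∀ x : Pt W, p • x = 0 → x ∈ N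

/-- The elements of `N` killed by `n`. -/
def tors (N : AddSubgroup (Pt W)) (n : ℕ) : AddSubgroup (Pt W) where
  carrier := {x | x ∈ N ∧ n • x = 0}
  zero_mem' := ⟨N.zero_mem, nsmul_zero n⟩
  add_mem' := fun {a b} ha hb => ⟨N.add_mem ha.1 hb.1, by rw [nsmul_add, ha.2, hb.2, add_zero]⟩
  neg_mem' := fun {a} ha => ⟨N.neg_mem ha.1, by rw [neg_nsmul, ha.2, _root_.neg_zero]⟩

theorem mem_tors {N : AddSubgroup (Pt W)} {n : ℕ} {x : Pt W} :
    x ∈ tors N n ↔ x ∈ N ∧ n • x = 0 := Iff.rfl

theorem tors_le (N : AddSubgroup (Pt W)) (n : ℕ) : tors N n ≤ N := fun _ hx => hx.1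

section

variable (hΔ : W.Δ ≠ 0)
include hΔ

/-- The part killed by `p` of a subgroup which does not contain `E[p]`. -/
theorem card_tors_le {N : AddSubgroup (Pt W)} {p : ℕ} (hp : p.Prime)
    (h : ¬ ∀ x : Pt W, p • x = 0 → x ∈ N) : Nat.card (tors N p) ≤ p := by
  have hT : Nat.card (tors (⊤ : AddSubgroup (Pt W)) p) = p ^ 2 := by
    rw [← card_torsion hΔ hp.ne_zero]
    exact Nat.card_congr (Equiv.subtypeEquivRight fun x => by simp [mem_tors])
  have hfin : Finite (tors (⊤ : AddSubgroup (Pt W)) p) :=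
    Nat.finite_of_card_ne_zero (by rw [hT]; exact pow_ne_zero _ hp.ne_zero)
  have hle : tors N p ≤ tors (⊤ : AddSubgroup (Pt W)) p := fun x hx => ⟨trivial, hx.2⟩
  obtain ⟨i, hi, hi'⟩ := (Nat.dvd_prime_pow hp).mp (hT ▸ AddSubgroup.card_dvd_of_le hle)
  rw [hi']
  rcases Nat.lt_or_ge i 2 with h1 | h1
  · calc p ^ i ≤ p ^ 1 := Nat.pow_le_pow_right hp.pos (by omega)
      _ = p := pow_one p
  · exfalso
    apply h
    have h2 : i = 2 := by omega
    rw [h2] at hi'
    have h3 : tors N p = tors ⊤ p := AddSubgroup.eq_of_le_of_card_ge hle (by rw [hT, hi'])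
    intro x hx
    have h4 : x ∈ tors N p := by
      rw [h3]
      exact ⟨trivial, hx⟩
    exact h4.1

theorem card_tors_pow_le {N : AddSubgroup (Pt W)} [Finite N] {p : ℕ} (hp : p.Prime)
    (h : ¬ ∀ x : Pt W, p • x = 0 → x ∈ N) (k : ℕ) : Nat.card (tors N (p ^ k)) ≤ p ^ k := by
  have hfin : ∀ n, Finite (tors N n) := fun n =>
    Finite.of_injective _ (AddSubgroup.inclusion_injective (tors_le N n))
  induction k with
  | zero =>
    have : Nat.card (tors N (p ^ 0)) ≤ 1 := by
      refine Finite.card_le_one_iff_subsingleton.mpr ⟨fun a b => Subtype.ext ?_⟩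
      have ha : (a : Pt W) = 0 := by simpa using a.2.2
      have hb : (b : Pt W) = 0 := by simpa using b.2.2
      rw [ha, hb]
    simpa using this
  | succ k ih =>
    let f : tors N (p ^ (k + 1)) →+ tors N p :=
      { toFun := fun x => ⟨p ^ k • (x : Pt W), N.nsmul_mem x.2.1 _, by
          rw [← mul_smul, ← pow_succ']
          exact x.2.2⟩
        map_zero' := Subtype.ext (nsmul_zero _)
        map_add' := fun x y => Subtype.ext (nsmul_add _ _ _) }
    have hker : Nat.card f.ker ≤ Nat.card (tors N (p ^ k)) := by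
      have := hfin (p ^ k)
      refine Nat.card_le_card_of_injective
        (fun x : f.ker => (⟨(x.1 : Pt W), x.1.2.1, by
          have h1 : f x.1 = 0 := x.2
          exact congrArg (fun y : tors N p => (y : Pt W)) h1⟩ : tors N (p ^ k))) ?_
      intro x y hxy
      exact Subtype.ext (Subtype.ext (congrArg (fun z : tors N (p ^ k) => (z : Pt W)) hxy))
    have hran : Nat.card f.range ≤ p := by
      have := hfin p
      exact (Nat.card_le_card_of_injective _ Subtype.val_injective).trans (card_tors_le hΔ hp h)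
    have h1 := AddSubgroup.card_eq_card_quotient_mul_card_addSubgroup f.ker
    rw [Nat.card_congr (QuotientAddGroup.quotientKerEquivRange f).toEquiv] at h1
    rw [h1]
    calc _ ≤ p * p ^ k := Nat.mul_le_mul hran (hker.trans ih)
      _ = p ^ (k + 1) := (pow_succ' p k).symm

/-- An element of `p`-power order of a stable finite subgroup which does not contain `E[p]`
generates a stable subgroup. -/
theorem smul_mem_of_prim {N : AddSubgroup (Pt W)} [Finite N] (hN : Stable N) {p : ℕ}
    (hp : p.Prime) (h : ¬ ∀ x : Pt W, p • x = 0 → x ∈ N) {x : Pt W} (hx : x ∈ N) {k : ℕ}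
    (hord : addOrderOf x = p ^ k) (σ : Gam) : σ • x ∈ AddSubgroup.zmultiples x := by
  have hfin : Finite (tors N (p ^ k)) :=
    Finite.of_injective _ (AddSubgroup.inclusion_injective (tors_le N _))
  have hxk : p ^ k • x = 0 := by rw [← hord]; exact addOrderOf_nsmul_eq_zero x
  have hle : AddSubgroup.zmultiples x ≤ tors N (p ^ k) := by
    rw [AddSubgroup.zmultiples_le]
    exact ⟨hx, hxk⟩
  have heq : AddSubgroup.zmultiples x = tors N (p ^ k) :=
    AddSubgroup.eq_of_le_of_card_ge hle (by
      rw [Nat.card_zmultiples, hord]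
      exact card_tors_pow_le hΔ hp h k)
  rw [heq]
  refine ⟨hN σ x hx, ?_⟩
  rw [← smul_nsmul', hxk]
  exact smul_zero (A := Pt W) σ

/-- **A semistable curve has only finitely many primitive stable finite subgroups.** -/
theorem finite_prim (hW : W.IsSemistableModel) :
    {N : AddSubgroup (Pt W) | Finite N ∧ Stable N ∧ Prim N}.Finite := by
  obtain ⟨M, hM0, hM⟩ := exists_dvd_all hΔ hW
  have hS : {x : Pt W | M • x = 0}.Finite := by
    have : Finite {x : Pt W // M • x = 0} := by
      apply Nat.finite_of_card_ne_zero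
      rw [card_torsion hΔ hM0]
      exact pow_ne_zero _ hM0
    exact Set.finite_coe_iff.mp this
  refine Set.Finite.subset (hS.finite_subsets.preimage
    (SetLike.coe_injective (A := AddSubgroup (Pt W))).injOn) ?_
  rintro N ⟨hfin, hst, hprim⟩ x hx
  have h0 : addOrderOf x ≠ 0 := by
    have h1 : addOrderOf (⟨x, hx⟩ : N) ≠ 0 := (addOrderOf_pos _).ne'
    rwa [AddSubgroup.addOrderOf_mk] at h1
  change M • x = 0
  rw [← addOrderOf_dvd_iff_nsmul_eq_zero, Nat.dvd_iff_prime_pow_dvd_dvd]
  intro p k hp hk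
  obtain ⟨c, hc⟩ := hk
  have hc0 : c ≠ 0 := fun h => h0 (by rw [hc, h, mul_zero])
  have hord : addOrderOf (c • x) = p ^ k := by
    rw [addOrderOf_nsmul_of_dvd hc0 ⟨p ^ k, by rw [hc, mul_comm]⟩, hc,
      Nat.mul_div_cancel _ (Nat.pos_of_ne_zero hc0)]
  rw [← hord]
  exact hM (c • x) (by rw [hord]; exact pow_ne_zero _ hp.ne_zero)
    (smul_mem_of_prim hΔ hst hp (hprim p hp) (N.nsmul_mem hx c) hord)

/-- **Every stable finite subgroup is the inverse image of a primitive one** under a
multiplication. -/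
theorem exists_comap : ∀ (N : AddSubgroup (Pt W)), Finite N → Stable N →
    ∃ (n : ℕ) (N' : AddSubgroup (Pt W)), n ≠ 0 ∧ Finite N' ∧ Stable N' ∧ Prim N' ∧
      Nat.card N' ∣ Nat.card N ∧ ∀ x, x ∈ N ↔ n • x ∈ N' := by
  suffices H : ∀ (m : ℕ) (N : AddSubgroup (Pt W)), Nat.card N = m → Finite N → Stable N →
      ∃ (n : ℕ) (N' : AddSubgroup (Pt W)), n ≠ 0 ∧ Finite N' ∧ Stable N' ∧ Prim N' ∧
        Nat.card N' ∣ Nat.card N ∧ ∀ x, x ∈ N ↔ n • x ∈ N' from
    fun N h1 h2 => H _ N rfl h1 h2
  intro m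
  induction m using Nat.strong_induction_on with
  | _ m ih =>
    intro N hm hfin hst
    by_cases hprim : Prim N
    · exact ⟨1, N, one_ne_zero, hfin, hst, hprim, dvd_rfl, fun x => by rw [one_nsmul]⟩
    · unfold Prim at hprim
      push Not at hprim
      obtain ⟨p, hp, hall⟩ := hprim
      let N₁ : AddSubgroup (Pt W) := N.map (nsmulAddMonoidHom p)
      have hmem : ∀ x, p • x ∈ N₁ ↔ x ∈ N := by
        intro x
        refine ⟨?_, fun hx => ⟨x, hx, rfl⟩⟩
        rintro ⟨y, hy, hyx⟩
        have h1 : p • y = p • x := hyx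
        have h2 : x - y ∈ N := hall _ (by rw [nsmul_sub, h1, sub_self])
        have h3 := N.add_mem h2 hy
        rwa [sub_add_cancel] at h3
      have hfin₁ : Finite N₁ := by
        have h1 : (N₁ : Set (Pt W)).Finite := by
          rw [AddSubgroup.coe_map]
          exact (Set.finite_coe_iff.mp hfin).image _
        exact Set.finite_coe_iff.mpr h1
      have hst₁ : Stable N₁ := by
        rintro σ _ ⟨y, hy, rfl⟩
        exact ⟨σ • y, hst σ y hy, (smul_nsmul' σ p y).symm⟩
      -- the order drops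
      let f : N →+ N₁ :=
        { toFun := fun x => ⟨p • (x : Pt W), x, x.2, rfl⟩
          map_zero' := Subtype.ext (nsmul_zero p)
          map_add' := fun x y => Subtype.ext (nsmul_add _ _ _) }
      have hfs : Function.Surjective f := by
        rintro ⟨_, y, hy, rfl⟩
        exact ⟨⟨y, hy⟩, rfl⟩
      have hcard : Nat.card N = Nat.card N₁ * Nat.card f.ker := by
        have h1 := AddSubgroup.card_eq_card_quotient_mul_card_addSubgroup f.ker
        rwa [Nat.card_congr (QuotientAddGroup.quotientKerEquivOfSurjective f hfs).toEquiv] at h1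
      have hker : 1 < Nat.card f.ker := by
        have h1 : Nat.card {x : Pt W // p • x = 0} = p ^ 2 := card_torsion hΔ hp.ne_zero
        have h2 : Nat.card {x : Pt W // p • x = 0} ≤ Nat.card f.ker := by
          refine Nat.card_le_card_of_injective
            (fun x : {x : Pt W // p • x = 0} => (⟨⟨x.1, hall _ x.2⟩, Subtype.ext x.2⟩ : f.ker)) ?_
          intro x y hxy
          exact Subtype.ext (congrArg (fun z : f.ker => ((z : N) : Pt W)) hxy)
        rw [h1] at h2
        have h3 := hp.two_le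
        nlinarith
      have hpos : 0 < Nat.card N₁ := Nat.card_pos
      have hlt : Nat.card N₁ < m := by
        rw [← hm, hcard]
        nlinarith
      obtain ⟨n, N', hn, h1, h2, h3, h4, h5⟩ := ih _ hlt N₁ rfl hfin₁ hst₁
      refine ⟨n * p, N', mul_ne_zero hn hp.ne_zero, h1, h2, h3, h4.trans ⟨_, hcard⟩, fun x => ?_⟩
      rw [← hmem, h5, mul_smul]

/-- **The isogeny theorem for a semistable elliptic curve** (subgroups of odd order): finitely many
elliptic curves over `ℚ` give all the quotients of `E` by Galois stable finite subgroups of odd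
order. -/
theorem exists_finite_curves_odd (hW : W.IsSemistableModel) :
    ∃ S : Set (WeierstrassCurve ℚ), S.Finite ∧ (∀ E' ∈ S, E'.Δ ≠ 0) ∧
      ∀ N : AddSubgroup (Pt W), Odd (Nat.card N) → Stable N →
      ∃ E' ∈ S, ∃ φ : Pt W →+ Pts E', (∀ (σ : Gam) (x : Pt W), φ (σ • x) = σ • φ x) ∧
        φ.ker = N ∧ Function.Surjective φ := by
  classical
  have hΔQ : (W.map (Int.castRingHom ℚ)).Δ ≠ 0 := by
    rw [WeierstrassCurve.map_Δ]; simpa using hΔ
  have hq : ∀ N : AddSubgroup (Pt W), ∃ E' : WeierstrassCurve ℚ, Odd (Nat.card N) → Stable N →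
      E'.Δ ≠ 0 ∧ ∃ φ : Pt W →+ Pts E', (∀ (σ : Gam) (x : Pt W), φ (σ • x) = σ • φ x) ∧
        φ.ker = N ∧ Function.Surjective φ := by
    intro N
    by_cases h : Odd (Nat.card N) ∧ Stable N
    · have hfin : Finite N := Nat.finite_of_card_ne_zero fun h0 => by
        have := h.1
        rw [h0] at this
        exact absurd this (by decide)
      obtain ⟨E', h1, h2⟩ := exists_quotient (W.map (Int.castRingHom ℚ)) hΔQ N h.1 h.2
      exact ⟨E', fun _ _ => ⟨h1, h2⟩⟩
    · exact ⟨default, fun h1 h2 => absurd ⟨h1, h2⟩ h⟩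
  choose Q hQ using hq
  refine ⟨Q '' {N : AddSubgroup (Pt W) | Odd (Nat.card N) ∧ Finite N ∧ Stable N ∧ Prim N}, ?_, ?_,
    fun N hodd hst => ?_⟩
  · exact ((finite_prim hΔ hW).subset fun N hN => hN.2).image _
  · rintro _ ⟨N, hN, rfl⟩
    exact (hQ N hN.1 hN.2.2.1).1
  · have hfin : Finite N := Nat.finite_of_card_ne_zero fun h0 => by
      rw [h0] at hodd
      exact absurd hodd (by decide)
    obtain ⟨n, N', hn, h1, h2, h3, h4, h5⟩ := exists_comap hΔ N hfin hst
    have hodd' : Odd (Nat.card N') := hodd.of_dvd_nat h4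
    obtain ⟨-, φ, hφ, hker, hsurj⟩ := hQ N' hodd' h2
    refine ⟨_, ⟨N', ⟨hodd', h1, h2, h3⟩, rfl⟩, φ.comp (nsmulAddMonoidHom n), fun σ x => ?_, ?_, ?_⟩
    · change φ (n • (σ • x)) = σ • φ (n • x)
      rw [← smul_nsmul', hφ]
    · have hk : ∀ z, φ z = 0 ↔ z ∈ N' := fun z => by rw [← AddMonoidHom.mem_ker, hker]
      ext x
      exact (hk (n • x)).trans (h5 x).symm
    · intro y
      obtain ⟨x, rfl⟩ := hsurj y
      obtain ⟨z, rfl⟩ := exists_nsmul_eq hΔ hn x
      exact ⟨z, rfl⟩

end

end Fermat.Agent.Cor.Isog
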