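import Fermat.Agent.GalW.NoLine
import Fermat.Agent.Corollaries.K1.Tower

/-!
# Stable cyclic subquotients and Minkowski's theorem

`Γ = Gal(ℚ̄/ℚ)` acts on an abelian group `A`, `L` is a stable subgroup and `y` generates a stable
cyclic subgroup of order `p ^ n` of `A / L`.  If the inertia groups away from `p` act unipotently
on it and inertia at `p` acts trivially, then `Γ` fixes the class of `p ^ m y`, `n ≤ 2 m + 1`.
-/

set_option autoImplicit false

namespace Fermat.Agent.Cor.Isog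

open Fermat.Agent.Cor.K1 (Gam)

/-- A square divisible by `p ^ n`. -/
theorem dvd_mul_pow {p n m : ℕ} (hp : p.Prime) {c : ℤ} (h : (p : ℤ) ^ n ∣ c ^ 2)
    (hm : n ≤ 2 * m + 1) : (p : ℤ) ^ n ∣ c * (p : ℤ) ^ m := by
  have hp' : Prime (p : ℤ) := Nat.prime_iff_prime_int.mp hp
  rcases Nat.even_or_odd' n with ⟨k, hk | hk⟩
  · have h1 : (p : ℤ) ^ k ∣ c := by
      refine (Int.pow_dvd_pow_iff two_ne_zero).mp ?_
      rw [← pow_mul, mul_comm k 2, ← hk]
      exact h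
    have h2 := mul_dvd_mul h1 (pow_dvd_pow (p : ℤ) (show k ≤ m by omega))
    rwa [← pow_add, ← two_mul, ← hk] at h2
  · have h1 : (p : ℤ) ^ k ∣ c := by
      refine (Int.pow_dvd_pow_iff two_ne_zero).mp ?_
      rw [← pow_mul, mul_comm k 2]
      exact (pow_dvd_pow _ (by omega)).trans h
    obtain ⟨d, rfl⟩ := h1
    have h2 : (p : ℤ) ∣ d ^ 2 := by
      have h3 : (p : ℤ) ^ (2 * k) * (p : ℤ) ∣ (p : ℤ) ^ (2 * k) * d ^ 2 := by
        rw [← pow_succ, ← hk]
        have h4 : (p : ℤ) ^ (2 * k) * d ^ 2 = ((p : ℤ) ^ k * d) ^ 2 := by ring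
        rw [h4]
        exact h
      exact Int.dvd_of_mul_dvd_mul_left (pow_ne_zero _ hp'.ne_zero) h3
    obtain ⟨e, rfl⟩ := hp'.dvd_of_dvd_pow h2
    have h5 : (p : ℤ) ^ k * ((p : ℤ) * e) * (p : ℤ) ^ m = (p : ℤ) ^ (k + 1 + m) * e := by ring
    rw [h5]
    exact (pow_dvd_pow _ (by omega)).trans (dvd_mul_right _ _)

section

variable {A : Type*} [AddCommGroup A] [DistribMulAction Gam A]

theorem smul_mul_sub_mem {L : AddSubgroup A} (hL : ∀ σ : Gam, ∀ x ∈ L, σ • x ∈ L) {z : A}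
    {σ τ : Gam} (hσ : σ • z - z ∈ L) (hτ : τ • z - z ∈ L) : (σ * τ) • z - z ∈ L := by
  have h1 : (σ * τ) • z - z = σ • (τ • z - z) + (σ • z - z) := by
    rw [smul_sub, mul_smul]
    abel
  rw [h1]
  exact L.add_mem (hL σ _ hτ) hσ

/-- The elements which fix the class of `z` modulo `L`. -/
def stab (L : AddSubgroup A) (hL : ∀ σ : Gam, ∀ x ∈ L, σ • x ∈ L) (z : A) : Subgroup Gam where
  carrier := {σ | σ • z - z ∈ L}
  one_mem' := by
    change (1 : Gam) • z - z ∈ L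
    rw [one_smul, sub_self]
    exact L.zero_mem
  mul_mem' := fun {σ τ} hσ hτ => smul_mul_sub_mem hL hσ hτ
  inv_mem' := fun {σ} hσ => by
    change σ⁻¹ • z - z ∈ L
    have h1 : σ⁻¹ • z - z = -(σ⁻¹ • (σ • z - z)) := by
      rw [smul_sub, ← mul_smul, inv_mul_cancel, one_smul]
      abel
    rw [h1]
    exact L.neg_mem (hL _ _ hσ)

theorem mem_stab {L : AddSubgroup A} {hL : ∀ σ : Gam, ∀ x ∈ L, σ • x ∈ L} {z : A} {σ : Gam} :
    σ ∈ stab L hL z ↔ σ • z - z ∈ L := Iff.rfl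

/-- The stabilizer is normal if the class generates a stable subgroup. -/
theorem normal_stab {L : AddSubgroup A} (hL : ∀ σ : Gam, ∀ x ∈ L, σ • x ∈ L) {z : A}
    (hst : ∀ σ : Gam, ∃ a : ℤ, σ • z - a • z ∈ L) : (stab L hL z).Normal := by
  refine ⟨fun τ hτ σ => ?_⟩
  rw [mem_stab] at hτ ⊢
  obtain ⟨a, l, hl, hz⟩ : ∃ (a : ℤ) (l : A), l ∈ L ∧ σ⁻¹ • z = a • z + l := by
    obtain ⟨a, ha⟩ := hst σ⁻¹
    exact ⟨a, _, ha, by abel⟩
  have h1 : τ • (σ⁻¹ • z) - σ⁻¹ • z ∈ L := by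
    have h2 : τ • (σ⁻¹ • z) - σ⁻¹ • z = a • (τ • z - z) + (τ • l - l) := by
      rw [hz, smul_add, smul_comm τ a z, smul_sub a]
      abel
    rw [h2]
    exact L.add_mem (L.zsmul_mem hτ a) (L.sub_mem (hL τ _ hl) hl)
  have h3 : (σ * τ * σ⁻¹) • z - z = σ • (τ • (σ⁻¹ • z) - σ⁻¹ • z) := by
    rw [smul_sub, ← mul_smul σ σ⁻¹ z, mul_inv_cancel, one_smul, mul_smul, mul_smul]
  rw [h3]
  exact hL σ _ h1

/-- **A stable cyclic subquotient of order `p ^ n` with unipotent inertia away from `p` and trivial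
inertia at `p`: the multiples of `p ^ m`, `n ≤ 2 m + 1`, are fixed** (Minkowski). -/
theorem smul_pow_sub_mem {p n m : ℕ} (hp : p.Prime) (L : AddSubgroup A)
    (hL : ∀ σ : Gam, ∀ x ∈ L, σ • x ∈ L) {y : A} (hy : p ^ n • y ∈ L)
    (hord : ∀ k : ℤ, k • y ∈ L → (p : ℤ) ^ n ∣ k)
    (hst : ∀ σ : Gam, ∃ a : ℤ, σ • y - a • y ∈ L)
    (hopen : IsOpen (MulAction.stabilizer Gam y : Set Gam))
    (hun : ∀ ℓ : ℕ, ℓ.Prime → ℓ ≠ p → ∀ B : ValuationSubring (AlgebraicClosure ℚ),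
      B.LiesOverPrime ℓ → ∀ σ ∈ B.inertiaSubgroupIn ℚ, σ • (σ • y - y) - (σ • y - y) ∈ L)
    {B : ValuationSubring (AlgebraicClosure ℚ)} (hB : B.LiesOverPrime p)
    (hfix : ∀ σ ∈ B.inertiaSubgroupIn ℚ, σ • y - y ∈ L) (hm : n ≤ 2 * m + 1) (σ : Gam) :
    σ • (p ^ m • y) - p ^ m • y ∈ L := by
  have hmul : ∀ τ : Gam, ∀ a : ℤ, τ • (p ^ m • y) - a • (p ^ m • y) = p ^ m • (τ • y - a • y) := by
    intro τ a
    rw [smul_comm τ (p ^ m) y, smul_comm a (p ^ m) y, smul_sub]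
  have hone : ∀ τ : Gam, τ • (p ^ m • y) - p ^ m • y = p ^ m • (τ • y - y) := by
    intro τ
    rw [smul_comm τ (p ^ m) y, smul_sub]
  have hN : (stab L hL (p ^ m • y)).Normal := by
    refine normal_stab hL fun τ => ?_
    obtain ⟨a, ha⟩ := hst τ
    exact ⟨a, by rw [hmul]; exact L.nsmul_mem ha _⟩
  have hO : IsOpen (stab L hL (p ^ m • y) : Set Gam) := by
    refine Subgroup.isOpen_mono (H₁ := MulAction.stabilizer Gam y) (fun τ hτ => ?_) hopen
    rw [mem_stab, hone, MulAction.mem_stabilizer_iff.mp hτ, sub_self, smul_zero]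
    exact L.zero_mem
  have htop : stab L hL (p ^ m • y) = ⊤ := by
    refine Fermat.Agent.GalW.eq_top_of_inertia hp hO (fun ℓ hℓ hℓp C hC τ hτ => ?_) hB
      fun τ hτ => ?_
    · rw [mem_stab, hone]
      obtain ⟨a, ha⟩ := hst τ
      set l := τ • y - a • y with hl
      have hτy : τ • y - y = (a - 1) • y + l := by
        rw [hl, sub_smul, one_smul]
        abel
      have h1 := hun ℓ hℓ hℓp C hC τ hτ
      have h2 : ((a - 1) ^ 2) • y ∈ L := by
        have h3 : τ • (τ • y - y) - (τ • y - y) =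
            ((a - 1) ^ 2) • y + ((a - 1) • l + (τ • l - l)) := by
          conv_lhs => rw [hτy]
          rw [smul_add, smul_comm τ (a - 1) y]
          have h4 : τ • y = y + ((a - 1) • y + l) := by rw [← hτy]; abel
          rw [h4, smul_add, smul_add, sq, mul_smul]
          abel
        rw [h3] at h1
        have h5 : (a - 1) • l + (τ • l - l) ∈ L :=
          L.add_mem (L.zsmul_mem ha _) (L.sub_mem (hL τ _ ha) ha)
        exact (L.add_mem_cancel_right h5).mp h1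
      obtain ⟨k, hk⟩ := dvd_mul_pow hp (hord _ h2) hm
      rw [hτy, smul_add]
      refine L.add_mem ?_ (L.nsmul_mem ha _)
      have h6 : p ^ m • ((a - 1) • y) = k • (p ^ n • y) := by
        have h7 : p ^ m • ((a - 1) • y) = ((a - 1) * (p : ℤ) ^ m) • y := by
          rw [mul_comm, mul_smul, ← Nat.cast_pow, natCast_zsmul]
        have h8 : k • (p ^ n • y) = ((p : ℤ) ^ n * k) • y := by
          rw [mul_comm, mul_smul, ← Nat.cast_pow, natCast_zsmul]
        rw [h7, h8, hk]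
      rw [h6]
      exact L.zsmul_mem hy k
    · rw [mem_stab, hone]
      exact L.nsmul_mem (hfix τ hτ) _
  have h1 : σ ∈ stab L hL (p ^ m • y) := htop ▸ Subgroup.mem_top σ
  exact h1

end

/-! ### Subgroups containing a cyclic group of order `p ^ n` -/

section

variable {A : Type*} [AddCommGroup A]

/-- If a subgroup `X` contains `g` of order `p ^ n` and a point killed by `p ^ n` which is not a
multiple of `g`, it contains a point killed by `p` which is not a multiple of `g`. -/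
theorem exists_of_notMem {p n : ℕ} (hp : p.Prime) {g : A} (hg : addOrderOf g = p ^ n)
    {X : AddSubgroup A} (hgX : g ∈ X) {x : A} (hx : x ∈ X) (hxn : p ^ n • x = 0)
    (hxg : x ∉ AddSubgroup.zmultiples g) :
    ∃ y ∈ X, p • y = 0 ∧ y ∉ AddSubgroup.zmultiples g := by
  classical
  -- the least `k` with `p ^ k x ∈ ⟨g⟩`
  have hex : ∃ k, p ^ k • x ∈ AddSubgroup.zmultiples g := ⟨n, by rw [hxn]; exact zero_mem _⟩
  let k := Nat.find hex
  have hk : p ^ k • x ∈ AddSubgroup.zmultiples g := Nat.find_spec hex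
  have hmin : ∀ j < k, p ^ j • x ∉ AddSubgroup.zmultiples g := fun j hj => Nat.find_min hex hj
  have hk0 : k ≠ 0 := by
    intro h0
    rw [h0, pow_zero, one_smul] at hk
    exact hxg hk
  obtain ⟨j, hj⟩ := Nat.exists_eq_succ_of_ne_zero hk0
  have hkn : k ≤ n := Nat.find_min' hex (by rw [hxn]; exact zero_mem _)
  set z := p ^ j • x with hz
  have hzX : z ∈ X := X.nsmul_mem hx _
  have hzg : z ∉ AddSubgroup.zmultiples g := hmin j (by omega)
  have hpz : p • z ∈ AddSubgroup.zmultiples g := by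
    rw [hz, ← mul_smul, ← pow_succ', ← Nat.succ_eq_add_one, ← hj]
    exact hk
  obtain ⟨m, hm⟩ := AddSubgroup.mem_zmultiples_iff.mp hpz
  -- `p ∣ m`
  have h1 : (p ^ (n - 1)) • (p • z) = 0 := by
    have h2 : p ^ (n - 1) * p * p ^ j = p ^ j * p ^ n := by
      have h3 : n - 1 + 1 = n := by omega
      rw [← pow_succ, h3, mul_comm]
    rw [hz, ← mul_smul, ← mul_smul, h2, mul_smul, hxn, smul_zero]
  rw [← hm, ← natCast_zsmul, ← mul_smul] at h1
  have h2 := addOrderOf_dvd_iff_zsmul_eq_zero.mpr h1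
  rw [hg] at h2
  have h3 : (p : ℤ) ∣ m := by
    have h4 : ((p ^ (n - 1) : ℕ) : ℤ) * (p : ℤ) ∣ ((p ^ (n - 1) : ℕ) : ℤ) * m := by
      have h5 : ((p ^ n : ℕ) : ℤ) = ((p ^ (n - 1) : ℕ) : ℤ) * (p : ℤ) := by
        have h6 : n - 1 + 1 = n := by omega
        rw [← Nat.cast_mul, ← pow_succ, h6]
      rw [← h5]
      exact h2
    exact Int.dvd_of_mul_dvd_mul_left
      (by exact_mod_cast (pow_ne_zero _ hp.ne_zero)) h4
  obtain ⟨m', rfl⟩ := h3
  refine ⟨z - m' • g, X.sub_mem hzX (X.zsmul_mem hgX _), ?_, fun h => hzg ?_⟩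
  · rw [smul_sub, ← hm, mul_smul, natCast_zsmul, sub_self]
  · have h4 := add_mem h (AddSubgroup.zsmul_mem _ (AddSubgroup.mem_zmultiples g) m')
    rwa [sub_add_cancel] at h4

/-- If `p ∤ c` and `p ^ n g = 0`, a subgroup containing `c g` contains `g`. -/
theorem mem_of_zsmul_mem {p n : ℕ} (hp : p.Prime) {g : A} (hg : p ^ n • g = 0) {c : ℤ}
    (hc : ¬ (p : ℤ) ∣ c) {X : AddSubgroup A} (h : c • g ∈ X) : g ∈ X := by
  have hco : IsCoprime ((p : ℤ) ^ n) c :=
    ((Nat.prime_iff_prime_int.mp hp).coprime_iff_not_dvd.mpr hc).pow_left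
  obtain ⟨a, b, hab⟩ := hco
  have h1 : g = b • (c • g) := by
    have h2 : (a * (p : ℤ) ^ n + b * c) • g = g := by rw [hab, one_smul]
    rw [add_smul, mul_smul, ← Nat.cast_pow, natCast_zsmul, hg, smul_zero, zero_add,
      mul_smul] at h2
    exact h2.symm
  rw [h1]
  exact X.zsmul_mem h b

/-- If `p ^ n h ∈ L` and `p ^ (n - 1) h ∉ L`, the class of `h` modulo `L` has order `p ^ n`. -/
theorem dvd_of_zsmul_mem {p n : ℕ} (hp : p.Prime) {L : AddSubgroup A} {h : A}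
    (h0 : p ^ n • h ∈ L) (h1 : p ^ (n - 1) • h ∉ L) {k : ℤ} (hk : k • h ∈ L) :
    (p : ℤ) ^ n ∣ k := by
  obtain ⟨j, hj, hgcd⟩ := (Nat.dvd_prime_pow hp).mp
    (show Int.gcd k ((p ^ n : ℕ) : ℤ) ∣ p ^ n from by
      have := Int.gcd_dvd_natAbs_right k ((p ^ n : ℕ) : ℤ)
      rwa [Int.natAbs_natCast] at this)
  by_cases hjn : j = n
  · have h2 := Int.gcd_dvd_left k ((p ^ n : ℕ) : ℤ)
    rw [hgcd, hjn] at h2
    exact_mod_cast h2
  · exfalso
    apply h1
    have h2 : p ^ j • h ∈ L := by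
      have h3 := Int.gcd_eq_gcd_ab k ((p ^ n : ℕ) : ℤ)
      rw [hgcd] at h3
      rw [← natCast_zsmul, h3, add_smul]
      refine L.add_mem ?_ ?_
      · rw [mul_comm, mul_smul]
        exact L.zsmul_mem hk _
      · rw [mul_comm, mul_smul, natCast_zsmul]
        exact L.zsmul_mem h0 _
    have h4 : p ^ (n - 1) • h = p ^ (n - 1 - j) • (p ^ j • h) := by
      rw [← mul_smul, ← pow_add]
      congr 2
      omega
    rw [h4]
    exact L.nsmul_mem h2 _

/-- A non-zero multiple of `g`, of order `p ^ n`, in `X`: the multiple `p ^ (n - 1) g` is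
in `X`. -/
theorem pow_smul_mem_of_mem {p n : ℕ} (hp : p.Prime) {g : A}
    (hg : addOrderOf g = p ^ n) {X : AddSubgroup A} {x : A} (hx : x ∈ AddSubgroup.zmultiples g)
    (hx0 : x ≠ 0) (hxX : x ∈ X) : p ^ (n - 1) • g ∈ X := by
  classical
  obtain ⟨a, rfl⟩ := AddSubgroup.mem_zmultiples_iff.mp hx
  by_contra hcon
  have h0 : p ^ n • g ∈ X := by
    rw [← hg, addOrderOf_nsmul_eq_zero]
    exact X.zero_mem
  have h1 := dvd_of_zsmul_mem hp h0 hcon hxX
  apply hx0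
  rw [← addOrderOf_dvd_iff_zsmul_eq_zero, hg]
  exact_mod_cast h1

end

end Fermat.Agent.Cor.Isog
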