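import Fermat.Agent.Corollaries.Isog.FortyNineIsog

/-!
# A semistable elliptic curve over `ℚ` has no rational isogeny of degree `49`

Let `⟨g⟩` be cyclic of order `49` and stable under Galois. `7 g` is rational, or Galois acts trivially
on `E[7] / ⟨7 g⟩`; in the second case the image of `E[49]` in `E / ⟨g⟩` is cyclic of order `49` and
contains a rational point of order `7`.
-/

set_option autoImplicit false

open WeierstrassCurve WeierstrassCurve.Affine WeierstrassCurve.Affine.Point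

namespace Fermat.Agent.Cor.Isog

open Fermat.Agent.Cor.K1 (Gam Pts)
open Fermat.Agent.Cor.Mazur (Pt)

local notation "ℚbar" => AlgebraicClosure ℚ

variable {W : WeierstrassCurve ℤ}

/-- `E[p ^ n] = ⟨g⟩ + ⟨h⟩` -/
theorem exists_add_of_card (hΔ : W.Δ ≠ 0) {p n : ℕ} (hp : p.Prime) {g h : Pt W}
    (hg : addOrderOf g = p ^ n) (hh : p ^ n • h = 0)
    (hhg : p ^ (n - 1) • h ∉ AddSubgroup.zmultiples g) {x : Pt W} (hx : p ^ n • x = 0) :
    ∃ a b : ℤ, x = a • g + b • h := by
  have hpn : p ^ n ≠ 0 := pow_ne_zero _ hp.ne_zero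
  have hgn : p ^ n • g = 0 := by rw [← hg]; exact addOrderOf_nsmul_eq_zero g
  have hcard : Nat.card {x : Pt W // p ^ n • x = 0} = (p ^ n) ^ 2 := card_torsion hΔ hpn
  have hfin : Finite {x : Pt W // p ^ n • x = 0} :=
    Nat.finite_of_card_ne_zero (by rw [hcard]; exact pow_ne_zero _ hpn)
  have hk : ∀ (k : ℤ) (y : Pt W), p ^ n • y = 0 → p ^ n • (k • y) = 0 := fun k y hy => by
    rw [← natCast_zsmul, ← mul_smul, mul_comm, mul_smul, natCast_zsmul, hy, zsmul_zero]
  let f : Fin (p ^ n) × Fin (p ^ n) → {x : Pt W // p ^ n • x = 0} := fun ab =>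
    ⟨((ab.1 : ℕ) : ℤ) • g + ((ab.2 : ℕ) : ℤ) • h, by
      rw [nsmul_add, hk _ _ hgn, hk _ _ hh, add_zero]⟩
  have hinj : Function.Injective f := by
    rintro ⟨a, b⟩ ⟨a', b'⟩ hab
    have h1 : ((a : ℕ) : ℤ) • g + ((b : ℕ) : ℤ) • h = ((a' : ℕ) : ℤ) • g + ((b' : ℕ) : ℤ) • h :=
      congrArg Subtype.val hab
    have h2 : (((b : ℕ) : ℤ) - ((b' : ℕ) : ℤ)) • h = (((a' : ℕ) : ℤ) - ((a : ℕ) : ℤ)) • g := by
      rw [sub_smul, sub_smul, sub_eq_sub_iff_add_eq_add, add_comm, h1, add_comm]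
    have h3 : (p : ℤ) ^ n ∣ ((b : ℕ) : ℤ) - ((b' : ℕ) : ℤ) := by
      refine dvd_of_zsmul_mem hp (L := AddSubgroup.zmultiples g) (h := h) ?_ hhg ?_
      · rw [hh]; exact zero_mem _
      · rw [h2]; exact AddSubgroup.zsmul_mem_zmultiples g _
    have hbb : (b : ℕ) = (b' : ℕ) := by
      have hb := b.2
      have hb' := b'.2
      have h4 : ((p ^ n : ℕ) : ℤ) ∣ ((b : ℕ) : ℤ) - ((b' : ℕ) : ℤ) := by exact_mod_cast h3
      have h5 := Int.eq_zero_of_abs_lt_dvd h4 (by rw [abs_lt]; omega)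
      omega
    have h6 : (((a' : ℕ) : ℤ) - ((a : ℕ) : ℤ)) • g = 0 := by
      rw [← h2, hbb, sub_self, zero_zsmul]
    have haa : (a : ℕ) = (a' : ℕ) := by
      have ha := a.2
      have ha' := a'.2
      have h4 := addOrderOf_dvd_iff_zsmul_eq_zero.2 h6
      rw [hg] at h4
      have h5 := Int.eq_zero_of_abs_lt_dvd h4 (by rw [abs_lt]; omega)
      omega
    exact Prod.ext (Fin.ext haa) (Fin.ext hbb)
  have hsurj : Function.Surjective f :=
    ((Nat.bijective_iff_injective_and_card f).2 ⟨hinj, by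
      rw [hcard, Nat.card_prod, Nat.card_fin, sq]⟩).2
  obtain ⟨⟨a, b⟩, hab⟩ := hsurj ⟨x, hx⟩
  exact ⟨_, _, (congrArg Subtype.val hab).symm⟩

/-- The second case: Galois acts trivially on `E[7] / ⟨7 g⟩`. -/
theorem false_of_trivial_quotient (hΔ : W.Δ ≠ 0) {g : Pt W} (hg : addOrderOf g = 49)
    (hst : ∀ σ : Gam, σ • g ∈ AddSubgroup.zmultiples g) {S : Pt W} (hS : 7 • S = 0)
    (hSg : S ∉ AddSubgroup.zmultiples g)
    (hq : ∀ σ : Gam, σ • S - S ∈ AddSubgroup.zmultiples g) : False := by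
  have hF : Fact (Nat.Prime 7) := ⟨by norm_num⟩
  have hp : Nat.Prime 7 := by norm_num
  have hEΔ : (W.map (Int.castRingHom ℚ)).Δ ≠ 0 := by
    rw [WeierstrassCurve.map_Δ]
    simpa using hΔ
  obtain ⟨h, hh⟩ := exists_nsmul_eq hΔ (n := 7) (by norm_num) S
  have hh49 : 7 ^ 2 • h = 0 := by
    rw [pow_two, mul_smul, hh, hS]
  have hhg : 7 ^ (2 - 1) • h ∉ AddSubgroup.zmultiples g := by
    rw [show 7 ^ (2 - 1) = 7 from rfl, hh]
    exact hSg
  have hfin : Finite (AddSubgroup.zmultiples g) := by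
    apply Nat.finite_of_card_ne_zero
    rw [Nat.card_zmultiples, hg]
    norm_num
  obtain ⟨E', hE', φ, hφ, hker, -⟩ := exists_quotient_all (W.map (Int.castRingHom ℚ)) hEΔ
    (AddSubgroup.zmultiples g) hfin (fun σ x hx => smul_mem_zmultiples hst σ hx)
  have hell : E'.IsElliptic := ⟨isUnit_iff_ne_zero.2 hE'⟩
  have hz : ∀ x, φ x = 0 ↔ x ∈ AddSubgroup.zmultiples g := fun x => by
    rw [← AddMonoidHom.mem_ker, hker]
  have hφg : φ g = 0 := (hz g).2 (AddSubgroup.mem_zmultiples g)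
  refine Mazur.false_of_stable_fortynine E' (φ h) ?_ (fun σ => ?_) (fun σ => ?_)
  · refine addOrderOf_eq_prime_pow (p := 7) (n := 1) ?_ ?_
    · rw [pow_one, ← map_nsmul, hh]
      exact fun h0 => hSg ((hz S).1 h0)
    · rw [← map_nsmul, show 7 ^ (1 + 1) = 7 ^ 2 from rfl, hh49, _root_.map_zero]
  · have h1 : 7 ^ 2 • (σ • h) = 0 := by
      rw [← smul_nsmul', hh49]
      exact smul_zero (A := Pt W) σ
    obtain ⟨a, b, hab⟩ := exists_add_of_card hΔ hp (n := 2) (by rw [hg]; norm_num) hh49 hhg h1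
    rw [← hφ, hab, map_add, map_zsmul, map_zsmul, hφg, zsmul_zero, zero_add]
    exact AddSubgroup.zsmul_mem_zmultiples _ _
  · rw [← map_nsmul, hh, ← hφ, ← sub_eq_zero, ← map_sub]
    exact (hz _).2 (hq σ)

/-- **A semistable elliptic curve over `ℚ` has no rational cyclic isogeny of degree `49`.** -/
theorem no_isogeny_fortynine (hΔ : W.Δ ≠ 0) (hW : W.IsSemistableModel) (g : Pt W)
    (hst : ∀ σ : Gam, σ • g ∈ AddSubgroup.zmultiples g) : addOrderOf g ≠ 49 := by
  intro hg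
  have hF : Fact (Nat.Prime 7) := ⟨by norm_num⟩
  have hp : Nat.Prime 7 := by norm_num
  have hEΔ : (W.map (Int.castRingHom ℚ)).Δ ≠ 0 := by
    rw [WeierstrassCurve.map_Δ]
    simpa using hΔ
  have hell : (W.map (Int.castRingHom ℚ)).IsElliptic := ⟨isUnit_iff_ne_zero.2 hEΔ⟩
  have key : (∀ σ : Gam, σ • (7 • g) = 7 • g) → False := fun h =>
    Mazur.false_of_stable_fortynine (W.map (Int.castRingHom ℚ)) g hg hst h
  have h7 : addOrderOf (7 • g) = 7 := by
    rw [addOrderOf_nsmul_of_dvd (by norm_num) (by rw [hg]; norm_num), hg]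
  have h77 : 7 • (7 • g) = 0 := by
    have := addOrderOf_nsmul_eq_zero (7 • g)
    rwa [h7] at this
  have hst7 : ∀ σ : Gam, σ • (7 • g) ∈ AddSubgroup.zmultiples (7 • g) := fun σ => by
    obtain ⟨a, ha⟩ := AddSubgroup.mem_zmultiples_iff.1 (hst σ)
    refine AddSubgroup.mem_zmultiples_iff.2 ⟨a, ?_⟩
    rw [smul_nsmul', ← ha, ← natCast_zsmul, ← natCast_zsmul, ← mul_smul, ← mul_smul, mul_comm]
  have hcard7 : Nat.card (AddSubgroup.zmultiples (7 • g)) = 7 := by rw [Nat.card_zmultiples, h7]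
  have hker7 : ∀ x ∈ AddSubgroup.zmultiples g, 7 • x = 0 →
      x ∈ AddSubgroup.zmultiples (7 • g) := by
    rintro x hx hx7
    obtain ⟨k, rfl⟩ := AddSubgroup.mem_zmultiples_iff.1 hx
    rw [← natCast_zsmul, ← mul_smul] at hx7
    have h1 := addOrderOf_dvd_iff_zsmul_eq_zero.2 hx7
    rw [hg] at h1
    obtain ⟨c, hc⟩ : (7 : ℤ) ∣ k := by
      push_cast at h1
      omega
    refine AddSubgroup.mem_zmultiples_iff.2 ⟨c, ?_⟩
    rw [hc, ← natCast_zsmul, ← mul_smul, mul_comm]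
    rfl
  have hred : ¬ W.ModRepIsIrreducible 7 := fun hirr =>
    Mazur.not_stable_of_irreducible hp hΔ hirr _ hcard7
      (fun σ x hx => smul_mem_zmultiples hst7 σ hx)
  have hle7 : AddSubgroup.zmultiples (7 • g) ≤ AddSubgroup.zmultiples g := by
    rw [AddSubgroup.zmultiples_le]
    exact AddSubgroup.nsmul_mem _ (AddSubgroup.mem_zmultiples g) 7
  rcases Mazur.exists_point_or_line hΔ hW hp (by norm_num) hred with
    ⟨Q, hQ, hfix⟩ | ⟨L, hcard, hLst, hquot⟩
  · have hQ7 : 7 • Q = 0 := by rw [← hQ]; exact addOrderOf_nsmul_eq_zero Q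
    by_cases hQg : Q ∈ AddSubgroup.zmultiples g
    · apply key
      obtain ⟨c, hc⟩ := AddSubgroup.mem_zmultiples_iff.1 (hker7 Q hQg hQ7)
      have hc7 : ¬ ((7 : ℕ) : ℤ) ∣ c := by
        rintro ⟨d, rfl⟩
        rw [mul_comm, mul_smul, natCast_zsmul, h77, zsmul_zero] at hc
        rw [← hc, addOrderOf_zero] at hQ
        norm_num at hQ
      have h1 : 7 • g ∈ AddSubgroup.zmultiples Q :=
        mem_of_zsmul_mem (n := 1) hp (by rw [pow_one]; exact h77) hc7
          (by rw [hc]; exact AddSubgroup.mem_zmultiples Q)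
      obtain ⟨d, hd⟩ := AddSubgroup.mem_zmultiples_iff.1 h1
      intro σ
      rw [← hd, smul_zsmul', hfix]
    · exact false_of_trivial_quotient hΔ hg hst hQ7 hQg fun σ => by
        rw [hfix, sub_self]
        exact AddSubgroup.zero_mem _
  · have hfinL : Finite L := Nat.finite_of_card_ne_zero (by rw [hcard]; norm_num)
    by_cases hgL : 7 • g ∈ L
    · have hL : AddSubgroup.zmultiples (7 • g) = L := by
        refine AddSubgroup.eq_of_le_of_card_ge (AddSubgroup.zmultiples_le.2 hgL) ?_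
        rw [hcard, hcard7]
      have hex : ∃ S : Pt W, 7 • S = 0 ∧ S ∉ L := by
        by_contra hcon
        push Not at hcon
        have h1 : Nat.card {P : Pt W // 7 • P = 0} ≤ Nat.card L :=
          Nat.card_le_card_of_injective
            (fun x : {P : Pt W // 7 • P = 0} => (⟨x.1, hcon x.1 x.2⟩ : L))
            fun a b hab => Subtype.ext (congrArg (fun z : L => (z : Pt W)) hab)
        rw [card_torsion hΔ (by norm_num), hcard] at h1
        norm_num at h1
      obtain ⟨S, hS, hSL⟩ := hex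
      refine false_of_trivial_quotient hΔ hg hst hS (fun h => hSL ?_) fun σ => hle7 ?_
      · rw [← hL]
        exact hker7 S h hS
      · rw [hL]
        exact hquot S hS σ
    · apply key
      intro σ
      obtain ⟨a, ha⟩ := AddSubgroup.mem_zmultiples_iff.1 (hst7 σ)
      have h1 := hquot (7 • g) h77 σ
      have h2 : (a - 1) • (7 • g) = σ • (7 • g) - 7 • g := by rw [sub_smul, one_smul, ha]
      rw [← h2] at h1
      have hd : ((7 : ℕ) : ℤ) ∣ a - 1 := by
        by_contra hcon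
        exact hgL (mem_of_zsmul_mem (n := 1) hp (by rw [pow_one]; exact h77) hcon h1)
      obtain ⟨c, hc⟩ := hd
      rw [hc, mul_comm, mul_smul, natCast_zsmul, h77, zsmul_zero] at h2
      exact sub_eq_zero.1 h2.symm

end Fermat.Agent.Cor.Isog
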