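import Fermat.Agent.Corollaries.Isog.SqfDeg
import Fermat.Agent.Corollaries.Isog.FortyNineSemi

/-!
# The degrees of the rational cyclic isogenies of a semistable elliptic curve

`order_of_stable`: if `⟨g⟩ ⊆ W(ℚ̄)` is cyclic of order `n` and stable under Galois, `W` semistable, and
neither `13` nor `35` divides `n`, then `n = 7`, or `n` has no prime factors besides `2` and `3`, or
besides `2` and `5`.
-/

set_option autoImplicit false

open WeierstrassCurve WeierstrassCurve.Affine WeierstrassCurve.Affine.Point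

namespace Fermat.Agent.Cor.Isog

open Fermat.Agent.Cor.K1 (Gam Pts)
open Fermat.Agent.Cor.Mazur (Pt)

variable {W : WeierstrassCurve ℤ}

/-- the subgroup of order `d` -/
theorem exists_of_dvd {g : Pt W} (hst : ∀ σ : Gam, σ • g ∈ AddSubgroup.zmultiples g)
    (h0 : addOrderOf g ≠ 0) {d : ℕ} (hd : d ∣ addOrderOf g) :
    ∃ x : Pt W, addOrderOf x = d ∧ ∀ σ : Gam, σ • x ∈ AddSubgroup.zmultiples x := by
  obtain ⟨m, hm⟩ := hd
  have hm0 : m ≠ 0 := fun h => h0 (by rw [hm, h, mul_zero])
  refine ⟨m • g, ?_, fun σ => ?_⟩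
  · rw [addOrderOf_nsmul_of_dvd hm0 ⟨d, by rw [hm, mul_comm]⟩, hm,
      Nat.mul_div_cancel _ (Nat.pos_of_ne_zero hm0)]
  · obtain ⟨a, ha⟩ := AddSubgroup.mem_zmultiples_iff.1 (hst σ)
    refine AddSubgroup.mem_zmultiples_iff.2 ⟨a, ?_⟩
    rw [smul_nsmul', ← ha, ← natCast_zsmul, ← natCast_zsmul, ← mul_smul, ← mul_smul, mul_comm]

/-- **The degrees of rational cyclic isogenies of semistable curves**: `7`, `2 ^ a 3 ^ b`,
`2 ^ a 5 ^ b`, or divisible by `13` or `35`. -/
theorem order_of_stable (hΔ : W.Δ ≠ 0) (hW : W.IsSemistableModel) {g : Pt W}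
    (hst : ∀ σ : Gam, σ • g ∈ AddSubgroup.zmultiples g) (h0 : addOrderOf g ≠ 0)
    (h13 : ¬ 13 ∣ addOrderOf g) (h35 : ¬ 35 ∣ addOrderOf g) :
    addOrderOf g = 7 ∨ (addOrderOf g).primeFactors ⊆ {2, 3} ∨
      (addOrderOf g).primeFactors ⊆ {2, 5} := by
  have key : ∀ d : ℕ, Squarefree d → d ∣ addOrderOf g → d ∈ ({1, 2, 3, 5, 6, 7, 10} : Set ℕ) := by
    intro d hsq hd
    obtain ⟨x, hx, hxst⟩ := exists_of_dvd hst h0 hd
    have hcard : Nat.card (AddSubgroup.zmultiples x) = d := by rw [Nat.card_zmultiples, hx]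
    rcases card_of_stable hΔ hW (AddSubgroup.zmultiples x)
      (fun σ y hy => smul_mem_zmultiples hxst σ hy) (by rw [hcard]; exact hsq) with h | h | h
    · rwa [hcard] at h
    · rw [hcard] at h
      exact absurd (h.trans hd) h13
    · rw [hcard] at h
      exact absurd (h.trans hd) h35
  have hpr : ∀ p : ℕ, p.Prime → p ∣ addOrderOf g → p = 2 ∨ p = 3 ∨ p = 5 ∨ p = 7 := by
    intro p hp hd
    have h1 := key p hp.squarefree hd
    simp only [Set.mem_insert_iff, Set.mem_singleton_iff] at h1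
    rcases h1 with rfl | rfl | rfl | rfl | rfl | rfl | rfl
    · exact absurd hp Nat.not_prime_one
    · simp
    · simp
    · simp
    · exact absurd hp (by norm_num)
    · simp
    · exact absurd hp (by norm_num)
  have hpair : ∀ p q : ℕ, p.Prime → q.Prime → p ≠ q → p ∣ addOrderOf g → q ∣ addOrderOf g →
      p * q ∈ ({1, 2, 3, 5, 6, 7, 10} : Set ℕ) := by
    intro p q hp hq hne h1 h2
    have hco := (Nat.coprime_primes hp hq).2 hne
    exact key _ ((Nat.squarefree_mul hco).2 ⟨hp.squarefree, hq.squarefree⟩)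
      (hco.mul_dvd_of_dvd_of_dvd h1 h2)
  by_cases h7 : 7 ∣ addOrderOf g
  · left
    obtain ⟨m, hm⟩ := h7
    have h7' : 7 ∣ addOrderOf g := ⟨m, hm⟩
    have hm1 : m = 1 := by
      by_contra hne
      obtain ⟨q, hq, hqm⟩ := Nat.exists_prime_and_dvd hne
      have hqd : q ∣ addOrderOf g := hm ▸ hqm.mul_left 7
      by_cases hq7 : q = 7
      · subst hq7
        obtain ⟨k, rfl⟩ := hqm
        obtain ⟨x, hx, hxst⟩ := exists_of_dvd hst h0 (d := 49) ⟨k, by rw [hm]; ring⟩
        exact no_isogeny_fortynine hΔ hW x hxst hx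
      · have h1 := hpair 7 q (by norm_num) hq (Ne.symm hq7) h7' hqd
        have h2 := hq.two_le
        simp only [Set.mem_insert_iff, Set.mem_singleton_iff] at h1
        omega
    rw [hm, hm1]
  · right
    by_cases h3 : 3 ∣ addOrderOf g
    · left
      intro p hp
      have hpp := Nat.prime_of_mem_primeFactors hp
      have hpd := Nat.dvd_of_mem_primeFactors hp
      rcases hpr p hpp hpd with rfl | rfl | rfl | rfl
      · simp
      · simp
      · have h1 := hpair 3 5 (by norm_num) (by norm_num) (by norm_num) h3 hpd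
        simp at h1
      · exact absurd hpd h7
    · right
      intro p hp
      have hpp := Nat.prime_of_mem_primeFactors hp
      have hpd := Nat.dvd_of_mem_primeFactors hp
      rcases hpr p hpp hpd with rfl | rfl | rfl | rfl
      · simp
      · exact absurd hpd h3
      · simp
      · exact absurd hpd h7

end Fermat.Agent.Cor.Isog
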