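import Fermat.Agent.Corollaries.Isog.Degree

/-!
# The degrees of the cyclic isogenies over number fields

`E` a semistable elliptic curve over `ℚ`: there is a constant `C` such that for every number field
`F` the order of every cyclic subgroup of `E(ℚ̄)` which is stable under `Gal(ℚ̄/F)` is at most
`C [F : ℚ]` (`exists_order_le_of_stable`, `exists_card_le_of_stable`).
-/

set_option autoImplicit false

noncomputable section

open WeierstrassCurve WeierstrassCurve.Affine.Point Module
open scoped WeierstrassCurve.Affine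
open Fermat.Agent.Tate

namespace Fermat.Agent.Cor

local notation "Γℚ" => (AlgebraicClosure ℚ ≃ₐ[ℚ] AlgebraicClosure ℚ)

/-- The orbit of `x` under `G`, if a subgroup `H` of finite index maps `x` into a finite set. -/
theorem ncard_orbit_le_of_mapsTo {G X : Type*} [Group G] [MulAction G X] (H : Subgroup G)
    (hH : H.index ≠ 0) (x : X) {S : Set X} (hS : S.Finite) (h : ∀ σ ∈ H, σ • x ∈ S) :
    (MulAction.orbit G x).ncard ≤ H.index * S.ncard := by
  classical
  have hfinQ : Finite (G ⧸ H) := Nat.finite_of_card_ne_zero hH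
  have hfinS : Finite S := hS.to_subtype
  let F : (G ⧸ H) × S → X := fun c => c.1.out • (c.2 : X)
  have hsub : MulAction.orbit G x ⊆ Set.range F := by
    rintro _ ⟨g, rfl⟩
    have h1 : (QuotientGroup.mk (s := H) g).out⁻¹ * g ∈ H := by
      rw [← QuotientGroup.eq]
      exact QuotientGroup.out_eq' _
    refine ⟨(QuotientGroup.mk g, ⟨((QuotientGroup.mk (s := H) g).out⁻¹ * g) • x, h _ h1⟩), ?_⟩
    change (QuotientGroup.mk (s := H) g).out • ((QuotientGroup.mk (s := H) g).out⁻¹ * g) • x = g • x
    rw [← mul_smul, mul_inv_cancel_left]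
  calc (MulAction.orbit G x).ncard ≤ (Set.range F).ncard :=
        Set.ncard_le_ncard hsub (Set.finite_range F)
    _ ≤ Nat.card ((G ⧸ H) × S) := by
        rw [← Set.image_univ, ← Set.ncard_univ]
        exact Set.ncard_image_le
    _ = H.index * S.ncard := by
        rw [Nat.card_prod]
        rfl

variable {W : WeierstrassCurve ℤ}

/-- A point whose multiples are stable under `Gal(ℚ̄/F)`. -/
theorem order_le_of_stable (hΔ : W.Δ ≠ 0) {m : ℕ} (hm : m ≠ 0) (h : OpenTors W m)
    (F : IntermediateField ℚ (AlgebraicClosure ℚ)) [FiniteDimensional ℚ F]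
    (x : ((W.map (Int.castRingHom ℚ))⁄(AlgebraicClosure ℚ)).Point)
    (hst : ∀ σ ∈ F.fixingSubgroup, σ • x ∈ AddSubgroup.zmultiples x) :
    addOrderOf x ≤ 2 * (m ^ 2).factorial * Module.finrank ℚ F := by
  by_cases hx : addOrderOf x = 0
  · rw [hx]
    exact Nat.zero_le _
  have hidx : F.fixingSubgroup.index = Module.finrank ℚ F :=
    (IntermediateField.finrank_eq_fixingSubgroup_index (AlgebraicClosure ℚ) F).symm
  have hfin : (AddSubgroup.zmultiples x :
      Set ((W.map (Int.castRingHom ℚ))⁄(AlgebraicClosure ℚ)).Point).Finite := by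
    have : Finite (AddSubgroup.zmultiples x) := by
      apply Nat.finite_of_card_ne_zero
      rw [Nat.card_zmultiples]
      exact hx
    exact Set.toFinite _
  have hcard : (AddSubgroup.zmultiples x :
      Set ((W.map (Int.castRingHom ℚ))⁄(AlgebraicClosure ℚ)).Point).ncard = addOrderOf x :=
    Nat.card_zmultiples x
  have h1 := sq_le_two_mul_card_order hΔ hx
  have h2 := card_order_le hΔ hm h x hx
  have h3 := ncard_orbit_le_of_mapsTo (G := Γℚ) F.fixingSubgroup
    (by rw [hidx]; exact Module.finrank_pos.ne') x hfin hst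
  rw [hidx, hcard] at h3
  have h4 : addOrderOf x * addOrderOf x ≤
      (2 * (m ^ 2).factorial * Module.finrank ℚ F) * addOrderOf x := by
    calc addOrderOf x * addOrderOf x = addOrderOf x ^ 2 := (sq _).symm
      _ ≤ 2 * ((m ^ 2).factorial * (MulAction.orbit Γℚ x).ncard) :=
          h1.trans (Nat.mul_le_mul_left 2 h2)
      _ ≤ 2 * ((m ^ 2).factorial * (Module.finrank ℚ F * addOrderOf x)) := by gcongr
      _ = (2 * (m ^ 2).factorial * Module.finrank ℚ F) * addOrderOf x := by ring
  exact Nat.le_of_mul_le_mul_right h4 (Nat.pos_of_ne_zero hx)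

/-- **The degrees of the cyclic isogenies over number fields, semistable curves**: there is a
constant `C` such that for every number field `F`, the order of a torsion point `x` whose multiples
are stable under `Gal(ℚ̄/F)` is at most `C [F : ℚ]`. -/
theorem exists_order_le_of_stable (hΔ : W.Δ ≠ 0) (hW : W.IsSemistableModel) :
    ∃ C : ℕ, C ≠ 0 ∧ ∀ (F : IntermediateField ℚ (AlgebraicClosure ℚ)) [FiniteDimensional ℚ F]
      (x : ((W.map (Int.castRingHom ℚ))⁄(AlgebraicClosure ℚ)).Point),
      (∀ σ ∈ F.fixingSubgroup, σ • x ∈ AddSubgroup.zmultiples x) →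
        addOrderOf x ≤ C * Module.finrank ℚ F := by
  obtain ⟨m, hm, h⟩ := exists_open_torsion hΔ hW
  exact ⟨2 * (m ^ 2).factorial, mul_ne_zero two_ne_zero (Nat.factorial_ne_zero _),
    fun F _ x hst => order_le_of_stable hΔ hm h F x hst⟩

/-- **The degrees of the cyclic isogenies over number fields, semistable curves**: there is a
constant `C` such that for every number field `F`, every finite cyclic subgroup `H` of `E(ℚ̄)`
which is stable under `Gal(ℚ̄/F)` has at most `C [F : ℚ]` elements. -/
theorem exists_card_le_of_stable (hΔ : W.Δ ≠ 0) (hW : W.IsSemistableModel) :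
    ∃ C : ℕ, C ≠ 0 ∧ ∀ (F : IntermediateField ℚ (AlgebraicClosure ℚ)) [FiniteDimensional ℚ F]
      (H : AddSubgroup ((W.map (Int.castRingHom ℚ))⁄(AlgebraicClosure ℚ)).Point) [IsAddCyclic H],
      (∀ σ ∈ F.fixingSubgroup, ∀ x ∈ H, σ • x ∈ H) → Nat.card H ≤ C * Module.finrank ℚ F := by
  obtain ⟨C, hC0, hC⟩ := exists_order_le_of_stable hΔ hW
  refine ⟨C, hC0, ?_⟩
  intro F _ H hcyc hst
  obtain ⟨x, hx⟩ := hcyc.exists_generator
  have hH : AddSubgroup.zmultiples (x : ((W.map (Int.castRingHom
      ℚ))⁄(AlgebraicClosure ℚ)).Point) = H := by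
    apply le_antisymm
    · rw [AddSubgroup.zmultiples_le]
      exact x.2
    · intro y hy
      obtain ⟨k, hk⟩ := AddSubgroup.mem_zmultiples_iff.mp (hx ⟨y, hy⟩)
      exact AddSubgroup.mem_zmultiples_iff.mpr ⟨k, congrArg Subtype.val hk⟩
  have h1 := hC F (x : ((W.map (Int.castRingHom ℚ))⁄(AlgebraicClosure ℚ)).Point)
    (fun σ hσ => by rw [hH]; exact hst σ hσ _ x.2)
  rw [← Nat.card_zmultiples, hH] at h1
  exact h1

end Fermat.Agent.Cor
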