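import Fermat.Agent.Corollaries.Surj.Open

/-!
# Lifting automorphisms of `W[p ^ n]` which are the identity on `W[p ^ k]`
-/

set_option autoImplicit false

noncomputable section

open WeierstrassCurve WeierstrassCurve.Affine.Point Module
open scoped WeierstrassCurve.Affine
open Fermat.Agent.Tate

namespace Fermat.Agent.Cor

local notation "Γℚ" => (AlgebraicClosure ℚ ≃ₐ[ℚ] AlgebraicClosure ℚ)

/-- the `n`-torsion points over `ℚ̄` -/
abbrev Tors (W : WeierstrassCurve ℤ) (n : ℕ) : Type :=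
  Submodule.torsionBy ℤ ((W.map (Int.castRingHom ℚ))⁄(AlgebraicClosure ℚ)).Point (n : ℤ)

section Lift

variable {W : WeierstrassCurve ℤ} {p : ℕ} [hp : Fact p.Prime]

/-- Invertible matrices modulo `p ^ n` lift. -/
theorem exists_lift_matrix (n : ℕ) (A : Matrix (Fin 2) (Fin 2) (ZMod (p ^ n)))
    (hdet : IsUnit A.det) : ∃ G : Matrix (Fin 2) (Fin 2) ℤ_[p], IsUnit G.det ∧
      G.map (PadicInt.toZModPow n) = A := by
  rcases Nat.eq_zero_or_pos n with rfl | hn
  · have : Subsingleton (ZMod (p ^ 0)) := by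
      rw [pow_zero]
      infer_instance
    exact ⟨1, by rw [Matrix.det_one]; exact isUnit_one, Subsingleton.elim _ _⟩
  · have hs : Function.Surjective (PadicInt.toZModPow (p := p) n) := ZMod.ringHom_surjective _
    choose f hf using hs
    have hB : (A.map f).map (PadicInt.toZModPow n) = A := by
      ext i j
      exact hf (A i j)
    refine ⟨A.map f, ?_, hB⟩
    by_contra hc
    rw [Serre.not_isUnit_iff] at hc
    have h1 : PadicInt.toZModPow n (A.map f).det = A.det := by
      rw [RingHom.map_det]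
      exact congrArg Matrix.det hB
    rw [← h1] at hdet
    obtain ⟨c, hc⟩ := hc
    rw [hc, map_mul, map_natCast] at hdet
    have h2 : IsUnit ((p : ℕ) : ZMod (p ^ n)) := isUnit_of_mul_isUnit_left hdet
    rw [ZMod.isUnit_iff_coprime, Nat.coprime_pow_right_iff hn, Nat.coprime_self] at h2
    exact hp.out.one_lt.ne' h2

/-- An automorphism of `W[p ^ n]` which is the identity on `W[p ^ k]` is given by an invertible
matrix `≡ 1` modulo `p ^ k`. -/
theorem Tb.exists_lift_congr (X : Tb W p) {n k : ℕ} (hk : k ≤ n)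
    (e : Tors W (p ^ n) ≃ₗ[ZMod (p ^ n)] Tors W (p ^ n))
    (he : ∀ x, (p ^ k : ℕ) • x = 0 → e x = x) :
    ∃ G : Matrix (Fin 2) (Fin 2) ℤ_[p], IsUnit G.det ∧ Serre.Cg p k G 1 ∧
      ∀ σ : Γℚ, Serre.Cg p n (X.M σ) G → ∀ x : Tors W (p ^ n), σ • x = e x := by
  obtain ⟨A, hA⟩ : ∃ A : Matrix (Fin 2) (Fin 2) (ZMod (p ^ n)),
      A = LinearMap.toMatrix (X.bn n) (X.bn n) e.toLinearMap := ⟨_, rfl⟩
  have hdet : IsUnit A.det := by
    rw [hA]
    exact LinearEquiv.isUnit_det e (X.bn n) (X.bn n)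
  obtain ⟨G, hG, hGA⟩ := exists_lift_matrix n A hdet
  refine ⟨G, hG, ?_, fun σ hσ x => ?_⟩
  · rw [Serre.cg_iff]
    intro i j
    -- `p ^ (n - k) • b j` is fixed by `e`
    have h1 : (p ^ (n - k) : ℕ) • (e (X.bn n j) - X.bn n j) = 0 := by
      rw [nsmul_sub, ← map_nsmul, he, sub_self]
      rw [← mul_smul, ← pow_add, Nat.add_sub_cancel' hk]
      refine Subtype.ext ?_
      have := (Submodule.mem_torsionBy_iff _ _).1 (X.bn n j).2
      rwa [natCast_zsmul] at this
    have h2 := congrArg (fun y => (X.bn n).repr y i) h1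
    simp only [map_nsmul, map_sub, _root_.map_zero, Finsupp.coe_zero, Pi.zero_apply,
      Finsupp.smul_apply, Finsupp.sub_apply, Basis.repr_self] at h2
    have h3 : (X.bn n).repr (e (X.bn n j)) i = A i j := by
      rw [hA, LinearMap.toMatrix_apply]
      rfl
    rw [h3, ← hGA, Matrix.map_apply, Finsupp.single_apply] at h2
    have h4 : PadicInt.toZModPow n ((p : ℤ_[p]) ^ (n - k) *
        (G i j - (1 : Matrix (Fin 2) (Fin 2) ℤ_[p]) i j)) = PadicInt.toZModPow n 0 := by
      rw [map_mul, map_sub, map_pow, map_natCast, _root_.map_zero, Matrix.one_apply]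
      rw [nsmul_eq_mul] at h2
      push_cast at h2
      have h5 : (if i = j then (1 : ℤ_[p]) else 0) = if j = i then (1 : ℤ_[p]) else 0 := by
        simp only [eq_comm (a := i)]
      rw [h5, apply_ite (PadicInt.toZModPow n), _root_.map_one, _root_.map_zero]
      exact h2
    have h5 := dvd_iff_toZModPow.2 h4
    rw [sub_zero] at h5
    obtain ⟨c, hc⟩ := h5
    refine ⟨c, ?_⟩
    have h6 : (p : ℤ_[p]) ^ (n - k) ≠ 0 := pow_ne_zero _ (Nat.cast_ne_zero.mpr hp.out.ne_zero)
    apply mul_left_cancel₀ h6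
    rw [hc, ← mul_assoc, ← pow_add, Nat.sub_add_cancel hk]
  · rw [Tb.cg_iff_map, ← X.map_M σ n, hGA, hA] at hσ
    exact LinearMap.congr_fun ((LinearMap.toMatrix (X.bn n) (X.bn n)).injective hσ) x

end Lift

end Fermat.Agent.Cor
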