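import Fermat.Agent.Corollaries.Isog.Loc
import Fermat.Agent.Corollaries.Surj.Basis
import Fermat.Agent.Corollaries.Surj.OpenTorsion

/-!
# The degree of torsion points, and the index of Galois in `Aut(E[n])`

`E` an elliptic curve over `ℚ`. The automorphisms of `E[n]` are transitive on the points of order
`n` (`exists_linearEquiv_apply_eq`), and there are at least `n² / 2` of them
(`sq_le_two_mul_card_order`).

`OpenTors W m` is the open image theorem at finite levels: every automorphism of `E[n]` which is the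
identity on the points killed by `m` comes from `Gal(ℚ̄/ℚ)`. It implies, with `M = (m²)!`:

* the index of the image of `Gal(ℚ̄/ℚ)` in `Aut(E[n])` is at most `M` (`index_range_le`);
* the orbit of a point `x` of order `n` has at least `#{points of order n} / M` elements
  (`card_order_le`), so `n² ≤ 2 M [F : ℚ]` if `x` is defined over `F` (`sq_le_finrank`).
-/

set_option autoImplicit false

noncomputable section

open WeierstrassCurve WeierstrassCurve.Affine.Point Module
open scoped WeierstrassCurve.Affine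
open Fermat.Agent.Tate

namespace Fermat.Agent.Cor

local notation "Γℚ" => (AlgebraicClosure ℚ ≃ₐ[ℚ] AlgebraicClosure ℚ)

/-- **The open image theorem at finite levels**: every automorphism of `E[n]` which is the identity
on the points killed by `m` comes from `Gal(ℚ̄/ℚ)`. -/
def OpenTors (W : WeierstrassCurve ℤ) (m : ℕ) : Prop :=
  ∀ n : ℕ, n ≠ 0 → ∀ g : Tors W n ≃ₗ[ZMod n] Tors W n, (∀ x, m • x = 0 → g x = x) →
    ∃ σ : Γℚ, ∀ x : Tors W n, σ • x = g x

/-! ### Transitivity -/

section Unimodular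

variable {n : ℕ}

/-- A vector of order `n` of `(ℤ/n)²` is unimodular. -/
theorem exists_bezout_of_order (hn : n ≠ 0) {v : Fin 2 → ZMod n} (hv : addOrderOf v = n) :
    ∃ u w : ZMod n, u * v 0 + w * v 1 = 1 := by
  have : NeZero n := ⟨hn⟩
  set a := (v 0).val with ha
  set b := (v 1).val with hb
  have ha' : (a : ZMod n) = v 0 := ZMod.natCast_zmod_val _
  have hb' : (b : ZMod n) = v 1 := ZMod.natCast_zmod_val _
  -- `gcd (a, b)` is prime to `n`
  have hcop : Nat.Coprime (Nat.gcd a b) n := by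
    rw [Nat.coprime_iff_gcd_eq_one]
    set d := Nat.gcd (Nat.gcd a b) n with hd
    have hdn : d ∣ n := Nat.gcd_dvd_right _ _
    have hda : d ∣ a := (Nat.gcd_dvd_left _ _).trans (Nat.gcd_dvd_left _ _)
    have hdb : d ∣ b := (Nat.gcd_dvd_left _ _).trans (Nat.gcd_dvd_right _ _)
    obtain ⟨c, hc⟩ := hdn
    have hc0 : c ≠ 0 := fun h => hn (by rw [hc, h, mul_zero])
    have h1 : c • v = 0 := by
      have key : ∀ e : ℕ, d ∣ e → (c : ZMod n) * (e : ZMod n) = 0 := by
        rintro e ⟨k, rfl⟩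
        rw [← Nat.cast_mul, ← mul_assoc, mul_comm c d, ← hc, Nat.cast_mul, ZMod.natCast_self,
          zero_mul]
      ext i
      rw [Pi.smul_apply, nsmul_eq_mul, Pi.zero_apply]
      fin_cases i
      · change (c : ZMod n) * v 0 = 0
        rw [← ha']
        exact key a hda
      · change (c : ZMod n) * v 1 = 0
        rw [← hb']
        exact key b hdb
    have h2 : n ∣ c := by
      rw [← hv]
      exact addOrderOf_dvd_of_nsmul_eq_zero h1
    have h3 : n ≤ c := Nat.le_of_dvd (Nat.pos_of_ne_zero hc0) h2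
    have h4 : 0 < n := Nat.pos_of_ne_zero hn
    have h5 : d * n ≤ 1 * n := by
      calc d * n ≤ d * c := Nat.mul_le_mul_left _ h3
        _ = 1 * n := by rw [← hc, one_mul]
    have h6 : d ≤ 1 := Nat.le_of_mul_le_mul_right h5 h4
    have h7 : d ≠ 0 := fun h => hn (by rw [hc, h, zero_mul])
    omega
  obtain ⟨t, ht⟩ : ∃ t : ZMod n, (Nat.gcd a b : ZMod n) * t = 1 := by
    have h1 : IsUnit ((Nat.gcd a b : ℕ) : ZMod n) := (ZMod.isUnit_iff_coprime _ _).mpr hcop
    exact h1.exists_right_inv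
  have hbez : ((Nat.gcd a b : ℕ) : ℤ) = a * Nat.gcdA a b + b * Nat.gcdB a b :=
    Nat.gcd_eq_gcd_ab a b
  refine ⟨t * (Nat.gcdA a b : ℤ), t * (Nat.gcdB a b : ℤ), ?_⟩
  have h2 : ((Nat.gcd a b : ℕ) : ZMod n) = v 0 * ((Nat.gcdA a b : ℤ) : ZMod n) +
      v 1 * ((Nat.gcdB a b : ℤ) : ZMod n) := by
    have := congrArg (fun z : ℤ => (z : ZMod n)) hbez
    push_cast at this
    rw [ha', hb'] at this
    exact this
  rw [h2] at ht
  linear_combination ht

/-- The automorphisms of `(ℤ/n)²` are transitive on the vectors of order `n`. -/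
theorem exists_linearEquiv_single (hn : n ≠ 0) {v : Fin 2 → ZMod n} (hv : addOrderOf v = n) :
    ∃ g : (Fin 2 → ZMod n) ≃ₗ[ZMod n] (Fin 2 → ZMod n), g (Pi.single 0 1) = v := by
  obtain ⟨u, w, huw⟩ := exists_bezout_of_order hn hv
  set M : Matrix (Fin 2) (Fin 2) (ZMod n) := !![v 0, -w; v 1, u] with hM
  have hdet : M.det = 1 := by
    rw [hM, Matrix.det_fin_two_of]
    linear_combination huw
  refine ⟨Matrix.toLin'OfInv (M := M⁻¹) (M' := M)
    (Matrix.nonsing_inv_mul M (by rw [hdet]; exact isUnit_one))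
    (Matrix.mul_nonsing_inv M (by rw [hdet]; exact isUnit_one)), ?_⟩
  change Matrix.toLin' M (Pi.single 0 1) = v
  rw [Matrix.toLin'_apply, Matrix.mulVec_single_one]
  ext i
  fin_cases i <;> simp [hM]

end Unimodular

variable {W : WeierstrassCurve ℤ}

theorem nsmul_tors_eq_zero {n : ℕ} (x : Tors W n) : n • x = 0 := by
  refine Subtype.ext ?_
  have := (Submodule.mem_torsionBy_iff _ _).1 x.2
  rwa [natCast_zsmul] at this

/-- **The automorphisms of `E[n]` are transitive on the points of order `n`.** -/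
theorem exists_linearEquiv_apply_eq (hΔ : W.Δ ≠ 0) {n : ℕ} (hn : n ≠ 0) {x y : Tors W n}
    (hx : addOrderOf x = n) (hy : addOrderOf y = n) :
    ∃ g : Tors W n ≃ₗ[ZMod n] Tors W n, g x = y := by
  obtain ⟨b⟩ := exists_basis_torsionBy hΔ hn
  have key : ∀ z : Tors W n, addOrderOf z = n →
      ∃ g : (Fin 2 → ZMod n) ≃ₗ[ZMod n] Tors W n, g (Pi.single 0 1) = z := by
    intro z hz
    obtain ⟨g, hg⟩ := exists_linearEquiv_single hn (v := b.equivFun z) (by
      have h1 := addOrderOf_injective b.equivFun.toLinearMap.toAddMonoidHom b.equivFun.injective z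
      exact h1.trans hz)
    refine ⟨g.trans b.equivFun.symm, ?_⟩
    rw [LinearEquiv.trans_apply, hg, b.equivFun.symm_apply_apply]
  obtain ⟨g, hg⟩ := key x hx
  obtain ⟨h, hh⟩ := key y hy
  refine ⟨g.symm.trans h, ?_⟩
  rw [LinearEquiv.trans_apply, ← hg, g.symm_apply_apply, hh]

/-! ### The index -/

/-- The action of Galois on `E[n]`. -/
def torsAut (W : WeierstrassCurve ℤ) (n : ℕ) : Γℚ →* (Tors W n ≃ₗ[ZMod n] Tors W n) :=
  (LinearMap.GeneralLinearGroup.generalLinearEquiv (ZMod n) (Tors W n)).toMonoidHom.comp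
    (galoisRepModuleEnd (K := AlgebraicClosure ℚ) ℚ (W.map (Int.castRingHom ℚ)) n).toHomUnits

theorem torsAut_apply (n : ℕ) (σ : Γℚ) (x : Tors W n) : torsAut W n σ x = σ • x := rfl

theorem finite_tors (hΔ : W.Δ ≠ 0) {n : ℕ} (hn : n ≠ 0) : Finite (Tors W n) := by
  apply Nat.finite_of_card_ne_zero
  rw [Fermat.Agent.Torsion.card_torsionBy_rat (map_Δ_ne_zero hΔ) hn]
  exact pow_ne_zero _ hn

/-- **The index of the image of Galois in `Aut(E[n])` is bounded.** -/
theorem index_range_le (hΔ : W.Δ ≠ 0) {m : ℕ} (hm : m ≠ 0) (h : OpenTors W m) {n : ℕ}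
    (hn : n ≠ 0) : (torsAut W n).range.index ≠ 0 ∧ (torsAut W n).range.index ≤ (m ^ 2).factorial := by
  classical
  have hfin := finite_tors hΔ hn
  have hfinA : Finite (Tors W n ≃ₗ[ZMod n] Tors W n) :=
    Finite.of_injective (fun g : Tors W n ≃ₗ[ZMod n] Tors W n => (g : Tors W n → Tors W n))
      DFunLike.coe_injective
  refine ⟨Subgroup.index_ne_zero_of_finite, ?_⟩
  -- the points killed by `m`
  set T : Type := {x : Tors W n // m • x = 0} with hT
  have hTcard : Nat.card T ≤ m ^ 2 := by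
    rw [← Isog.card_torsion hΔ hm]
    have hfm : Finite {x : Mazur.Pt W // m • x = 0} := by
      apply Nat.finite_of_card_ne_zero
      rw [Isog.card_torsion hΔ hm]
      exact pow_ne_zero _ hm
    refine Nat.card_le_card_of_injective
      (fun x : T => (⟨(x.1 : ((W.map (Int.castRingHom ℚ))⁄(AlgebraicClosure ℚ)).Point),
        congrArg Subtype.val x.2⟩ : {x : Mazur.Pt W // m • x = 0})) ?_
    intro x y hxy
    have h1 := congrArg Subtype.val hxy
    exact Subtype.ext (Subtype.ext h1)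
  let φ : (Tors W n ≃ₗ[ZMod n] Tors W n) →* Equiv.Perm T :=
    { toFun := fun g =>
        { toFun := fun x => ⟨g x.1, by rw [← map_nsmul, x.2, _root_.map_zero]⟩
          invFun := fun x => ⟨g.symm x.1, by rw [← map_nsmul, x.2, _root_.map_zero]⟩
          left_inv := fun x => Subtype.ext (g.symm_apply_apply x.1)
          right_inv := fun x => Subtype.ext (g.apply_symm_apply x.1) }
      map_one' := rfl
      map_mul' := fun _ _ => rfl }
  have hle : φ.ker ≤ (torsAut W n).range := by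
    intro g hg
    obtain ⟨σ, hσ⟩ := h n hn g fun x hx => by
      have h1 := congrArg (fun e : Equiv.Perm T => ((e ⟨x, hx⟩ : T) : Tors W n))
        (MonoidHom.mem_ker.mp hg)
      exact h1
    exact ⟨σ, LinearEquiv.ext hσ⟩
  have h1 : (torsAut W n).range.index ≤ φ.ker.index :=
    Nat.le_of_dvd (Nat.pos_of_ne_zero Subgroup.index_ne_zero_of_finite)
      (Subgroup.index_dvd_of_le hle)
  have h2 : φ.ker.index ≤ Nat.card (Equiv.Perm T) := by
    rw [Subgroup.index_ker]
    exact Nat.card_le_card_of_injective _ Subtype.val_injective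
  rw [Nat.card_perm] at h2
  exact (h1.trans h2).trans (Nat.factorial_le hTcard)

/-! ### The orbits -/

/-- Orbits of a subgroup of finite index, if the group is transitive. -/
theorem card_le_index_mul_orbit {A X : Type*} [Group A] [MulAction A X] (G : Subgroup A)
    (hG : G.index ≠ 0) (S : Set X) {x : X} (hS : ∀ y ∈ S, ∃ g : A, g • x = y)
    (hfin : (MulAction.orbit G x).Finite) :
    S.ncard ≤ G.index * (MulAction.orbit G x).ncard := by
  classical
  have hfinQ : Finite (A ⧸ G) := Nat.finite_of_card_ne_zero hG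
  have hfinO : Finite (MulAction.orbit G x) := hfin.to_subtype
  let F : (A ⧸ G) × MulAction.orbit G x → X := fun c => c.1.out • (c.2 : X)
  have hsub : S ⊆ Set.range F := by
    intro y hy
    obtain ⟨g, rfl⟩ := hS y hy
    have h1 : (QuotientGroup.mk (s := G) g).out⁻¹ * g ∈ G := by
      rw [← QuotientGroup.eq]
      exact QuotientGroup.out_eq' _
    refine ⟨(QuotientGroup.mk g, ⟨((QuotientGroup.mk (s := G) g).out⁻¹ * g) • x,
      ⟨⟨_, h1⟩, rfl⟩⟩), ?_⟩
    change (QuotientGroup.mk (s := G) g).out • ((QuotientGroup.mk (s := G) g).out⁻¹ * g) • x = g • x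
    rw [← mul_smul, mul_inv_cancel_left]
  calc S.ncard ≤ (Set.range F).ncard := Set.ncard_le_ncard hsub (Set.finite_range F)
    _ ≤ Nat.card ((A ⧸ G) × MulAction.orbit G x) := by
        rw [← Set.image_univ, ← Set.ncard_univ]
        exact Set.ncard_image_le
    _ = G.index * (MulAction.orbit G x).ncard := by
        rw [Nat.card_prod]
        rfl

/-- the orbits on `E[n]` and on `E(ℚ̄)` -/
theorem ncard_orbit_tors {n : ℕ} (x : Tors W n) :
    (MulAction.orbit (torsAut W n).range x).ncard =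
      (MulAction.orbit Γℚ (x : ((W.map (Int.castRingHom ℚ))⁄(AlgebraicClosure ℚ)).Point)).ncard := by
  have h1 : (Subtype.val : Tors W n → _) '' MulAction.orbit (torsAut W n).range x =
      MulAction.orbit Γℚ (x : ((W.map (Int.castRingHom ℚ))⁄(AlgebraicClosure ℚ)).Point) := by
    ext y
    constructor
    · rintro ⟨_, ⟨⟨_, σ, rfl⟩, rfl⟩, rfl⟩
      exact ⟨σ, rfl⟩
    · rintro ⟨σ, rfl⟩
      exact ⟨σ • x, ⟨⟨_, σ, rfl⟩, rfl⟩, rfl⟩
  rw [← h1, Set.ncard_image_of_injective _ Subtype.val_injective]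

theorem finite_killed_by (hΔ : W.Δ ≠ 0) {n : ℕ} (hn : n ≠ 0) :
    {x : ((W.map (Int.castRingHom ℚ))⁄(AlgebraicClosure ℚ)).Point | n • x = 0}.Finite := by
  have : Finite {x : Mazur.Pt W // n • x = 0} := by
    apply Nat.finite_of_card_ne_zero
    rw [Isog.card_torsion hΔ hn]
    exact pow_ne_zero _ hn
  exact Set.finite_coe_iff.mp this

/-- **The orbit of a torsion point**: it contains at least the fraction `1 / (m²)!` of the points
of the same order. -/
theorem card_order_le (hΔ : W.Δ ≠ 0) {m : ℕ} (hm : m ≠ 0) (h : OpenTors W m)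
    (x : ((W.map (Int.castRingHom ℚ))⁄(AlgebraicClosure ℚ)).Point) (hx : addOrderOf x ≠ 0) :
    {y : ((W.map (Int.castRingHom ℚ))⁄(AlgebraicClosure ℚ)).Point |
      addOrderOf y = addOrderOf x}.ncard ≤ (m ^ 2).factorial * (MulAction.orbit Γℚ x).ncard := by
  classical
  obtain ⟨n, hn⟩ : ∃ n, n = addOrderOf x := ⟨_, rfl⟩
  rw [← hn] at hx ⊢
  have hmem : ∀ y : ((W.map (Int.castRingHom ℚ))⁄(AlgebraicClosure ℚ)).Point, addOrderOf y = n →
      y ∈ Submodule.torsionBy ℤ ((W.map (Int.castRingHom ℚ))⁄(AlgebraicClosure ℚ)).Point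
        (n : ℤ) := by
    intro y hy
    rw [Submodule.mem_torsionBy_iff, natCast_zsmul, ← hy]
    exact addOrderOf_nsmul_eq_zero y
  have hordE : ∀ y : Tors W n, addOrderOf y =
      addOrderOf (y : ((W.map (Int.castRingHom ℚ))⁄(AlgebraicClosure ℚ)).Point) := fun y =>
    (addOrderOf_injective (Submodule.subtype (Submodule.torsionBy ℤ
      ((W.map (Int.castRingHom ℚ))⁄(AlgebraicClosure ℚ)).Point (n : ℤ))).toAddMonoidHom
      Subtype.val_injective y).symm
  set x' : Tors W n := ⟨x, hmem x hn.symm⟩ with hx'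
  have hfin := finite_tors hΔ hx
  have h1 := card_le_index_mul_orbit (torsAut W n).range (index_range_le hΔ hm h hx).1
    {y : Tors W n | addOrderOf y = n} (x := x')
    (fun y hy => by
      obtain ⟨g, hg⟩ := exists_linearEquiv_apply_eq hΔ hx (x := x') (y := y)
        (by rw [hordE, hx']; exact hn.symm) hy
      exact ⟨g, hg⟩) (Set.toFinite _)
  rw [ncard_orbit_tors] at h1
  have h2 : {y : ((W.map (Int.castRingHom ℚ))⁄(AlgebraicClosure ℚ)).Point | addOrderOf y = n} =
      Subtype.val '' {y : Tors W n | addOrderOf y = n} := by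
    ext y
    constructor
    · intro hy
      exact ⟨⟨y, hmem y hy⟩, (hordE _).trans hy, rfl⟩
    · rintro ⟨z, hz, rfl⟩
      exact (hordE z).symm.trans hz
  rw [h2, Set.ncard_image_of_injective _ Subtype.val_injective]
  exact h1.trans (Nat.mul_le_mul_right _ (index_range_le hΔ hm h hx).2)

/-! ### The number of points of order `n` -/

theorem sum_range_inv_sq_le (J : ℕ) :
    ∑ j ∈ Finset.range J, (1 : ℚ) / (2 * (j : ℚ) + 3) ^ 2 ≤ 1 / 4 * (1 - 1 / ((J : ℚ) + 1)) := by
  induction J with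
  | zero => simp
  | succ J ih =>
    rw [Finset.sum_range_succ]
    have h1 : (1 : ℚ) / (2 * (J : ℚ) + 3) ^ 2 ≤
        1 / 4 * (1 / ((J : ℚ) + 1) - 1 / ((J : ℚ) + 1 + 1)) := by
      have h2 : (1 / 4 * (1 / ((J : ℚ) + 1) - 1 / ((J : ℚ) + 1 + 1)) : ℚ) =
          1 / (4 * (((J : ℚ) + 1) * ((J : ℚ) + 2))) := by
        field_simp
        ring
      rw [h2]
      apply one_div_le_one_div_of_le
      · positivity
      · nlinarith
    push_cast
    linarith

/-- The sum of `1 / p²` over a finite set of primes is at most `1 / 2`. -/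
theorem sum_inv_sq_primes_le {s : Finset ℕ} (hs : ∀ p ∈ s, p.Prime) :
    ∑ p ∈ s, (1 : ℚ) / (p : ℚ) ^ 2 ≤ 1 / 2 := by
  classical
  have hsub : s ⊆ insert 2 ((Finset.range (s.sup id)).image fun j => 2 * j + 3) := by
    intro p hp
    rw [Finset.mem_insert, Finset.mem_image]
    rcases (hs p hp).eq_two_or_odd' with h | h
    · exact Or.inl h
    · right
      obtain ⟨k, hk⟩ := h
      have h2 := (hs p hp).two_le
      have h3 : p ≤ s.sup id := Finset.le_sup (f := id) hp
      exact ⟨k - 1, Finset.mem_range.mpr (by omega), by omega⟩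
  have h1 : ∑ p ∈ s, (1 : ℚ) / (p : ℚ) ^ 2 ≤
      ∑ p ∈ (insert 2 ((Finset.range (s.sup id)).image fun j => 2 * j + 3) : Finset ℕ),
        (1 : ℚ) / (p : ℚ) ^ 2 :=
    Finset.sum_le_sum_of_subset_of_nonneg hsub fun _ _ _ => by positivity
  have h2 : ∑ p ∈ (insert 2 ((Finset.range (s.sup id)).image fun j => 2 * j + 3) : Finset ℕ),
      (1 : ℚ) / (p : ℚ) ^ 2 =
      1 / 4 + ∑ j ∈ Finset.range (s.sup id), (1 : ℚ) / (2 * (j : ℚ) + 3) ^ 2 := by
    have h3 : 2 ∉ (Finset.range (s.sup id)).image fun j => 2 * j + 3 := by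
      rw [Finset.mem_image]
      rintro ⟨j, -, hj⟩
      omega
    have h4 : ∑ p ∈ ((Finset.range (s.sup id)).image (fun j => 2 * j + 3) : Finset ℕ),
        (1 : ℚ) / (p : ℚ) ^ 2 =
        ∑ j ∈ Finset.range (s.sup id), (1 : ℚ) / (((2 * j + 3 : ℕ) : ℚ)) ^ 2 :=
      Finset.sum_image fun a _ b _ h => by
        have : 2 * a + 3 = 2 * b + 3 := h
        omega
    rw [Finset.sum_insert h3, h4]
    have h5 : (1 : ℚ) / ((2 : ℕ) : ℚ) ^ 2 = 1 / 4 := by norm_num
    rw [h5]
    congr 1
    refine Finset.sum_congr rfl fun j _ => ?_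
    push_cast
    rfl
  have h3 := sum_range_inv_sq_le (s.sup id)
  have h4 : (0 : ℚ) ≤ 1 / (((s.sup id : ℕ) : ℚ) + 1) := by positivity
  linarith

/-- `#{points of order n} ≥ n² / 2`. -/
theorem sq_le_two_mul_card_order (hΔ : W.Δ ≠ 0) {n : ℕ} (hn : n ≠ 0) :
    n ^ 2 ≤ 2 * {y : ((W.map (Int.castRingHom ℚ))⁄(AlgebraicClosure ℚ)).Point |
      addOrderOf y = n}.ncard := by
  classical
  have hcard : ∀ d : ℕ, d ≠ 0 →
      {x : ((W.map (Int.castRingHom ℚ))⁄(AlgebraicClosure ℚ)).Point | d • x = 0}.ncard = d ^ 2 :=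
    fun d hd => Isog.card_torsion hΔ hd
  set S : Set ((W.map (Int.castRingHom ℚ))⁄(AlgebraicClosure ℚ)).Point :=
    {y | addOrderOf y = n} with hS
  have hfinS : S.Finite := (finite_killed_by hΔ hn).subset fun y hy => by
    have h1 : addOrderOf y = n := hy
    rw [Set.mem_ofPred_eq, ← h1]
    exact addOrderOf_nsmul_eq_zero y
  have hsub : {x : ((W.map (Int.castRingHom ℚ))⁄(AlgebraicClosure ℚ)).Point | n • x = 0} ⊆
      S ∪ ⋃ p ∈ n.primeFactors,
        {x : ((W.map (Int.castRingHom ℚ))⁄(AlgebraicClosure ℚ)).Point | (n / p) • x = 0} := by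
    intro x hx
    by_cases hxn : addOrderOf x = n
    · exact Or.inl hxn
    · right
      have hd : addOrderOf x ∣ n := addOrderOf_dvd_of_nsmul_eq_zero hx
      obtain ⟨c, hc⟩ := hd
      have hc1 : c ≠ 1 := fun h => hxn (by rw [hc, h, mul_one])
      obtain ⟨p, hp, hpc⟩ := Nat.exists_prime_and_dvd hc1
      obtain ⟨k, hk⟩ := hpc
      refine Set.mem_biUnion (x := p) ?_ ?_
      · exact Nat.mem_primeFactors.mpr ⟨hp, ⟨addOrderOf x * k, by rw [hc, hk]; ring⟩, hn⟩
      · have h1 : n / p = addOrderOf x * k := by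
          rw [hc, hk, show addOrderOf x * (p * k) = (addOrderOf x * k) * p by ring,
            Nat.mul_div_cancel _ hp.pos]
        rw [Set.mem_ofPred_eq, h1, mul_comm, mul_smul, addOrderOf_nsmul_eq_zero]
        exact smul_zero (M := ℕ) (A := ((W.map (Int.castRingHom ℚ))⁄(AlgebraicClosure ℚ)).Point) k
  have hbound : n ^ 2 ≤ S.ncard + ∑ p ∈ n.primeFactors, (n / p) ^ 2 := by
    have hfin : ∀ p ∈ n.primeFactors, {x : ((W.map (Int.castRingHom ℚ))⁄(AlgebraicClosure
        ℚ)).Point | (n / p) • x = 0}.Finite := by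
      intro p hp
      refine finite_killed_by hΔ ?_
      have hpn := Nat.dvd_of_mem_primeFactors hp
      exact (Nat.div_pos (Nat.le_of_dvd (Nat.pos_of_ne_zero hn) hpn)
        (Nat.prime_of_mem_primeFactors hp).pos).ne'
    calc n ^ 2 = {x : ((W.map (Int.castRingHom ℚ))⁄(AlgebraicClosure ℚ)).Point |
          n • x = 0}.ncard := (hcard n hn).symm
      _ ≤ (S ∪ ⋃ p ∈ n.primeFactors, {x : ((W.map (Int.castRingHom ℚ))⁄(AlgebraicClosure
          ℚ)).Point | (n / p) • x = 0}).ncard :=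
        Set.ncard_le_ncard hsub (hfinS.union (Set.Finite.biUnion (Finset.finite_toSet _) hfin))
      _ ≤ S.ncard + (⋃ p ∈ n.primeFactors, {x : ((W.map (Int.castRingHom ℚ))⁄(AlgebraicClosure
          ℚ)).Point | (n / p) • x = 0}).ncard := Set.ncard_union_le _ _
      _ ≤ S.ncard + ∑ p ∈ n.primeFactors, {x : ((W.map (Int.castRingHom ℚ))⁄(AlgebraicClosure
          ℚ)).Point | (n / p) • x = 0}.ncard := by
        gcongr
        exact Finset.set_ncard_biUnion_le _ _
      _ = S.ncard + ∑ p ∈ n.primeFactors, (n / p) ^ 2 := by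
        congr 1
        refine Finset.sum_congr rfl fun p hp => hcard _ ?_
        have hpn := Nat.dvd_of_mem_primeFactors hp
        exact (Nat.div_pos (Nat.le_of_dvd (Nat.pos_of_ne_zero hn) hpn)
          (Nat.prime_of_mem_primeFactors hp).pos).ne'
  have hQ : ∑ p ∈ n.primeFactors, (((n / p : ℕ) : ℚ)) ^ 2 ≤ (n : ℚ) ^ 2 * (1 / 2) := by
    have h1 : ∑ p ∈ n.primeFactors, (((n / p : ℕ) : ℚ)) ^ 2 =
        (n : ℚ) ^ 2 * ∑ p ∈ n.primeFactors, 1 / (p : ℚ) ^ 2 := by
      rw [Finset.mul_sum]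
      refine Finset.sum_congr rfl fun p hp => ?_
      rw [Nat.cast_div (Nat.dvd_of_mem_primeFactors hp)
        (Nat.cast_ne_zero.mpr (Nat.prime_of_mem_primeFactors hp).ne_zero)]
      ring
    rw [h1]
    gcongr
    exact sum_inv_sq_primes_le fun p hp => Nat.prime_of_mem_primeFactors hp
  have hb : (n : ℚ) ^ 2 ≤ S.ncard + ∑ p ∈ n.primeFactors, (((n / p : ℕ) : ℚ)) ^ 2 := by
    exact_mod_cast hbound
  have hfinal : (n : ℚ) ^ 2 ≤ 2 * S.ncard := by linarith
  exact_mod_cast hfinal

/-- **The degree of a torsion point**: a point of order `n` defined over `F` satisfies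
`n² ≤ 2 (m²)! [F : ℚ]`. -/
theorem sq_le_finrank (hΔ : W.Δ ≠ 0) {m : ℕ} (hm : m ≠ 0) (h : OpenTors W m)
    (F : IntermediateField ℚ (AlgebraicClosure ℚ)) [FiniteDimensional ℚ F]
    (x : ((W.map (Int.castRingHom ℚ))⁄(AlgebraicClosure ℚ)).Point)
    (hfix : ∀ σ ∈ F.fixingSubgroup, σ • x = x) :
    addOrderOf x ^ 2 ≤ 2 * (m ^ 2).factorial * Module.finrank ℚ F := by
  by_cases hx : addOrderOf x = 0
  · rw [hx]
    exact Nat.zero_le _
  have h1 := sq_le_two_mul_card_order hΔ hx
  have h2 := card_order_le hΔ hm h x hx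
  have h3 : (MulAction.orbit Γℚ x).ncard ≤ Module.finrank ℚ F := by
    rw [← MulAction.index_stabilizer, IntermediateField.finrank_eq_fixingSubgroup_index
      (AlgebraicClosure ℚ) F]
    refine Nat.le_of_dvd ?_ (Subgroup.index_dvd_of_le fun σ hσ => ?_)
    · rw [← IntermediateField.finrank_eq_fixingSubgroup_index]
      exact Module.finrank_pos
    · exact hfix σ hσ
  calc addOrderOf x ^ 2 ≤ 2 * ((m ^ 2).factorial * (MulAction.orbit Γℚ x).ncard) :=
        h1.trans (Nat.mul_le_mul_left 2 h2)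
    _ ≤ 2 * ((m ^ 2).factorial * Module.finrank ℚ F) := by gcongr
    _ = 2 * (m ^ 2).factorial * Module.finrank ℚ F := by ring

/-! ### Semistable curves -/

/-- **Serre's open image theorem, semistable curves**: the index of the image of `Gal(ℚ̄/ℚ)` in
`Aut(E[n])` is bounded, independently of `n`. -/
theorem exists_index_le (hΔ : W.Δ ≠ 0) (hW : W.IsSemistableModel) :
    ∃ M : ℕ, ∀ n : ℕ, n ≠ 0 → (torsAut W n).range.index ≠ 0 ∧ (torsAut W n).range.index ≤ M := by
  obtain ⟨m, hm, h⟩ := exists_open_torsion hΔ hW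
  exact ⟨(m ^ 2).factorial, fun n hn => index_range_le hΔ hm h hn⟩

/-- **The degree of torsion points, semistable curves**: a point of `E` of order `n` over a number
field `K` satisfies `n² ≤ C [K : ℚ]`, with a constant `C` which depends only on `E`. -/
theorem exists_sq_addOrderOf_le (hΔ : W.Δ ≠ 0) (hW : W.IsSemistableModel) :
    ∃ C : ℕ, C ≠ 0 ∧ ∀ (K : Type*) [Field K] [NumberField K] [DecidableEq K]
      (x : ((W.map (Int.castRingHom ℚ))⁄K).Point), addOrderOf x ^ 2 ≤ C * Module.finrank ℚ K := by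
  obtain ⟨m, hm, h⟩ := exists_open_torsion hΔ hW
  refine ⟨2 * (m ^ 2).factorial, mul_ne_zero two_ne_zero (Nat.factorial_ne_zero _), ?_⟩
  intro K _ _ _ x
  obtain ⟨f⟩ : Nonempty (K →ₐ[ℚ] AlgebraicClosure ℚ) := ⟨IsAlgClosed.lift⟩
  have hfd : FiniteDimensional ℚ f.fieldRange :=
    (AlgEquiv.ofInjectiveField f).toLinearEquiv.finiteDimensional
  have h1 := sq_le_finrank hΔ hm h f.fieldRange
    (Affine.Point.map (W' := W.map (Int.castRingHom ℚ)) f x) (fun σ hσ => by
      have h2 : (σ : AlgebraicClosure ℚ →ₐ[ℚ] AlgebraicClosure ℚ).comp f = f := by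
        ext a
        exact (IntermediateField.mem_fixingSubgroup_iff _ _).mp hσ _ ⟨a, rfl⟩
      rw [algEquiv_smul_def, Affine.Point.map_map]
      exact congrArg (fun g : K →ₐ[ℚ] AlgebraicClosure ℚ =>
        Affine.Point.map (W' := W.map (Int.castRingHom ℚ)) g x) h2)
  rw [addOrderOf_injective _ (Affine.Point.map_injective f)] at h1
  have h2 : Module.finrank ℚ f.fieldRange = Module.finrank ℚ K :=
    (LinearEquiv.finrank_eq (AlgEquiv.ofInjectiveField f).toLinearEquiv).symm
  rwa [h2] at h1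

/-- **Torsion over number fields, semistable curves**: `#E(K)_tors ≤ C [K : ℚ]` for all number fields
`K`, with a constant `C` which depends only on `E`. -/
theorem exists_card_torsion_le (hΔ : W.Δ ≠ 0) (hW : W.IsSemistableModel) :
    ∃ C : ℕ, C ≠ 0 ∧ ∀ (K : Type*) [Field K] [NumberField K] [DecidableEq K],
      {x : ((W.map (Int.castRingHom ℚ))⁄K).Point | addOrderOf x ≠ 0}.Finite ∧
      {x : ((W.map (Int.castRingHom ℚ))⁄K).Point | addOrderOf x ≠ 0}.ncard ≤
        C * Module.finrank ℚ K := by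
  obtain ⟨C, hC0, hC⟩ := exists_sq_addOrderOf_le hΔ hW
  refine ⟨C, hC0, ?_⟩
  intro K _ _ _
  obtain ⟨f⟩ : Nonempty (K →ₐ[ℚ] AlgebraicClosure ℚ) := ⟨IsAlgClosed.lift⟩
  set F := Affine.Point.map (W' := W.map (Int.castRingHom ℚ)) f with hF
  have hinj : Function.Injective F := Affine.Point.map_injective f
  set T : AddSubgroup ((W.map (Int.castRingHom ℚ))⁄K).Point := AddCommGroup.torsion _ with hT
  have hTS : (T : Set ((W.map (Int.castRingHom ℚ))⁄K).Point) = {x | addOrderOf x ≠ 0} := by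
    ext x
    rw [SetLike.mem_coe, Set.mem_ofPred_eq, ← Nat.pos_iff_ne_zero, addOrderOf_pos_iff]
    rfl
  -- killed by `n`
  have hkill : ∀ n : ℕ, n ≠ 0 → (∀ x ∈ T, n • x = 0) → (T : Set ((W.map (Int.castRingHom ℚ))⁄K).Point).Finite ∧
      (T : Set ((W.map (Int.castRingHom ℚ))⁄K).Point).ncard ≤ n ^ 2 := by
    intro n hn h
    have hmaps : Set.MapsTo F (T : Set ((W.map (Int.castRingHom ℚ))⁄K).Point)
        {y : ((W.map (Int.castRingHom ℚ))⁄(AlgebraicClosure ℚ)).Point | n • y = 0} := by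
      intro x hx
      have h1 : n • F x = 0 := by rw [← map_nsmul, h x hx, _root_.map_zero]
      exact h1
    have hfin := finite_killed_by hΔ hn
    have hcard : {y : ((W.map (Int.castRingHom ℚ))⁄(AlgebraicClosure ℚ)).Point |
      n • y = 0}.ncard = n ^ 2 := Isog.card_torsion hΔ hn
    refine ⟨Set.Finite.of_injOn hmaps hinj.injOn hfin, ?_⟩
    rw [← hcard]
    exact Set.ncard_le_ncard_of_injOn _ hmaps hinj.injOn hfin
  -- finiteness
  have hpos : 0 < C * Module.finrank ℚ K :=
    Nat.mul_pos (Nat.pos_of_ne_zero hC0) Module.finrank_pos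
  have hfin : (T : Set ((W.map (Int.castRingHom ℚ))⁄K).Point).Finite := by
    refine (hkill (C * Module.finrank ℚ K).factorial (Nat.factorial_ne_zero _) fun x hx => ?_).1
    have hx0 : addOrderOf x ≠ 0 := by
      have : x ∈ (T : Set ((W.map (Int.castRingHom ℚ))⁄K).Point) := hx
      rw [hTS] at this
      exact this
    have h1 : addOrderOf x ≤ C * Module.finrank ℚ K := by
      have h2 := hC K x
      have h3 : addOrderOf x ≤ addOrderOf x ^ 2 := Nat.le_self_pow two_ne_zero _
      exact h3.trans h2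
    exact addOrderOf_dvd_iff_nsmul_eq_zero.mp
      (Nat.dvd_factorial (Nat.pos_of_ne_zero hx0) h1)
  rw [← hTS]
  refine ⟨hfin, ?_⟩
  have hfinT : Finite T := hfin.to_subtype
  obtain ⟨x, hx⟩ := AddMonoid.exists_addOrderOf_eq_exponent (G := T)
    AddMonoid.ExponentExists.of_finite
  have h1 : addOrderOf (x : ((W.map (Int.castRingHom ℚ))⁄K).Point) = AddMonoid.exponent T := by
    rw [AddSubgroup.addOrderOf_coe]
    exact hx
  have h2 := (hkill (AddMonoid.exponent T) AddMonoid.exponent_ne_zero_of_finite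
    fun y hy => congrArg Subtype.val (AddMonoid.exponent_nsmul_eq_zero (⟨y, hy⟩ : T))).2
  rw [← h1] at h2
  exact h2.trans (hC K x)

end Fermat.Agent.Cor
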