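import Fermat.Agent.Corollaries.Surj.Open
import Mathlib.NumberTheory.Padics.Hensel

/-!
# Determinants of the image of Galois on the Tate module

Every `d ∈ ℤ_p` close to `1` is the determinant of an element of the image of Galois on `T_p E`
which is close to `1` (`exists_det_eq`), for every elliptic curve `E` over `ℚ` and every prime `p`.
-/

set_option autoImplicit false

noncomputable section

open WeierstrassCurve WeierstrassCurve.Affine.Point Module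
open scoped WeierstrassCurve.Affine Pointwise
open Fermat.Agent.Tate Fermat.Agent.S30aux

namespace Fermat.Agent.Cor.Isog

open Fermat.Agent.Cor.Serre

variable {p : ℕ} [hp : Fact p.Prime]

theorem norm_le_iff_dvd {x : ℤ_[p]} {n : ℕ} :
    ‖x‖ ≤ (p : ℝ) ^ (-(n : ℤ)) ↔ (p : ℤ_[p]) ^ n ∣ x := by
  rw [PadicInt.norm_le_pow_iff_mem_span_pow, Ideal.mem_span_singleton]

theorem eq_of_forall_dvd {x y : ℤ_[p]} (h : ∀ n : ℕ, (p : ℤ_[p]) ^ n ∣ x - y) : x = y :=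
  PadicInt.ext_of_toZModPow.1 fun n => dvd_iff_toZModPow.1 (h n)

/-- **The `p`-adic cyclotomic character of `ℚ` is surjective.** -/
theorem exists_cyc_eq {u : ℤ_[p]} (hu : IsUnit u) :
    ∃ σ : AlgebraicClosure ℚ ≃ₐ[ℚ] AlgebraicClosure ℚ, ((cyc p σ : ℤ_[p]ˣ) : ℤ_[p]) = u := by
  have hcont : Continuous fun σ : AlgebraicClosure ℚ ≃ₐ[ℚ] AlgebraicClosure ℚ =>
      ((cyc p σ : ℤ_[p]ˣ) : ℤ_[p]) :=
    Units.continuous_val.comp (cyclotomicCharacter.continuous p ℚ (AlgebraicClosure ℚ))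
  have hcl : ∀ n : ℕ, IsClosed {σ : AlgebraicClosure ℚ ≃ₐ[ℚ] AlgebraicClosure ℚ |
      (p : ℤ_[p]) ^ n ∣ ((cyc p σ : ℤ_[p]ˣ) : ℤ_[p]) - u} := by
    intro n
    have h1 : {σ : AlgebraicClosure ℚ ≃ₐ[ℚ] AlgebraicClosure ℚ |
        (p : ℤ_[p]) ^ n ∣ ((cyc p σ : ℤ_[p]ˣ) : ℤ_[p]) - u} =
        {σ | ‖((cyc p σ : ℤ_[p]ˣ) : ℤ_[p]) - u‖ ≤ (p : ℝ) ^ (-(n : ℤ))} := by
      ext σ
      exact norm_le_iff_dvd.symm
    rw [h1]
    exact isClosed_le (hcont.sub continuous_const).norm continuous_const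
  obtain ⟨σ, hσ⟩ := IsCompact.nonempty_iInter_of_sequence_nonempty_isCompact_isClosed
    (fun n => {σ : AlgebraicClosure ℚ ≃ₐ[ℚ] AlgebraicClosure ℚ |
      (p : ℤ_[p]) ^ n ∣ ((cyc p σ : ℤ_[p]ˣ) : ℤ_[p]) - u})
    (fun n σ hσ => (pow_dvd_pow (p : ℤ_[p]) n.le_succ).trans hσ)
    (fun n => by
      obtain ⟨σ, hσ⟩ := exists_cyc n hu
      exact ⟨σ, dvd_iff_toZModPow.2 hσ⟩) (hcl 0).isCompact hcl
  exact ⟨σ, eq_of_forall_dvd fun n => Set.mem_iInter.1 hσ n⟩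

/-- Numbers close to `1` are `N`-th powers. -/
theorem exists_pow_eq (p : ℕ) [hp : Fact p.Prime] {N : ℕ} (hN : N ≠ 0) :
    ∃ n : ℕ, ∀ d : ℤ_[p], (p : ℤ_[p]) ^ n ∣ d - 1 → ∃ x : ℤ_[p], x ^ N = d := by
  have hN0 : (N : ℤ_[p]) ≠ 0 := Nat.cast_ne_zero.mpr hN
  obtain ⟨k, hk⟩ := PadicInt.exists_pow_neg_lt p
    (pow_pos (norm_pos_iff.mpr hN0) 2 : 0 < ‖(N : ℤ_[p])‖ ^ 2)
  refine ⟨k, fun d hd => ?_⟩
  obtain ⟨z, hz, -⟩ := hensels_lemma (p := p) (R := ℤ_[p])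
    (F := Polynomial.X ^ N - Polynomial.C d) (a := 1) (by
      have h1 : ‖d - 1‖ ≤ (p : ℝ) ^ (-(k : ℤ)) := norm_le_iff_dvd.mpr hd
      have h2 : ‖(1 : ℤ_[p]) - d‖ = ‖d - 1‖ := norm_sub_rev _ _
      simpa [h2, Polynomial.derivative_X_pow] using h1.trans_lt hk)
  refine ⟨z, ?_⟩
  have : z ^ N - d = 0 := by simpa using hz
  exact sub_eq_zero.mp this

variable {W : WeierstrassCurve ℤ}

/-- **Determinants**: every `d` close to `1` is the determinant of an element of the image of Galois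
which is congruent to `1` modulo `p ^ m`. -/
theorem exists_det_eq (X : Tb W p) (m : ℕ) : ∃ n, ∀ d : ℤ_[p], (p : ℤ_[p]) ^ n ∣ d - 1 →
    ∃ σ, Cg p m (X.M σ) 1 ∧ (X.M σ).det = d := by
  obtain ⟨L, hL, hLm⟩ := X.exists_level m
  have hidx : L.fixingSubgroup.index ≠ 0 := by
    rw [← IntermediateField.finrank_eq_fixingSubgroup_index]
    exact Module.finrank_pos.ne'
  obtain ⟨n, hn⟩ := exists_pow_eq p (Nat.factorial_ne_zero L.fixingSubgroup.index)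
  refine ⟨n + 1, fun d hd => ?_⟩
  obtain ⟨x, hx⟩ := hn d ((pow_dvd_pow _ n.le_succ).trans hd)
  have hdu : IsUnit d := Serre.isUnit_of_dvd_sub_one ((dvd_pow_self _ n.succ_ne_zero).trans hd)
  have hxu : IsUnit x := by
    rw [← hx] at hdu
    exact (isUnit_pow_iff (Nat.factorial_ne_zero _)).mp hdu
  obtain ⟨σ, hσ⟩ := exists_cyc_eq hxu
  refine ⟨σ ^ (L.fixingSubgroup.index).factorial, hLm _ ?_, ?_⟩
  · exact Subgroup.pow_mem_of_index_ne_zero_of_dvd hidx σ fun m hm0 hm => Nat.dvd_factorial hm0 hm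
  · rw [map_pow, Matrix.det_pow, X.det_M, hσ, hx]

/-- **The image of Galois is closed.** -/
theorem exists_M_eq_of_forall (X : Tb W p) {g : Matrix (Fin 2) (Fin 2) ℤ_[p]}
    (h : ∀ n, ∃ σ, Cg p n (X.M σ) g) : ∃ σ, X.M σ = g := by
  obtain ⟨σ, hσ⟩ := IsCompact.nonempty_iInter_of_sequence_nonempty_isCompact_isClosed
    (fun n => {σ : AlgebraicClosure ℚ ≃ₐ[ℚ] AlgebraicClosure ℚ | Serre.Cg p n (X.M σ) g})
    (fun n σ hσ => Serre.Cg.mono n.le_succ hσ) (fun n => h n)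
    (X.isClosed_cg 0 g).isCompact (fun n => X.isClosed_cg n g)
  refine ⟨σ, ?_⟩
  ext1 i j
  exact eq_of_forall_dvd fun n => Serre.cg_iff.1 (Set.mem_iInter.1 hσ n) i j

end Fermat.Agent.Cor.Isog
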