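import Fermat.Agent.Corollaries.Isog.Stable
import Fermat.Agent.Corollaries.Mazur.Main

/-!
# Finitely many rational cyclic isogenies of odd degree

`E` a semistable elliptic curve over `ℚ`: the cyclic subgroups of odd order of `E(ℚ̄)` which are
stable under `Gal(ℚ̄/ℚ)` are finite in number, and the prime factors of their orders are in
`{3, 5, 7, 13}`.
-/

set_option autoImplicit false

noncomputable section

open WeierstrassCurve WeierstrassCurve.Affine WeierstrassCurve.Affine.Point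

namespace Fermat.Agent.Cor.Isog

open Fermat.Agent.Cor.K1 (Gam Pts)
open Fermat.Agent.Cor.Mazur (Pt)

variable {W : WeierstrassCurve ℤ}

/-- A multiple of a generator of a stable cyclic group generates a stable cyclic group. -/
theorem nsmul_stable {g : Pt W} (hst : ∀ σ : Gam, σ • g ∈ AddSubgroup.zmultiples g) (c : ℕ)
    (σ : Gam) : σ • (c • g) ∈ AddSubgroup.zmultiples (c • g) := by
  obtain ⟨a, ha⟩ := AddSubgroup.mem_zmultiples_iff.mp (hst σ)
  rw [smul_nsmul', ← ha, smul_comm]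
  exact AddSubgroup.zsmul_mem _ (AddSubgroup.mem_zmultiples _) a

/-- **The prime factors of the order of a stable cyclic subgroup** are in
`{2, 3, 5, 7, 13}` (Mazur). -/
theorem prime_mem_of_dvd (hΔ : W.Δ ≠ 0) (hW : W.IsSemistableModel) {g : Pt W}
    (h0 : addOrderOf g ≠ 0) (hst : ∀ σ : Gam, σ • g ∈ AddSubgroup.zmultiples g) {p : ℕ}
    (hp : p.Prime) (hd : p ∣ addOrderOf g) : p ∈ ({2, 3, 5, 7, 13} : Finset ℕ) := by
  by_contra hcon
  have key : ∀ q < 17, q.Prime → q ≠ 11 → q ∈ ({2, 3, 5, 7, 13} : Finset ℕ) := by decide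
  have h2 : p = 11 ∨ 17 ≤ p := by
    by_contra h3
    push Not at h3
    exact hcon (key p h3.2 hp h3.1)
  obtain ⟨c, hc⟩ := hd
  have hc0 : c ≠ 0 := fun h => h0 (by rw [hc, h, mul_zero])
  have hord : addOrderOf (c • g) = p := by
    rw [addOrderOf_nsmul_of_dvd hc0 ⟨p, by rw [hc, mul_comm]⟩, hc,
      Nat.mul_div_cancel _ (Nat.pos_of_ne_zero hc0)]
  refine not_exists_stable_subgroup hp h2 hΔ hW ⟨AddSubgroup.zmultiples (c • g), ?_,
    fun σ x hx => smul_mem_zmultiples (nsmul_stable hst c) σ hx⟩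
  rw [Nat.card_zmultiples, hord]

section

variable (hΔ : W.Δ ≠ 0) (hW : W.IsSemistableModel)
  (hNS : ∀ p : ℕ, p.Prime → p ≠ 2 → NotSS W p)
include hΔ hW hNS

/-- The orders of the stable cyclic subgroups of odd order divide a fixed number. -/
theorem exists_dvd_of : ∃ M : ℕ, M ≠ 0 ∧ ∀ g : Pt W, addOrderOf g ≠ 0 → Odd (addOrderOf g) →
    (∀ σ : Gam, σ • g ∈ AddSubgroup.zmultiples g) → addOrderOf g ∣ M := by
  have hN : ∀ p : ℕ, ∃ N : ℕ, p.Prime → p ≠ 2 → ∀ (n : ℕ) (g : Pt W),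
      addOrderOf g = p ^ n → (∀ σ : Gam, σ • g ∈ AddSubgroup.zmultiples g) → n ≤ N := by
    intro p
    by_cases hp : p.Prime ∧ p ≠ 2
    · obtain ⟨N, hN⟩ := exists_bound_stable_of hΔ hW hp.1 hp.2 (hNS p hp.1 hp.2)
      exact ⟨N, fun _ _ => hN⟩
    · exact ⟨0, fun h1 h2 => absurd ⟨h1, h2⟩ hp⟩
  choose N hN using hN
  refine ⟨∏ p ∈ ({3, 5, 7, 13} : Finset ℕ), p ^ N p, ?_, fun g h0 hodd hst => ?_⟩
  · refine Finset.prod_ne_zero_iff.mpr fun p hp => pow_ne_zero _ ?_
    rintro rfl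
    simp at hp
  · rw [Nat.dvd_iff_prime_pow_dvd_dvd]
    intro p k hp hk
    rcases Nat.eq_zero_or_pos k with rfl | hk0
    · rw [pow_zero]
      exact one_dvd _
    have hpd : p ∣ addOrderOf g := (dvd_pow_self p (by omega)).trans hk
    have hp2 : p ≠ 2 := by
      rintro rfl
      exact (Nat.not_even_iff_odd.mpr hodd) (even_iff_two_dvd.mpr hpd)
    have hmem := prime_mem_of_dvd hΔ hW h0 hst hp hpd
    have hmem' : p ∈ ({3, 5, 7, 13} : Finset ℕ) := by
      rw [Finset.mem_insert] at hmem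
      exact hmem.resolve_left hp2
    obtain ⟨c, hc⟩ := hk
    have hc0 : c ≠ 0 := fun h => h0 (by rw [hc, h, mul_zero])
    have hord : addOrderOf (c • g) = p ^ k := by
      rw [addOrderOf_nsmul_of_dvd hc0 ⟨p ^ k, by rw [hc, mul_comm]⟩, hc,
        Nat.mul_div_cancel _ (Nat.pos_of_ne_zero hc0)]
    have hle := hN p hp hp2 k (c • g) hord (nsmul_stable hst c)
    exact (pow_dvd_pow p hle).trans (Finset.dvd_prod_of_mem (fun p => p ^ N p) hmem')

/-- **Finitely many rational cyclic isogenies of odd degree.** -/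
theorem finite_stable_of : {L : AddSubgroup (Pt W) | Finite L ∧ IsAddCyclic L ∧
    Odd (Nat.card L) ∧ ∀ σ : Gam, ∀ x ∈ L, σ • x ∈ L}.Finite := by
  obtain ⟨M, hM0, hM⟩ := exists_dvd_of hΔ hW hNS
  have hS : {x : Pt W | M • x = 0}.Finite := by
    have : Finite {x : Pt W // M • x = 0} := by
      apply Nat.finite_of_card_ne_zero
      rw [card_torsion hΔ hM0]
      exact pow_ne_zero _ hM0
    exact Set.finite_coe_iff.mp this
  refine Set.Finite.subset (hS.finite_subsets.preimage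
    (SetLike.coe_injective (A := AddSubgroup (Pt W))).injOn) ?_
  rintro L ⟨hfin, hcyc, hodd, hst⟩
  obtain ⟨g, hg⟩ := IsAddCyclic.exists_generator (α := L)
  have hgen : ∀ x ∈ L, x ∈ AddSubgroup.zmultiples (g : Pt W) := by
    intro x hx
    obtain ⟨a, ha⟩ := AddSubgroup.mem_zmultiples_iff.mp (hg ⟨x, hx⟩)
    exact AddSubgroup.mem_zmultiples_iff.mpr ⟨a, congrArg (fun y : L => (y : Pt W)) ha⟩
  have hord : addOrderOf (g : Pt W) = Nat.card L := by
    rw [AddSubgroup.addOrderOf_coe]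
    exact addOrderOf_eq_card_of_forall_mem_zmultiples hg
  have h1 : addOrderOf (g : Pt W) ∣ M := by
    refine hM g ?_ ?_ fun σ => hgen _ (hst σ g g.2)
    · rw [hord]
      exact Nat.card_pos.ne'
    · rw [hord]
      exact hodd
  intro x hx
  obtain ⟨a, rfl⟩ := AddSubgroup.mem_zmultiples_iff.mp (hgen x hx)
  change M • (a • (g : Pt W)) = 0
  rw [smul_comm, addOrderOf_dvd_iff_nsmul_eq_zero.mp h1, zsmul_zero]

end

end Fermat.Agent.Cor.Isog
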