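import Fermat.Agent.Corollaries.Isog.QuotAll
import Fermat.Agent.Corollaries.Katz.Main

/-!
# The isogeny class of a semistable elliptic curve over `ℚ`

`IsIsogenous E E'` (`Katz/Main.lean`): a surjective Galois equivariant homomorphism
`E(ℚ̄) → E'(ℚ̄)` with finite kernel.

* `isIsogenous_refl`, `isIsogenous_symm`, `isIsogenous_trans`: it is an equivalence relation on the
  elliptic curves over `ℚ` (`ψ ∘ φ = [n]` for a dual isogeny `ψ`: `exists_dual`);
* `rank_eq_of_isIsogenous`: isogenous elliptic curves over `ℚ` have the same rank;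
  `nonempty_equiv_of_isoGal`: isomorphic Galois modules give isomorphic groups `E(ℚ)`;
* `exists_finite_isogenyClass`: for `E` semistable there are finitely many elliptic curves over
  `ℚ`, isogenous to `E`, such that for every `E'` isogenous to `E` the Galois module `E'(ℚ̄)` is
  isomorphic to that of one of them.
-/

set_option autoImplicit false

noncomputable section

open WeierstrassCurve WeierstrassCurve.Affine WeierstrassCurve.Affine.Point

namespace Fermat.Agent.Cor.Isog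

open Fermat.Agent.Cor.K1 (Gam Pts)
open Fermat.Agent.Cor.Mazur (Pt)
open Fermat.Agent.Cor.Katz (IsIsogenous)

variable {E E' E'' : WeierstrassCurve ℚ}

/-- `E(ℚ̄)` and `E'(ℚ̄)` are isomorphic Galois modules. -/
def IsoGal (E E' : WeierstrassCurve ℚ) : Prop :=
  ∃ e : Pts E ≃+ Pts E', ∀ (σ : Gam) (x : Pts E), e (σ • x) = σ • e x

theorem isoGal_symm (h : IsoGal E E') : IsoGal E' E := by
  obtain ⟨e, he⟩ := h
  refine ⟨e.symm, fun σ x => ?_⟩
  apply e.injective
  rw [he, AddEquiv.apply_symm_apply, AddEquiv.apply_symm_apply]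

theorem isoGal_trans (h : IsoGal E E') (h' : IsoGal E' E'') : IsoGal E E'' := by
  obtain ⟨e, he⟩ := h
  obtain ⟨f, hf⟩ := h'
  exact ⟨e.trans f, fun σ x => by rw [AddEquiv.trans_apply, he, hf, AddEquiv.trans_apply]⟩

theorem isIsogenous_refl (E : WeierstrassCurve ℚ) : IsIsogenous E E := by
  refine ⟨AddMonoidHom.id _, Function.surjective_id, fun _ _ => rfl, ?_⟩
  rw [AddMonoidHom.ker_id]
  exact inferInstance

/-- Two surjections with the same kernel have isomorphic images. -/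
theorem exists_addEquiv_of_ker_eq {A B C : Type*} [AddCommGroup A] [AddCommGroup B]
    [AddCommGroup C] (f : A →+ B) (g : A →+ C) (hf : Function.Surjective f)
    (hg : Function.Surjective g) (h : f.ker = g.ker) : ∃ e : B ≃+ C, ∀ x, e (f x) = g x := by
  refine ⟨(QuotientAddGroup.quotientKerEquivOfSurjective f hf).symm.trans
    ((QuotientAddGroup.quotientAddEquivOfEq h).trans
      (QuotientAddGroup.quotientKerEquivOfSurjective g hg)), fun x => ?_⟩
  have h1 : (QuotientAddGroup.quotientKerEquivOfSurjective f hf).symm (f x) =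
      QuotientAddGroup.mk x := by
    rw [AddEquiv.symm_apply_eq]
    rfl
  rw [AddEquiv.trans_apply, h1]
  rfl

/-- Factorisation through a surjection. -/
theorem exists_lift_of_ker_le {A B C : Type*} [AddCommGroup A] [AddCommGroup B]
    [AddCommGroup C] (f : A →+ B) (g : A →+ C) (hf : Function.Surjective f)
    (h : f.ker ≤ g.ker) : ∃ k : B →+ C, ∀ x, k (f x) = g x := by
  refine ⟨(QuotientAddGroup.lift f.ker g h).comp
    (QuotientAddGroup.quotientKerEquivOfSurjective f hf).symm.toAddMonoidHom, fun x => ?_⟩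
  have h1 : (QuotientAddGroup.quotientKerEquivOfSurjective f hf).symm (f x) =
      QuotientAddGroup.mk x := by
    rw [AddEquiv.symm_apply_eq]
    rfl
  change QuotientAddGroup.lift f.ker g h
    ((QuotientAddGroup.quotientKerEquivOfSurjective f hf).symm (f x)) = g x
  rw [h1]
  rfl

/-- **The dual isogeny.** -/
theorem exists_dual (hΔ : E.Δ ≠ 0) (φ : Pts E →+ Pts E') (hs : Function.Surjective φ)
    (hφ : ∀ (σ : Gam) (x : Pts E), φ (σ • x) = σ • φ x) (hfin : Finite φ.ker) :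
    ∃ ψ : Pts E' →+ Pts E, Function.Surjective ψ ∧
      (∀ (σ : Gam) (x : Pts E'), ψ (σ • x) = σ • ψ x) ∧ Finite ψ.ker ∧
      (∀ x, ψ (φ x) = Nat.card φ.ker • x) ∧ ∀ y, φ (ψ y) = Nat.card φ.ker • y := by
  set n := Nat.card φ.ker with hn
  have hn0 : n ≠ 0 := Nat.card_pos.ne'
  obtain ⟨ψ, hψ⟩ := exists_lift_of_ker_le φ (nsmulAddMonoidHom n) hs (fun x hx => by
    have h1 : addOrderOf (⟨x, hx⟩ : φ.ker) ∣ n := addOrderOf_dvd_natCard _
    have h2 : n • (⟨x, hx⟩ : φ.ker) = 0 := addOrderOf_dvd_iff_nsmul_eq_zero.mp h1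
    exact congrArg Subtype.val h2)
  have hψ' : ∀ x, ψ (φ x) = n • x := hψ
  refine ⟨ψ, fun x => ?_, fun σ y => ?_, ?_, hψ', fun y => ?_⟩
  · obtain ⟨z, hz⟩ := Fermat.Agent.Torsion.surjective_nsmul (Δbar_ne_zero' hΔ) hn0 x
    exact ⟨φ z, (hψ' z).trans hz⟩
  · obtain ⟨x, rfl⟩ := hs y
    rw [← hφ, hψ', hψ', smul_nsmul'']
  · have h4 : Finite {x : Pts E // n • x = 0} := by
      apply Nat.finite_of_card_ne_zero
      rw [Fermat.Agent.Torsion.card_torsion (n := n) (Δbar_ne_zero' hΔ) (by exact_mod_cast hn0)]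
      exact pow_ne_zero _ hn0
    refine Finite.of_surjective (fun x : {x : Pts E // n • x = 0} =>
      (⟨φ x.1, by
        rw [AddMonoidHom.mem_ker, hψ']
        exact x.2⟩ : ψ.ker)) ?_
    rintro ⟨y, hy⟩
    obtain ⟨x, rfl⟩ := hs y
    refine ⟨⟨x, ?_⟩, rfl⟩
    rw [← hψ']
    exact hy
  · obtain ⟨x, rfl⟩ := hs y
    rw [hψ', map_nsmul]

theorem isIsogenous_symm (hΔ : E.Δ ≠ 0) (h : IsIsogenous E E') : IsIsogenous E' E := by
  obtain ⟨φ, hs, hφ, hfin⟩ := h
  obtain ⟨ψ, h1, h2, h3, -⟩ := exists_dual hΔ φ hs hφ hfin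
  exact ⟨ψ, h1, h2, h3⟩

theorem isIsogenous_trans (h : IsIsogenous E E') (h' : IsIsogenous E' E'') :
    IsIsogenous E E'' := by
  obtain ⟨φ, hs, hφ, hfin⟩ := h
  obtain ⟨ψ, hs', hψ, hfin'⟩ := h'
  refine ⟨ψ.comp φ, hs'.comp hs, fun σ x => ?_, ?_⟩
  · change ψ (φ (σ • x)) = σ • ψ (φ x)
    rw [hφ, hψ]
  · let g : (ψ.comp φ).ker →+ ψ.ker :=
      { toFun := fun x => ⟨φ x.1, x.2⟩
        map_zero' := Subtype.ext (_root_.map_zero φ)
        map_add' := fun x y => Subtype.ext (map_add φ _ _) }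
    have hgk : Finite g.ker := by
      refine Finite.of_injective (fun x : g.ker => (⟨x.1.1, ?_⟩ : φ.ker)) ?_
      · exact congrArg Subtype.val (show g x.1 = 0 from x.2)
      · intro x y hxy
        have h1 : (x.1.1 : Pts E) = y.1.1 := congrArg (fun z : φ.ker => (z : Pts E)) hxy
        exact Subtype.ext (Subtype.ext h1)
    have hgr : Finite g.range := inferInstance
    have : Finite ((ψ.comp φ).ker ⧸ g.ker) :=
      Finite.of_equiv _ (QuotientAddGroup.quotientKerEquivRange g).toEquiv.symm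
    exact Finite.of_addSubgroup_quotient g.ker

/-! ### Rational points -/

/-- The rational points are the points over `ℚ̄` fixed by Galois. -/
theorem exists_ratEmb (E : WeierstrassCurve ℚ) :
    ∃ ι : E.toAffine.Point →+ Pts E, Function.Injective ι ∧
      ∀ x : Pts E, x ∈ ι.range ↔ ∀ σ : Gam, σ • x = x := by
  have key : ∀ C : WeierstrassCurve ℚ, C = (E⁄ℚ) → ∃ ι : C.toAffine.Point →+ Pts E,
      Function.Injective ι ∧ ∀ x : Pts E, x ∈ ι.range ↔ ∀ σ : Gam, σ • x = x := by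
    rintro C rfl
    refine ⟨Point.baseChange (W' := E) ℚ (AlgebraicClosure ℚ), Point.map_injective (W' := E) _,
      fun x => ⟨?_, fun hx => ?_⟩⟩
    · rintro ⟨P, rfl⟩ σ
      exact K1.smul_baseChange E σ P
    · exact Fermat.Agent.Cor.Katz.exists_baseChange_eq E x hx
  exact key E E.map_id.symm

/-- An equivariant homomorphism on the rational points. -/
theorem exists_ratHom {ι : E.toAffine.Point →+ Pts E} {ι' : E'.toAffine.Point →+ Pts E'}
    (h : ∀ x : Pts E, x ∈ ι.range ↔ ∀ σ : Gam, σ • x = x) (hi' : Function.Injective ι')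
    (h' : ∀ x : Pts E', x ∈ ι'.range ↔ ∀ σ : Gam, σ • x = x) (φ : Pts E →+ Pts E')
    (hφ : ∀ (σ : Gam) (x : Pts E), φ (σ • x) = σ • φ x) :
    ∃ f : E.toAffine.Point →+ E'.toAffine.Point, ∀ P, ι' (f P) = φ (ι P) := by
  have h1 : ∀ P, ∃ Q, ι' Q = φ (ι P) := fun P => (h' _).mpr fun σ => by
    rw [← hφ, (h (ι P)).mp ⟨P, rfl⟩ σ]
  choose f hf using h1
  exact ⟨{ toFun := f
           map_zero' := hi' (by rw [hf, _root_.map_zero, _root_.map_zero, _root_.map_zero])
           map_add' := fun P Q => hi' (by rw [hf, map_add, map_add, map_add, hf, hf]) }, hf⟩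

/-- Isomorphic Galois modules give isomorphic groups of rational points. -/
theorem nonempty_equiv_of_isoGal (h : IsoGal E E') :
    Nonempty (E.toAffine.Point ≃+ E'.toAffine.Point) := by
  obtain ⟨e, he⟩ := h
  obtain ⟨ι, hi, hι⟩ := exists_ratEmb E
  obtain ⟨ι', hi', hι'⟩ := exists_ratEmb E'
  obtain ⟨f, hf⟩ := exists_ratHom hι hi' hι' e.toAddMonoidHom he
  refine ⟨AddEquiv.ofBijective f ⟨fun P Q hPQ => ?_, fun Q => ?_⟩⟩
  · have h1 := congrArg ι' hPQ
    rw [hf, hf] at h1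
    exact hi (e.injective h1)
  · have h1 : e.symm (ι' Q) ∈ ι.range := (hι _).mpr fun σ => by
      apply e.injective
      rw [he, AddEquiv.apply_symm_apply]
      exact (hι' _).mp ⟨Q, rfl⟩ σ
    obtain ⟨P, hP⟩ := h1
    refine ⟨P, hi' ?_⟩
    rw [hf, hP]
    exact e.apply_symm_apply _

theorem rank_le_of_ker {A B : Type} [AddCommGroup A] [AddCommGroup B] (f : A →+ B) {n : ℕ}
    (hn : n ≠ 0) (hf : ∀ x, f x = 0 → n • x = 0) : Module.rank ℤ A ≤ Module.rank ℤ B := by
  rw [Module.rank_def ℤ A]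
  refine ciSup_le' fun s => ?_
  have hv : LinearIndependent ℤ (fun x : s.1 => (x : A)) := s.2
  have hw : LinearIndependent ℤ (fun x : s.1 => f (x : A)) := by
    rw [linearIndependent_iff'] at hv ⊢
    intro t g hg i hi
    have h1 : f (∑ i ∈ t, g i • (i : A)) = 0 := by
      rw [map_sum, ← hg]
      exact Finset.sum_congr rfl fun j _ => map_zsmul f _ _
    have h2 := hf _ h1
    rw [Finset.smul_sum] at h2
    have h3 : ∑ i ∈ t, ((n : ℤ) * g i) • (i : A) = 0 := by
      rw [← h2]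
      refine Finset.sum_congr rfl fun j _ => ?_
      rw [mul_smul, natCast_zsmul]
    have h4 := hv t (fun i => (n : ℤ) * g i) h3 i hi
    exact (mul_eq_zero.mp h4).resolve_left (by exact_mod_cast hn)
  exact hw.cardinal_le_rank

theorem rank_le_of_isIsogenous (h : IsIsogenous E E') :
    Module.rank ℤ E.toAffine.Point ≤ Module.rank ℤ E'.toAffine.Point := by
  obtain ⟨φ, hs, hφ, hfin⟩ := h
  obtain ⟨ι, hi, hι⟩ := exists_ratEmb E
  obtain ⟨ι', hi', hι'⟩ := exists_ratEmb E'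
  obtain ⟨f, hf⟩ := exists_ratHom hι hi' hι' φ hφ
  refine rank_le_of_ker f (n := Nat.card φ.ker) Nat.card_pos.ne' fun P hP => ?_
  have h1 : φ (ι P) = 0 := by rw [← hf, hP, _root_.map_zero]
  have h2 : Nat.card φ.ker • (⟨ι P, h1⟩ : φ.ker) = 0 :=
    addOrderOf_dvd_iff_nsmul_eq_zero.mp (addOrderOf_dvd_natCard _)
  apply hi
  rw [map_nsmul, _root_.map_zero]
  exact congrArg Subtype.val h2

/-- **Isogenous elliptic curves over `ℚ` have the same rank.** -/
theorem rank_eq_of_isIsogenous (hΔ : E.Δ ≠ 0) (h : IsIsogenous E E') :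
    Module.rank ℤ E.toAffine.Point = Module.rank ℤ E'.toAffine.Point :=
  le_antisymm (rank_le_of_isIsogenous h) (rank_le_of_isIsogenous (isIsogenous_symm hΔ h))

theorem finrank_eq_of_isIsogenous (hΔ : E.Δ ≠ 0) (h : IsIsogenous E E') :
    Module.finrank ℤ E.toAffine.Point = Module.finrank ℤ E'.toAffine.Point := by
  rw [Module.finrank, Module.finrank, rank_eq_of_isIsogenous hΔ h]

/-! ### The isogeny class -/

/-- **The isogeny class of a semistable elliptic curve over `ℚ`**: finitely many elliptic curves,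
isogenous to `W`, such that for every `E'` isogenous to `W` the Galois module `E'(ℚ̄)` is isomorphic
to that of one of them. -/
theorem exists_finite_isogenyClass {W : WeierstrassCurve ℤ} (hΔ : W.Δ ≠ 0)
    (hW : W.IsSemistableModel) :
    ∃ S : Set (WeierstrassCurve ℚ), S.Finite ∧
      (∀ E₁ ∈ S, E₁.Δ ≠ 0 ∧ IsIsogenous (W.map (Int.castRingHom ℚ)) E₁) ∧
      ∀ E' : WeierstrassCurve ℚ, IsIsogenous (W.map (Int.castRingHom ℚ)) E' →
        ∃ E₁ ∈ S, IsoGal E₁ E' := by
  obtain ⟨S, hS, hS', hall⟩ := exists_finite_curves hΔ hW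
  refine ⟨{E₁ ∈ S | IsIsogenous (W.map (Int.castRingHom ℚ)) E₁}, hS.subset fun _ h => h.1,
    fun E₁ h => ⟨hS' E₁ h.1, h.2⟩, ?_⟩
  rintro E' ⟨φ, hs, hφ, hfin⟩
  have hst : Stable φ.ker := fun σ x hx => by
    rw [AddMonoidHom.mem_ker] at hx ⊢
    rw [hφ, hx]
    exact smul_zero (A := Pts E') σ
  obtain ⟨E₁, hE₁, ψ, hψ, hker, hs'⟩ := hall φ.ker hfin hst
  refine ⟨E₁, ⟨hE₁, ψ, hs', hψ, by rw [hker]; exact hfin⟩, ?_⟩
  obtain ⟨e, he⟩ := exists_addEquiv_of_ker_eq ψ φ hs' hs hker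
  refine ⟨e, fun σ y => ?_⟩
  obtain ⟨x, rfl⟩ := hs' y
  rw [← hψ, he, he, hφ]

/-- The same for two curves of the class: isogenous elliptic curves, one of them with a semistable
model. -/
theorem exists_finite_isogenyClass_rat {W : WeierstrassCurve ℤ} (hΔ : W.Δ ≠ 0)
    (hW : W.IsSemistableModel) {E : WeierstrassCurve ℚ}
    (hE : IsIsogenous (W.map (Int.castRingHom ℚ)) E) :
    ∃ S : Set (WeierstrassCurve ℚ), S.Finite ∧ (∀ E₁ ∈ S, E₁.Δ ≠ 0 ∧ IsIsogenous E E₁) ∧
      ∀ E' : WeierstrassCurve ℚ, IsIsogenous E E' → ∃ E₁ ∈ S, IsoGal E₁ E' := by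
  have hΔQ : (W.map (Int.castRingHom ℚ)).Δ ≠ 0 := by
    rw [WeierstrassCurve.map_Δ]; simpa using hΔ
  obtain ⟨S, hS, h1, h2⟩ := exists_finite_isogenyClass hΔ hW
  exact ⟨S, hS, fun E₁ h => ⟨(h1 E₁ h).1,
    isIsogenous_trans (isIsogenous_symm hΔQ hE) (h1 E₁ h).2⟩,
    fun E' hE' => h2 E' (isIsogenous_trans hE hE')⟩

end Fermat.Agent.Cor.Isog
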