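import Fermat.Agent.Corollaries.Mazur.FortyNine
import Fermat.Agent.Corollaries.Isog.IsogClass

/-!
# Rational isogenies of degree `49` and Fermat's Last Theorem for the exponent `7`

* `false_of_stable_fortynine`: on an elliptic curve over `ℚ` a cyclic group of order `49` which is
  stable under Galois does not contain a rational point of order `7`.  Let `R = 7 Q`.  At a prime `ℓ`
  of multiplicative reduction at which `R` is outside the identity component the inertia group fixes
  `Q`: `σ Q - Q` is a multiple of `R` and lies in the identity component.  So the discriminant is a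
  `49`-th power at these primes and the parameter of `X₁(7)` is a solution of Fermat's equation.
* `no_isogeny_fortynine`: a semistable elliptic curve over `ℚ` has no cyclic subgroup of order `49`
  stable under Galois.
-/

set_option autoImplicit false

noncomputable section

open WeierstrassCurve WeierstrassCurve.Affine WeierstrassCurve.Affine.Point
open Fermat.Agent.ECRed

namespace Fermat.Agent.Cor.Mazur

open Fermat.Agent.Cor.K1 (Gam Pts)

open Fermat.Agent.S12val FermatAgent.ECVal in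
/-- **Inertia fixes the points above a point outside the identity component.** -/
theorem inertia_fixed {W : WeierstrassCurve ℤ} {A : ValuationSubring (AlgebraicClosure ℚ)} {q : ℕ}
    (hW : IsMultAt W q) {p : ℕ} (hp : p.Prime) (hp2 : p ≠ 2) (hA : A.LiesOverPrime q)
    {R Q : Pt W} (hR : p • R = 0) (hQ : p • Q = R) (hRE : ¬ W.InZeroComponentAt A R)
    (hfix : ∀ σ : Gam, σ • R = R) (hst : ∀ σ : Gam, σ • Q ∈ AddSubgroup.zmultiples Q)
    {σ : Gam} (hσ : σ ∈ A.inertiaSubgroupIn ℚ) : σ • Q = Q := by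
  classical
  have hyE : R ∉ E0 (redEk W A) (isPlace_valuationSubring A) := by
    intro h
    apply hRE
    rw [inZeroComponentAt_iff]
    exact mem_E0_iff.mp h
  have hmem : ∀ c : ℤ, ¬ (p : ℤ) ∣ c → c • R ∉ E0 (redEk W A) (isPlace_valuationSubring A) :=
    fun c hc h => hyE (Fermat.Agent.Cor.Isog.mem_of_zsmul_mem (n := 1) hp (by rw [pow_one]; exact hR)
      hc h)
  have hpQ : σ • Q - Q ∈ E0 (redEk W A) (isPlace_valuationSubring A) := by
    by_cases hq2 : q = 2
    · rcases smul_sub_or_add_mem_E0 hW hA (mem_decomposition_of_mem_inertia hσ) Q with h | h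
      · exact h
      · exfalso
        have h1 := AddSubgroup.nsmul_mem _ h p
        rw [nsmul_add, ← Fermat.Agent.Cor.Isog.smul_nsmul', hQ, hfix] at h1
        refine hmem 2 ?_ (by rwa [two_zsmul])
        intro h2
        have h3 := Int.le_of_dvd (by norm_num) h2
        have h4 := hp.two_le
        omega
    · exact inertia_smul_sub_mem_E0 hW hq2 hA hσ Q
  obtain ⟨a, ha⟩ := AddSubgroup.mem_zmultiples_iff.mp (hst σ)
  have e1 : (a - 1) • Q = σ • Q - Q := by rw [sub_smul, one_smul, ha]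
  have e2 : (a - 1) • R = 0 := by
    have h1 : (a - 1) • R = p • ((a - 1) • Q) := by
      rw [← hQ, ← natCast_zsmul, ← natCast_zsmul, ← mul_smul, ← mul_smul, mul_comm]
    rw [h1, e1, nsmul_sub, ← Fermat.Agent.Cor.Isog.smul_nsmul', hQ, hfix, sub_self]
  have hd : (p : ℤ) ∣ a - 1 := by
    by_contra hcon
    apply hmem _ hcon
    rw [e2]
    exact AddSubgroup.zero_mem _
  obtain ⟨c, hc⟩ := hd
  have e3 : σ • Q - Q = c • R := by
    rw [← e1, hc, mul_comm, mul_smul, natCast_zsmul, hQ]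
  rw [e3] at hpQ
  have e4 : c • R = 0 := by
    by_cases hpc : (p : ℤ) ∣ c
    · obtain ⟨d, rfl⟩ := hpc
      rw [mul_comm, mul_smul, natCast_zsmul, hR]
      exact zsmul_zero d
    · exact absurd hpQ (hmem c hpc)
  rw [e4] at e3
  exact sub_eq_zero.mp e3

/-- **No cyclic group of order `49` stable under Galois with a rational point of order `7`**, on any
elliptic curve over `ℚ` (from Fermat's Last Theorem for the exponent seven). -/
theorem false_of_stable_fortynine (E : WeierstrassCurve ℚ) [E.IsElliptic] (P : Pts E)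
    (hP : addOrderOf P = 49) (hst : ∀ σ : Gam, σ • P ∈ AddSubgroup.zmultiples P)
    (hfixR : ∀ σ : Gam, σ • (7 • P) = 7 • P) : False := by
  set R : Pts E := 7 • P with hR
  have hR7 : addOrderOf R = 7 := by
    rw [hR, addOrderOf_nsmul_of_dvd (by norm_num) (by rw [hP]; norm_num), hP]
  obtain ⟨W, e, he, hN⟩ := exists_normal E (by norm_num : Nat.Prime 7) (by norm_num) R hR7 hfixR
  obtain ⟨b, c, u, hb, hu, h1, h2, h3, -, h7, -⟩ :=
    Fermat.Agent.Cor.Small.exists_tate hN (Or.inr (Or.inl rfl))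
  have h7 := h7 rfl
  -- the parameter
  have hc : c ≠ 0 := by
    rintro rfl
    have h1 : b ^ 2 = 0 := by linear_combination -h7
    exact hb (pow_eq_zero_iff (two_ne_zero) |>.mp h1)
  obtain ⟨r, hr⟩ : ∃ r : ℚ, b = r * c := ⟨b / c, by field_simp⟩
  have hcr : c = r ^ 2 - r := by
    rw [hr] at h7
    have h1 : c ^ 2 * (c - (r ^ 2 - r)) = 0 := by linear_combination h7
    rcases mul_eq_zero.mp h1 with h2 | h2
    · exact absurd (pow_eq_zero_iff (two_ne_zero) |>.mp h2) hc
    · linarith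
  obtain ⟨m, n, hn0, hco, hrmn⟩ : ∃ m n : ℤ, n ≠ 0 ∧ IsCoprime m n ∧ r * n = m := by
    refine ⟨r.num, r.den, by exact_mod_cast r.den_nz, ?_, by exact_mod_cast Rat.mul_den_eq_num r⟩
    rw [Int.isCoprime_iff_gcd_eq_one]
    exact r.reduced
  have hnQ : (n : ℚ) ≠ 0 := by exact_mod_cast hn0
  have hcQ : c * n ^ 2 = m * (m - n) := by
    rw [hcr, ← hrmn]
    ring
  have hbQ : b * n ^ 3 = m ^ 2 * (m - n) := by
    rw [hr, hcr, ← hrmn]
    ring
  have hbn : b * (n : ℚ) ^ 3 ≠ 0 := mul_ne_zero hb (pow_ne_zero _ hnQ)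
  have h0 : m * n * (m - n) ≠ 0 := by
    intro h
    have h' : (m : ℚ) * n * (m - n) = 0 := by exact_mod_cast h
    rcases mul_eq_zero.mp h' with h'' | h''
    · rcases mul_eq_zero.mp h'' with h3 | h3
      · exact hbn (by rw [hbQ, h3]; ring)
      · exact hnQ h3
    · exact hbn (by rw [hbQ, h'']; ring)
  -- the change of variables
  let C : VariableChange ℚ := ⟨Units.mk0 (u / n ^ 2) (div_ne_zero hu (pow_ne_zero _ hnQ)), 0, 0, 0⟩
  have hCu : ((C.u⁻¹ : ℚˣ) : ℚ) = n ^ 2 / u := by
    simp [C]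
  have e1 : (n : ℚ) ^ 2 / u * u = n ^ 2 := div_mul_cancel₀ _ hu
  have e2 : ((n : ℚ) ^ 2 / u) ^ 2 * u ^ 2 = n ^ 4 := by rw [← mul_pow, e1]; ring
  have e3 : ((n : ℚ) ^ 2 / u) ^ 3 * u ^ 3 = n ^ 6 := by rw [← mul_pow, e1]; ring
  have hC : C • W.map (Int.castRingHom ℚ) = (W7 m n).map (Int.castRingHom ℚ) := by
    ext
    · rw [variableChange_a₁, hCu]
      simp only [C, map_a₁, Int.coe_castRingHom, h1, W7]
      push_cast
      linear_combination (1 - c) * e1 - hcQ
    · rw [variableChange_a₂, hCu]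
      simp only [C, map_a₁, map_a₂, Int.coe_castRingHom, h1, h2, W7]
      push_cast
      linear_combination (-b) * e2 - (n : ℚ) * hbQ
    · rw [variableChange_a₃, hCu]
      simp only [C, map_a₁, map_a₃, Int.coe_castRingHom, h1, h3, W7]
      push_cast
      linear_combination (-b) * e3 - (n : ℚ) ^ 3 * hbQ
    · rw [variableChange_a₄]
      simp only [C, map_a₁, map_a₂, map_a₃, map_a₄, hN.h4, W7, _root_.map_zero]
      ring
    · rw [variableChange_a₆]
      simp only [C, map_a₁, map_a₂, map_a₃, map_a₄, map_a₆, hN.h4, hN.h6, W7, _root_.map_zero]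
      ring
  have hΔW : (W.map (Int.castRingHom ℚ)).Δ ≠ 0 := by
    rw [WeierstrassCurve.map_Δ]
    simpa using hN.hΔ
  obtain ⟨f, hf, hfc⟩ := exists_equiv_coord hΔW hC
  have hΔ7 : (W7 m n).Δ ≠ 0 := by
    intro h
    have h4 : ((W7 m n).map (Int.castRingHom ℚ)).Δ = 0 := by
      rw [WeierstrassCurve.map_Δ, h, _root_.map_zero]
    rw [← hC, variableChange_Δ] at h4
    exact mul_ne_zero (pow_ne_zero _ (Units.ne_zero _)) hΔW h4
  -- the points on the new curve
  set P' : Pt (W7 m n) := f.symm (e P) with hP'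
  set R' : Pt (W7 m n) := f.symm (e R) with hR'
  have hPR : 7 ^ 1 • P' = R' := by
    rw [pow_one, hP', hR', hR, map_nsmul, map_nsmul]
  have hR'7 : 7 • R' = 0 := by
    rw [hR', ← map_nsmul, ← map_nsmul]
    have : 7 • R = 0 := by rw [← hR7]; exact addOrderOf_nsmul_eq_zero R
    rw [this, _root_.map_zero, _root_.map_zero]
  have hst' : ∀ σ : Gam, σ • P' ∈ AddSubgroup.zmultiples P' := fun σ => by
    obtain ⟨k, hk⟩ := AddSubgroup.mem_zmultiples_iff.mp (hst σ)
    refine AddSubgroup.mem_zmultiples_iff.mpr ⟨k, ?_⟩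
    apply f.injective
    rw [hf, hP', map_zsmul, AddEquiv.apply_symm_apply, ← he, ← hk, map_zsmul]
  have hfixR' : ∀ σ : Gam, σ • R' = R' := fun σ => by
    apply f.injective
    rw [hf, hR', AddEquiv.apply_symm_apply, ← he, hfixR]
  have hR0 : ∃ h, R' = Point.some 0 0 h := by
    obtain ⟨h0', hR0⟩ := hN.hQ
    have h00 : (((W7 m n).map (Int.castRingHom ℚ))⁄(AlgebraicClosure ℚ)).Nonsingular 0 0 := by
      refine (equation_iff_nonsingular_of_Δ_ne_zero
        (Fermat.Agent.Cor.Isog.Δbar_ne_zero hΔ7)).mp ?_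
      rw [equation_zero]
      change algebraMap ℚ (AlgebraicClosure ℚ) (Int.castRingHom ℚ 0) = 0
      rw [_root_.map_zero, _root_.map_zero]
    refine ⟨h00, ?_⟩
    apply f.injective
    obtain ⟨h0'', hf0⟩ := hfc 0 0 h00
    rw [hR', AddEquiv.apply_symm_apply, hR0, hf0, Point.some.injEq]
    constructor <;> simp [C]
  -- the contradiction
  obtain ⟨ℓ, hℓ, hd, hnd⟩ := exists_not_dvd_val hco h0
  apply hnd
  obtain ⟨A, hA⟩ := Fermat.Agent.Frob.exists_liesOverPrime ℓ hℓ
  obtain ⟨h0', hR0⟩ := hR0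
  have hnz : ¬ (W7 m n).InZeroComponentAt A R' := by
    refine not_inZero_of_dvd hℓ hA rfl rfl ?_ hR0 (X := 0) (by simp) (dvd_zero _)
    change (ℓ : ℤ) ∣ -(m ^ 2 * (m - n) * n ^ 3)
    have e : -(m ^ 2 * (m - n) * n ^ 3) = m * n * (m - n) * (-(m * n ^ 2)) := by ring
    rw [e]
    exact Dvd.dvd.mul_right hd _
  have key := pow_dvd_val (isMultAt_W7 hco hΔ7 hℓ hd) (by norm_num : Nat.Prime 7) (by norm_num)
    hA hR'7 hnz hPR fun σ hσ => inertia_fixed (isMultAt_W7 hco hΔ7 hℓ hd)
      (by norm_num : Nat.Prime 7) (by norm_num) hA hR'7 (by rw [← hPR, pow_one]) hnz hfixR' hst' hσ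
  rw [padicValInt_W7_Δ hco hΔ7 hℓ hd] at key
  obtain ⟨k, hk⟩ := key
  exact ⟨k, by omega⟩

end Fermat.Agent.Cor.Mazur
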