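import Fermat.Agent.Corollaries.Isog.Pairs

/-!
# Torsion over number fields: Breuer's theorem for semistable curves

`E` a semistable elliptic curve over `ℚ`: there is a constant `C` such that for every number field
`K` the torsion subgroup of `E(K)` is isomorphic to `ℤ/a × ℤ/n`, `a ∣ n`, with
`n² a φ(a) ≤ C [K : ℚ]` (`exists_torsion_structure_le`), so
`#E(K)_tors² ≤ C (1 + log₂ #E(K)_tors) [K : ℚ]` (`exists_sq_card_torsion_le`).
-/

set_option autoImplicit false

noncomputable section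

open WeierstrassCurve WeierstrassCurve.Affine.Point Module
open scoped WeierstrassCurve.Affine
open Fermat.Agent.Tate

namespace Fermat.Agent.Cor

local notation "Γℚ" => (AlgebraicClosure ℚ ≃ₐ[ℚ] AlgebraicClosure ℚ)

variable {W : WeierstrassCurve ℤ}

theorem exists_linearEquiv_single_tors (hΔ : W.Δ ≠ 0) {n : ℕ} (hn : n ≠ 0) {x : Tors W n}
    (hx : addOrderOf x = n) :
    ∃ f : (Fin 2 → ZMod n) ≃ₗ[ZMod n] Tors W n, f (Pi.single 0 1) = x := by
  obtain ⟨b⟩ := exists_basis_torsionBy hΔ hn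
  obtain ⟨g, hg⟩ := exists_linearEquiv_single hn (v := b.equivFun x) (by
    have h1 := addOrderOf_injective b.equivFun.toLinearMap.toAddMonoidHom b.equivFun.injective x
    exact h1.trans hx)
  refine ⟨g.trans b.equivFun.symm, ?_⟩
  rw [LinearEquiv.trans_apply, hg, b.equivFun.symm_apply_apply]

/-- **The orbit of a pair of torsion points.** -/
theorem pairs_le_finrank (hΔ : W.Δ ≠ 0) {m : ℕ} (hm : m ≠ 0) (h : OpenTors W m)
    (F : IntermediateField ℚ (AlgebraicClosure ℚ)) [FiniteDimensional ℚ F] {n a k : ℕ}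
    (hnk : n = k * a) (hn : n ≠ 0) (f : (Fin 2 → ZMod n) ≃ₗ[ZMod n] Tors W n)
    (hfix : ∀ σ ∈ F.fixingSubgroup, σ • f (Pi.single 0 1) = f (Pi.single 0 1) ∧
      σ • f (Pi.single 1 (k : ZMod n)) = f (Pi.single 1 (k : ZMod n))) :
    n ^ 2 * (a * a.totient) ≤ 2 * (m ^ 2).factorial * Module.finrank ℚ F := by
  classical
  obtain ⟨S, hS, hSo⟩ := exists_pairs hnk hn
  have hfin := finite_tors hΔ hn
  set x : Tors W n := f (Pi.single 0 1) with hx
  set z : Tors W n := f (Pi.single 1 (k : ZMod n)) with hz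
  have h1 := card_le_index_mul_orbit (A := Tors W n ≃ₗ[ZMod n] Tors W n)
    (X := Tors W n × Tors W n) (torsAut W n).range (index_range_le hΔ hm h hn).1
    (Prod.map f f '' S) (x := (x, z)) (by
      rintro _ ⟨y, hy, rfl⟩
      obtain ⟨g, hg⟩ := hSo y hy
      refine ⟨f.symm.trans (g.trans f), ?_⟩
      rw [← hg]
      refine Prod.ext ?_ ?_
      · change f (g (f.symm x)) = f (g (Pi.single 0 1))
        rw [hx, f.symm_apply_apply]
      · change f (g (f.symm z)) = f (g (Pi.single 1 (k : ZMod n)))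
        rw [hz, f.symm_apply_apply]) (Set.toFinite _)
  rw [Set.ncard_image_of_injective _ (f.injective.prodMap f.injective), hS] at h1
  have hidx : F.fixingSubgroup.index = Module.finrank ℚ F :=
    (IntermediateField.finrank_eq_fixingSubgroup_index (AlgebraicClosure ℚ) F).symm
  have h2 : MulAction.orbit (torsAut W n).range (x, z) = MulAction.orbit Γℚ (x, z) := by
    ext y
    constructor
    · rintro ⟨⟨_, σ, rfl⟩, rfl⟩
      exact ⟨σ, rfl⟩
    · rintro ⟨σ, rfl⟩
      exact ⟨⟨_, σ, rfl⟩, rfl⟩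
  have h3 := ncard_orbit_le_of_mapsTo (G := Γℚ) F.fixingSubgroup
    (by rw [hidx]; exact Module.finrank_pos.ne') (x, z) (Set.finite_singleton (x, z))
    (fun σ hσ => by
      rw [Set.mem_singleton_iff]
      exact Prod.ext (hfix σ hσ).1 (hfix σ hσ).2)
  rw [hidx, Set.ncard_singleton, mul_one] at h3
  rw [h2] at h1
  -- the points of order `n`
  have h4 : {y : ((W.map (Int.castRingHom ℚ))⁄(AlgebraicClosure ℚ)).Point | addOrderOf y = n} =
      (fun v => (f v : ((W.map (Int.castRingHom ℚ))⁄(AlgebraicClosure ℚ)).Point)) ''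
        {v : Fin 2 → ZMod n | addOrderOf v = n} := by
    have hord : ∀ v : Fin 2 → ZMod n, addOrderOf
        (f v : ((W.map (Int.castRingHom ℚ))⁄(AlgebraicClosure ℚ)).Point) = addOrderOf v := by
      intro v
      have h5 := addOrderOf_injective (Submodule.subtype (Submodule.torsionBy ℤ
        ((W.map (Int.castRingHom ℚ))⁄(AlgebraicClosure ℚ)).Point (n : ℤ))).toAddMonoidHom
        Subtype.val_injective (f v)
      have h6 := addOrderOf_injective f.toLinearMap.toAddMonoidHom f.injective v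
      exact h5.trans h6
    ext y
    constructor
    · intro hy
      have hy' : addOrderOf y = n := hy
      have hmem : y ∈ Submodule.torsionBy ℤ
          ((W.map (Int.castRingHom ℚ))⁄(AlgebraicClosure ℚ)).Point (n : ℤ) := by
        rw [Submodule.mem_torsionBy_iff, natCast_zsmul, ← hy']
        exact addOrderOf_nsmul_eq_zero y
      have h7 : (f (f.symm ⟨y, hmem⟩) :
          ((W.map (Int.castRingHom ℚ))⁄(AlgebraicClosure ℚ)).Point) = y :=
        congrArg Subtype.val (f.apply_symm_apply ⟨y, hmem⟩)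
      refine ⟨f.symm ⟨y, hmem⟩, ?_, h7⟩
      have h8 := hord (f.symm ⟨y, hmem⟩)
      rw [h7, hy'] at h8
      exact h8.symm
    · rintro ⟨v, hv, rfl⟩
      exact (hord v).trans hv
  have h9 := sq_le_two_mul_card_order hΔ hn
  have hfi : Function.Injective (fun v : Fin 2 → ZMod n =>
      (f v : ((W.map (Int.castRingHom ℚ))⁄(AlgebraicClosure ℚ)).Point)) :=
    Subtype.val_injective.comp f.injective
  rw [h4, Set.ncard_image_of_injective _ hfi] at h9
  calc n ^ 2 * (a * a.totient) ≤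
      2 * {v : Fin 2 → ZMod n | addOrderOf v = n}.ncard * (a * a.totient) :=
        Nat.mul_le_mul_right _ h9
    _ = 2 * ({v : Fin 2 → ZMod n | addOrderOf v = n}.ncard * (a * a.totient)) := by ring
    _ ≤ 2 * ((torsAut W n).range.index * (MulAction.orbit Γℚ (x, z)).ncard) :=
        Nat.mul_le_mul_left _ h1
    _ ≤ 2 * ((m ^ 2).factorial * Module.finrank ℚ F) :=
        Nat.mul_le_mul_left _ (Nat.mul_le_mul (index_range_le hΔ hm h hn).2 h3)
    _ = 2 * (m ^ 2).factorial * Module.finrank ℚ F := by ring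

/-- **Finite groups of points over number fields.** -/
theorem exists_structure_le (hΔ : W.Δ ≠ 0) {m : ℕ} (hm : m ≠ 0) (h : OpenTors W m)
    (F : IntermediateField ℚ (AlgebraicClosure ℚ)) [FiniteDimensional ℚ F]
    (T : AddSubgroup ((W.map (Int.castRingHom ℚ))⁄(AlgebraicClosure ℚ)).Point) [Finite T]
    (hfix : ∀ σ ∈ F.fixingSubgroup, ∀ x ∈ T, σ • x = x) :
    ∃ a n : ℕ, n ≠ 0 ∧ a ∣ n ∧ Nonempty (T ≃+ ZMod a × ZMod n) ∧
      n ^ 2 * (a * a.totient) ≤ 2 * (m ^ 2).factorial * Module.finrank ℚ F := by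
  classical
  obtain ⟨n, hn⟩ : ∃ n, n = AddMonoid.exponent T := ⟨_, rfl⟩
  have hn0 : n ≠ 0 := by
    rw [hn]
    exact AddMonoid.exponent_ne_zero_of_finite
  obtain ⟨x, hx⟩ := AddMonoid.exists_addOrderOf_eq_exponent (G := T)
    AddMonoid.ExponentExists.of_finite
  have hkill : ∀ y ∈ T, y ∈ Submodule.torsionBy ℤ
      ((W.map (Int.castRingHom ℚ))⁄(AlgebraicClosure ℚ)).Point (n : ℤ) := by
    intro y hy
    rw [Submodule.mem_torsionBy_iff, natCast_zsmul, hn]
    exact congrArg Subtype.val (AddMonoid.exponent_nsmul_eq_zero (⟨y, hy⟩ : T))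
  have hordx : addOrderOf (⟨x.1, hkill x.1 x.2⟩ : Tors W n) = n := by
    have h5 := addOrderOf_injective (Submodule.subtype (Submodule.torsionBy ℤ
      ((W.map (Int.castRingHom ℚ))⁄(AlgebraicClosure ℚ)).Point (n : ℤ))).toAddMonoidHom
      Subtype.val_injective (⟨x.1, hkill x.1 x.2⟩ : Tors W n)
    have h6 : addOrderOf (x.1 : ((W.map (Int.castRingHom ℚ))⁄(AlgebraicClosure ℚ)).Point) = n := by
      rw [AddSubgroup.addOrderOf_coe, hx, hn]
    exact h5.symm.trans h6
  obtain ⟨f, hf⟩ := exists_linearEquiv_single_tors hΔ hn0 hordx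
  set φ : (Fin 2 → ZMod n) →+ ((W.map (Int.castRingHom ℚ))⁄(AlgebraicClosure ℚ)).Point :=
    (Submodule.subtype (Submodule.torsionBy ℤ
      ((W.map (Int.castRingHom ℚ))⁄(AlgebraicClosure ℚ)).Point (n : ℤ))).toAddMonoidHom.comp
      f.toLinearMap.toAddMonoidHom with hφ
  have hφa : ∀ v, φ v = (f v : ((W.map (Int.castRingHom ℚ))⁄(AlgebraicClosure ℚ)).Point) :=
    fun v => rfl
  have hφi : Function.Injective φ := Subtype.val_injective.comp f.injective
  obtain ⟨a, k, hnk, hk, ⟨e⟩⟩ := exists_addEquiv_of_mem hn0 (T.comap φ) (by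
    rw [AddSubgroup.mem_comap, hφa, hf]
    exact x.2)
  have hk' : φ (Pi.single 1 (k : ZMod n)) ∈ T := hk
  refine ⟨a, n, hn0, ⟨k, by rw [hnk, mul_comm]⟩, ?_, ?_⟩
  · have hbij : Function.Bijective (φ.addSubgroupComap T) := by
      constructor
      · intro v w hvw
        have h7 : φ v.1 = φ w.1 := congrArg (fun y : T => y.1) hvw
        exact Subtype.ext (hφi h7)
      · intro y
        have h7 : φ (f.symm ⟨y.1, hkill y.1 y.2⟩) = y.1 :=
          congrArg Subtype.val (f.apply_symm_apply ⟨y.1, hkill y.1 y.2⟩)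
        exact ⟨⟨f.symm ⟨y.1, hkill y.1 y.2⟩, by
          rw [AddSubgroup.mem_comap, h7]
          exact y.2⟩, Subtype.ext h7⟩
    exact ⟨(AddEquiv.ofBijective _ hbij).symm.trans e⟩
  · refine pairs_le_finrank hΔ hm h F hnk hn0 f fun σ hσ => ⟨?_, ?_⟩
    · refine Subtype.ext ?_
      change σ • φ (Pi.single 0 1) = φ (Pi.single 0 1)
      refine hfix σ hσ _ ?_
      rw [hφa, hf]
      exact x.2
    · refine Subtype.ext ?_
      change σ • φ (Pi.single 1 (k : ZMod n)) = φ (Pi.single 1 (k : ZMod n))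
      exact hfix σ hσ _ hk'

/-! ### Semistable curves -/

/-- **The torsion subgroups over number fields, semistable curves** (Breuer 2010): there is a
constant `C` such that for every number field `K` the torsion subgroup of `E(K)` is isomorphic to
`ℤ/a × ℤ/n` with `a ∣ n` and `n² a φ(a) ≤ C [K : ℚ]`. -/
theorem exists_torsion_structure_le (hΔ : W.Δ ≠ 0) (hW : W.IsSemistableModel) :
    ∃ C : ℕ, C ≠ 0 ∧ ∀ (K : Type*) [Field K] [NumberField K] [DecidableEq K],
      ∃ a n : ℕ, n ≠ 0 ∧ a ∣ n ∧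
        Nonempty (AddCommGroup.torsion ((W.map (Int.castRingHom ℚ))⁄K).Point ≃+ ZMod a × ZMod n) ∧
        n ^ 2 * (a * a.totient) ≤ C * Module.finrank ℚ K := by
  classical
  obtain ⟨m, hm, h⟩ := exists_open_torsion hΔ hW
  obtain ⟨C', -, hC'⟩ := exists_card_torsion_le hΔ hW
  refine ⟨2 * (m ^ 2).factorial, mul_ne_zero two_ne_zero (Nat.factorial_ne_zero _), ?_⟩
  intro K _ _ _
  obtain ⟨f⟩ : Nonempty (K →ₐ[ℚ] AlgebraicClosure ℚ) := ⟨IsAlgClosed.lift⟩
  have hfd : FiniteDimensional ℚ f.fieldRange :=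
    (AlgEquiv.ofInjectiveField f).toLinearEquiv.finiteDimensional
  have hinj : Function.Injective (Affine.Point.map (W' := W.map (Int.castRingHom ℚ)) f) :=
    Affine.Point.map_injective f
  set T : AddSubgroup ((W.map (Int.castRingHom ℚ))⁄K).Point := AddCommGroup.torsion _ with hT
  have hTS : (T : Set ((W.map (Int.castRingHom ℚ))⁄K).Point) = {x | addOrderOf x ≠ 0} := by
    ext x
    rw [SetLike.mem_coe, Set.mem_ofPred_eq, ← Nat.pos_iff_ne_zero, addOrderOf_pos_iff]
    rfl
  have hfinT : Finite T := by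
    have h1 := (hC' K).1
    rw [← hTS] at h1
    exact h1.to_subtype
  let e := T.equivMapOfInjective (Affine.Point.map (W' := W.map (Int.castRingHom ℚ)) f) hinj
  have hfinT' : Finite (T.map (Affine.Point.map (W' := W.map (Int.castRingHom ℚ)) f)) :=
    Finite.of_equiv T e.toEquiv
  obtain ⟨a, n, hn, han, ⟨e'⟩, hle⟩ := exists_structure_le hΔ hm h f.fieldRange
    (T.map (Affine.Point.map (W' := W.map (Int.castRingHom ℚ)) f)) (by
      rintro σ hσ _ ⟨x, -, rfl⟩
      have h2 : (σ : AlgebraicClosure ℚ →ₐ[ℚ] AlgebraicClosure ℚ).comp f = f := by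
        ext a
        exact (IntermediateField.mem_fixingSubgroup_iff _ _).mp hσ _ ⟨a, rfl⟩
      rw [algEquiv_smul_def, Affine.Point.map_map]
      exact congrArg (fun g : K →ₐ[ℚ] AlgebraicClosure ℚ =>
        Affine.Point.map (W' := W.map (Int.castRingHom ℚ)) g x) h2)
  have h2 : Module.finrank ℚ f.fieldRange = Module.finrank ℚ K :=
    (LinearEquiv.finrank_eq (AlgEquiv.ofInjectiveField f).toLinearEquiv).symm
  rw [h2] at hle
  exact ⟨a, n, hn, han, ⟨e.trans e'⟩, hle⟩

/-! ### Euler's function -/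

theorem one_div_card_add_one_le_prod (s : Finset ℕ) (hs : ∀ p ∈ s, 2 ≤ p) :
    (1 : ℚ) / (s.card + 1) ≤ ∏ p ∈ s, (1 - (p : ℚ)⁻¹) := by
  induction s using Finset.induction_on_max with
  | empty => simp
  | insert p s hp ih =>
    have hps : p ∉ s := fun h => lt_irrefl _ (hp p h)
    rw [Finset.prod_insert hps, Finset.card_insert_of_notMem hps]
    have h1 := ih fun q hq => hs q (Finset.mem_insert_of_mem hq)
    have hp2 := hs p (Finset.mem_insert_self p s)
    have hsub : s ⊆ Finset.Ico 2 p := fun q hq =>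
      Finset.mem_Ico.mpr ⟨hs q (Finset.mem_insert_of_mem hq), hp q hq⟩
    have hcard : s.card + 2 ≤ p := by
      have := Finset.card_le_card hsub
      rw [Nat.card_Ico] at this
      omega
    have h2 : (1 : ℚ) - 1 / (s.card + 2) ≤ 1 - (p : ℚ)⁻¹ := by
      have h3 : (p : ℚ)⁻¹ ≤ 1 / (s.card + 2) := by
        rw [one_div]
        apply inv_anti₀ (by positivity)
        exact_mod_cast hcard
      linarith
    have h4 : (1 : ℚ) / (((s.card + 1 : ℕ) : ℚ) + 1) =
        (1 - 1 / (s.card + 2)) * (1 / (s.card + 1)) := by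
      push_cast
      field_simp
      ring
    rw [h4]
    have h5 : (0 : ℚ) ≤ 1 - 1 / (s.card + 2) := by
      rw [sub_nonneg, div_le_one (by positivity)]
      linarith [(Nat.cast_nonneg s.card : (0 : ℚ) ≤ s.card)]
    exact mul_le_mul h2 h1 (by positivity) (h5.trans h2)

/-- `n ≤ (ω(n) + 1) φ(n)`. -/
theorem le_card_primeFactors_mul_totient (n : ℕ) : n ≤ (n.primeFactors.card + 1) * n.totient := by
  have h1 := one_div_card_add_one_le_prod n.primeFactors fun p hp =>
    (Nat.prime_of_mem_primeFactors hp).two_le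
  have h2 := Nat.totient_eq_mul_prod_factors n
  have h3 : (n : ℚ) ≤ (n.primeFactors.card + 1) * n.totient := by
    rw [h2]
    have h4 : (0 : ℚ) < n.primeFactors.card + 1 := by positivity
    calc (n : ℚ) = (n.primeFactors.card + 1) * (n * (1 / (n.primeFactors.card + 1))) := by
          field_simp
      _ ≤ (n.primeFactors.card + 1) * (n * ∏ p ∈ n.primeFactors, (1 - (p : ℚ)⁻¹)) := by gcongr
  exact_mod_cast h3

theorem card_primeFactors_le_log {n : ℕ} (hn : n ≠ 0) : n.primeFactors.card ≤ Nat.log 2 n := by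
  apply Nat.le_log_of_pow_le one_lt_two
  calc 2 ^ n.primeFactors.card = ∏ _p ∈ n.primeFactors, 2 := (Finset.prod_const 2).symm
    _ ≤ ∏ p ∈ n.primeFactors, p := Finset.prod_le_prod' fun p hp =>
        (Nat.prime_of_mem_primeFactors hp).two_le
    _ ≤ n := Nat.le_of_dvd (Nat.pos_of_ne_zero hn) (Nat.prod_primeFactors_dvd n)

/-- `n ≤ (1 + log₂ n) φ(n)`. -/
theorem le_log_mul_totient {n : ℕ} (hn : n ≠ 0) : n ≤ (1 + Nat.log 2 n) * n.totient := by
  refine (le_card_primeFactors_mul_totient n).trans (Nat.mul_le_mul_right _ ?_)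
  have := card_primeFactors_le_log hn
  omega

/-- **Torsion over number fields, semistable curves**:
`#E(K)_tors² ≤ C (1 + log₂ #E(K)_tors) [K : ℚ]` for all number fields `K`, with a constant `C` which
depends only on `E`. -/
theorem exists_sq_card_torsion_le (hΔ : W.Δ ≠ 0) (hW : W.IsSemistableModel) :
    ∃ C : ℕ, C ≠ 0 ∧ ∀ (K : Type*) [Field K] [NumberField K] [DecidableEq K],
      Nat.card (AddCommGroup.torsion ((W.map (Int.castRingHom ℚ))⁄K).Point) ^ 2 ≤
        C * (1 + Nat.log 2 (Nat.card (AddCommGroup.torsion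
          ((W.map (Int.castRingHom ℚ))⁄K).Point))) * Module.finrank ℚ K := by
  obtain ⟨C, hC0, hC⟩ := exists_torsion_structure_le hΔ hW
  refine ⟨C, hC0, ?_⟩
  intro K _ _ _
  obtain ⟨a, n, hn, han, ⟨e⟩, hle⟩ := hC K
  have ha : a ≠ 0 := fun h => hn (Nat.eq_zero_of_zero_dvd (h ▸ han))
  have hcard : Nat.card (AddCommGroup.torsion ((W.map (Int.castRingHom ℚ))⁄K).Point) = a * n := by
    rw [Nat.card_congr e.toEquiv, Nat.card_prod, Nat.card_zmod, Nat.card_zmod]
  rw [hcard]
  have h1 : Nat.log 2 a ≤ Nat.log 2 (a * n) :=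
    Nat.log_mono_right (Nat.le_mul_of_pos_right a (Nat.pos_of_ne_zero hn))
  calc (a * n) ^ 2 = n ^ 2 * (a * a) := by ring
    _ ≤ n ^ 2 * (a * ((1 + Nat.log 2 a) * a.totient)) := by
        gcongr
        exact le_log_mul_totient ha
    _ = (n ^ 2 * (a * a.totient)) * (1 + Nat.log 2 a) := by ring
    _ ≤ (C * Module.finrank ℚ K) * (1 + Nat.log 2 (a * n)) := by gcongr
    _ = C * (1 + Nat.log 2 (a * n)) * Module.finrank ℚ K := by ring

end Fermat.Agent.Cor
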