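import Fermat.Agent.Corollaries.Surj.Inertia
import Fermat.Agent.Corollaries.Mazur.Defs

/-!
# Inertia at a prime of multiplicative reduction acts non-trivially on the Tate module

`W` is a Weierstrass equation over `ℤ`, `q` a prime of multiplicative reduction, `A` a place above
`q` and `p` an odd prime (`q = p` and `q = 2` are allowed). Some element of the inertia group of `A`
moves a point of `p`-power order.

If inertia fixes a point `x` of odd order outside the identity component, its component value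
`v(x(x) - e)` is an integer `c` (`exists_int_pcomp`). Take a point `y` of order `p` outside the
identity component, `V = v_q(Δ)` and `x` with `p ^ V • x = y`: the component value of `y` is
`i V / p` with `0 < i < p`, and it is `± p ^ V c` modulo `V`; so `p ^ (V + 1) ∣ V`, a contradiction.
-/

set_option autoImplicit false

open WeierstrassCurve WeierstrassCurve.Affine FermatAgent.ECVal Fermat.Agent.ECRed
open scoped WeierstrassCurve.Affine

namespace Fermat.Agent.Cor.Isog

variable {W : WeierstrassCurve ℤ} {A : ValuationSubring (AlgebraicClosure ℚ)} {q : ℕ}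

/-- **The component value of an inertia-fixed point of odd order is an integer.** -/
theorem exists_int_pcomp (hW : IsMultAt W q) (hA : A.LiesOverPrime q)
    {e D : AlgebraicClosure ℚ} (NR : NodeRoot A.valuation (EQ W) e D) {n : ℕ} (hn : Odd n)
    {P : (EQ W).Point} (hP : n • P = 0)
    (hPE : pcomp (valOf hW.prime hA) e ((valOf hW.prime hA).val D) P ≠ 0)
    (hfix : ∀ σ ∈ A.inertiaSubgroupIn ℚ, σ • P = P) :
    ∃ c : ℤ, pcomp (valOf hW.prime hA) e ((valOf hW.prime hA).val D) P = c := by
  classical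
  have N := NR.nodeData hW.prime hA hW.ne
  set w := valOf hW.prime hA with hw
  set h := w.val D with hh
  have hn0 : (0 : ℚ) < n := by exact_mod_cast hn.pos
  have hP0 : P ≠ 0 := by
    rintro rfl
    exact hPE pcomp_zero
  obtain ⟨hPn, eP⟩ := exists_eq_some hP0
  have hgt : w.Gt 0 (xc P - e) := by
    by_contra hcon
    apply hPE
    rw [eP, pcomp_some]
    exact QVal.comp_of_not_gt hcon
  obtain ⟨j, hj0, hjn, hX⟩ := torsion_val (hxy := hPn) N hn (by rw [← eP]; exact hP) hgt
  have hjQ : (0 : ℚ) < j := by exact_mod_cast hj0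
  have hjnQ : (2 : ℚ) * j < n := by exact_mod_cast hjn
  have hc1 : 0 < (2 * j / n : ℚ) * h := mul_pos (div_pos (by linarith) hn0) N.hh
  have hc2 : (2 * j / n : ℚ) * h < h := by
    have : (2 * j / n : ℚ) < 1 := by rw [div_lt_one hn0]; exact hjnQ
    nlinarith [N.hh]
  have hψ := psi_is N hP0 hc1 hc2 hX
  obtain ⟨c, hc⟩ := val_int_of_inertia_fixed hW.prime hA hψ.1 (fun σ hσ => by
    rw [← psi_smul, hfix σ hσ])
  refine ⟨c, ?_⟩
  rw [← hψ.unique hc, eP, pcomp_some, QVal.comp_of_is hX hc1.le hc2.le]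

/-- The arithmetic of the component values. -/
theorem not_rel {p V m : ℕ} (hp : p.Prime) (hV : 0 < V) (hm : V ≤ m) {i c k : ℤ} (hi : 0 < i)
    (hip : i < p) (h : i * V = p ^ (m + 1) * c + k * p * V) : False := by
  have h1 : (p : ℤ) ^ (m + 1) ∣ (i - k * p) * V := ⟨c, by linear_combination h⟩
  have h2 : IsCoprime ((p : ℤ) ^ (m + 1)) (i - k * p) := by
    refine IsCoprime.pow_left ?_
    refine (Nat.prime_iff_prime_int.mp hp).coprime_iff_not_dvd.mpr fun h3 => ?_
    have h4 : (p : ℤ) ∣ i := by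
      have := dvd_add h3 (Dvd.intro_left k rfl)
      rwa [sub_add_cancel] at this
    have := Int.le_of_dvd hi h4
    omega
  have h5 : p ^ (m + 1) ∣ V := by exact_mod_cast h2.dvd_of_dvd_mul_left h1
  have h6 := Nat.le_of_dvd hV h5
  have h7 : m + 1 < p ^ (m + 1) := Nat.lt_pow_self hp.one_lt
  omega

/-- **Inertia at a prime of multiplicative reduction acts non-trivially on the Tate module**: it
moves a point of order dividing `p ^ (v_q(Δ) + 1)`. -/
theorem exists_smul_ne (hW : IsMultAt W q) {p : ℕ} (hp : p.Prime) (hp2 : p ≠ 2)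
    (hA : A.LiesOverPrime q) :
    ∃ σ ∈ A.inertiaSubgroupIn ℚ, ∃ x : Mazur.Pt W,
      p ^ (padicValInt q W.Δ + 1) • x = 0 ∧ σ • x ≠ x := by
  classical
  have hfact : Fact p.Prime := ⟨hp⟩
  obtain ⟨e, D, NR⟩ := hW.exists_nodeRoot hA
  have N := NR.nodeData hW.prime hA hW.ne
  have h2D := two_mul_valOf_nodeD hW hA NR
  set V := padicValInt q W.Δ with hVdef
  have hh0 := N.hh
  have hV0 : 0 < V := by
    have : (0 : ℚ) < (V : ℚ) := by rw [← h2D]; linarith
    exact_mod_cast this
  -- a point of order `p` outside the identity component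
  obtain ⟨y, hy, hyE⟩ : ∃ P : (EQ W).Point, p • P = 0 ∧
      P ∉ E0 (redEk W A) (isPlace_valuationSubring A) := by
    by_cases hqp : q = p
    · subst hqp
      exact exists_torsion_notMem_E0 hW hp2 hA
    · exact exists_torsion_notMem_E0_of_ne hW hqp hp2 hA
  rw [mem_E0_iff_pcomp hW.prime hA hW.ne NR] at hyE
  -- a `p ^ V`-th part of it
  have hΔ : (W.map (Int.castRingHom ℚ)).Δ ≠ 0 := by
    rw [WeierstrassCurve.map_Δ, eq_intCast, Int.cast_ne_zero]
    exact hW.ne
  obtain ⟨g, hg⟩ := (Fermat.Agent.Tate.hasTwoRank_curve hΔ p).exists_apply_eq (n := 1) (x := y)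
    (by rw [pow_one]; exact hy)
  have hx1 : p ^ V • g (1 + V) = y := by rw [Fermat.Agent.Tate.TMod.pow_smul_apply_add, hg]
  have hx2 : p ^ (V + 1) • g (1 + V) = 0 := by
    rw [add_comm 1 V]
    exact Fermat.Agent.Tate.TMod.pow_smul_apply g (V + 1)
  set x : (EQ W).Point := g (1 + V) with hx
  by_contra hcon
  push Not at hcon
  have hfix : ∀ σ ∈ A.inertiaSubgroupIn ℚ, σ • x = x := fun σ hσ => hcon σ hσ x hx2
  have hxE : pcomp (valOf hW.prime hA) e ((valOf hW.prime hA).val D) x ≠ 0 := by
    intro h0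
    apply hyE
    rw [← mem_E0_iff_pcomp hW.prime hA hW.ne NR] at h0 ⊢
    rw [← hx1]
    exact AddSubgroup.nsmul_mem _ h0 _
  have hodd : Odd (p ^ (V + 1)) := (hp.odd_of_ne_two hp2).pow
  obtain ⟨c, hc⟩ := exists_int_pcomp hW hA NR hodd hx2 hxE hfix
  set w := valOf hW.prime hA with hw
  set h := w.val D with hh
  have hp0 : (0 : ℚ) < p := by exact_mod_cast hp.pos
  -- the component value of `y`
  obtain ⟨i, hi⟩ := pcomp_torsion N hy
  have hy0 : 0 < pcomp w e h y := lt_of_le_of_ne (pcomp_nonneg N y) (Ne.symm hyE)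
  have hy1 := pcomp_le N y
  have hiV : (p : ℚ) * pcomp w e h y = i * V := by rw [hi, h2D]
  have hi0 : 0 < i := by
    have h1 : (0 : ℚ) < i * V := by rw [← hiV]; exact mul_pos hp0 hy0
    have h2 : (0 : ℚ) < V := by exact_mod_cast hV0
    have h3 : (0 : ℚ) < i := (mul_pos_iff_of_pos_right h2).mp h1
    exact_mod_cast h3
  have hip : i < p := by
    have h2 : (0 : ℚ) < V := by exact_mod_cast hV0
    have h1 : (i : ℚ) * V ≤ p * h := by
      rw [← hiV]
      exact mul_le_mul_of_nonneg_left hy1 hp0.le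
    have h3 : (i : ℚ) < p := by
      by_contra hge
      rw [not_lt] at hge
      have : (p : ℚ) * V ≤ i * V := mul_le_mul_of_nonneg_right hge h2.le
      nlinarith
    exact_mod_cast h3
  -- and the relation with that of `x`
  have hrel := pcomp_nsmul N x (p ^ V)
  rw [hx1, hc] at hrel
  obtain ⟨k, hk | hk⟩ := hrel
  · refine not_rel hp hV0 le_rfl hi0 hip (c := c) (k := k) ?_
    have : (i : ℚ) * V = p ^ (V + 1) * c + k * p * V := by
      rw [← hiV, hk, ← h2D]
      push_cast
      ring
    exact_mod_cast this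
  · refine not_rel hp hV0 le_rfl hi0 hip (c := -c) (k := k) ?_
    have : (i : ℚ) * V = p ^ (V + 1) * (-c) + k * p * V := by
      rw [← hiV, hk, ← h2D]
      push_cast
      ring
    exact_mod_cast this

/-- Inertia at a prime of multiplicative reduction moves a point of `p`-power order. -/
theorem exists_inertia_ne (hW : IsMultAt W q) {p : ℕ} (hp : p.Prime) (hp2 : p ≠ 2)
    (hA : A.LiesOverPrime q) :
    ∃ σ ∈ A.inertiaSubgroupIn ℚ, ∃ (n : ℕ) (x : Mazur.Pt W), p ^ n • x = 0 ∧ σ • x ≠ x := by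
  obtain ⟨σ, hσ, x, hx, hne⟩ := exists_smul_ne hW hp hp2 hA
  exact ⟨σ, hσ, _, x, hx, hne⟩

end Fermat.Agent.Cor.Isog
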