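import Fermat.Agent.Corollaries.Isog.Finite
import Fermat.Agent.Corollaries.Isog.NotSS

/-!
# Isogenies of semistable elliptic curves over `ℚ`

* `exists_bound_stable`: for `p` odd, the stable cyclic subgroups of `p`-power order of `E(ℚ̄)`
  have bounded order: the Galois module `V_p(E)` is irreducible.
* `finite_stable`: `E(ℚ̄)` has only finitely many stable cyclic subgroups of odd order.
-/

set_option autoImplicit false

noncomputable section

open WeierstrassCurve WeierstrassCurve.Affine WeierstrassCurve.Affine.Point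

namespace Fermat.Agent.Cor.Isog

open Fermat.Agent.Cor.K1 (Gam Pts)
open Fermat.Agent.Cor.Mazur (Pt Fix)

variable {W : WeierstrassCurve ℤ}

theorem notSS (hΔ : W.Δ ≠ 0) {p : ℕ} (hp : p.Prime) (hp2 : p ≠ 2) : NotSS W p :=
  fun _ hB L hL hst => exists_xc_mem hΔ hp hp2 hB L hL hst

/-- **The size of a stable cyclic subgroup**: if `E(ℚ̄)` has a stable cyclic subgroup of order
`p ^ n`, `p` odd, every `F ∈ Γ` fixes at least `p ^ ⌈n/2⌉` points of `p`-power order. -/
theorem pow_le_card_Fix (hΔ : W.Δ ≠ 0) (hW : W.IsSemistableModel) {p : ℕ} (hp : p.Prime)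
    (hp2 : p ≠ 2) {F : Gam} (hF : Finite (Fix p (act W F))) {n : ℕ} {g : Pt W}
    (hg : addOrderOf g = p ^ n) (hst : ∀ σ : Gam, σ • g ∈ AddSubgroup.zmultiples g) :
    p ^ (n - n / 2) ≤ Nat.card (Fix p (act W F)) :=
  pow_le_card_Fix_of hΔ hW hp hp2 (notSS hΔ hp hp2) hF hg hst (by omega) (by omega)

/-- **`V_p(E)` is irreducible**: the stable cyclic subgroups of `p`-power order have bounded
order. -/
theorem exists_bound_stable (hΔ : W.Δ ≠ 0) (hW : W.IsSemistableModel) {p : ℕ} (hp : p.Prime)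
    (hp2 : p ≠ 2) : ∃ N : ℕ, ∀ (n : ℕ) (g : Pt W), addOrderOf g = p ^ n →
    (∀ σ : Gam, σ • g ∈ AddSubgroup.zmultiples g) → n ≤ N :=
  exists_bound_stable_of hΔ hW hp hp2 (notSS hΔ hp hp2)

/-- The orders of the stable cyclic subgroups of odd order divide a fixed number. -/
theorem exists_dvd (hΔ : W.Δ ≠ 0) (hW : W.IsSemistableModel) : ∃ M : ℕ, M ≠ 0 ∧ ∀ g : Pt W,
    addOrderOf g ≠ 0 → Odd (addOrderOf g) → (∀ σ : Gam, σ • g ∈ AddSubgroup.zmultiples g) →
    addOrderOf g ∣ M :=
  exists_dvd_of hΔ hW fun _ hp hp2 => notSS hΔ hp hp2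

/-- **Finitely many rational cyclic isogenies of odd degree**: a semistable elliptic curve over
`ℚ` has only finitely many cyclic subgroups of odd order over `ℚ̄` which are stable under Galois
(Shafarevich's theorem on isogenies, the case of a semistable curve and of odd degrees). -/
theorem finite_stable (hΔ : W.Δ ≠ 0) (hW : W.IsSemistableModel) :
    {L : AddSubgroup (Pt W) | Finite L ∧ IsAddCyclic L ∧ Odd (Nat.card L) ∧
      ∀ σ : Gam, ∀ x ∈ L, σ • x ∈ L}.Finite :=
  finite_stable_of hΔ hW fun _ hp hp2 => notSS hΔ hp hp2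

end Fermat.Agent.Cor.Isog
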