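import Fermat.Agent.Corollaries.Isog.TwoUnip
import Fermat.Agent.Corollaries.Isog.Main
import Fermat.Agent.Corollaries.Surj.Open

/-!
# A line fixed by the Galois action on the Tate module

If `N² = 0`, `N ≠ 0` and `N g N = 0` for all the matrices `g` of the image of Galois on `T_p E`,
then the kernel of `N` is a line stable under Galois (`exists_eq_smul`), so `E(ℚ̄)` has stable
cyclic subgroups of order `p ^ n` for every `n` (`exists_stable`). For a semistable curve this is
impossible (`exists_ne_zero`).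
-/

set_option autoImplicit false

noncomputable section

open WeierstrassCurve WeierstrassCurve.Affine.Point Module
open scoped WeierstrassCurve.Affine Pointwise
open Fermat.Agent.Tate Fermat.Agent.S30aux

namespace Fermat.Agent.Cor.Isog

open Fermat.Agent.Cor.Serre Matrix
open Fermat.Agent.Cor.K1 (Gam Pts)
open Fermat.Agent.Cor.Mazur (Pt)

/-- The kernel of a nilpotent matrix `N` over a valuation ring is a line, stable under every `g`
with `N g N = 0`. -/
theorem exists_eq_smul {R : Type*} [CommRing R] [IsDomain R] [ValuationRing R]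
    {N : Matrix (Fin 2) (Fin 2) R} (hN : N * N = 0) (h0 : N ≠ 0) :
    ∃ v : Fin 2 → R, (v 0 = 1 ∨ v 1 = 1) ∧
      ∀ g : Matrix (Fin 2) (Fin 2) R, N * g * N = 0 → ∃ c : R, g *ᵥ v = c • v := by
  obtain ⟨j, hj⟩ : ∃ j, (fun i => N i j) ≠ 0 := by
    by_contra hcon
    push Not at hcon
    exact h0 (by ext i j; exact congrFun (hcon j) i)
  -- `u` the column, `u = x • v`
  set u : Fin 2 → R := fun i => N i j with hu
  have hNu : ∀ g : Matrix (Fin 2) (Fin 2) R, N * g * N = 0 → N *ᵥ (g *ᵥ u) = 0 := by
    intro g hg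
    have h1 : N *ᵥ (g *ᵥ u) = fun i => (N * g * N) i j := by
      rw [Matrix.mulVec_mulVec]
      rfl
    rw [h1, hg]
    rfl
  obtain ⟨v, x, hv, hx, huv⟩ : ∃ (v : Fin 2 → R) (x : R), (v 0 = 1 ∨ v 1 = 1) ∧ x ≠ 0 ∧
      u = x • v := by
    rcases ValuationRing.dvd_total (u 0) (u 1) with ⟨w, hw⟩ | ⟨w, hw⟩
    · have e : u = u 0 • ![1, w] := by
        ext i
        fin_cases i
        · simp
        · simpa using hw
      exact ⟨![1, w], u 0, Or.inl rfl, fun h => hj (by rw [e, h, zero_smul]), e⟩
    · have e : u = u 1 • ![w, 1] := by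
        ext i
        fin_cases i
        · simpa using hw
        · simp
      exact ⟨![w, 1], u 1, Or.inr rfl, fun h => hj (by rw [e, h, zero_smul]), e⟩
  have hNv : ∀ g : Matrix (Fin 2) (Fin 2) R, N * g * N = 0 → N *ᵥ (g *ᵥ v) = 0 := by
    intro g hg
    have h1 := hNu g hg
    rw [huv, Matrix.mulVec_smul, Matrix.mulVec_smul] at h1
    exact (smul_eq_zero.mp h1).resolve_left hx
  have hv1 : N *ᵥ v = 0 := by
    have := hNv 1 (by rw [mul_one, hN])
    rwa [Matrix.one_mulVec] at this
  refine ⟨v, hv, fun g hg => ?_⟩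
  have h2 := hNv g hg
  -- a vector of the kernel of `N` is a multiple of `v`
  have key : ∀ y : Fin 2 → R, N *ᵥ y = 0 → ∃ c : R, y = c • v := by
    intro y hy
    have hv0 := congrFun hv1
    have hy0 := congrFun hy
    simp only [Matrix.mulVec, dotProduct, Fin.sum_univ_two, Pi.zero_apply] at hv0 hy0
    rcases hv with h | h
    · refine ⟨y 0, ?_⟩
      have h3 : y 1 - y 0 * v 1 = 0 := by
        by_contra hne
        refine h0 ?_
        have h4 : ∀ i, N i 1 = 0 := by
          intro i
          have h5 : N i 1 * (y 1 - y 0 * v 1) = 0 := by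
            have := hv0 i
            rw [h] at this
            linear_combination hy0 i - y 0 * this
          exact (mul_eq_zero.mp h5).resolve_right hne
        ext i k
        fin_cases k
        · have := hv0 i
          rw [h, h4 i] at this
          simpa using this
        · exact h4 i
      ext i
      fin_cases i
      · simp [h]
      · simpa using sub_eq_zero.mp h3
    · refine ⟨y 1, ?_⟩
      have h3 : y 0 - y 1 * v 0 = 0 := by
        by_contra hne
        refine h0 ?_
        have h4 : ∀ i, N i 0 = 0 := by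
          intro i
          have h5 : N i 0 * (y 0 - y 1 * v 0) = 0 := by
            have := hv0 i
            rw [h] at this
            linear_combination hy0 i - y 1 * this
          exact (mul_eq_zero.mp h5).resolve_right hne
        ext i k
        fin_cases k
        · exact h4 i
        · have := hv0 i
          rw [h, h4 i] at this
          simpa using this
      ext i
      fin_cases i
      · simpa using sub_eq_zero.mp h3
      · simp [h]
  obtain ⟨c, hc⟩ := key _ h2
  exact ⟨c, hc⟩

section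

variable {W : WeierstrassCurve ℤ} {p : ℕ} [hp : Fact p.Prime]

/-- A Galois-stable line of the Tate module, with a primitive vector, gives stable cyclic
subgroups of order `p ^ n` for all `n`. -/
theorem exists_stable (X : Tb W p) {v : Fin 2 → ℤ_[p]} (hv : v 0 = 1 ∨ v 1 = 1)
    (h : ∀ σ, ∃ c : ℤ_[p], (X.M σ) *ᵥ v = c • v) (n : ℕ) :
    ∃ g : Pt W, addOrderOf g = p ^ n ∧ ∀ σ : Gam, σ • g ∈ AddSubgroup.zmultiples g := by
  -- the vector of the Tate module
  set f : TMod p (Pt W) := X.b.equivFun.symm v with hf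
  have hrep : ∀ i, X.b.repr f i = v i := by
    intro i
    have := congrFun (X.b.equivFun.apply_symm_apply v) i
    rwa [Basis.equivFun_apply] at this
  have hst : ∀ σ : Gam, ∃ c : ℤ_[p], TMod.rep p _ _ σ f = c • f := by
    intro σ
    obtain ⟨c, hc⟩ := h σ
    refine ⟨c, X.b.repr.injective (DFunLike.coe_injective ?_)⟩
    have h1 := LinearMap.toMatrix_mulVec_repr X.b X.b (TMod.rep p _ _ σ) f
    have h2 : (⇑(X.b.repr f) : Fin 2 → ℤ_[p]) = v := funext hrep
    rw [← h1, map_smul, Finsupp.coe_smul, h2]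
    exact hc
  have hf1 : f 1 ≠ 0 := by
    intro h1
    obtain ⟨g, hg⟩ := (TMod.apply_eq_zero_iff f 1).mp h1
    rw [pow_one] at hg
    have h2 : ∀ i, (p : ℤ_[p]) ∣ v i := by
      intro i
      rw [← hrep i, hg, map_smul, Finsupp.smul_apply, smul_eq_mul]
      exact dvd_mul_right _ _
    have h3 : ¬ IsUnit (p : ℤ_[p]) := PadicInt.prime_p.not_isUnit
    rcases hv with hv | hv
    · exact h3 (isUnit_of_dvd_one (hv ▸ h2 0))
    · exact h3 (isUnit_of_dvd_one (hv ▸ h2 1))
  refine ⟨f n, ?_, fun σ => ?_⟩
  · rcases Nat.eq_zero_or_pos n with rfl | hn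
    · rw [TMod.apply_zero, addOrderOf_zero, pow_zero]
    · obtain ⟨m, rfl⟩ : ∃ m, n = m + 1 := ⟨n - 1, by omega⟩
      refine addOrderOf_eq_prime_pow ?_ (TMod.pow_smul_apply f _)
      have := TMod.pow_smul_apply_add f 1 m
      rw [add_comm] at this
      rwa [this]
  · obtain ⟨c, hc⟩ := hst σ
    have h1 : σ • f n = (c • f) n := by
      rw [← hc]
      rfl
    rw [h1, TMod.smul_apply]
    exact AddSubgroup.nsmul_mem_zmultiples _ _

/-- **No line of the Tate module is stable** if the stable cyclic subgroups have bounded order, in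
terms of a nilpotent `N`. -/
theorem exists_ne_zero_of_bound (X : Tb W p) (hB : ∃ B : ℕ, ∀ (n : ℕ) (g : Pt W),
    addOrderOf g = p ^ n → (∀ σ : Gam, σ • g ∈ AddSubgroup.zmultiples g) → n ≤ B)
    {N : Matrix (Fin 2) (Fin 2) ℤ_[p]} (hN : N * N = 0) (h0 : N ≠ 0) :
    ∃ σ, N * X.M σ * N ≠ 0 := by
  by_contra hcon
  push Not at hcon
  obtain ⟨v, hv, hc⟩ := exists_eq_smul hN h0
  obtain ⟨B, hB⟩ := hB
  obtain ⟨g, hg, hst⟩ := exists_stable X hv (fun σ => hc _ (hcon σ)) (B + 1)
  have := hB _ g hg hst
  omega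

/-- **Semistable curves: no line of the Tate module is stable**, in terms of a nilpotent `N`. -/
theorem exists_ne_zero (hΔ : W.Δ ≠ 0) (hW : W.IsSemistableModel) (hp2 : p ≠ 2) (X : Tb W p)
    {N : Matrix (Fin 2) (Fin 2) ℤ_[p]} (hN : N * N = 0) (h0 : N ≠ 0) :
    ∃ σ, N * X.M σ * N ≠ 0 :=
  exists_ne_zero_of_bound X (exists_bound_stable hΔ hW hp.out hp2) hN h0

end

end Fermat.Agent.Cor.Isog
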