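import Fermat.Agent.EC.ResRep
import Fermat.Agent.EC.NodalTorsion
import Fermat.Agent.Corollaries.Mazur.Defs
import Fermat.Agent.Corollaries.Mazur.Split

/-!
# Inertia on the points of `p`-power order of a semistable curve

* away from `p` inertia acts unipotently (`smul_smul_sub`);
* at `p` (odd), `σ x - x` is in the kernel of reduction for `σ` in the inertia group
  (`smul_sub_mem_kerR`), which contains no rational point of order `p`.
-/

set_option autoImplicit false

noncomputable section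

open WeierstrassCurve WeierstrassCurve.Affine WeierstrassCurve.Affine.Point
open Fermat.Agent.ECRed Fermat.Agent.Tate
open scoped WeierstrassCurve.Affine

namespace Fermat.Agent.Cor.Isog

open Fermat.Agent.Cor.K1 (Gam Pts)
open Fermat.Agent.Cor.Mazur (Pt)

variable {W : WeierstrassCurve ℤ}

theorem Δbar_ne_zero (hΔ : W.Δ ≠ 0) : ((W.map (Int.castRingHom ℚ))⁄(AlgebraicClosure ℚ) :
    WeierstrassCurve (AlgebraicClosure ℚ)).Δ ≠ 0 := by
  rw [show ((W.map (Int.castRingHom ℚ))⁄(AlgebraicClosure ℚ) :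
    WeierstrassCurve (AlgebraicClosure ℚ)) =
    (W.map (Int.castRingHom ℚ)).map (algebraMap ℚ (AlgebraicClosure ℚ)) from rfl,
    WeierstrassCurve.map_Δ, WeierstrassCurve.map_Δ]
  simpa using hΔ

/-- Multiplication by `n` is surjective. -/
theorem exists_nsmul_eq (hΔ : W.Δ ≠ 0) {n : ℕ} (hn : n ≠ 0) (x : Pt W) : ∃ y : Pt W, n • y = x :=
  Fermat.Agent.Torsion.surjective_nsmul (Δbar_ne_zero hΔ) hn x

/-- The number of points killed by `n`. -/
theorem card_torsion (hΔ : W.Δ ≠ 0) {n : ℕ} (hn : n ≠ 0) :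
    Nat.card {x : Pt W // n • x = 0} = n ^ 2 :=
  Fermat.Agent.Torsion.card_torsion (Δbar_ne_zero hΔ) (by exact_mod_cast hn)

/-- **Away from `p` inertia acts unipotently on the points of `p`-power order.** -/
theorem smul_smul_sub (hΔ : W.Δ ≠ 0) (hW : W.IsSemistableModel) {p ℓ : ℕ} (hp : p.Prime)
    (hp2 : p ≠ 2) (hℓ : ℓ.Prime) (hne : ℓ ≠ p) {B : ValuationSubring (AlgebraicClosure ℚ)}
    (hB : B.LiesOverPrime ℓ) {σ : Gam} (hσ : σ ∈ B.inertiaSubgroupIn ℚ) {k : ℕ} {x : Pt W}
    (hx : p ^ k • x = 0) : σ • (σ • x - x) = σ • x - x := by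
  have hF : Fact p.Prime := ⟨hp⟩
  have hΔ' : (W.map (Int.castRingHom ℚ)).Δ ≠ 0 := by
    rw [WeierstrassCurve.map_Δ]; simpa using hΔ
  obtain ⟨f, hf⟩ := TMod.exists_apply_eq (p := p) (A := (EQ W).Point)
    (fun y _ _ => exists_nsmul_eq hΔ hp.ne_zero y) hx
  have h1 := tateRep_unipotent_of_semistable hΔ' p hW hp2 hℓ hne B hB σ hσ
  have h2 := LinearMap.aeval_self_charpoly ((tateRep (W.map (Int.castRingHom ℚ)) hΔ' p).ρ σ)
  rw [h1, map_pow, map_sub, Polynomial.aeval_X, map_one, sq] at h2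
  have h3 := LinearMap.congr_fun h2 f
  have h4 : (TMod.rep p Gam (EQ W).Point σ) ((TMod.rep p Gam (EQ W).Point σ) f - f) -
      ((TMod.rep p Gam (EQ W).Point σ) f - f) = 0 := h3
  have h5 := congrArg (fun g : TMod p (EQ W).Point => g k) h4
  have h6 : σ • (σ • f k - f k) - (σ • f k - f k) = 0 := h5
  rw [hf] at h6
  exact sub_eq_zero.mp h6

open scoped Classical in
/-- The kernel of reduction. -/
def kerR (W : WeierstrassCurve ℤ) (B : ValuationSubring (AlgebraicClosure ℚ)) :
    AddSubgroup (Pt W) := E1 (redEk W B) (isPlace_valuationSubring B)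

open scoped Classical in
theorem mem_kerR {B : ValuationSubring (AlgebraicClosure ℚ)} {x : Pt W} :
    x ∈ kerR W B ↔ x = 0 ∨ 1 < B.valuation (xc x) := mem_E1_iff

/-- A rational point of order `p` is not in the kernel of reduction at `p`. -/
theorem eq_zero_of_mem_kerR {p : ℕ} (hp : p.Prime) (hp2 : p ≠ 2)
    {B : ValuationSubring (AlgebraicClosure ℚ)} (hB : B.LiesOverPrime p) {x : Pt W}
    (hfix : ∀ σ : Gam, σ • x = x) (hx : p • x = 0) (hm : x ∈ kerR W B) : x = 0 := by
  by_contra hne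
  rcases mem_kerR.mp hm with h | h
  · exact hne h
  · have h1 := S12val.xc_mem_of_fixed (W := W) hp hp2 hB hfix hx hne
    rw [← B.valuation_le_one_iff] at h1
    exact absurd h (not_lt.mpr h1)

open scoped Classical in
/-- **At `p`, `σ x - x` is in the kernel of reduction.** -/
theorem smul_sub_mem_kerR (hΔ : W.Δ ≠ 0) (hW : W.IsSemistableModel) {p : ℕ} (hp : p.Prime)
    (hp2 : p ≠ 2) {B : ValuationSubring (AlgebraicClosure ℚ)} (hB : B.LiesOverPrime p) {σ : Gam}
    (hσ : σ ∈ B.inertiaSubgroupIn ℚ) {k : ℕ} {x : Pt W} (hx : p ^ k • x = 0) :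
    σ • x - x ∈ kerR W B := by
  have hF : Fact p.Prime := ⟨hp⟩
  have hE := redEk W B
  have hpl := isPlace_valuationSubring B
  rw [mem_kerR]
  by_cases hgood : W.IsGoodPrimeFor p
  · have hΔk := Fermat.Agent.ECFlat.Ek_Δ_ne_zero hp hgood hB
    obtain ⟨Q, hQ⟩ := exists_isRed_of_Δ_ne_zero hE hpl hΔk x
    exact isRed_zero_right_iff.mp (isRed_smul_sub hσ hE hQ)
  · have hM : IsMultAt W p := ⟨hp, not_not.mp hgood, hW p hp (not_not.mp hgood), hΔ⟩
    obtain ⟨R, hR⟩ := mem_E0_iff.mp (inertia_smul_sub_mem_E0 hM hp2 hB hσ x)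
    have h1 := isRed_nsmul hE hpl hR (p ^ k)
    have h2 : p ^ k • (σ • x - x) = 0 := by
      have h3 : p ^ k • (σ • x) = σ • (p ^ k • x) :=
        (map_nsmul (DistribSMul.toAddMonoidHom (Pt W) σ) (p ^ k) x).symm
      rw [nsmul_sub, h3, hx]
      exact sub_eq_zero.mpr (smul_zero (A := Pt W) σ)
    rw [h2, isRed_zero_left_iff] at h1
    have hch := S12val.charP_residue hp hB
    have hR0 : ∀ j : ℕ, ∀ R : (Ek W B).Point, p ^ j • R = 0 → R = 0 := by
      intro j
      induction j with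
      | zero => intro R h; rwa [pow_zero, one_smul] at h
      | succ j ih =>
        intro R h
        rw [pow_succ, mul_smul] at h
        refine nodal_no_torsion (p := p) hp2 ?_ ?_ (ih _ h)
        · change (W.map (Int.castRingHom (IsLocalRing.ResidueField B))).Δ = 0
          rw [WeierstrassCurve.map_Δ, eq_intCast, CharP.intCast_eq_zero_iff _ p]
          exact hM.dvd
        · change (W.map (Int.castRingHom (IsLocalRing.ResidueField B))).c₄ ≠ 0
          rw [WeierstrassCurve.map_c₄, eq_intCast, Ne, CharP.intCast_eq_zero_iff _ p]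
          exact hM.ndvd
    rw [hR0 k R h1] at hR
    exact isRed_zero_right_iff.mp hR

end Fermat.Agent.Cor.Isog
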