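import Fermat.Agent.Corollaries.Isog.Line
import Fermat.Agent.Corollaries.Isog.Inert
import Fermat.Agent.Corollaries.Isog.DetIn
import Fermat.Agent.Corollaries.CondLevel
import Fermat.Agent.Corollaries.Surj.Mazur

/-!
# Serre's open image theorem for the Tate module of a semistable curve

`W` is a Weierstrass equation over `ℤ` of a semistable elliptic curve `E` over `ℚ`, `p` an odd
prime. The image of `Gal(ℚ̄/ℚ)` in `Aut(T_p E)` is open: it contains all the automorphisms which are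
congruent to the identity modulo some power of `p` (`exists_open`).

The inertia group at a prime `ℓ ≠ p` of multiplicative reduction gives a unipotent element
`1 + N ≠ 1` of the image. Some conjugate `1 + N'` satisfies `tr (N N') ≠ 0`, since otherwise the
kernel of `N` would be a stable line. With the determinants this suffices (`TwoUnip`). If there is
no such prime, then `p = 11` or `p ≥ 17`, and the image is everything.
-/

set_option autoImplicit false

noncomputable section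

open WeierstrassCurve WeierstrassCurve.Affine.Point Module
open scoped WeierstrassCurve.Affine Pointwise
open Fermat.Agent.Tate Fermat.Agent.S30aux

namespace Fermat.Agent.Cor.Isog

open Fermat.Agent.Cor.Serre Matrix
open Fermat.Agent.Cor.K1 (Gam Pts)
open Fermat.Agent.Cor.Mazur (Pt)

local notation "Γℚ" => (AlgebraicClosure ℚ ≃ₐ[ℚ] AlgebraicClosure ℚ)

/-- A nilpotent matrix of size two over a domain. -/
theorem det_trace_eq_zero {R : Type*} [CommRing R] [IsDomain R] {N : Matrix (Fin 2) (Fin 2) R}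
    (hN : N * N = 0) : N.det = 0 ∧ N.trace = 0 := by
  have h1 : N.det * N.det = 0 := by rw [← Matrix.det_mul, hN, Matrix.det_zero]
  have h2 : N.det = 0 := mul_self_eq_zero.mp h1
  refine ⟨h2, ?_⟩
  have h3 := mul_mul_self_of_det h2 1
  rw [mul_one, hN] at h3
  rcases smul_eq_zero.mp h3.symm with h | h
  · exact h
  · rw [h, Matrix.trace_zero]

/-- If `A B = 1` and `N` is nilpotent, then `det A * tr (N B) = - tr (N A)`. -/
theorem det_mul_trace {R : Type*} [CommRing R] {N A B : Matrix (Fin 2) (Fin 2) R}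
    (htr : N.trace = 0) (hAB : A * B = 1) : A.det * (N * B).trace = -(N * A).trace := by
  have h1 : A.det • B = A.adjugate := by
    have h2 : A.adjugate * (A * B) = A.adjugate := by rw [hAB, mul_one]
    rwa [← mul_assoc, Matrix.adjugate_mul, Matrix.smul_mul, one_mul] at h2
  have h2 : A.det * (N * B).trace = (N * A.adjugate).trace := by
    rw [← h1, Matrix.mul_smul, Matrix.trace_smul, smul_eq_mul]
  rw [h2, Matrix.adjugate_fin_two]
  rw [Matrix.trace_fin_two] at htr
  simp only [Matrix.trace_fin_two, Matrix.mul_apply, Fin.sum_univ_two, Matrix.of_apply,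
    Matrix.cons_val', Matrix.cons_val_zero, Matrix.cons_val_one, Matrix.cons_val_fin_one]
  linear_combination (A 0 0 + A 1 1) * htr

variable {W : WeierstrassCurve ℤ} {p : ℕ} [hp : Fact p.Prime]

/-- An element which acts unipotently on the points of `p`-power order and moves one of them gives
a nilpotent `N ≠ 0`, with `1 + N` in the image. -/
theorem exists_nilpotent (hΔ : W.Δ ≠ 0) (X : Tb W p) {σ : Γℚ}
    (hu : ∀ (k : ℕ) (x : Pt W), p ^ k • x = 0 → σ • (σ • x - x) = σ • x - x)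
    (hne : ∃ (n : ℕ) (x : Pt W), p ^ n • x = 0 ∧ σ • x ≠ x) :
    ∃ N : Matrix (Fin 2) (Fin 2) ℤ_[p], X.M σ = 1 + N ∧ N * N = 0 ∧ N ≠ 0 := by
  obtain ⟨n, x, hx, hne'⟩ := hne
  refine ⟨X.M σ - 1, by abel, ?_, ?_⟩
  · -- unipotence
    have h1 : (TMod.rep p Γℚ (Pt W) σ - 1) * (TMod.rep p Γℚ (Pt W) σ - 1) = 0 := by
      refine LinearMap.ext fun f => TMod.ext fun k => ?_
      exact sub_eq_zero.mpr (hu k (f k) (TMod.pow_smul_apply f k))
    have h2 : X.M σ - 1 = LinearMap.toMatrix X.b X.b (TMod.rep p Γℚ (Pt W) σ - 1) := by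
      rw [map_sub, LinearMap.toMatrix_one]
      rfl
    rw [h2, ← LinearMap.toMatrix_mul, h1, _root_.map_zero]
  · intro h0
    apply hne'
    have h2 : TMod.rep p Γℚ (Pt W) σ = 1 := by
      apply (LinearMap.toMatrix X.b X.b).injective
      rw [LinearMap.toMatrix_one]
      exact sub_eq_zero.mp h0
    obtain ⟨f, hf⟩ := TMod.exists_apply_eq (p := p) (A := Pt W)
      (fun y _ _ => exists_nsmul_eq hΔ hp.out.ne_zero y) hx
    have h3 := congrArg (fun φ : Module.End ℤ_[p] (TMod p (Pt W)) => (φ f) n) h2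
    have h4 : σ • f n = f n := h3
    rwa [hf] at h4

/-- **Open image, matrix form**: it suffices that some element acts on the points of `p`-power
order unipotently and not trivially, and that the stable cyclic subgroups of `p`-power order have
bounded order. Any elliptic curve, any prime. -/
theorem exists_open_of_nilpotent (X : Tb W p) (hB : ∃ B : ℕ, ∀ (n : ℕ) (g : Pt W),
    addOrderOf g = p ^ n → (∀ σ : Gam, σ • g ∈ AddSubgroup.zmultiples g) → n ≤ B)
    {σ : Γℚ} {N : Matrix (Fin 2) (Fin 2) ℤ_[p]} (hσ : X.M σ = 1 + N) (hN : N * N = 0)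
    (h0 : N ≠ 0) : ∃ n, ∀ g, Cg p n g 1 → ∃ σ, X.M σ = g := by
  obtain ⟨τ, hτ⟩ := exists_ne_zero_of_bound X hB hN h0
  obtain ⟨hdet, htr⟩ := det_trace_eq_zero hN
  obtain ⟨A, hAe⟩ : ∃ A, A = X.M τ := ⟨_, rfl⟩
  obtain ⟨B, hBe⟩ : ∃ B, B = X.M τ⁻¹ := ⟨_, rfl⟩
  have hAB : A * B = 1 := by rw [hAe, hBe, ← map_mul, mul_inv_cancel, map_one]
  have hBA : B * A = 1 := by rw [hAe, hBe, ← map_mul, inv_mul_cancel, map_one]
  rw [← hAe] at hτ
  have hNA : (N * A).trace ≠ 0 := by
    intro h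
    apply hτ
    rw [mul_mul_self_of_det hdet, h, zero_smul]
  have hNB : (N * B).trace ≠ 0 := by
    intro h
    apply hNA
    have := det_mul_trace (N := N) htr hAB
    rw [h, mul_zero] at this
    exact neg_eq_zero.mp this.symm
  -- the conjugate
  have hN' : (A * N * B) * (A * N * B) = 0 := by
    have : (A * N * B) * (A * N * B) = A * (N * (B * A) * N) * B := by noncomm_ring
    rw [this, hBA, mul_one, hN, mul_zero, zero_mul]
  obtain ⟨hdet', htr'⟩ := det_trace_eq_zero hN'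
  have ht : (N * (A * N * B)).trace ≠ 0 := by
    have h1 : N * (A * N * B) = (N * A).trace • (N * B) := by
      have : N * (A * N * B) = N * A * N * B := by noncomm_ring
      rw [this, mul_mul_self_of_det hdet, Matrix.smul_mul]
    rw [h1, Matrix.trace_smul, smul_eq_mul]
    exact mul_ne_zero hNA hNB
  obtain ⟨n, hn⟩ := exists_forall_mem (I := MonoidHom.mrange X.M) (N := N) (N' := A * N * B)
    (fun g hg => by
      obtain ⟨σ, hσ⟩ := exists_M_eq_of_forall X (g := g) (fun n => by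
        obtain ⟨_, ⟨σ, rfl⟩, h⟩ := hg n
        exact ⟨σ, h⟩)
      exact ⟨σ, hσ⟩)
    hN hN' hdet hdet' htr htr' ⟨σ, hσ⟩
    ⟨τ * σ * τ⁻¹, by
      rw [map_mul, map_mul, ← hAe, ← hBe, hσ, mul_add, mul_one, add_mul, hAB]⟩ ht
    (fun m => by
      obtain ⟨n, hn⟩ := exists_det_eq X m
      refine ⟨n, fun d hd => ?_⟩
      obtain ⟨σ, h1, h2⟩ := hn d hd
      exact ⟨X.M σ, ⟨σ, rfl⟩, h1, h2⟩)
  exact ⟨n, fun g hg => hn g hg⟩

/-- From matrices to automorphisms of the Tate module. -/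
theorem exists_open_of_matrix (hΔ : W.Δ ≠ 0) (X : Tb W p) {n : ℕ}
    (hn : ∀ g, Cg p n g 1 → ∃ σ, X.M σ = g)
    (e : TMod p ((W.map (Int.castRingHom ℚ))⁄(AlgebraicClosure ℚ)).Point
      ≃ₗ[ℤ_[p]] TMod p ((W.map (Int.castRingHom ℚ))⁄(AlgebraicClosure ℚ)).Point)
    (he : ∀ x, ∃ y, e x - x = (p : ℤ_[p]) ^ n • y) :
    ∃ σ : Γℚ, (tateRep (W.map (Int.castRingHom ℚ)) (map_Δ_ne_zero hΔ) p).ρ σ =
      e.toLinearMap := by
  obtain ⟨σ, hσ⟩ := hn (LinearMap.toMatrix X.b X.b e.toLinearMap) (by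
    rw [cg_iff]
    intro i j
    obtain ⟨y, hy⟩ := he (X.b j)
    have h1 : LinearMap.toMatrix X.b X.b e.toLinearMap i j - (1 : Matrix (Fin 2) (Fin 2) ℤ_[p]) i j
        = X.b.repr (e (X.b j) - X.b j) i := by
      rw [map_sub, Finsupp.sub_apply, LinearMap.toMatrix_apply, X.b.repr_self,
        Finsupp.single_apply, Matrix.one_apply]
      simp only [eq_comm (a := i)]
      rfl
    rw [h1, hy, map_smul, Finsupp.smul_apply, smul_eq_mul]
    exact dvd_mul_right _ _)
  exact ⟨σ, (LinearMap.toMatrix X.b X.b).injective hσ⟩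

/-- **Open image, matrix form**, in the presence of a prime `ℓ ≠ p` of bad reduction. -/
theorem exists_open_of_dvd (hΔ : W.Δ ≠ 0) (hW : W.IsSemistableModel) (hp2 : p ≠ 2) (X : Tb W p)
    {ℓ : ℕ} (hℓ : ℓ.Prime) (hne : ℓ ≠ p) (hdvd : (ℓ : ℤ) ∣ W.Δ) :
    ∃ n, ∀ g, Cg p n g 1 → ∃ σ, X.M σ = g := by
  obtain ⟨A, hA⟩ := Fermat.Agent.Frob.exists_liesOverPrime ℓ hℓ
  obtain ⟨σ, hσ, hne'⟩ := exists_inertia_ne
    (Fermat.Agent.Tate.isMultAt_of_semistable hW hΔ hℓ hdvd) hp.out hp2 hA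
  obtain ⟨N, h1, h2, h3⟩ := exists_nilpotent hΔ X
    (fun k x hx => smul_smul_sub hΔ hW hp.out hp2 hℓ hne hA hσ hx) hne'
  exact exists_open_of_nilpotent X (exists_bound_stable hΔ hW hp.out hp2) h1 h2 h3

/-- **Serre's open image theorem on the Tate module** (semistable curves, `p` odd): every
automorphism of `T_p E` which is congruent to the identity modulo `p ^ n` is the action of an
element of `Gal(ℚ̄/ℚ)`, for a suitable `n`. -/
theorem exists_open (hΔ : W.Δ ≠ 0) (hW : W.IsSemistableModel) (hp2 : p ≠ 2) :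
    ∃ n : ℕ, ∀ e : TMod p ((W.map (Int.castRingHom ℚ))⁄(AlgebraicClosure ℚ)).Point
      ≃ₗ[ℤ_[p]] TMod p ((W.map (Int.castRingHom ℚ))⁄(AlgebraicClosure ℚ)).Point,
      (∀ x, ∃ y, e x - x = (p : ℤ_[p]) ^ n • y) →
      ∃ σ : Γℚ, (tateRep (W.map (Int.castRingHom ℚ)) (map_Δ_ne_zero hΔ) p).ρ σ =
        e.toLinearMap := by
  by_cases hex : ∃ ℓ : ℕ, ℓ.Prime ∧ ℓ ≠ p ∧ (ℓ : ℤ) ∣ W.Δ
  · obtain ⟨ℓ, hℓ, hne, hdvd⟩ := hex
    obtain ⟨X⟩ := exists_tb (W := W) (p := p) hΔ
    obtain ⟨n, hn⟩ := exists_open_of_dvd hΔ hW hp2 X hℓ hne hdvd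
    exact ⟨n, fun e he => exists_open_of_matrix hΔ X hn e he⟩
  · push Not at hex
    have h1 : p = 11 ∨ 17 ≤ p := eleven_or_le_of_unique hΔ hW hp.out fun r hr hrd => by
      by_contra hne
      exact hex r hr hne hrd
    have h2 : SurjMod W p := fun g => surjective_of_semistable_of_ge hΔ h1 hW g
    exact ⟨0, fun e _ => h2.tate hΔ (by omega) e⟩

end Fermat.Agent.Cor.Isog
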