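import Fermat.Agent.Corollaries.Isog.Inert

/-!
# Inertia at a prime of multiplicative reduction acts non-trivially on `T₂`

`W` is a Weierstrass equation over `ℤ`, `q` a prime of multiplicative reduction (`q = 2` is
allowed), `A` a place above `q`. Some element of the inertia group of `A` moves a point of
`2`-power order (`exists_inertia_ne_two`).

The point `y` of order two with abscissa `e` reduces to the node, with component value `V / 2`,
`V = v_q(Δ)`. Let `2 ^ (V + 1) • x = y`. The component value `c` of `x` is not `0` and not `V / 2`,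
so it is an integer if `x` is fixed by inertia; and `V / 2 = ± 2 ^ (V + 1) c + j V`, so
`2 ^ (V + 2)` divides `V`.
-/

set_option autoImplicit false

open WeierstrassCurve WeierstrassCurve.Affine FermatAgent.ECVal Fermat.Agent.ECRed
open scoped WeierstrassCurve.Affine

namespace Fermat.Agent.Cor.Isog

variable {W : WeierstrassCurve ℤ} {A : ValuationSubring (AlgebraicClosure ℚ)} {q : ℕ}

/-- The component value of an inertia-fixed point is an integer, unless it is maximal. -/
theorem exists_int_pcomp_of_lt (hW : IsMultAt W q) (hA : A.LiesOverPrime q)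
    {e D : AlgebraicClosure ℚ} (NR : NodeRoot A.valuation (EQ W) e D) {P : (EQ W).Point}
    (hP0 : pcomp (valOf hW.prime hA) e ((valOf hW.prime hA).val D) P ≠ 0)
    (hPh : pcomp (valOf hW.prime hA) e ((valOf hW.prime hA).val D) P <
      (valOf hW.prime hA).val D)
    (hfix : ∀ σ ∈ A.inertiaSubgroupIn ℚ, σ • P = P) :
    ∃ c : ℤ, pcomp (valOf hW.prime hA) e ((valOf hW.prime hA).val D) P = c := by
  classical
  have N := NR.nodeData hW.prime hA hW.ne
  set w := valOf hW.prime hA with hw
  set h := w.val D with hh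
  have hne : P ≠ 0 := by
    rintro rfl
    exact hP0 pcomp_zero
  obtain ⟨hPn, eP⟩ := exists_eq_some hne
  have ecomp : pcomp w e h P = w.comp h (xc P - e) := by
    conv_lhs => rw [eP]
    exact pcomp_some hPn
  rw [ecomp] at hP0 hPh ⊢
  rcases QVal.comp_cases (w := w) (h := h) (xc P - e) with ⟨r, hr, hx⟩ | ⟨r, hr, hrh, hx⟩ | hx
  · exact absurd (QVal.comp_of_is_nonpos hx hr) hP0
  · have hψ := psi_is N hne hr hrh hx
    obtain ⟨c, hc⟩ := val_int_of_inertia_fixed hW.prime hA hψ.1 (fun σ hσ => by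
      rw [← psi_smul, hfix σ hσ])
    exact ⟨c, by rw [← hψ.unique hc, QVal.comp_of_is hx hr.le hrh.le]⟩
  · rw [QVal.comp_of_ge N.hh hx] at hPh
    exact absurd hPh (lt_irrefl _)

/-- The point of order two with abscissa `e`. -/
theorem exists_pcomp_eq (hW : IsMultAt W q) (hA : A.LiesOverPrime q)
    {e D : AlgebraicClosure ℚ} (NR : NodeRoot A.valuation (EQ W) e D) :
    ∃ P : (EQ W).Point, 2 • P = 0 ∧
      pcomp (valOf hW.prime hA) e ((valOf hW.prime hA).val D) P =
        (valOf hW.prime hA).val D := by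
  classical
  have N := NR.nodeData hW.prime hA hW.ne
  set E : WeierstrassCurve (AlgebraicClosure ℚ) := EQ W with hE
  have hΔ : E.Δ ≠ 0 := by
    rw [hE, EQ_Δ, Ne, Int.cast_eq_zero]
    exact hW.ne
  set y : AlgebraicClosure ℚ := -(E.a₁ * e + E.a₃) / 2 with hy
  have h2y : 2 * y + E.a₁ * e + E.a₃ = 0 := by
    rw [hy]
    ring
  have h6 := N.h6
  have heq : E.toAffine.Equation e y := by
    rw [WeierstrassCurve.Affine.equation_iff']
    have h4 : (4 : AlgebraicClosure ℚ) ≠ 0 := by norm_num
    apply mul_left_cancel₀ h4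
    rw [mul_zero]
    rw [WeierstrassCurve.b₆, WeierstrassCurve.b₄, WeierstrassCurve.b₂] at h6
    linear_combination (2 * y + E.a₁ * e + E.a₃) * h2y - h6
  have hns : E.toAffine.Nonsingular e y := (equation_iff_nonsingular_of_Δ_ne_zero hΔ).mp heq
  refine ⟨Point.some e y hns, ?_, ?_⟩
  · rw [two_nsmul]
    have h1 : -(Point.some e y hns : (EQ W).Point) = Point.some e y hns := by
      rw [Point.neg_some]
      have h3 : E.toAffine.negY e y = y := by
        rw [WeierstrassCurve.Affine.negY]
        linear_combination -h2y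
      simp only [Point.some.injEq, true_and]
      exact h3
    nth_rewrite 2 [← h1]
    exact add_neg_cancel _
  · rw [pcomp_some, sub_self]
    exact QVal.comp_of_ge N.hh (QVal.ge_zero _)

/-- **Inertia at a prime of multiplicative reduction acts non-trivially on `T₂`**: it moves a
point of order dividing `2 ^ (v_q(Δ) + 2)`. -/
theorem exists_smul_ne_two (hW : IsMultAt W q) (hA : A.LiesOverPrime q) :
    ∃ σ ∈ A.inertiaSubgroupIn ℚ, ∃ x : Mazur.Pt W,
      2 ^ (padicValInt q W.Δ + 2) • x = 0 ∧ σ • x ≠ x := by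
  classical
  have hfact : Fact (Nat.Prime 2) := ⟨Nat.prime_two⟩
  obtain ⟨e, D, NR⟩ := hW.exists_nodeRoot hA
  have N := NR.nodeData hW.prime hA hW.ne
  have h2D := two_mul_valOf_nodeD hW hA NR
  obtain ⟨y, hy, hyh⟩ := exists_pcomp_eq hW hA NR
  set V := padicValInt q W.Δ with hVdef
  have hh0 := N.hh
  have hV0 : 0 < V := by
    have : (0 : ℚ) < (V : ℚ) := by rw [← h2D]; linarith
    exact_mod_cast this
  have hΔ : (W.map (Int.castRingHom ℚ)).Δ ≠ 0 := by
    rw [WeierstrassCurve.map_Δ, eq_intCast, Int.cast_ne_zero]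
    exact hW.ne
  obtain ⟨g, hg⟩ := (Fermat.Agent.Tate.hasTwoRank_curve hΔ 2).exists_apply_eq (n := 1) (x := y)
    (by rw [pow_one]; exact hy)
  have hx1 : 2 ^ (V + 1) • g (1 + (V + 1)) = y := by
    rw [Fermat.Agent.Tate.TMod.pow_smul_apply_add, hg]
  have hx2 : 2 ^ (V + 2) • g (1 + (V + 1)) = 0 := by
    have := Fermat.Agent.Tate.TMod.pow_smul_apply g (1 + (V + 1))
    rwa [show 1 + (V + 1) = V + 2 by omega] at this ⊢
  set x : (EQ W).Point := g (1 + (V + 1)) with hx
  by_contra hcon
  push Not at hcon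
  have hfix : ∀ σ ∈ A.inertiaSubgroupIn ℚ, σ • x = x := fun σ hσ => hcon σ hσ x hx2
  have hrel := pcomp_nsmul N x (2 ^ (V + 1))
  rw [hx1, hyh] at hrel
  have hcomp0 := pcomp_nonneg N x
  have hcomph := pcomp_le N x
  set w := valOf hW.prime hA with hw
  set h := w.val D with hh
  obtain ⟨j, hj⟩ := hrel
  -- the component value of `x` is not extremal
  have hne : (h : ℚ) ≠ 0 := ne_of_gt hh0
  have hx0 : pcomp w e h x ≠ 0 := by
    intro h0
    rw [h0] at hj
    have h3 : (h : ℚ) * (1 - 2 * j) = 0 := by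
      rcases hj with hj | hj <;> linear_combination hj
    have h4 : (1 - 2 * j : ℚ) = 0 := (mul_eq_zero.mp h3).resolve_left hne
    have h5 : (1 - 2 * j : ℤ) = 0 := by exact_mod_cast h4
    omega
  have hxh : pcomp w e h x < h := by
    refine lt_of_le_of_ne hcomph fun h0 => ?_
    rw [h0] at hj
    rcases hj with hj | hj
    · have h3 : (h : ℚ) * (1 - 2 ^ (V + 1) - 2 * j) = 0 := by
        push_cast at hj
        linear_combination hj
      have h4 : (1 - 2 ^ (V + 1) - 2 * j : ℚ) = 0 := (mul_eq_zero.mp h3).resolve_left hne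
      have h5 : (1 - 2 ^ (V + 1) - 2 * j : ℤ) = 0 := by exact_mod_cast h4
      rw [pow_succ] at h5
      omega
    · have h3 : (h : ℚ) * (1 + 2 ^ (V + 1) - 2 * j) = 0 := by
        push_cast at hj
        linear_combination hj
      have h4 : (1 + 2 ^ (V + 1) - 2 * j : ℚ) = 0 := (mul_eq_zero.mp h3).resolve_left hne
      have h5 : (1 + 2 ^ (V + 1) - 2 * j : ℤ) = 0 := by exact_mod_cast h4
      rw [pow_succ] at h5
      omega
  obtain ⟨c, hc⟩ := exists_int_pcomp_of_lt hW hA NR hx0 hxh hfix
  have hc' : pcomp w e h x = c := hc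
  rw [hc'] at hj
  -- the arithmetic
  have key : ∀ c : ℤ, (h : ℚ) = 2 ^ (V + 1) * c + j * (2 * h) → False := by
    intro c hj
    have h3 : ((V : ℤ) : ℚ) * (1 - 2 * j) = 2 ^ (V + 2) * c := by
      rw [Int.cast_natCast, ← h2D, pow_succ]
      linear_combination 2 * hj
    have h4 : (V : ℤ) * (1 - 2 * j) = 2 ^ (V + 2) * c := by exact_mod_cast h3
    have h5 : IsCoprime ((2 : ℤ) ^ (V + 2)) (1 - 2 * j) := by
      refine IsCoprime.pow_left ⟨j, 1, ?_⟩
      ring
    have h6 : (2 : ℤ) ^ (V + 2) ∣ V := h5.dvd_of_dvd_mul_right ⟨c, h4⟩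
    have h7 : 2 ^ (V + 2) ∣ V := by exact_mod_cast h6
    have h8 := Nat.le_of_dvd hV0 h7
    have h9 : V + 2 < 2 ^ (V + 2) := Nat.lt_pow_self one_lt_two
    omega
  rcases hj with hj | hj
  · push_cast at hj
    exact key c (by linear_combination hj)
  · push_cast at hj
    exact key (-c) (by push_cast; linear_combination hj)

/-- Inertia at a prime of multiplicative reduction moves a point of `2`-power order. -/
theorem exists_inertia_ne_two (hW : IsMultAt W q) (hA : A.LiesOverPrime q) :
    ∃ σ ∈ A.inertiaSubgroupIn ℚ, ∃ (n : ℕ) (x : Mazur.Pt W), 2 ^ n • x = 0 ∧ σ • x ≠ x := by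
  obtain ⟨σ, hσ, x, hx, hne⟩ := exists_smul_ne_two hW hA
  exact ⟨σ, hσ, _, x, hx, hne⟩

/-- Inertia at a prime of multiplicative reduction moves a point of `p`-power order, for every
prime `p`. -/
theorem exists_inertia_ne_all (hW : IsMultAt W q) {p : ℕ} (hp : p.Prime)
    (hA : A.LiesOverPrime q) :
    ∃ σ ∈ A.inertiaSubgroupIn ℚ, ∃ (n : ℕ) (x : Mazur.Pt W), p ^ n • x = 0 ∧ σ • x ≠ x := by
  by_cases hp2 : p = 2
  · rw [hp2]
    exact exists_inertia_ne_two hW hA
  · exact exists_inertia_ne hW hp hp2 hA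

end Fermat.Agent.Cor.Isog
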