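import Fermat.Agent.Corollaries.Isog.Open
import Fermat.Agent.Corollaries.Isog.TwoInert
import Fermat.Agent.Corollaries.Isog.AllP

/-!
# Serre's open image theorem for the Tate modules of a semistable curve, every prime `p`

`W` is a Weierstrass equation over `ℤ` of a semistable elliptic curve over `ℚ`. For every prime `p`
(`p = 2` included) the image of `Gal(ℚ̄/ℚ)` in `Aut(T_p E)` contains all the automorphisms which are
congruent to the identity modulo some power of `p`.

At `p = 2` there is always a prime `ℓ ≠ 2` of multiplicative reduction.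
-/

set_option autoImplicit false

noncomputable section

open WeierstrassCurve WeierstrassCurve.Affine.Point Module
open scoped WeierstrassCurve.Affine Pointwise
open Fermat.Agent.Tate Fermat.Agent.S30aux

namespace Fermat.Agent.Cor.Isog

open Fermat.Agent.Cor.Serre
open Fermat.Agent.Cor.K1 (Gam Pts)
open Fermat.Agent.Cor.Mazur (Pt)

local notation "Γℚ" => (AlgebraicClosure ℚ ≃ₐ[ℚ] AlgebraicClosure ℚ)

variable {W : WeierstrassCurve ℤ}

/-- A semistable curve has bad reduction at some odd prime. -/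
theorem exists_dvd_ne_two (hΔ : W.Δ ≠ 0) (hW : W.IsSemistableModel) :
    ∃ ℓ : ℕ, ℓ.Prime ∧ ℓ ≠ 2 ∧ (ℓ : ℤ) ∣ W.Δ := by
  by_contra hcon
  push Not at hcon
  have h1 := eleven_or_le_of_unique hΔ hW Nat.prime_two fun r hr hrd => by
    by_contra hne
    exact hcon r hr hne hrd
  omega

variable {p : ℕ} [hp : Fact p.Prime]

/-- **Open image, matrix form**, in the presence of a prime `ℓ ≠ p` of bad reduction; every `p`. -/
theorem exists_open_of_dvd_all (hΔ : W.Δ ≠ 0) (hW : W.IsSemistableModel) (X : Tb W p)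
    {ℓ : ℕ} (hℓ : ℓ.Prime) (hne : ℓ ≠ p) (hdvd : (ℓ : ℤ) ∣ W.Δ) :
    ∃ n, ∀ g, Cg p n g 1 → ∃ σ, X.M σ = g := by
  by_cases hp2 : p = 2
  · subst hp2
    obtain ⟨A, hA⟩ := Fermat.Agent.Frob.exists_liesOverPrime ℓ hℓ
    obtain ⟨σ, hσ, hne'⟩ := exists_inertia_ne_two
      (Fermat.Agent.Tate.isMultAt_of_semistable hW hΔ hℓ hdvd) hA
    obtain ⟨N, h1, h2, h3⟩ := exists_nilpotent hΔ X
      (fun k x hx => smul_smul_sub_two hΔ hW hℓ hne hA hσ hx) hne'
    exact exists_open_of_nilpotent X (exists_bound_stable_all hΔ hW hp.out) h1 h2 h3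
  · exact exists_open_of_dvd hΔ hW hp2 X hℓ hne hdvd

/-- **Serre's open image theorem on the Tate module** (semistable curves, every prime `p`): every
automorphism of `T_p E` which is congruent to the identity modulo `p ^ n` is the action of an
element of `Gal(ℚ̄/ℚ)`, for a suitable `n`. -/
theorem exists_open_all (hΔ : W.Δ ≠ 0) (hW : W.IsSemistableModel) :
    ∃ n : ℕ, ∀ e : TMod p ((W.map (Int.castRingHom ℚ))⁄(AlgebraicClosure ℚ)).Point
      ≃ₗ[ℤ_[p]] TMod p ((W.map (Int.castRingHom ℚ))⁄(AlgebraicClosure ℚ)).Point,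
      (∀ x, ∃ y, e x - x = (p : ℤ_[p]) ^ n • y) →
      ∃ σ : Γℚ, (tateRep (W.map (Int.castRingHom ℚ)) (map_Δ_ne_zero hΔ) p).ρ σ =
        e.toLinearMap := by
  by_cases hex : ∃ ℓ : ℕ, ℓ.Prime ∧ ℓ ≠ p ∧ (ℓ : ℤ) ∣ W.Δ
  · obtain ⟨ℓ, hℓ, hne, hdvd⟩ := hex
    obtain ⟨X⟩ := exists_tb (W := W) (p := p) hΔ
    obtain ⟨n, hn⟩ := exists_open_of_dvd_all hΔ hW X hℓ hne hdvd
    exact ⟨n, fun e he => exists_open_of_matrix hΔ X hn e he⟩
  · push Not at hex
    have h1 : p = 11 ∨ 17 ≤ p := eleven_or_le_of_unique hΔ hW hp.out fun r hr hrd => by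
      by_contra hne
      exact hex r hr hne hrd
    have h2 : SurjMod W p := fun g => surjective_of_semistable_of_ge hΔ h1 hW g
    exact ⟨0, fun e _ => h2.tate hΔ (by omega) e⟩

end Fermat.Agent.Cor.Isog
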