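import Fermat.Agent.Corollaries.Isog.IsogClass
import Fermat.Agent.Corollaries.Mazur.Main

/-!
# Two primes with reducible representation

Let `W` be a semistable elliptic curve over `ℚ` and `p ≠ q` primes such that `W[p]` and `W[q]` are
reducible. Then a curve isogenous to `W`, by an isogeny whose kernel has order dividing `pq`, has a
rational point of order `pq`.
-/

set_option autoImplicit false

open WeierstrassCurve WeierstrassCurve.Affine WeierstrassCurve.Affine.Point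

namespace Fermat.Agent.Cor.Isog

open Fermat.Agent.Cor.K1 (Gam Pts)
open Fermat.Agent.Cor.Mazur (Pt)
open Fermat.Agent.GalW Fermat.Agent.FlatGS

local notation "ℚbar" => AlgebraicClosure ℚ

/-- a Galois stable subgroup `L` of order dividing `p` and a point of order `p` outside `L`, fixed by
Galois modulo `L` -/
def FixMod (E : WeierstrassCurve ℚ) (p : ℕ) : Prop :=
  ∃ (L : AddSubgroup (Pts E)) (S : Pts E), Finite L ∧ Nat.card L ∣ p ∧ (∀ x ∈ L, p • x = 0) ∧
    (∀ σ : Gam, ∀ x ∈ L, σ • x ∈ L) ∧ p • S = 0 ∧ S ∉ L ∧ ∀ σ : Gam, σ • S - S ∈ L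

theorem smul_add'' {E : WeierstrassCurve ℚ} (σ : Gam) (x y : Pts E) :
    σ • (x + y) = σ • x + σ • y :=
  map_add (DistribSMul.toAddMonoidHom (Pts E) σ) x y

theorem fixMod_of_fixed {E : WeierstrassCurve ℚ} {p : ℕ} (Q : Pts E) (hQ : p • Q = 0)
    (hQ0 : Q ≠ 0) (hfix : ∀ σ : Gam, σ • Q = Q) : FixMod E p := by
  refine ⟨⊥, Q, inferInstance, ?_, ?_, ?_, hQ, ?_, ?_⟩
  · rw [AddSubgroup.card_bot]
    exact one_dvd _
  · intro x hx
    rw [AddSubgroup.mem_bot.1 hx, nsmul_zero]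
  · intro σ x hx
    rw [AddSubgroup.mem_bot.1 hx, AddSubgroup.mem_bot]
    exact smul_zero (A := Pts E) σ
  · rw [AddSubgroup.mem_bot]
    exact hQ0
  · intro σ
    rw [hfix σ, sub_self]
    exact AddSubgroup.zero_mem _

variable {W : WeierstrassCurve ℤ}

/-- `p` odd -/
theorem fixMod_of_odd (hΔ : W.Δ ≠ 0) (hW : W.IsSemistableModel) {p : ℕ} (hp : p.Prime)
    (hp2 : p ≠ 2) (hred : ¬ W.ModRepIsIrreducible p) :
    FixMod (W.map (Int.castRingHom ℚ)) p := by
  set E : WeierstrassCurve ℚ := W.map (Int.castRingHom ℚ) with hE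
  have hEΔ : E.Δ ≠ 0 := by
    rw [hE, WeierstrassCurve.map_Δ]
    simpa using hΔ
  rcases Mazur.exists_point_or_line hΔ hW hp hp2 hred with ⟨Q, hQ, hfix⟩ | ⟨L, hcard, hst, hquot⟩
  · refine fixMod_of_fixed Q (by rw [← hQ]; exact addOrderOf_nsmul_eq_zero Q) ?_ hfix
    intro h0
    rw [h0, addOrderOf_zero] at hQ
    exact hp.one_lt.ne hQ
  · have hc : Nat.card {P : Pts E // p • P = 0} = p ^ 2 := by
      have hΔ' : (E⁄ℚbar : WeierstrassCurve ℚbar).Δ ≠ 0 := by
        rw [show (E⁄ℚbar : WeierstrassCurve ℚbar) = E.map (algebraMap ℚ ℚbar) from rfl,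
          WeierstrassCurve.map_Δ]
        simpa using hEΔ
      exact Torsion.card_torsion hΔ' (by exact_mod_cast hp.ne_zero)
    have hfinL : Finite L := Nat.finite_of_card_ne_zero (by rw [hcard]; exact hp.ne_zero)
    have hex : ∃ S : Pts E, p • S = 0 ∧ S ∉ L := by
      by_contra hcon
      push Not at hcon
      have h1 : Nat.card {P : Pts E // p • P = 0} ≤ Nat.card L :=
        Nat.card_le_card_of_injective
          (fun x : {P : Pts E // p • P = 0} => (⟨x.1, hcon x.1 x.2⟩ : L))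
          fun a b hab => Subtype.ext (congrArg (fun z : L => (z : Pts E)) hab)
      rw [hc, hcard] at h1
      nlinarith [hp.two_le]
    obtain ⟨S, hS, hSL⟩ := hex
    refine ⟨L, S, hfinL, hcard ▸ dvd_rfl, fun x hx => ?_, hst, hS, hSL, hquot S hS⟩
    have h1 : p • (⟨x, hx⟩ : L) = 0 := by
      rw [← hcard]
      exact card_nsmul_eq_zero'
    exact congrArg (fun z : L => (z : Pts E)) h1

/-- `p = 2`: a rational point of order two -/
theorem fixMod_two (hΔ : W.Δ ≠ 0) (hred : ¬ W.ModRepIsIrreducible 2) :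
    FixMod (W.map (Int.castRingHom ℚ)) 2 := by
  have key : ∀ b : ZMod 2, b ≠ 0 → b = 1 := by decide
  have hF : Fact (Nat.Prime 2) := ⟨Nat.prime_two⟩
  obtain ⟨e, he⟩ := Fermat.Agent.Classic.exists_equiv 2 hΔ
  obtain ⟨v, hv, hstab⟩ := HW.exists_stable_of_reducible hΔ hred
  have hx0 : e.symm v ≠ 0 := by simpa using hv
  refine fixMod_of_fixed (e.symm v).1 ((Fermat.Agent.Torsion.mem_torsionBy_nat_iff 2 _).mp (e.symm v).2)
    (fun h2 => hx0 (Subtype.ext h2)) fun σ => ?_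
  have h1 : σ • e.symm v = e.symm v := by
    obtain ⟨a, ha⟩ := hstab σ
    have ha0 : a ≠ 0 := by
      rintro rfl
      rw [zero_smul] at ha
      have h2 : e (σ • e.symm v) = 0 := by
        rw [he, LinearEquiv.apply_symm_apply]
        exact ha
      have h3 : σ • e.symm v = 0 := by simpa using h2
      have h4 : σ⁻¹ • σ • e.symm v = 0 := by
        rw [h3]
        exact smul_zero σ⁻¹
      rw [inv_smul_smul] at h4
      exact hx0 h4
    have ha1 : a = 1 := key a ha0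
    rw [ha1, one_smul] at ha
    apply e.injective
    rw [he, LinearEquiv.apply_symm_apply]
    exact ha
  exact congrArg Subtype.val h1

/-- reducible for `p`: a subgroup and a point outside of it, fixed modulo it -/
theorem fixMod_of_reducible (hΔ : W.Δ ≠ 0) (hW : W.IsSemistableModel) {p : ℕ} (hp : p.Prime)
    (hred : ¬ W.ModRepIsIrreducible p) : FixMod (W.map (Int.castRingHom ℚ)) p := by
  rcases eq_or_ne p 2 with rfl | hp2
  · exact fixMod_two hΔ hred
  · exact fixMod_of_odd hΔ hW hp hp2 hred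

/-- the point of order `pq` on the quotient -/
theorem exists_point_mul {E : WeierstrassCurve ℚ} (hΔ : E.Δ ≠ 0) {p q : ℕ} (hp : p.Prime)
    (hq : q.Prime) (hpq : p ≠ q) (h1 : FixMod E p) (h2 : FixMod E q) :
    ∃ E' : WeierstrassCurve ℚ, E'.Δ ≠ 0 ∧
      (∃ φ : Pts E →+ Pts E', (∀ (σ : Gam) (x : Pts E), φ (σ • x) = σ • φ x) ∧
        Function.Surjective φ ∧ Finite φ.ker ∧ Nat.card φ.ker ∣ p * q) ∧
      ∃ P : E'.toAffine.Point, addOrderOf P = p * q := by
  obtain ⟨L₁, S₁, hf₁, hc₁, hk₁, hs₁, hS₁, hn₁, hm₁⟩ := h1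
  obtain ⟨L₂, S₂, hf₂, hc₂, hk₂, hs₂, hS₂, hn₂, hm₂⟩ := h2
  have hcop : Nat.Coprime p q := (Nat.coprime_primes hp hq).2 hpq
  have hkill : ∀ x : Pts E, p • x = 0 → q • x = 0 → x = 0 := by
    intro x hx hx'
    have h3 := Nat.dvd_gcd (addOrderOf_dvd_of_nsmul_eq_zero hx)
      (addOrderOf_dvd_of_nsmul_eq_zero hx')
    rw [hcop.gcd_eq_one, Nat.dvd_one] at h3
    exact AddMonoid.addOrderOf_eq_one_iff.1 h3
  let f : L₁ × L₂ →+ Pts E := L₁.subtype.coprod L₂.subtype
  have hrange : f.range = L₁ ⊔ L₂ := by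
    rw [AddMonoidHom.range_eq_map]
    ext x
    rw [AddSubgroup.mem_sup]
    constructor
    · rintro ⟨⟨a, b⟩, _, rfl⟩
      exact ⟨a, a.2, b, b.2, rfl⟩
    · rintro ⟨a, ha, b, hb, rfl⟩
      exact ⟨(⟨a, ha⟩, ⟨b, hb⟩), trivial, rfl⟩
  have hfinN : Finite f.range := Finite.of_surjective f.rangeRestrict f.rangeRestrict_surjective
  have hcard : Nat.card f.range ∣ p * q := by
    refine (AddSubgroup.card_dvd_of_surjective f.rangeRestrict
      f.rangeRestrict_surjective).trans ?_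
    rw [Nat.card_prod]
    exact mul_dvd_mul hc₁ hc₂
  have hmem : ∀ x, x ∈ f.range ↔ ∃ a ∈ L₁, ∃ b ∈ L₂, a + b = x := by
    intro x
    rw [hrange, AddSubgroup.mem_sup]
  have hle₁ : L₁ ≤ f.range := hrange ▸ le_sup_left
  have hle₂ : L₂ ≤ f.range := hrange ▸ le_sup_right
  have hst : ∀ σ : Gam, ∀ x ∈ f.range, σ • x ∈ f.range := by
    intro σ x hx
    obtain ⟨a, ha, b, hb, rfl⟩ := (hmem x).1 hx
    rw [smul_add'']
    exact f.range.add_mem (hle₁ (hs₁ σ a ha)) (hle₂ (hs₂ σ b hb))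
  have hout₁ : S₁ ∉ f.range := by
    intro hx
    obtain ⟨a, ha, b, hb, hab⟩ := (hmem S₁).1 hx
    have hb1 : p • b = 0 := by
      have : b = S₁ - a := by rw [← hab]; abel
      rw [this, nsmul_sub, hS₁, hk₁ a ha, sub_zero]
    have hb0 := hkill b hb1 (hk₂ b hb)
    rw [hb0, add_zero] at hab
    exact hn₁ (hab ▸ ha)
  have hout₂ : S₂ ∉ f.range := by
    intro hx
    obtain ⟨a, ha, b, hb, hab⟩ := (hmem S₂).1 hx
    have ha1 : q • a = 0 := by
      have : a = S₂ - b := by rw [← hab]; abel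
      rw [this, nsmul_sub, hS₂, hk₂ b hb, sub_zero]
    have ha0 := hkill a (hk₁ a ha) ha1
    rw [ha0, zero_add] at hab
    exact hn₂ (hab ▸ hb)
  obtain ⟨E', hE', φ, hφ, hker, hsurj⟩ := exists_quotient_all E hΔ f.range hfinN hst
  have hz : ∀ x, φ x = 0 ↔ x ∈ f.range := fun x => by rw [← AddMonoidHom.mem_ker, hker]
  have ho₁ : addOrderOf (φ S₁) = p := by
    have hF : Fact p.Prime := ⟨hp⟩
    exact addOrderOf_eq_prime (by rw [← map_nsmul, hS₁, _root_.map_zero])
      fun h => hout₁ ((hz _).1 h)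
  have ho₂ : addOrderOf (φ S₂) = q := by
    have hF : Fact q.Prime := ⟨hq⟩
    exact addOrderOf_eq_prime (by rw [← map_nsmul, hS₂, _root_.map_zero])
      fun h => hout₂ ((hz _).1 h)
  have hfix₁ : ∀ σ : Gam, σ • φ S₁ = φ S₁ := fun σ => by
    rw [← hφ, ← sub_eq_zero, ← map_sub]
    exact (hz _).2 (hle₁ (hm₁ σ))
  have hfix₂ : ∀ σ : Gam, σ • φ S₂ = φ S₂ := fun σ => by
    rw [← hφ, ← sub_eq_zero, ← map_sub]
    exact (hz _).2 (hle₂ (hm₂ σ))
  have hR : addOrderOf (φ S₁ + φ S₂) = p * q := by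
    rw [(AddCommute.all (φ S₁) (φ S₂)).addOrderOf_add_eq_mul_addOrderOf_of_coprime
      (by rw [ho₁, ho₂]; exact hcop), ho₁, ho₂]
  obtain ⟨ι, hι, hran⟩ := exists_ratEmb E'
  obtain ⟨P, hP⟩ := (hran (φ S₁ + φ S₂)).2 (fun σ => by rw [smul_add'', hfix₁, hfix₂])
  refine ⟨E', hE', ⟨φ, hφ, hsurj, ?_, ?_⟩, P, ?_⟩
  · rw [hker]; exact hfinN
  · rw [hker]; exact hcard
  · rw [← hR, ← hP]
    exact (addOrderOf_injective ι hι P).symm

/-- **Two reducible primes.** `W` semistable, `p ≠ q` primes with `W[p]`, `W[q]` reducible: a curve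
isogenous to `W` (kernel of order dividing `pq`) has a rational point of order `pq`. -/
theorem exists_point_mul_of_reducible (hΔ : W.Δ ≠ 0) (hW : W.IsSemistableModel) {p q : ℕ}
    (hp : p.Prime) (hq : q.Prime) (hpq : p ≠ q) (h1 : ¬ W.ModRepIsIrreducible p)
    (h2 : ¬ W.ModRepIsIrreducible q) :
    ∃ E' : WeierstrassCurve ℚ, E'.Δ ≠ 0 ∧
      (∃ φ : Pts (W.map (Int.castRingHom ℚ)) →+ Pts E',
        (∀ (σ : Gam) (x : Pts (W.map (Int.castRingHom ℚ))), φ (σ • x) = σ • φ x) ∧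
        Function.Surjective φ ∧ Finite φ.ker ∧ Nat.card φ.ker ∣ p * q) ∧
      ∃ P : E'.toAffine.Point, addOrderOf P = p * q := by
  refine exists_point_mul ?_ hp hq hpq (fixMod_of_reducible hΔ hW hp h1)
    (fixMod_of_reducible hΔ hW hq h2)
  rw [WeierstrassCurve.map_Δ]
  simpa using hΔ

end Fermat.Agent.Cor.Isog
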