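import Fermat.Agent.Corollaries.Isog.Cyclic

/-!
# Pairs of torsion points

The orbit of `(e₀, k e₁)` under the automorphisms of `(ℤ/n)²`, `n = k a`, has at least
`#{vectors of order n} · a φ(a)` elements (`exists_pairs`). The subgroups of `(ℤ/n)²` which contain
`e₀` are the `ℤ/n × I`.
-/

set_option autoImplicit false

noncomputable section

open WeierstrassCurve WeierstrassCurve.Affine.Point Module
open scoped WeierstrassCurve.Affine
open Fermat.Agent.Tate

namespace Fermat.Agent.Cor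

local notation "Γℚ" => (AlgebraicClosure ℚ ≃ₐ[ℚ] AlgebraicClosure ℚ)

section Pairs

variable {n a k : ℕ}

/-- The automorphism `e₀ ↦ e₀`, `e₁ ↦ β e₀ + δ e₁` of `(ℤ/n)²`. -/
def shearZ (β : ZMod n) (δ : (ZMod n)ˣ) : (Fin 2 → ZMod n) ≃ₗ[ZMod n] (Fin 2 → ZMod n) where
  toFun v := ![v 0 + β * v 1, δ * v 1]
  map_add' v w := by ext i; fin_cases i <;> simp <;> ring
  map_smul' c v := by ext i; fin_cases i <;> simp <;> ring
  invFun v := ![v 0 - β * (↑δ⁻¹ * v 1), ↑δ⁻¹ * v 1]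
  left_inv v := by ext i; fin_cases i <;> simp
  right_inv v := by ext i; fin_cases i <;> simp

theorem shearZ_apply (β : ZMod n) (δ : (ZMod n)ˣ) (v : Fin 2 → ZMod n) :
    shearZ β δ v = ![v 0 + β * v 1, δ * v 1] := rfl

theorem natCast_mul_eq_iff (hnk : n = k * a) (hk : k ≠ 0) (x y : ℕ) :
    ((k * x : ℕ) : ZMod n) = ((k * y : ℕ) : ZMod n) ↔ (x : ZMod a) = (y : ZMod a) := by
  rw [ZMod.natCast_eq_natCast_iff, ZMod.natCast_eq_natCast_iff, hnk]
  exact ⟨fun h => Nat.ModEq.mul_left_cancel' hk h, fun h => Nat.ModEq.mul_left' k h⟩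

/-- **The orbit of `(e₀, k e₁)`** under the automorphisms of `(ℤ/n)²`. -/
theorem exists_pairs (hnk : n = k * a) (hn : n ≠ 0) :
    ∃ S : Set ((Fin 2 → ZMod n) × (Fin 2 → ZMod n)),
      S.ncard = {v : Fin 2 → ZMod n | addOrderOf v = n}.ncard * (a * a.totient) ∧
      ∀ y ∈ S, ∃ g : (Fin 2 → ZMod n) ≃ₗ[ZMod n] (Fin 2 → ZMod n),
        (g (Pi.single 0 1), g (Pi.single 1 (k : ZMod n))) = y := by
  classical
  have hk : k ≠ 0 := fun h => hn (by rw [hnk, h, zero_mul])
  have ha : a ≠ 0 := fun h => hn (by rw [hnk, h, mul_zero])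
  have hn' : NeZero n := ⟨hn⟩
  have ha' : NeZero a := ⟨ha⟩
  have hdvd : a ∣ n := ⟨k, by rw [hnk, mul_comm]⟩
  choose G hG using fun v : {v : Fin 2 → ZMod n // addOrderOf v = n} =>
    exists_linearEquiv_single hn v.2
  let Φ : {v : Fin 2 → ZMod n // addOrderOf v = n} × ZMod a × (ZMod a)ˣ →
      (Fin 2 → ZMod n) × (Fin 2 → ZMod n) := fun c =>
    (c.1.1, G c.1 ![((k * c.2.1.val : ℕ) : ZMod n), ((k * (c.2.2 : ZMod a).val : ℕ) : ZMod n)])
  have hinj : Function.Injective Φ := by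
    rintro ⟨v, β, δ⟩ ⟨v', β', δ'⟩ h
    obtain ⟨h1, h2⟩ := Prod.mk.inj h
    have h3 : v = v' := Subtype.ext h1
    subst h3
    have h4 := (G v).injective h2
    have h5 := congrFun h4 0
    have h6 := congrFun h4 1
    have h7 : ((k * β.val : ℕ) : ZMod n) = ((k * β'.val : ℕ) : ZMod n) := h5
    have h8 : ((k * (δ : ZMod a).val : ℕ) : ZMod n) = ((k * (δ' : ZMod a).val : ℕ) : ZMod n) := h6
    rw [natCast_mul_eq_iff hnk hk, ZMod.natCast_zmod_val, ZMod.natCast_zmod_val] at h7 h8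
    rw [h7, Units.ext h8]
  refine ⟨Set.range Φ, ?_, ?_⟩
  · rw [← Nat.card_coe_set_eq, Nat.card_range_of_injective hinj, Nat.card_prod, Nat.card_prod,
      Nat.card_zmod, Nat.card_eq_fintype_card (α := (ZMod a)ˣ), ZMod.card_units_eq_totient]
    rfl
  · rintro _ ⟨⟨v, β, δ⟩, rfl⟩
    obtain ⟨δ', hδ'⟩ := ZMod.unitsMap_surjective hdvd δ
    refine ⟨(shearZ ((β.val : ℕ) : ZMod n) δ').trans (G v), ?_⟩
    have h1 : shearZ ((β.val : ℕ) : ZMod n) δ' (Pi.single 0 1) = Pi.single 0 1 := by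
      rw [shearZ_apply]
      ext i
      fin_cases i <;> simp
    have h2 : (k : ZMod n) * (δ' : ZMod n) = ((k * (δ : ZMod a).val : ℕ) : ZMod n) := by
      have h3 : (((δ' : ZMod n).val : ℕ) : ZMod a) = (((δ : ZMod a).val : ℕ) : ZMod a) := by
        rw [ZMod.natCast_zmod_val (δ : ZMod a), ← hδ', ZMod.unitsMap_val, ZMod.natCast_val]
      rw [← (natCast_mul_eq_iff hnk hk _ _).mpr h3, Nat.cast_mul, ZMod.natCast_zmod_val]
    have h4 : shearZ ((β.val : ℕ) : ZMod n) δ' (Pi.single 1 (k : ZMod n)) =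
        ![((k * β.val : ℕ) : ZMod n), ((k * (δ : ZMod a).val : ℕ) : ZMod n)] := by
      rw [shearZ_apply, ← h2]
      ext i
      fin_cases i
      · simp [mul_comm]
      · simp [mul_comm]
    rw [LinearEquiv.trans_apply, LinearEquiv.trans_apply, h1, h4, hG v]

/-- A subgroup of `ℤ/n` of order `a` contains `n / a`. -/
theorem natCast_mem_of_card (I : AddSubgroup (ZMod n)) (hnk : n = k * Nat.card I) (hn : n ≠ 0) :
    (k : ZMod n) ∈ I := by
  have hn' : NeZero n := ⟨hn⟩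
  have h1 : I.index = k := by
    have h2 := I.card_mul_index
    rw [Nat.card_zmod] at h2
    have h3 : Nat.card I ≠ 0 := fun h => hn (by rw [hnk, h, mul_zero])
    have h4 : Nat.card I * I.index = Nat.card I * k := by
      rw [h2]
      conv_lhs => rw [hnk]
      ring
    exact Nat.eq_of_mul_eq_mul_left (Nat.pos_of_ne_zero h3) h4
  have h2 := I.nsmul_index_mem (1 : ZMod n)
  rwa [h1, nsmul_one] at h2

/-- **The subgroups of `(ℤ/n)²` which contain `e₀`.** -/
theorem exists_addEquiv_of_mem (hn : n ≠ 0) (T : AddSubgroup (Fin 2 → ZMod n))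
    (hT : Pi.single 0 1 ∈ T) : ∃ a k : ℕ, n = k * a ∧ Pi.single 1 (k : ZMod n) ∈ T ∧
      Nonempty (T ≃+ ZMod a × ZMod n) := by
  have hn' : NeZero n := ⟨hn⟩
  set I : AddSubgroup (ZMod n) := T.comap (AddMonoidHom.single (fun _ : Fin 2 => ZMod n) 1) with hI
  have hmemI : ∀ c : ZMod n, c ∈ I ↔ (Pi.single 1 c : Fin 2 → ZMod n) ∈ T := fun c => Iff.rfl
  have h0 : ∀ t : ZMod n, (Pi.single 0 t : Fin 2 → ZMod n) ∈ T := by
    intro t
    have h1 : (Pi.single 0 t : Fin 2 → ZMod n) = t.val • (Pi.single 0 1 : Fin 2 → ZMod n) := by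
      rw [← Pi.single_smul, nsmul_one, ZMod.natCast_zmod_val]
    rw [h1]
    exact T.nsmul_mem hT _
  have hdvd : Nat.card I ∣ n := by
    have := I.card_addSubgroup_dvd_card
    rwa [Nat.card_zmod] at this
  obtain ⟨k, hk⟩ := hdvd
  rw [mul_comm] at hk
  have hIa : IsAddCyclic I := inferInstance
  refine ⟨Nat.card I, k, hk, natCast_mem_of_card I hk hn, ?_⟩
  have e1 : ZMod (Nat.card I) ≃+ I := zmodAddCyclicAddEquiv hIa
  -- `T ≃ I × ℤ/n`
  have e2 : I × ZMod n ≃+ T :=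
    { toFun := fun c => ⟨Pi.single 1 (c.1 : ZMod n) + Pi.single 0 c.2,
        T.add_mem ((hmemI _).mp c.1.2) (h0 c.2)⟩
      invFun := fun v => (⟨v.1 1, (hmemI _).mpr (by
        have h1 : (Pi.single 1 (v.1 1) : Fin 2 → ZMod n) = v.1 - Pi.single 0 (v.1 0) := by
          ext i
          fin_cases i <;> simp
        rw [h1]
        exact T.sub_mem v.2 (h0 _))⟩, v.1 0)
      left_inv := fun c => by
        refine Prod.ext (Subtype.ext ?_) ?_
        · simp
        · simp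
      right_inv := fun v => by
        refine Subtype.ext ?_
        ext i
        fin_cases i <;> simp
      map_add' := fun c d => by
        refine Subtype.ext ?_
        ext i
        fin_cases i <;> simp }
  exact ⟨((e1.prodCongr (AddEquiv.refl (ZMod n))).trans e2).symm⟩

end Pairs

end Fermat.Agent.Cor
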