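import Fermat.Agent.Corollaries.MT.TwoIsog
import Fermat.Agent.Corollaries.Isog.Class

/-!
# The quotient of an elliptic curve over `ℚ` by any finite Galois stable subgroup

* `exists_quotient_two` : the quotient by a rational point of order two;
* `exists_quotient_all` : the quotient by any finite Galois stable subgroup;
* `exists_finite_curves` : **the isogeny theorem for a semistable elliptic curve** `E` over `ℚ`:
  finitely many elliptic curves over `ℚ` give all the quotients of `E` by finite stable subgroups.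
-/

set_option autoImplicit false

noncomputable section

open WeierstrassCurve WeierstrassCurve.Affine WeierstrassCurve.Affine.Point

namespace Fermat.Agent.Cor.Isog

open Fermat.Agent.Cor.K1 (Gam Pts)
open Fermat.Agent.Cor.Mazur (Pt exists_equiv_coord)
open Fermat.Agent.Cor.MT (Cv equation_Cv Δ_Cv exists_twoIsog)

local notation "ℚbar" => AlgebraicClosure ℚ

/-! ### The model `y² = x (x² + a x + b)` -/

section Model

variable {K : Type*} [Field K] [DecidableEq K] [IsAlgClosed K]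

theorem exists_twoIsog_of_eq (h2 : (2 : K) ≠ 0) {V V' : WeierstrassCurve K} {a b : K}
    (hV : V = Cv a b) (hV' : V' = Cv (-2 * a) (a ^ 2 - 4 * b)) (hb : b ≠ 0)
    (hd : a ^ 2 - 4 * b ≠ 0) :
    ∃ φ : V.toAffine.Point →+ V'.toAffine.Point,
      (∀ P, φ P = 0 ↔ P = 0 ∨ ∃ h, P = .some 0 0 h) ∧
      (∀ x y h, x = 0 → φ (.some x y h) = 0) ∧
      (∀ x y h, x ≠ 0 →
        ∃ h', φ (.some x y h) = .some (y ^ 2 / x ^ 2) (y * (b - x ^ 2) / x ^ 2) h') ∧
      Function.Surjective φ := by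
  subst hV hV'
  obtain ⟨φ, hφ, hc⟩ := exists_twoIsog h2 a b hb hd
  have hΔ : (Cv a b).Δ ≠ 0 := by
    rw [Δ_Cv]
    have h16 : (16 : K) ≠ 0 := by
      have : (16 : K) = 2 ^ 4 := by norm_num
      rw [this]
      exact pow_ne_zero _ h2
    exact mul_ne_zero (mul_ne_zero h16 (pow_ne_zero _ hb)) hd
  have hz : ∀ x y (h : (Cv a b).toAffine.Nonsingular x y), x = 0 → φ (.some x y h) = 0 := by
    rintro x y h rfl
    have h1 := equation_Cv.mp h.1
    have h3 : y = 0 := by
      have h4 : y ^ 2 = 0 := by rw [h1]; ring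
      exact pow_eq_zero_iff two_ne_zero |>.mp h4
    subst h3
    exact (hφ _).mpr (Or.inr ⟨h, rfl⟩)
  have hpt : ∀ x y : K, y ^ 2 = x ^ 3 + a * x ^ 2 + b * x → (Cv a b).toAffine.Nonsingular x y :=
    fun x y h => (equation_iff_nonsingular_of_Δ_ne_zero hΔ).mp (equation_Cv.mpr h)
  refine ⟨φ, hφ, hz, hc, ?_⟩
  rintro (_ | ⟨X, Y, hXY⟩)
  · exact ⟨0, _root_.map_zero φ⟩
  have hE := equation_Cv.mp hXY.1
  by_cases hX : X = 0
  · subst hX
    have hY : Y = 0 := by
      have h4 : Y ^ 2 = 0 := by rw [hE]; ring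
      exact pow_eq_zero_iff two_ne_zero |>.mp h4
    subst hY
    obtain ⟨s, hs⟩ := IsAlgClosed.exists_pow_nat_eq (a ^ 2 - 4 * b) (n := 2) (by norm_num)
    set x : K := (-a + s) / 2 with hx
    have h5 : x ^ 2 + a * x + b = 0 := by
      rw [hx]
      field_simp
      linear_combination hs
    have hx0 : x ≠ 0 := by
      intro h0
      rw [h0] at h5
      apply hb
      linear_combination h5
    have hP := hpt x 0 (by linear_combination (-x) * h5)
    obtain ⟨h', h6⟩ := hc x 0 hP hx0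
    refine ⟨_, h6.trans ?_⟩
    rw [Point.some.injEq]
    constructor <;> simp
  · obtain ⟨w, hw⟩ := IsAlgClosed.exists_pow_nat_eq X (n := 2) (by norm_num)
    have hw0 : w ≠ 0 := by
      rintro rfl
      apply hX
      rw [← hw]
      ring
    obtain ⟨v, hv⟩ : ∃ v, v * w = Y := ⟨Y / w, div_mul_cancel₀ _ hw0⟩
    have hv2 : v ^ 2 = (X - a) ^ 2 - 4 * b := by
      have h1 : X * v ^ 2 = X * ((X - a) ^ 2 - 4 * b) := by
        rw [← hv, ← hw] at hE
        rw [← hw]
        linear_combination hE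
      exact mul_left_cancel₀ hX h1
    obtain ⟨x, hx⟩ : ∃ x, 2 * x = X - a - v := ⟨(X - a - v) / 2, mul_div_cancel₀ _ h2⟩
    obtain ⟨z, hz'⟩ : ∃ z, 2 * z = X - a + v := ⟨(X - a + v) / 2, mul_div_cancel₀ _ h2⟩
    have h4 : (4 : K) ≠ 0 := by
      have : (4 : K) = 2 ^ 2 := by norm_num
      rw [this]
      exact pow_ne_zero _ h2
    have hxz : x * z = b := by
      refine mul_left_cancel₀ h4 ?_
      linear_combination (2 * z) * hx + (X - a - v) * hz' - hv2
    have hsum : x + z = X - a := by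
      refine mul_left_cancel₀ h2 ?_
      linear_combination hx + hz'
    have hdif : z - x = v := by
      refine mul_left_cancel₀ h2 ?_
      linear_combination hz' - hx
    have hx0 : x ≠ 0 := by
      rintro rfl
      exact hb (by rw [← hxz, zero_mul])
    have hP := hpt x (w * x) (by
      rw [mul_pow, hw, ← hxz]
      linear_combination (-x ^ 2) * hsum)
    obtain ⟨h', h6⟩ := hc x (w * x) hP hx0
    refine ⟨_, h6.trans ?_⟩
    rw [Point.some.injEq]
    constructor
    · rw [mul_pow, hw]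
      field_simp
    · rw [← hxz, ← hv, ← hdif]
      field_simp

end Model

theorem exists_twoIsog_galois {a b : ℚ} (hb : b ≠ 0) (hd : a ^ 2 - 4 * b ≠ 0) :
    ∃ φ : Pts (Cv a b) →+ Pts (Cv (-2 * a) (a ^ 2 - 4 * b)),
      (∀ (σ : Gam) (x : Pts (Cv a b)), φ (σ • x) = σ • φ x) ∧
      (∀ P, φ P = 0 ↔ P = 0 ∨ ∃ h, P = .some 0 0 h) ∧ Function.Surjective φ := by
  classical
  have hV : ((Cv a b)⁄ℚbar : WeierstrassCurve ℚbar) =
      Cv (algebraMap ℚ ℚbar a) (algebraMap ℚ ℚbar b) := by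
    ext <;> simp [WeierstrassCurve.baseChange]
  have hV' : ((Cv (-2 * a) (a ^ 2 - 4 * b))⁄ℚbar : WeierstrassCurve ℚbar) =
      Cv (-2 * algebraMap ℚ ℚbar a) (algebraMap ℚ ℚbar a ^ 2 - 4 * algebraMap ℚ ℚbar b) := by
    ext <;> simp [WeierstrassCurve.baseChange]
  have hb' : algebraMap ℚ ℚbar b ≠ 0 := (map_ne_zero _).mpr hb
  have hd' : algebraMap ℚ ℚbar a ^ 2 - 4 * algebraMap ℚ ℚbar b ≠ 0 := by
    have h := (map_ne_zero (algebraMap ℚ ℚbar)).mpr hd
    simpa using h
  obtain ⟨φ, hφ, hz, hc, hs⟩ := exists_twoIsog_of_eq (two_ne_zero) hV hV' hb' hd'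
  refine ⟨φ, fun σ P => ?_, hφ, hs⟩
  rcases P with _ | ⟨x, y, hxy⟩
  · have h1 : σ • (0 : Pts (Cv a b)) = 0 := smul_zero (A := Pts (Cv a b)) σ
    have h2 : φ 0 = 0 := _root_.map_zero φ
    change φ (σ • (0 : Pts (Cv a b))) = σ • φ 0
    rw [h1, h2]
    exact (smul_zero (A := Pts (Cv (-2 * a) (a ^ 2 - 4 * b))) σ).symm
  · by_cases hx : x = 0
    · rw [Point.algEquiv_smul_def, Point.map_some, hz _ _ _ (by rw [hx]; exact _root_.map_zero _),
        hz _ _ _ hx]
      exact (smul_zero (A := Pts (Cv (-2 * a) (a ^ 2 - 4 * b))) σ).symm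
    · obtain ⟨h', h1⟩ := hc x y hxy hx
      rw [h1, Point.algEquiv_smul_def, Point.algEquiv_smul_def, Point.map_some, Point.map_some]
      obtain ⟨h'', h2⟩ := hc (σ.toAlgHom x) (σ.toAlgHom y)
        ((Affine.baseChange_nonsingular (Cv a b) σ.toAlgHom.injective ..).mpr hxy)
        ((map_ne_zero _).mpr hx)
      refine h2.trans ?_
      rw [Point.some.injEq]
      have hc : ∀ c : ℚ, σ.toAlgHom (algebraMap ℚ ℚbar c) = algebraMap ℚ ℚbar c :=
        fun c => σ.toAlgHom.commutes c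
      constructor
      · rw [map_div₀, map_pow, map_pow]
      · rw [map_div₀, map_mul, map_sub, map_pow, hc]

/-! ### A rational point of order two -/

/-- **The quotient by a rational point of order two.** -/
theorem exists_quotient_two (E : WeierstrassCurve ℚ) (hΔ : E.Δ ≠ 0) (T : Pts E) (hT : T ≠ 0)
    (h2T : 2 • T = 0) (hfix : ∀ σ : Gam, σ • T = T) :
    ∃ E' : WeierstrassCurve ℚ, E'.Δ ≠ 0 ∧ ∃ φ : Pts E →+ Pts E',
      (∀ (σ : Gam) (x : Pts E), φ (σ • x) = σ • φ x) ∧ (∀ P, φ P = 0 ↔ P = 0 ∨ P = T) ∧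
      Function.Surjective φ := by
  rcases T with _ | ⟨x, y, hxy⟩
  · exact absurd rfl hT
  -- the coordinates are rational
  have hσ : ∀ σ : Gam, σ x = x ∧ σ y = y := by
    intro σ
    have h1 := hfix σ
    rw [Point.algEquiv_smul_def, Point.map_some, Point.some.injEq] at h1
    exact h1
  obtain ⟨r, hr⟩ := S13five.exists_rat_of_fixed fun σ => (hσ σ).1
  obtain ⟨t, ht⟩ := S13five.exists_rat_of_fixed fun σ => (hσ σ).2
  have heq : E.toAffine.Equation r t := by
    have h1 := hxy.1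
    rw [← hr, ← ht] at h1
    exact (Affine.map_equation (W := E.toAffine) (f := algebraMap ℚ ℚbar)
      (algebraMap ℚ ℚbar).injective r t).mp h1
  have h2 : 2 * t + E.a₁ * r + E.a₃ = 0 := by
    have h3 : (Point.some x y hxy : Pts E) = -Point.some x y hxy := by
      rw [two_nsmul] at h2T
      exact eq_neg_of_add_eq_zero_left h2T
    rw [Point.neg_some, Point.some.injEq] at h3
    have h4 := h3.2
    rw [Affine.negY, ← hr, ← ht] at h4
    have h5 : (E⁄ℚbar).a₁ = algebraMap ℚ ℚbar E.a₁ := rfl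
    have h6 : (E⁄ℚbar).a₃ = algebraMap ℚ ℚbar E.a₃ := rfl
    rw [h5, h6] at h4
    apply (algebraMap ℚ ℚbar).injective
    simp only [map_add, map_mul, map_ofNat, _root_.map_zero]
    linear_combination h4
  -- the model
  let C : VariableChange ℚ := ⟨1, r, -E.a₁ / 2, t⟩
  have hC : C • E = Cv (C • E).a₂ (C • E).a₄ := by
    ext
    · rw [variableChange_a₁]
      simp [C]
      ring
    · rfl
    · rw [variableChange_a₃]
      simp only [C, inv_one, Units.val_one]
      linear_combination h2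
    · rfl
    · rw [variableChange_a₆]
      simp only [C, inv_one, Units.val_one]
      rw [Affine.equation_iff] at heq
      linear_combination -heq
  have hΔ1 : (C • E).Δ ≠ 0 := by
    rw [variableChange_Δ]
    exact mul_ne_zero (pow_ne_zero _ (Units.ne_zero _)) hΔ
  generalize (C • E).a₂ = a at hC
  generalize (C • E).a₄ = b at hC
  rw [hC, Δ_Cv] at hΔ1
  have hb : b ≠ 0 := by
    rintro rfl
    apply hΔ1
    ring
  have hd : a ^ 2 - 4 * b ≠ 0 := right_ne_zero_of_mul hΔ1
  obtain ⟨e, he, hc⟩ := exists_equiv_coord hΔ hC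
  obtain ⟨φ, hφ, hker, hsurj⟩ := exists_twoIsog_galois hb hd
  refine ⟨_, ?_, φ.comp e.symm.toAddMonoidHom, fun σ z => ?_, fun P => ?_, ?_⟩
  · rw [Δ_Cv]
    have h3 : (16 : ℚ) * (a ^ 2 - 4 * b) ^ 2 * ((-2 * a) ^ 2 - 4 * (a ^ 2 - 4 * b)) =
        2 ^ 8 * ((a ^ 2 - 4 * b) ^ 2 * b) := by ring
    rw [h3]
    exact mul_ne_zero (by norm_num) (mul_ne_zero (pow_ne_zero _ hd) hb)
  · change φ (e.symm (σ • z)) = σ • φ (e.symm z)
    rw [← hφ]
    congr 1
    apply e.injective
    rw [he, AddEquiv.apply_symm_apply, AddEquiv.apply_symm_apply]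
  · change φ (e.symm P) = 0 ↔ _
    rw [hker]
    refine or_congr ?_ ?_
    · rw [AddEquiv.map_eq_zero_iff]
    · constructor
      · rintro ⟨h, h1⟩
        obtain ⟨h', h0⟩ := hc 0 0 h
        rw [← h1, AddEquiv.apply_symm_apply] at h0
        rw [h0, Point.some.injEq, ← hr, ← ht]
        constructor <;> simp [C]
      · intro h1
        have h00 : ((Cv a b)⁄ℚbar).Nonsingular 0 0 := by
          have hΔ' : ((Cv a b)⁄ℚbar : WeierstrassCurve ℚbar).Δ ≠ 0 := by
            rw [show ((Cv a b)⁄ℚbar : WeierstrassCurve ℚbar) =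
              (Cv a b).map (algebraMap ℚ ℚbar) from rfl, WeierstrassCurve.map_Δ, Δ_Cv]
            exact (map_ne_zero _).mpr hΔ1
          refine (equation_iff_nonsingular_of_Δ_ne_zero hΔ').mp ?_
          rw [equation_zero]
          change algebraMap ℚ ℚbar 0 = 0
          exact _root_.map_zero _
        obtain ⟨h', h0⟩ := hc 0 0 h00
        refine ⟨h00, ?_⟩
        apply e.injective
        rw [AddEquiv.apply_symm_apply, h0, h1, Point.some.injEq, ← hr, ← ht]
        constructor <;> simp [C]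
  · exact hsurj.comp e.symm.surjective

/-! ### All finite stable subgroups -/

section General

variable {E : WeierstrassCurve ℚ}

theorem Δbar_ne_zero' (hΔ : E.Δ ≠ 0) : (E⁄ℚbar : WeierstrassCurve ℚbar).Δ ≠ 0 := by
  rw [show (E⁄ℚbar : WeierstrassCurve ℚbar) = E.map (algebraMap ℚ ℚbar) from rfl,
    WeierstrassCurve.map_Δ]
  exact (map_ne_zero _).mpr hΔ

theorem smul_nsmul'' (σ : Gam) (n : ℕ) (x : Pts E) : σ • (n • x) = n • (σ • x) :=
  map_nsmul (DistribSMul.toAddMonoidHom (Pts E) σ) n x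

/-- One step: a quotient by a nonzero part of `N`. -/
theorem quot_step {E₁ : WeierstrassCurve ℚ} {N : AddSubgroup (Pts E)} (hfin : Finite N)
    (hN : ∀ σ : Gam, ∀ x ∈ N, σ • x ∈ N) (ψ : Pts E →+ Pts E₁)
    (hψ : ∀ (σ : Gam) (x : Pts E), ψ (σ • x) = σ • ψ x) (hker : ψ.ker ≤ N) {T : Pts E}
    (hT : T ∈ N) (hT0 : T ≠ 0) (hψT : ψ T = 0) (hsurj : Function.Surjective ψ)
    (ih : ∀ N₁ : AddSubgroup (Pts E₁), Nat.card N₁ < Nat.card N → Finite N₁ →
      (∀ σ : Gam, ∀ x ∈ N₁, σ • x ∈ N₁) → ∃ E' : WeierstrassCurve ℚ, E'.Δ ≠ 0 ∧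
        ∃ φ : Pts E₁ →+ Pts E', (∀ (σ : Gam) (x : Pts E₁), φ (σ • x) = σ • φ x) ∧ φ.ker = N₁ ∧
          Function.Surjective φ) :
    ∃ E' : WeierstrassCurve ℚ, E'.Δ ≠ 0 ∧ ∃ φ : Pts E →+ Pts E',
      (∀ (σ : Gam) (x : Pts E), φ (σ • x) = σ • φ x) ∧ φ.ker = N ∧ Function.Surjective φ := by
  let f : N → (N.map ψ) := fun x => ⟨ψ x.1, x.1, x.2, rfl⟩
  have hf : Function.Surjective f := by
    rintro ⟨_, x, hx, rfl⟩
    exact ⟨⟨x, hx⟩, rfl⟩
  have hfin₁ : Finite (N.map ψ) := Finite.of_surjective f hf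
  have hlt : Nat.card (N.map ψ) < Nat.card N := by
    refine lt_of_le_of_ne (Nat.card_le_card_of_surjective f hf) fun h => ?_
    have hinj : Function.Injective f := (Nat.bijective_iff_surjective_and_card f).mpr
      ⟨hf, h.symm⟩ |>.injective
    have h1 : f ⟨T, hT⟩ = f 0 := Subtype.ext (by
      change ψ T = ψ 0
      rw [hψT, _root_.map_zero])
    have h2 := congrArg Subtype.val (hinj h1)
    exact hT0 h2
  obtain ⟨E', hE', φ, h1, h2, h3⟩ := ih _ hlt hfin₁ (by
    rintro σ _ ⟨x, hx, rfl⟩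
    exact ⟨σ • x, hN σ x hx, hψ σ x⟩)
  refine ⟨E', hE', φ.comp ψ, fun σ x => ?_, ?_, h3.comp hsurj⟩
  · change φ (ψ (σ • x)) = σ • φ (ψ x)
    rw [hψ, h1]
  · have hk : ∀ z, φ z = 0 ↔ z ∈ N.map ψ := fun z => by rw [← AddMonoidHom.mem_ker, h2]
    ext x
    refine (hk (ψ x)).trans ⟨?_, fun hx => ⟨x, hx, rfl⟩⟩
    rintro ⟨y, hy, hyx⟩
    have h4 : x - y ∈ N := hker (by
      rw [AddMonoidHom.mem_ker, map_sub, hyx, sub_self])
    have h5 := N.add_mem h4 hy
    rwa [sub_add_cancel] at h5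

end General

/-- **The quotient of an elliptic curve over `ℚ` by any finite Galois stable subgroup.** -/
theorem exists_quotient_all (E : WeierstrassCurve ℚ) (hΔ : E.Δ ≠ 0) (N : AddSubgroup (Pts E))
    (hfin : Finite N) (hN : ∀ σ : Gam, ∀ x ∈ N, σ • x ∈ N) :
    ∃ E' : WeierstrassCurve ℚ, E'.Δ ≠ 0 ∧ ∃ φ : Pts E →+ Pts E',
      (∀ (σ : Gam) (x : Pts E), φ (σ • x) = σ • φ x) ∧ φ.ker = N ∧ Function.Surjective φ := by
  suffices H : ∀ (m : ℕ) (E : WeierstrassCurve ℚ), E.Δ ≠ 0 → ∀ N : AddSubgroup (Pts E),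
      Nat.card N = m → Finite N → (∀ σ : Gam, ∀ x ∈ N, σ • x ∈ N) →
      ∃ E' : WeierstrassCurve ℚ, E'.Δ ≠ 0 ∧ ∃ φ : Pts E →+ Pts E',
        (∀ (σ : Gam) (x : Pts E), φ (σ • x) = σ • φ x) ∧ φ.ker = N ∧ Function.Surjective φ from
    H _ E hΔ N rfl hfin hN
  intro m
  induction m using Nat.strong_induction_on with
  | _ m ih =>
    intro E hΔ N hm hfin hN
    rcases Nat.even_or_odd (Nat.card N) with hev | hodd
    · have h2 : Fact (Nat.Prime 2) := ⟨Nat.prime_two⟩
      obtain ⟨T', hT'⟩ := exists_prime_addOrderOf_dvd_card' (G := N) 2 hev.two_dvd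
      set T : Pts E := (T' : Pts E) with hTdef
      have hTN : T ∈ N := T'.2
      have hordT : addOrderOf T = 2 := by rw [← hT', hTdef, AddSubgroup.addOrderOf_coe]
      have hT0 : T ≠ 0 := fun h => by rw [h, addOrderOf_zero] at hordT; omega
      have h2T : 2 • T = 0 := by rw [← hordT]; exact addOrderOf_nsmul_eq_zero T
      by_cases hall : ∀ x : Pts E, 2 • x = 0 → x ∈ N
      · refine quot_step hfin hN (nsmulAddMonoidHom 2) (fun σ x => (smul_nsmul'' σ 2 x).symm)
          (fun x hx => hall x hx) hTN hT0 h2T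
          (Fermat.Agent.Torsion.surjective_nsmul (Δbar_ne_zero' hΔ) two_ne_zero)
          fun N₁ h1 h2 h3 => ih _ (hm ▸ h1) E hΔ N₁ rfl h2 h3
      · -- `T` is rational
        have hfix : ∀ σ : Gam, σ • T = T := by
          let M : AddSubgroup (Pts E) := (nsmulAddMonoidHom 2 : Pts E →+ Pts E).ker
          have hMm : ∀ x, x ∈ M ↔ 2 • x = 0 := fun x => Iff.rfl
          have hM : Nat.card M = 4 :=
            Fermat.Agent.Torsion.card_torsion (n := 2) (Δbar_ne_zero' hΔ) two_ne_zero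
          have hMf : Finite M := Nat.finite_of_card_ne_zero (by rw [hM]; norm_num)
          have hle : AddSubgroup.zmultiples T ≤ N ⊓ M := by
            rw [AddSubgroup.zmultiples_le]
            exact ⟨hTN, h2T⟩
          have hfi : Finite (N ⊓ M : AddSubgroup (Pts E)) :=
            Finite.of_injective _ (AddSubgroup.inclusion_injective inf_le_right)
          have hcard : Nat.card (N ⊓ M : AddSubgroup (Pts E)) ≤ 2 := by
            have h3 : Nat.card (N ⊓ M : AddSubgroup (Pts E)) ∣ 2 ^ 2 := by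
              have := AddSubgroup.card_dvd_of_le (inf_le_right : N ⊓ M ≤ M)
              rwa [hM] at this
            obtain ⟨i, hi, hi'⟩ := (Nat.dvd_prime_pow Nat.prime_two).mp h3
            rcases Nat.lt_or_ge i 2 with h4 | h4
            · rw [hi']
              calc 2 ^ i ≤ 2 ^ 1 := Nat.pow_le_pow_right (by norm_num) (by omega)
                _ = 2 := pow_one 2
            · exfalso
              apply hall
              have h5 : i = 2 := by omega
              have h6 : N ⊓ M = M := AddSubgroup.eq_of_le_of_card_ge inf_le_right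
                (by rw [hM, hi', h5]; norm_num)
              intro x hx
              have h7 : x ∈ N ⊓ M := by
                rw [h6]
                exact hx
              exact h7.1
          have heq : AddSubgroup.zmultiples T = N ⊓ M :=
            AddSubgroup.eq_of_le_of_card_ge hle (by
              rw [Nat.card_zmultiples, hordT]
              exact hcard)
          intro σ
          have h8 : σ • T ∈ AddSubgroup.zmultiples T := by
            rw [heq]
            refine ⟨hN σ T hTN, (hMm _).mpr ?_⟩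
            rw [← smul_nsmul'', h2T]
            exact smul_zero (A := Pts E) σ
          obtain ⟨k, hk⟩ := AddSubgroup.mem_zmultiples_iff.mp h8
          have h9 : σ • T ≠ 0 := by
            intro h
            rw [← smul_zero (A := Pts E) σ] at h
            exact hT0 (smul_left_cancel σ h)
          rcases Int.even_or_odd' k with ⟨c, rfl | rfl⟩
          · exfalso
            apply h9
            rw [← hk, mul_comm, mul_smul]
            have : (2 : ℤ) • T = 0 := by exact_mod_cast h2T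
            rw [this, zsmul_zero]
          · rw [← hk, add_zsmul, one_zsmul, mul_comm, mul_smul]
            have : (2 : ℤ) • T = 0 := by exact_mod_cast h2T
            rw [this, zsmul_zero, zero_add]
        obtain ⟨E₁, hE₁, ψ, h1, h2', h3⟩ := exists_quotient_two E hΔ T hT0 h2T hfix
        refine quot_step hfin hN ψ h1 ?_ hTN hT0 ((h2' T).mpr (Or.inr rfl)) h3
          fun N₁ h4 h5 h6 => ih _ (hm ▸ h4) E₁ hE₁ N₁ rfl h5 h6
        intro x hx
        rcases (h2' x).mp hx with rfl | rfl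
        · exact N.zero_mem
        · exact hTN
    · exact exists_quotient E hΔ N hodd hN

/-- **The isogeny theorem for a semistable elliptic curve over `ℚ`**: finitely many elliptic curves
over `ℚ` give all the quotients of `E` by finite Galois stable subgroups. -/
theorem exists_finite_curves {W : WeierstrassCurve ℤ} (hΔ : W.Δ ≠ 0) (hW : W.IsSemistableModel) :
    ∃ S : Set (WeierstrassCurve ℚ), S.Finite ∧ (∀ E' ∈ S, E'.Δ ≠ 0) ∧
      ∀ N : AddSubgroup (Pt W), Finite N → Stable N →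
      ∃ E' ∈ S, ∃ φ : Pt W →+ Pts E', (∀ (σ : Gam) (x : Pt W), φ (σ • x) = σ • φ x) ∧
        φ.ker = N ∧ Function.Surjective φ := by
  classical
  have hΔQ : (W.map (Int.castRingHom ℚ)).Δ ≠ 0 := by
    rw [WeierstrassCurve.map_Δ]; simpa using hΔ
  have hq : ∀ N : AddSubgroup (Pt W), ∃ E' : WeierstrassCurve ℚ, Finite N → Stable N →
      E'.Δ ≠ 0 ∧ ∃ φ : Pt W →+ Pts E', (∀ (σ : Gam) (x : Pt W), φ (σ • x) = σ • φ x) ∧
        φ.ker = N ∧ Function.Surjective φ := by
    intro N
    by_cases h : Finite N ∧ Stable N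
    · obtain ⟨E', h1, h2⟩ := exists_quotient_all (W.map (Int.castRingHom ℚ)) hΔQ N h.1 h.2
      exact ⟨E', fun _ _ => ⟨h1, h2⟩⟩
    · exact ⟨default, fun h1 h2 => absurd ⟨h1, h2⟩ h⟩
  choose Q hQ using hq
  refine ⟨Q '' {N : AddSubgroup (Pt W) | Finite N ∧ Stable N ∧ Prim N},
    (finite_prim hΔ hW).image _, ?_, fun N hfin hst => ?_⟩
  · rintro _ ⟨N, hN, rfl⟩
    exact (hQ N hN.1 hN.2.1).1
  · obtain ⟨n, N', hn, h1, h2, h3, -, h5⟩ := exists_comap hΔ N hfin hst
    obtain ⟨-, φ, hφ, hker, hsurj⟩ := hQ N' h1 h2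
    refine ⟨_, ⟨N', ⟨h1, h2, h3⟩, rfl⟩, φ.comp (nsmulAddMonoidHom n), fun σ x => ?_, ?_, ?_⟩
    · change φ (n • (σ • x)) = σ • φ (n • x)
      rw [← smul_nsmul', hφ]
    · have hk : ∀ z, φ z = 0 ↔ z ∈ N' := fun z => by rw [← AddMonoidHom.mem_ker, hker]
      ext x
      exact (hk (n • x)).trans (h5 x).symm
    · intro y
      obtain ⟨x, rfl⟩ := hsurj y
      obtain ⟨z, rfl⟩ := exists_nsmul_eq hΔ hn x
      exact ⟨z, rfl⟩

end Fermat.Agent.Cor.Isog
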