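import Fermat.Agent.Corollaries.Isog.PairRed
import Fermat.Agent.Corollaries.MT.Sharp

/-!
# The squarefree degrees of the rational isogenies of a semistable elliptic curve

`W` a semistable elliptic curve over `ℚ`.

* `eq_of_reducible`: if `p < q` are primes and `W[p]`, `W[q]` are both reducible then
  `(p, q) = (2, 3)`, `(2, 5)` or `(5, 7)`, or `p = 13` or `q = 13`.
* `irreducible_three_or_five`: `W[3]` or `W[5]` is irreducible; the same for `2` and `7`, `3` and `7`.
* `card_of_stable`: if a Galois stable subgroup of `W(ℚ̄)` has squarefree order `n` then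
  `n ∈ {1, 2, 3, 5, 6, 7, 10}`, or `n` is a multiple of `13` or `35`.
-/

set_option autoImplicit false

open WeierstrassCurve WeierstrassCurve.Affine WeierstrassCurve.Affine.Point

namespace Fermat.Agent.Cor.Isog

open Fermat.Agent.Cor.K1 (Gam Pts)
open Fermat.Agent.Cor.Mazur (Pt)

namespace Sqf

/-- the arithmetic of two primes -/
theorem pair_arith {p q : ℕ} (hp : p.Prime) (hq : q.Prime) (hpq : p < q)
    (h : p * q ∈ ({1, 2, 3, 4, 5, 6, 7, 8, 9, 10, 12} : Set ℕ) ∨
      ∃ d ∈ ({13, 18, 25, 35} : Set ℕ), d ∣ p * q) :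
    (p = 2 ∧ q = 3) ∨ (p = 2 ∧ q = 5) ∨ (p = 5 ∧ q = 7) ∨ p = 13 ∨ q = 13 := by
  have key : ∀ r : ℕ, r.Prime → r ∣ p * q → r = p ∨ r = q := fun r hr hd => by
    rcases (hr.dvd_mul).1 hd with h1 | h1
    · exact Or.inl ((Nat.prime_dvd_prime_iff_eq hr hp).1 h1)
    · exact Or.inr ((Nat.prime_dvd_prime_iff_eq hr hq).1 h1)
  have hsq : ∀ r : ℕ, r.Prime → ¬ r * r ∣ p * q := fun r hr hd => by
    rcases key r hr ((dvd_mul_right r r).trans hd) with rfl | rfl
    · have h1 := (Nat.prime_dvd_prime_iff_eq hr hq).1 (Nat.dvd_of_mul_dvd_mul_left hr.pos hd)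
      omega
    · rw [mul_comm p] at hd
      have h1 := (Nat.prime_dvd_prime_iff_eq hr hp).1 (Nat.dvd_of_mul_dvd_mul_left hr.pos hd)
      omega
  rcases h with h | ⟨d, hd, hdvd⟩
  · have h2 := hp.two_le
    have hle : p * q ≤ 12 := by
      simp only [Set.mem_insert_iff, Set.mem_singleton_iff] at h
      omega
    have hp4 : p < 4 := by nlinarith
    have hq7 : q < 7 := by nlinarith
    interval_cases p
    · interval_cases q <;> simp_all (config := { decide := true })
    · interval_cases q <;> simp_all (config := { decide := true })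
  · simp only [Set.mem_insert_iff, Set.mem_singleton_iff] at hd
    rcases hd with rfl | rfl | rfl | rfl
    · rcases key 13 (by norm_num) hdvd with h1 | h1
      · exact Or.inr (Or.inr (Or.inr (Or.inl h1.symm)))
      · exact Or.inr (Or.inr (Or.inr (Or.inr h1.symm)))
    · exact absurd ((by norm_num : 3 * 3 ∣ 18).trans hdvd) (hsq 3 (by norm_num))
    · exact absurd hdvd (hsq 5 (by norm_num))
    · rcases key 5 (by norm_num) ((by norm_num : 5 ∣ 35).trans hdvd) with h1 | h1
      · rcases key 7 (by norm_num) ((by norm_num : 7 ∣ 35).trans hdvd) with h2 | h2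
        · omega
        · exact Or.inr (Or.inr (Or.inl ⟨h1.symm, h2.symm⟩))
      · rcases key 7 (by norm_num) ((by norm_num : 7 ∣ 35).trans hdvd) with h2 | h2
        · omega
        · omega

set_option maxRecDepth 20000 in
/-- the arithmetic of squarefree numbers -/
theorem sqf_arith {n : ℕ} (hn : Squarefree n)
    (hp : ∀ p : ℕ, p.Prime → p ∣ n → p ∈ ({2, 3, 5, 7, 13} : Finset ℕ)) (h13 : ¬ 13 ∣ n)
    (h14 : ¬ 14 ∣ n) (h15 : ¬ 15 ∣ n) (h21 : ¬ 21 ∣ n) (h35 : ¬ 35 ∣ n) :
    n ∈ ({1, 2, 3, 5, 6, 7, 10} : Set ℕ) := by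
  have hn0 : n ≠ 0 := hn.ne_zero
  have h210 : n ∣ 210 := by
    rw [← Nat.prod_primeFactors_of_squarefree hn]
    have h1 : n.primeFactors ⊆ ({2, 3, 5, 7} : Finset ℕ) := by
      intro p hpn
      have h2 := hp p (Nat.prime_of_mem_primeFactors hpn) (Nat.dvd_of_mem_primeFactors hpn)
      have h3 : p ≠ 13 := by
        rintro rfl
        exact h13 (Nat.dvd_of_mem_primeFactors hpn)
      simp only [Finset.mem_insert, Finset.mem_singleton] at h2 ⊢
      omega
    exact (Finset.prod_dvd_prod_of_subset _ _ (fun p => p) h1).trans (by decide)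
  have hle : n ≤ 210 := Nat.le_of_dvd (by norm_num) h210
  have key : ∀ m ∈ Finset.range 211, m ∣ 210 → (14 ∣ m ∨ 15 ∣ m ∨ 21 ∣ m ∨ 35 ∣ m) ∨
      m ∈ ({1, 2, 3, 5, 6, 7, 10} : Finset ℕ) := by decide +kernel
  have h1 := (key n (Finset.mem_range.2 (by omega)) h210).resolve_left (by tauto)
  simpa using h1

/-- the part of prime order of a finite stable subgroup of squarefree order -/
theorem exists_stable_prime {E : WeierstrassCurve ℚ} (L : AddSubgroup (Pts E))
    (hst : ∀ σ : Gam, ∀ x ∈ L, σ • x ∈ L) (hsq : Squarefree (Nat.card L)) {p : ℕ}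
    (hp : p.Prime) (hd : p ∣ Nat.card L) :
    ∃ A : AddSubgroup (Pts E), Nat.card A = p ∧ ∀ σ : Gam, ∀ x ∈ A, σ • x ∈ A := by
  have hF : Fact p.Prime := ⟨hp⟩
  have hfin : Finite L := Nat.finite_of_card_ne_zero hsq.ne_zero
  let A : AddSubgroup (Pts E) :=
    { carrier := {x | x ∈ L ∧ p • x = 0}
      add_mem' := fun {a b} ha hb => ⟨L.add_mem ha.1 hb.1, by rw [nsmul_add, ha.2, hb.2, add_zero]⟩
      zero_mem' := ⟨L.zero_mem, nsmul_zero p⟩
      neg_mem' := fun {a} ha => ⟨L.neg_mem ha.1, by rw [neg_nsmul, ha.2, _root_.neg_zero]⟩ }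
  have hA : ∀ {x}, x ∈ A ↔ x ∈ L ∧ p • x = 0 := Iff.rfl
  have hle : A ≤ L := fun x hx => hx.1
  have hfinA : Finite A := Finite.of_injective (fun x : A => (⟨x.1, hle x.2⟩ : L))
    (fun a b h => Subtype.ext (congrArg (fun z : L => z.1) h))
  refine ⟨A, ?_, fun σ x hx => ⟨hst σ x hx.1, by rw [← smul_nsmul'', hx.2]; exact smul_zero (A := Pts E) σ⟩⟩
  have hdvd : Nat.card A ∣ Nat.card L := AddSubgroup.card_dvd_of_le hle
  have hpow : ∀ q : ℕ, q.Prime → q ∣ Nat.card A → q = p := by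
    intro q hq hqd
    have hFq : Fact q.Prime := ⟨hq⟩
    obtain ⟨y, hy⟩ := exists_prime_addOrderOf_dvd_card' q hqd
    have h1 : p • y = 0 := Subtype.ext (hA.1 y.2).2
    have h2 : q ∣ p := hy ▸ addOrderOf_dvd_of_nsmul_eq_zero h1
    exact (Nat.prime_dvd_prime_iff_eq hq hp).1 h2
  obtain ⟨x, hx⟩ := exists_prime_addOrderOf_dvd_card' p hd
  have hpA : p ∣ Nat.card A := by
    have h1 : p • x = 0 := by rw [← hx]; exact addOrderOf_nsmul_eq_zero x
    have h2 : (x : Pts E) ∈ A := ⟨x.2, congrArg (fun z : L => (z : Pts E)) h1⟩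
    have h3 : addOrderOf (⟨x, h2⟩ : A) = p := by
      rw [← hx]
      rw [← addOrderOf_injective A.subtype Subtype.val_injective (⟨x, h2⟩ : A),
        ← addOrderOf_injective L.subtype Subtype.val_injective x]
      rfl
    rw [← h3]
    exact addOrderOf_dvd_natCard _
  obtain ⟨m, hm⟩ := hpA
  have hm1 : m = 1 := by
    by_contra hne
    obtain ⟨q, hq, hqm⟩ := Nat.exists_prime_and_dvd hne
    have h1 : q = p := hpow q hq (hm ▸ hqm.mul_left p)
    subst h1
    obtain ⟨k, rfl⟩ := hqm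
    have h2 : q * q ∣ Nat.card L := by
      refine Dvd.dvd.trans ?_ hdvd
      rw [hm]
      exact ⟨k, by ring⟩
    exact hq.one_lt.ne' (Nat.isUnit_iff.1 (hsq q h2))
  rw [hm, hm1, mul_one]

end Sqf

variable {W : WeierstrassCurve ℤ}

/-- **Two primes with reducible representation.** -/
theorem eq_of_reducible (hΔ : W.Δ ≠ 0) (hW : W.IsSemistableModel) {p q : ℕ}
    (hp : p.Prime) (hq : q.Prime) (hpq : p < q) (h1 : ¬ W.ModRepIsIrreducible p)
    (h2 : ¬ W.ModRepIsIrreducible q) :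
    (p = 2 ∧ q = 3) ∨ (p = 2 ∧ q = 5) ∨ (p = 5 ∧ q = 7) ∨ p = 13 ∨ q = 13 := by
  obtain ⟨E', hE', -, P, hP⟩ := exists_point_mul_of_reducible hΔ hW hp hq hpq.ne h1 h2
  have hell : E'.IsElliptic := ⟨isUnit_iff_ne_zero.2 hE'⟩
  have h0 : addOrderOf P ≠ 0 := by
    rw [hP]
    exact Nat.mul_ne_zero hp.ne_zero hq.ne_zero
  have h3 := MT.addOrderOf_mem_sharp E' h0
  rw [hP] at h3
  exact Sqf.pair_arith hp hq hpq h3

/-- `W[3]` or `W[5]` is irreducible (Wiles). -/
theorem irreducible_three_or_five (hΔ : W.Δ ≠ 0) (hW : W.IsSemistableModel) :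
    W.ModRepIsIrreducible 3 ∨ W.ModRepIsIrreducible 5 := by
  by_contra h
  push Not at h
  have := eq_of_reducible hΔ hW (p := 3) (q := 5) (by norm_num) (by norm_num) (by norm_num) h.1 h.2
  omega

/-- `W[3]` or `W[7]` is irreducible. -/
theorem irreducible_three_or_seven (hΔ : W.Δ ≠ 0) (hW : W.IsSemistableModel) :
    W.ModRepIsIrreducible 3 ∨ W.ModRepIsIrreducible 7 := by
  by_contra h
  push Not at h
  have := eq_of_reducible hΔ hW (p := 3) (q := 7) (by norm_num) (by norm_num) (by norm_num) h.1 h.2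
  omega

/-- `W[2]` or `W[7]` is irreducible. -/
theorem irreducible_two_or_seven (hΔ : W.Δ ≠ 0) (hW : W.IsSemistableModel) :
    W.ModRepIsIrreducible 2 ∨ W.ModRepIsIrreducible 7 := by
  by_contra h
  push Not at h
  have := eq_of_reducible hΔ hW (p := 2) (q := 7) (by norm_num) (by norm_num) (by norm_num) h.1 h.2
  omega

/-- **The squarefree degrees of rational isogenies of semistable curves**: a Galois stable subgroup
of `W(ℚ̄)` of squarefree order `n` has `n ∈ {1, 2, 3, 5, 6, 7, 10}`, or `13 ∣ n`, or `35 ∣ n`. -/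
theorem card_of_stable (hΔ : W.Δ ≠ 0) (hW : W.IsSemistableModel)
    (L : AddSubgroup (Pts (W.map (Int.castRingHom ℚ)))) (hst : ∀ σ : Gam, ∀ x ∈ L, σ • x ∈ L)
    (hsq : Squarefree (Nat.card L)) :
    Nat.card L ∈ ({1, 2, 3, 5, 6, 7, 10} : Set ℕ) ∨ 13 ∣ Nat.card L ∨ 35 ∣ Nat.card L := by
  by_contra hcon
  push Not at hcon
  obtain ⟨h0, h13, h35⟩ := hcon
  have hred : ∀ p : ℕ, p.Prime → p ∣ Nat.card L → ¬ W.ModRepIsIrreducible p := by
    intro p hp hd hirr
    obtain ⟨A, hA, hAst⟩ := Sqf.exists_stable_prime L hst hsq hp hd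
    exact Mazur.not_stable_of_irreducible hp hΔ hirr A hA hAst
  have hpr : ∀ p : ℕ, p.Prime → p ∣ Nat.card L → p ∈ ({2, 3, 5, 7, 13} : Finset ℕ) := by
    intro p hp hd
    by_contra hcon
    have key : ∀ q < 17, q.Prime → q ≠ 11 → q ∈ ({2, 3, 5, 7, 13} : Finset ℕ) := by decide
    have h2 : p = 11 ∨ 17 ≤ p := by
      by_contra h3
      push Not at h3
      exact hcon (key p h3.2 hp h3.1)
    exact hred p hp hd (modRepIsIrreducible hp h2 hΔ hW)
  have hpair : ∀ p q : ℕ, p.Prime → q.Prime → p < q → p * q ∣ Nat.card L →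
      (p = 2 ∧ q = 3) ∨ (p = 2 ∧ q = 5) ∨ (p = 5 ∧ q = 7) ∨ p = 13 ∨ q = 13 :=
    fun p q hp hq hpq hd => eq_of_reducible hΔ hW hp hq hpq
      (hred p hp ((dvd_mul_right p q).trans hd)) (hred q hq ((dvd_mul_left q p).trans hd))
  refine h0 (Sqf.sqf_arith hsq hpr h13 (fun h => ?_) (fun h => ?_) (fun h => ?_) h35)
  · have := hpair 2 7 (by norm_num) (by norm_num) (by norm_num) h
    omega
  · have := hpair 3 5 (by norm_num) (by norm_num) (by norm_num) h
    omega
  · have := hpair 3 7 (by norm_num) (by norm_num) (by norm_num) h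
    omega

end Fermat.Agent.Cor.Isog
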