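import Fermat.Agent.Corollaries.Isog.SqfDeg
import Fermat.Agent.Corollaries.MT.Fifteen

/-!
# The squarefree degrees 1, 2, 3, 5, 6, 7, 10 occur

Semistable curves with a rational point of order `6` (conductor 114), `7` (conductor 26), `10`
(conductor 66).
-/

set_option autoImplicit false

open WeierstrassCurve WeierstrassCurve.Affine WeierstrassCurve.Affine.Point

namespace Fermat.Agent.Cor.Isog

open Fermat.Agent.Cor.K1 (Gam Pts)
open Fermat.Agent.Cor.MT

namespace Sqf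

/-- the subgroup generated by a rational point -/
theorem exists_stable_of_point {E : WeierstrassCurve ℚ} {n d : ℕ} {P : E.toAffine.Point}
    (hP : addOrderOf P = n) (hn : n ≠ 0) (hd : d ∣ n) :
    ∃ L : AddSubgroup (Pts E), Nat.card L = d ∧ ∀ σ : Gam, ∀ x ∈ L, σ • x ∈ L := by
  obtain ⟨Q, hQ⟩ := exists_order_of_dvd (hP ▸ hn) (hP ▸ hd)
  obtain ⟨ι, hι, hran⟩ := exists_ratEmb E
  refine ⟨AddSubgroup.zmultiples (ι Q), ?_, fun σ x hx => ?_⟩
  · rw [Nat.card_zmultiples, addOrderOf_injective ι hι, hQ]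
  · obtain ⟨k, rfl⟩ := AddSubgroup.mem_zmultiples_iff.1 hx
    have h1 : k • ι Q ∈ ι.range := ⟨k • Q, map_zsmul ι k Q⟩
    rw [(hran _).1 h1 σ]
    exact hx

theorem isSemistableModel_of_gcd {W : WeierstrassCurve ℤ} (h : Int.gcd W.Δ W.c₄ = 1) :
    W.IsSemistableModel := by
  intro p hp hΔ hc
  have h1 := Int.dvd_coe_gcd hΔ hc
  rw [h] at h1
  exact hp.one_lt.ne' (Nat.dvd_one.1 (by exact_mod_cast h1))

/-- `y ^ 2 - x y - 6 y = x ^ 3 - 6 x ^ 2` -/
theorem exists_order_six : ∃ P : (EWQ (-1) (-6) (-6) 0 0).toAffine.Point, addOrderOf P = 6 := by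
  have h : (EW (-1) (-6) (-6) 0 0).Δ ≠ 0 := by decide
  have n1 := EWQ_nonsingular h (x := 0) (y := 0) (by norm_num)
  have n2 := EWQ_nonsingular h (x := 6) (y := 12) (by norm_num)
  have n3 := EWQ_nonsingular h (x := 6) (y := 0) (by norm_num)
  have n1' := EWQ_nonsingular h (x := 0) (y := 6) (by norm_num)
  have d1 := two_nsmul_EW n1 n2 0 (by norm_num) (by norm_num) (by norm_num) (by norm_num)
  have d2 := two_nsmul_EW n2 n3 4 (by norm_num) (by norm_num) (by norm_num) (by norm_num)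
  have m2 := neg_EW n2 n3 (by norm_num)
  have m1 := neg_EW n1 n1' (by norm_num)
  refine ⟨Point.some _ _ n1, ?_⟩
  have h6 : 6 • (Point.some _ _ n1 : (EWQ (-1) (-6) (-6) 0 0).toAffine.Point) = 0 := by
    rw [show 6 = 2 * 2 + 2 from rfl, add_nsmul, mul_nsmul, d1, d2, ← m2, neg_add_cancel]
  have h2 : 2 • (Point.some _ _ n1 : (EWQ (-1) (-6) (-6) 0 0).toAffine.Point) ≠ 0 := by
    rw [d1]; exact Point.some_ne_zero n2
  have h3 : 3 • (Point.some _ _ n1 : (EWQ (-1) (-6) (-6) 0 0).toAffine.Point) ≠ 0 := by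
    rw [show 3 = 2 + 1 from rfl, add_nsmul, one_nsmul, d1]
    intro h0
    exact some_ne_some n2 n1' (by norm_num) ((eq_neg_of_add_eq_zero_left h0).trans m1)
  have hd := addOrderOf_dvd_of_nsmul_eq_zero h6
  have hmem : addOrderOf (Point.some _ _ n1 : (EWQ (-1) (-6) (-6) 0 0).toAffine.Point) ∈
      Nat.divisors 6 := Nat.mem_divisors.2 ⟨hd, by norm_num⟩
  rw [show Nat.divisors 6 = {1, 2, 3, 6} by decide] at hmem
  simp only [Finset.mem_insert, Finset.mem_singleton] at hmem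
  rcases hmem with h0 | h0 | h0 | h0
  · exact absurd (AddMonoid.addOrderOf_eq_one_iff.1 h0) (Point.some_ne_zero n1)
  · exact absurd (addOrderOf_dvd_iff_nsmul_eq_zero.1 (by rw [h0])) h2
  · exact absurd (addOrderOf_dvd_iff_nsmul_eq_zero.1 (by rw [h0])) h3
  · exact h0

/-- `y ^ 2 - x y - 4 y = x ^ 3 - 4 x ^ 2` -/
theorem exists_order_seven : ∃ P : (EWQ (-1) (-4) (-4) 0 0).toAffine.Point, addOrderOf P = 7 := by
  have h : (EW (-1) (-4) (-4) 0 0).Δ ≠ 0 := by decide
  have n1 := EWQ_nonsingular h (x := 0) (y := 0) (by norm_num)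
  have n2 := EWQ_nonsingular h (x := 4) (y := 8) (by norm_num)
  have n3 := EWQ_nonsingular h (x := 2) (y := 4) (by norm_num)
  have d1 := two_nsmul_EW n1 n2 0 (by norm_num) (by norm_num) (by norm_num) (by norm_num)
  have d2 := two_nsmul_EW n2 n3 3 (by norm_num) (by norm_num) (by norm_num) (by norm_num)
  have d3 := two_nsmul_EW n3 n1 0 (by norm_num) (by norm_num) (by norm_num) (by norm_num)
  have := Fact.mk Nat.prime_seven
  refine ⟨Point.some _ _ n1, addOrderOf_eq_prime (p := 7) ?_ (Point.some_ne_zero n1)⟩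
  have h8 : 8 • (Point.some _ _ n1 : (EWQ (-1) (-4) (-4) 0 0).toAffine.Point) =
      Point.some _ _ n1 := by
    rw [show 8 = 2 * 2 * 2 from rfl, mul_nsmul, mul_nsmul, d1, d2, d3]
  rw [show 8 = 7 + 1 from rfl, add_nsmul, one_nsmul] at h8
  exact left_eq_add.1 (by rw [add_comm]; exact h8.symm)

/-- `y ^ 2 - 5 x y - 24 y = x ^ 3 - 24 x ^ 2` -/
theorem exists_order_ten :
    ∃ P : (EWQ (-5) (-24) (-24) 0 0).toAffine.Point, addOrderOf P = 10 := by
  have h : (EW (-5) (-24) (-24) 0 0).Δ ≠ 0 := by decide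
  have n1 := EWQ_nonsingular h (x := 0) (y := 0) (by norm_num)
  have n2 := EWQ_nonsingular h (x := 24) (y := 144) (by norm_num)
  have n3 := EWQ_nonsingular h (x := 12) (y := 48) (by norm_num)
  have n4 := EWQ_nonsingular h (x := 24) (y := 0) (by norm_num)
  have n1' := EWQ_nonsingular h (x := 0) (y := 24) (by norm_num)
  have d1 := two_nsmul_EW n1 n2 0 (by norm_num) (by norm_num) (by norm_num) (by norm_num)
  have d2 := two_nsmul_EW n2 n3 9 (by norm_num) (by norm_num) (by norm_num) (by norm_num)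
  have d3 := two_nsmul_EW n3 n4 8 (by norm_num) (by norm_num) (by norm_num) (by norm_num)
  have m1 := neg_EW n1 n1' (by norm_num)
  have m2 := neg_EW n2 n4 (by norm_num)
  refine ⟨Point.some _ _ n1, ?_⟩
  have h10 : 10 • (Point.some _ _ n1 : (EWQ (-5) (-24) (-24) 0 0).toAffine.Point) = 0 := by
    rw [show 10 = 2 * 2 * 2 + 2 from rfl, add_nsmul, mul_nsmul, mul_nsmul, d1, d2, d3, ← m2,
      neg_add_cancel]
  have h2 : 2 • (Point.some _ _ n1 : (EWQ (-5) (-24) (-24) 0 0).toAffine.Point) ≠ 0 := by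
    rw [d1]; exact Point.some_ne_zero n2
  have h5 : 5 • (Point.some _ _ n1 : (EWQ (-5) (-24) (-24) 0 0).toAffine.Point) ≠ 0 := by
    rw [show 5 = 2 * 2 + 1 from rfl, add_nsmul, one_nsmul, mul_nsmul, d1, d2]
    intro h0
    exact some_ne_some n3 n1' (by norm_num) ((eq_neg_of_add_eq_zero_left h0).trans m1)
  have hd := addOrderOf_dvd_of_nsmul_eq_zero h10
  have hmem : addOrderOf (Point.some _ _ n1 : (EWQ (-5) (-24) (-24) 0 0).toAffine.Point) ∈
      Nat.divisors 10 := Nat.mem_divisors.2 ⟨hd, by norm_num⟩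
  rw [show Nat.divisors 10 = {1, 2, 5, 10} by decide] at hmem
  simp only [Finset.mem_insert, Finset.mem_singleton] at hmem
  rcases hmem with h0 | h0 | h0 | h0
  · exact absurd (AddMonoid.addOrderOf_eq_one_iff.1 h0) (Point.some_ne_zero n1)
  · exact absurd (addOrderOf_dvd_iff_nsmul_eq_zero.1 (by rw [h0])) h2
  · exact absurd (addOrderOf_dvd_iff_nsmul_eq_zero.1 (by rw [h0])) h5
  · exact h0

end Sqf

open Sqf in
/-- **The squarefree degrees `1, 2, 3, 5, 6, 7, 10` occur**: for each of them there is a semistable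
curve with a Galois stable subgroup of that order. -/
theorem exists_stable_of_mem {n : ℕ} (hn : n ∈ ({1, 2, 3, 5, 6, 7, 10} : Set ℕ)) :
    ∃ W : WeierstrassCurve ℤ, W.Δ ≠ 0 ∧ W.IsSemistableModel ∧
      ∃ L : AddSubgroup (Pts (W.map (Int.castRingHom ℚ))), Nat.card L = n ∧
        ∀ σ : Gam, ∀ x ∈ L, σ • x ∈ L := by
  have h6 : ∀ d, d ∣ 6 → ∃ W : WeierstrassCurve ℤ, W.Δ ≠ 0 ∧ W.IsSemistableModel ∧
      ∃ L : AddSubgroup (Pts (W.map (Int.castRingHom ℚ))), Nat.card L = d ∧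
        ∀ σ : Gam, ∀ x ∈ L, σ • x ∈ L := fun d hd => by
    obtain ⟨P, hP⟩ := exists_order_six
    exact ⟨EW (-1) (-6) (-6) 0 0, by decide, isSemistableModel_of_gcd (by decide),
      exists_stable_of_point hP (by norm_num) hd⟩
  have h7 : ∀ d, d ∣ 7 → ∃ W : WeierstrassCurve ℤ, W.Δ ≠ 0 ∧ W.IsSemistableModel ∧
      ∃ L : AddSubgroup (Pts (W.map (Int.castRingHom ℚ))), Nat.card L = d ∧
        ∀ σ : Gam, ∀ x ∈ L, σ • x ∈ L := fun d hd => by
    obtain ⟨P, hP⟩ := exists_order_seven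
    exact ⟨EW (-1) (-4) (-4) 0 0, by decide, isSemistableModel_of_gcd (by decide),
      exists_stable_of_point hP (by norm_num) hd⟩
  have h10 : ∀ d, d ∣ 10 → ∃ W : WeierstrassCurve ℤ, W.Δ ≠ 0 ∧ W.IsSemistableModel ∧
      ∃ L : AddSubgroup (Pts (W.map (Int.castRingHom ℚ))), Nat.card L = d ∧
        ∀ σ : Gam, ∀ x ∈ L, σ • x ∈ L := fun d hd => by
    obtain ⟨P, hP⟩ := exists_order_ten
    exact ⟨EW (-5) (-24) (-24) 0 0, by decide, isSemistableModel_of_gcd (by decide +kernel),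
      exists_stable_of_point hP (by norm_num) hd⟩
  simp only [Set.mem_insert_iff, Set.mem_singleton_iff] at hn
  rcases hn with rfl | rfl | rfl | rfl | rfl | rfl | rfl
  · exact h6 1 (by norm_num)
  · exact h6 2 (by norm_num)
  · exact h6 3 (by norm_num)
  · exact h10 5 (by norm_num)
  · exact h6 6 (by norm_num)
  · exact h7 7 (by norm_num)
  · exact h10 10 (by norm_num)

end Fermat.Agent.Cor.Isog
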