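import Fermat.Agent.Corollaries.Isog.Cyc
import Fermat.Agent.Corollaries.Isog.Loc
import Fermat.Agent.Corollaries.Mazur.FixFin
import Fermat.Agent.Corollaries.K1.Unram

/-!
# The Galois module `V_p(E)` is irreducible

`E` a semistable elliptic curve over `ℚ`, `p` an odd prime.  A cyclic subgroup of order `p ^ n` of
`E(ℚ̄)` which is stable under `Γ = Gal(ℚ̄/ℚ)` exists only for finitely many `n`
(`exists_bound_stable`); more precisely `p ^ ⌊n/2⌋` is at most the number of points of `p`-power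
order fixed by any element of `Γ` (`pow_le_card_Fix`).
-/

set_option autoImplicit false

noncomputable section

open WeierstrassCurve WeierstrassCurve.Affine WeierstrassCurve.Affine.Point
open Fermat.Agent.ECRed

namespace Fermat.Agent.Cor.Isog

open Fermat.Agent.Cor.K1 (Gam Pts isOpen_stabilizer_pt)
open Fermat.Agent.Cor.Mazur (Pt Fix card_Fix_le le_card_Fix)

variable {W : WeierstrassCurve ℤ}

/-- The action of an element of the Galois group. -/
abbrev act (W : WeierstrassCurve ℤ) (σ : Gam) : Pt W →+ Pt W :=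
  DistribSMul.toAddMonoidHom (Pt W) σ

/-- A subgroup of order `p` stable under Galois does not consist of all the points of order `p` of
the kernel of reduction. -/
def NotSS (W : WeierstrassCurve ℤ) (p : ℕ) : Prop :=
  ∀ B : ValuationSubring (AlgebraicClosure ℚ), B.LiesOverPrime p → ∀ L : AddSubgroup (Pt W),
    Nat.card L = p → (∀ σ : Gam, ∀ x ∈ L, σ • x ∈ L) →
    ∃ x : Pt W, p • x = 0 ∧ x ≠ 0 ∧ xc x ∈ B

theorem smul_mem_zmultiples {g : Pt W} (hst : ∀ σ : Gam, σ • g ∈ AddSubgroup.zmultiples g)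
    (σ : Gam) {x : Pt W} (hx : x ∈ AddSubgroup.zmultiples g) :
    σ • x ∈ AddSubgroup.zmultiples g := by
  obtain ⟨a, rfl⟩ := AddSubgroup.mem_zmultiples_iff.mp hx
  have h1 : σ • (a • g) = a • (σ • g) := map_zsmul (act W σ) a g
  rw [h1]
  exact AddSubgroup.zsmul_mem _ (hst σ) a

theorem smul_nsmul' (σ : Gam) (a : ℕ) (x : Pt W) : σ • (a • x) = a • (σ • x) :=
  map_nsmul (act W σ) a x

theorem smul_zsmul' (σ : Gam) (a : ℤ) (x : Pt W) : σ • (a • x) = a • (σ • x) :=
  map_zsmul (act W σ) a x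

theorem nsmul_smul_sub {a : ℕ} {x : Pt W} (hx : a • x = 0) (σ : Gam) : a • (σ • x - x) = 0 := by
  rw [nsmul_sub, ← smul_nsmul', hx]
  exact sub_eq_zero.mpr (smul_zero (A := Pt W) σ)

section

variable (hΔ : W.Δ ≠ 0) (hW : W.IsSemistableModel) {p : ℕ} (hp : p.Prime) (hp2 : p ≠ 2)
include hΔ hW hp hp2

/-- **First case**: the cyclic group does not meet the kernel of reduction at `p`. -/
theorem fixed_of_notMem {n : ℕ} {g : Pt W} (hg : addOrderOf g = p ^ n)
    (hst : ∀ σ : Gam, σ • g ∈ AddSubgroup.zmultiples g)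
    {B : ValuationSubring (AlgebraicClosure ℚ)} (hB : B.LiesOverPrime p)
    (hX : ∀ σ ∈ B.inertiaSubgroupIn ℚ, σ • g = g) {m : ℕ} (hm : n ≤ 2 * m + 1) (σ : Gam) :
    σ • (p ^ m • g) = p ^ m • g := by
  have hgn : p ^ n • g = 0 := by rw [← hg]; exact addOrderOf_nsmul_eq_zero g
  have h := smul_pow_sub_mem (A := Pt W) (n := n) (m := m) hp ⊥
    (fun σ x hx => by
      rw [AddSubgroup.mem_bot] at hx ⊢
      rw [hx]
      exact smul_zero (A := Pt W) σ) (y := g)
    (by rw [AddSubgroup.mem_bot]; exact hgn)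
    (fun k hk => by
      rw [AddSubgroup.mem_bot, ← addOrderOf_dvd_iff_zsmul_eq_zero, hg] at hk
      exact_mod_cast hk)
    (fun σ => by
      obtain ⟨a, ha⟩ := AddSubgroup.mem_zmultiples_iff.mp (hst σ)
      exact ⟨a, by rw [AddSubgroup.mem_bot]; exact sub_eq_zero.mpr ha.symm⟩)
    (isOpen_stabilizer_pt g)
    (fun ℓ hℓ hne C hC τ hτ => by
      rw [AddSubgroup.mem_bot]
      exact sub_eq_zero.mpr (smul_smul_sub hΔ hW hp hp2 hℓ hne hC hτ hgn))
    hB (fun τ hτ => by rw [AddSubgroup.mem_bot]; exact sub_eq_zero.mpr (hX τ hτ)) hm σ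
  exact sub_eq_zero.mp (AddSubgroup.mem_bot.mp h)

omit hW hp2 in
/-- Points killed by `p ^ n` in the kernel of reduction, in the second case. -/
theorem mem_zmultiples_of_mem_kerR (hNS : NotSS W p) {n : ℕ} (hn : n ≠ 0) {g : Pt W}
    (hg : addOrderOf g = p ^ n) (hst : ∀ σ : Gam, σ • g ∈ AddSubgroup.zmultiples g)
    {B : ValuationSubring (AlgebraicClosure ℚ)} (hB : B.LiesOverPrime p) (hgB : g ∈ kerR W B)
    {x : Pt W} (hx : p ^ n • x = 0) (hxB : x ∈ kerR W B) : x ∈ AddSubgroup.zmultiples g := by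
  have hF : Fact p.Prime := ⟨hp⟩
  by_contra hcon
  obtain ⟨y, hyB, hy, hyg⟩ := exists_of_notMem hp hg hgB hxB hx hcon
  -- the points of order `p`
  let S : AddSubgroup (Pt W) :=
    { carrier := {x | p • x = 0}
      zero_mem' := smul_zero _
      add_mem' := fun {a b} ha hb => by
        change p • (a + b) = 0
        rw [nsmul_add, show p • a = 0 from ha, show p • b = 0 from hb, add_zero]
      neg_mem' := fun {a} ha => by
        change p • (-a) = 0
        rw [neg_nsmul, show p • a = 0 from ha, _root_.neg_zero] }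
  have hS : Nat.card S = p ^ 2 := card_torsion hΔ hp.ne_zero
  have hfin : Finite S := Nat.finite_of_card_ne_zero (by rw [hS]; exact pow_ne_zero _ hp.ne_zero)
  set g₁ := p ^ (n - 1) • g with hg₁
  have hpg₁ : p • g₁ = 0 := by
    rw [hg₁, ← mul_smul, ← pow_succ', Nat.sub_add_cancel (by omega), ← hg]
    exact addOrderOf_nsmul_eq_zero g
  have hg₁0 : g₁ ≠ 0 := by
    intro h0
    have h1 := addOrderOf_dvd_of_nsmul_eq_zero h0
    rw [hg] at h1
    have h2 := (Nat.pow_dvd_pow_iff_le_right hp.one_lt).mp h1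
    omega
  have hord : addOrderOf g₁ = p := addOrderOf_eq_prime hpg₁ hg₁0
  have hst₁ : ∀ σ : Gam, σ • g₁ ∈ AddSubgroup.zmultiples g₁ := by
    intro σ
    obtain ⟨a, ha⟩ := AddSubgroup.mem_zmultiples_iff.mp (hst σ)
    rw [hg₁, smul_nsmul', ← ha, smul_comm]
    exact AddSubgroup.zsmul_mem _ (AddSubgroup.mem_zmultiples _) a
  let T : AddSubgroup (Pt W) := S ⊓ kerR W B
  have hTS : T ≤ S := inf_le_left
  have hTfin : Finite T := Finite.of_injective _ (AddSubgroup.inclusion_injective hTS)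
  have hg₁T : g₁ ∈ T := ⟨hpg₁, (kerR W B).nsmul_mem hgB _⟩
  have hyT : y ∈ T := ⟨hy, hyB⟩
  have hle : AddSubgroup.zmultiples g₁ ≤ T := by
    rw [AddSubgroup.zmultiples_le]
    exact hg₁T
  have hcard₁ : Nat.card (AddSubgroup.zmultiples g₁) = p := by rw [Nat.card_zmultiples, hord]
  have hlt : p < Nat.card T := by
    rw [← hcard₁]
    refine lt_of_le_of_ne (Nat.card_le_card_of_injective _
      (AddSubgroup.inclusion_injective hle)) fun heq => hyg ?_
    have h1 : AddSubgroup.zmultiples g₁ = T := AddSubgroup.eq_of_le_of_card_ge hle heq.ge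
    have h2 : y ∈ AddSubgroup.zmultiples g₁ := h1 ▸ hyT
    have h3 : AddSubgroup.zmultiples g₁ ≤ AddSubgroup.zmultiples g := by
      rw [AddSubgroup.zmultiples_le]
      exact AddSubgroup.nsmul_mem _ (AddSubgroup.mem_zmultiples g) _
    exact h3 h2
  have hdvd : Nat.card T ∣ p ^ 2 := hS ▸ AddSubgroup.card_dvd_of_le hTS
  have hcardT : Nat.card T = p ^ 2 := by
    obtain ⟨i, hi, hi'⟩ := (Nat.dvd_prime_pow hp).mp hdvd
    rw [hi'] at hlt ⊢
    have h1 : 1 < i := (Nat.pow_lt_pow_iff_right hp.one_lt).mp (by rwa [pow_one])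
    congr 1
    omega
  have hTS' : T = S := AddSubgroup.eq_of_le_of_card_ge hTS (by rw [hS, hcardT])
  obtain ⟨z, hz, hz0, hzB⟩ := hNS B hB (AddSubgroup.zmultiples g₁) hcard₁
    fun σ x hx => smul_mem_zmultiples hst₁ σ hx
  have h1 : z ∈ T := by
    rw [hTS']
    exact hz
  rcases mem_kerR.mp h1.2 with h2 | h2
  · exact hz0 h2
  · rw [← B.valuation_le_one_iff] at hzB
    exact absurd h2 (not_lt.mpr hzB)

/-- **Second case**: the cyclic group `⟨g⟩` is the group of points killed by `p ^ n` in the kernel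
of reduction at `p`.  There is a point `h` which generates `E[p ^ n]` modulo `⟨g⟩`, and `Γ` fixes
`p ^ m h` modulo `⟨g⟩`, `n ≤ 2 m + 1`. -/
theorem exists_fixed_mod (hNS : NotSS W p) {n : ℕ} (hn : n ≠ 0) {g : Pt W}
    (hg : addOrderOf g = p ^ n) (hst : ∀ σ : Gam, σ • g ∈ AddSubgroup.zmultiples g)
    {B : ValuationSubring (AlgebraicClosure ℚ)} (hB : B.LiesOverPrime p) (hgB : g ∈ kerR W B)
    {m : ℕ} (hm : n ≤ 2 * m + 1) :
    ∃ h : Pt W, p ^ n • h = 0 ∧ (∀ k : ℤ, k • h ∈ AddSubgroup.zmultiples g → (p : ℤ) ^ n ∣ k) ∧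
      ∀ σ : Gam, σ • (p ^ m • h) - p ^ m • h ∈ AddSubgroup.zmultiples g := by
  have hF : Fact p.Prime := ⟨hp⟩
  have hgn : p ^ n • g = 0 := by rw [← hg]; exact addOrderOf_nsmul_eq_zero g
  have hpn : p ^ n ≠ 0 := pow_ne_zero _ hp.ne_zero
  set L := AddSubgroup.zmultiples g with hL
  have hLst : ∀ σ : Gam, ∀ x ∈ L, σ • x ∈ L := fun σ x hx => smul_mem_zmultiples hst σ hx
  have hLB : L ≤ kerR W B := by
    rw [hL, AddSubgroup.zmultiples_le]
    exact hgB
  have hcardL : Nat.card L = p ^ n := by rw [hL, Nat.card_zmultiples, hg]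
  -- a point of order `p` outside the kernel of reduction
  obtain ⟨t, hpt, ht0, htB⟩ : ∃ t : Pt W, p • t = 0 ∧ t ≠ 0 ∧ t ∉ kerR W B := by
    have hg₁ : addOrderOf (p ^ (n - 1) • g) = p := by
      refine addOrderOf_eq_prime ?_ fun h0 => ?_
      · rw [← mul_smul, ← pow_succ', Nat.sub_add_cancel (by omega)]
        exact hgn
      · have h1 := addOrderOf_dvd_of_nsmul_eq_zero h0
        rw [hg] at h1
        have h2 := (Nat.pow_dvd_pow_iff_le_right hp.one_lt).mp h1
        omega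
    obtain ⟨z, hz, hz0, hzB⟩ := hNS B hB (AddSubgroup.zmultiples (p ^ (n - 1) • g))
      (by rw [Nat.card_zmultiples, hg₁]) (fun σ x hx => smul_mem_zmultiples (fun τ => by
        obtain ⟨a, ha⟩ := AddSubgroup.mem_zmultiples_iff.mp (hst τ)
        rw [smul_nsmul', ← ha, smul_comm]
        exact AddSubgroup.zsmul_mem _ (AddSubgroup.mem_zmultiples _) a) σ hx)
    refine ⟨z, hz, hz0, fun hzk => ?_⟩
    rcases mem_kerR.mp hzk with h2 | h2
    · exact hz0 h2
    · rw [← B.valuation_le_one_iff] at hzB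
      exact absurd h2 (not_lt.mpr hzB)
  obtain ⟨h, hh⟩ := exists_nsmul_eq hΔ (pow_ne_zero (n - 1) hp.ne_zero) t
  have hhn : p ^ n • h = 0 := by
    have h1 : p ^ n = p * p ^ (n - 1) := by
      rw [← pow_succ', Nat.sub_add_cancel (by omega)]
    rw [h1, mul_smul, hh, hpt]
  have hord : ∀ k : ℤ, k • h ∈ L → (p : ℤ) ^ n ∣ k := by
    intro k hk
    refine dvd_of_zsmul_mem hp (L := L) (by rw [hhn]; exact L.zero_mem) ?_ hk
    rw [hh]
    exact fun h1 => htB (hLB h1)
  have hordh : addOrderOf h = p ^ n := by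
    apply Nat.dvd_antisymm (addOrderOf_dvd_of_nsmul_eq_zero hhn)
    have h1 := hord (addOrderOf h) (by
      rw [natCast_zsmul, addOrderOf_nsmul_eq_zero]
      exact L.zero_mem)
    exact_mod_cast h1
  -- `E[p ^ n] = L + ⟨h⟩`
  have hfinS : Finite {x : Pt W // p ^ n • x = 0} := by
    apply Nat.finite_of_card_ne_zero
    rw [card_torsion hΔ hpn]
    exact pow_ne_zero _ hpn
  have hLn : ∀ x ∈ L, p ^ n • x = 0 := by
    intro x hx
    obtain ⟨a, rfl⟩ := AddSubgroup.mem_zmultiples_iff.mp hx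
    rw [smul_comm, hgn, zsmul_zero]
  have hfinL : Finite L := Nat.finite_of_card_ne_zero (by rw [hcardL]; exact hpn)
  have hfinH : Finite (AddSubgroup.zmultiples h) :=
    Nat.finite_of_card_ne_zero (by rw [Nat.card_zmultiples, hordh]; exact hpn)
  let Φ : L × AddSubgroup.zmultiples h → {x : Pt W // p ^ n • x = 0} := fun u =>
    ⟨u.1 + u.2, by
      obtain ⟨a, ha⟩ := AddSubgroup.mem_zmultiples_iff.mp u.2.2
      rw [nsmul_add, hLn _ u.1.2, ← ha, smul_comm, hhn, zsmul_zero, zero_add]⟩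
  have hinj : Function.Injective Φ := by
    rintro ⟨⟨l, hl⟩, ⟨u, hu⟩⟩ ⟨⟨l', hl'⟩, ⟨u', hu'⟩⟩ heq
    have h1 : l + u = l' + u' := congrArg Subtype.val heq
    obtain ⟨a, ha⟩ := AddSubgroup.mem_zmultiples_iff.mp (AddSubgroup.sub_mem _ hu hu')
    have h2 : u - u' = l' - l := by
      rw [sub_eq_sub_iff_add_eq_add, add_comm u l, h1]
    have h3 : a • h ∈ L := by
      rw [ha, h2]
      exact L.sub_mem hl' hl
    have h4 : u - u' = 0 := by
      obtain ⟨c, hc⟩ := hord a h3
      rw [← ha, hc, mul_comm, mul_smul, ← Nat.cast_pow, natCast_zsmul, hhn, zsmul_zero]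
    have h5 : u = u' := sub_eq_zero.mp h4
    have h6 : l = l' := by
      rw [h5] at h1
      exact add_right_cancel h1
    subst h5 h6
    rfl
  have hsurj : Function.Surjective Φ := by
    have h1 : Nat.card (L × AddSubgroup.zmultiples h) = Nat.card {x : Pt W // p ^ n • x = 0} := by
      rw [Nat.card_prod, hcardL, Nat.card_zmultiples, hordh, card_torsion hΔ hpn, sq]
    exact ((Nat.bijective_iff_injective_and_card Φ).mpr ⟨hinj, h1⟩).2
  refine ⟨h, hhn, hord, fun σ => ?_⟩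
  refine smul_pow_sub_mem (A := Pt W) (n := n) (m := m) hp L hLst (y := h)
    (by rw [hhn]; exact L.zero_mem) hord (fun τ => ?_) (isOpen_stabilizer_pt h)
    (fun ℓ hℓ hne C hC τ hτ => ?_) hB (fun τ hτ => ?_) hm σ
  · have h1 : p ^ n • (τ • h) = 0 := by
      rw [← smul_nsmul', hhn]
      exact smul_zero (A := Pt W) τ
    obtain ⟨⟨l, u⟩, hlu⟩ := hsurj ⟨τ • h, h1⟩
    have h2 : (l : Pt W) + u = τ • h := congrArg Subtype.val hlu
    obtain ⟨a, ha⟩ := AddSubgroup.mem_zmultiples_iff.mp u.2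
    refine ⟨a, ?_⟩
    rw [← h2, ha, add_sub_cancel_right]
    exact l.2
  · rw [smul_smul_sub hΔ hW hp hp2 hℓ hne hC hτ hhn, sub_self]
    exact L.zero_mem
  · exact mem_zmultiples_of_mem_kerR hΔ hp hNS hn hg hst hB hgB (nsmul_smul_sub hhn τ)
      (smul_sub_mem_kerR hΔ hW hp hp2 hB hτ hhn)

/-- **A stable cyclic subgroup of order `p ^ n` gives at least `p ^ ⌈n/2⌉` points of `p`-power
order fixed by a given element of `Γ`.** -/
theorem pow_le_card_Fix_of (hNS : NotSS W p) {F : Gam} (hF : Finite (Fix p (act W F))) {n : ℕ}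
    {g : Pt W} (hg : addOrderOf g = p ^ n) (hst : ∀ σ : Gam, σ • g ∈ AddSubgroup.zmultiples g)
    {m : ℕ} (hmn : m ≤ n) (hm : n ≤ 2 * m + 1) :
    p ^ (n - m) ≤ Nat.card (Fix p (act W F)) := by
  have hFp : Fact p.Prime := ⟨hp⟩
  have hgn : p ^ n • g = 0 := by rw [← hg]; exact addOrderOf_nsmul_eq_zero g
  by_cases hn : n = 0
  · subst hn
    rw [Nat.zero_sub]
    exact le_card_Fix (act W F) hF (a := 0) (_root_.map_zero _) (by rw [addOrderOf_zero, pow_zero])
  obtain ⟨B, hB⟩ : ∃ B : ValuationSubring (AlgebraicClosure ℚ), B.LiesOverPrime p :=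
    ⟨_, CFT.Bridge.padicPlace_liesOverPrime p⟩
  set L := AddSubgroup.zmultiples g with hL
  -- the order of the multiples
  have hmul : ∀ {A : Type} [AddCommGroup A] {a : A}, addOrderOf a = p ^ n →
      addOrderOf (p ^ m • a) = p ^ (n - m) := by
    intro A _ a ha
    rw [addOrderOf_nsmul_of_dvd (pow_ne_zero _ hp.ne_zero) (by rw [ha]; exact pow_dvd_pow _ hmn),
      ha, Nat.pow_div hmn hp.pos]
  by_cases hcase : ∀ σ ∈ B.inertiaSubgroupIn ℚ, σ • g = g
  · have h1 := fixed_of_notMem hΔ hW hp hp2 hg hst hB hcase hm F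
    exact le_card_Fix (act W F) hF (a := p ^ m • g) h1 (hmul hg)
  · push Not at hcase
    obtain ⟨τ, hτ, hτg⟩ := hcase
    set g₁ := p ^ (n - 1) • g with hg₁
    have hpg₁ : p • g₁ = 0 := by
      rw [hg₁, ← mul_smul, ← pow_succ', Nat.sub_add_cancel (by omega)]
      exact hgn
    have hg₁0 : g₁ ≠ 0 := by
      intro h0
      have h1 := addOrderOf_dvd_of_nsmul_eq_zero h0
      rw [hg] at h1
      have h2 := (Nat.pow_dvd_pow_iff_le_right hp.one_lt).mp h1
      omega
    have hord₁ : addOrderOf g₁ = p ^ 1 := by rw [pow_one]; exact addOrderOf_eq_prime hpg₁ hg₁0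
    have hst₁ : ∀ σ : Gam, σ • g₁ ∈ AddSubgroup.zmultiples g₁ := by
      intro σ
      obtain ⟨a, ha⟩ := AddSubgroup.mem_zmultiples_iff.mp (hst σ)
      rw [hg₁, smul_nsmul', ← ha, smul_comm]
      exact AddSubgroup.zsmul_mem _ (AddSubgroup.mem_zmultiples _) a
    -- `g₁` is in the kernel of reduction
    have hg₁B : g₁ ∈ kerR W B := by
      refine pow_smul_mem_of_mem hp hg (x := τ • g - g) ?_ (sub_ne_zero.mpr hτg)
        (smul_sub_mem_kerR hΔ hW hp hp2 hB hτ hgn)
      exact AddSubgroup.sub_mem _ (hst τ) (AddSubgroup.mem_zmultiples g)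
    -- some element of inertia moves `g₁`
    obtain ⟨ρ, hρ, hρg⟩ : ∃ ρ ∈ B.inertiaSubgroupIn ℚ, ρ • g₁ ≠ g₁ := by
      by_contra hcon
      push Not at hcon
      refine hg₁0 (eq_zero_of_mem_kerR hp hp2 hB (fun σ => ?_) hpg₁ hg₁B)
      have h1 := fixed_of_notMem hΔ hW hp hp2 hord₁ hst₁ hB hcon (m := 0) (by omega) σ
      rwa [pow_zero, one_smul] at h1
    -- so `g` is in the kernel of reduction
    have hgB : g ∈ kerR W B := by
      obtain ⟨a, ha⟩ := AddSubgroup.mem_zmultiples_iff.mp (hst ρ)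
      have h1 : (a - 1) • g = ρ • g - g := by rw [sub_smul, one_smul, ha]
      refine mem_of_zsmul_mem hp hgn (c := a - 1) (fun hd => hρg ?_) (by
        rw [h1]
        exact smul_sub_mem_kerR hΔ hW hp hp2 hB hρ hgn)
      obtain ⟨c, hc⟩ := hd
      rw [← sub_eq_zero, hg₁, smul_nsmul', ← nsmul_sub, ← h1, hc, mul_comm, mul_smul,
        smul_comm (p ^ (n - 1)) c, natCast_zsmul, smul_comm (p ^ (n - 1)) p g, ← hg₁, hpg₁,
        zsmul_zero]
    obtain ⟨h, hhn, hord, hfix⟩ :=
      exists_fixed_mod hΔ hW hp hp2 hNS hn hg hst hB hgB hm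
    have hcardL : Nat.card L = p ^ n := by rw [hL, Nat.card_zmultiples, hg]
    have hfinL : Finite L :=
      Nat.finite_of_card_ne_zero (by rw [hcardL]; exact pow_ne_zero _ hp.ne_zero)
    have hle : L ≤ L.comap (act W F) := fun x hx => smul_mem_zmultiples hst F hx
    obtain ⟨hfin', hcard'⟩ := card_Fix_le (p := p) (QuotientAddGroup.mk' L)
      (QuotientAddGroup.mk'_surjective L)
      (by rw [QuotientAddGroup.ker_mk']; exact hfinL)
      ⟨n, fun a ha => by
        rw [QuotientAddGroup.ker_mk'] at ha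
        obtain ⟨b, rfl⟩ := AddSubgroup.mem_zmultiples_iff.mp ha
        rw [smul_comm, hgn, zsmul_zero]⟩
      (act W F) (QuotientAddGroup.map L L (act W F) hle) (fun a => rfl) hF
    refine le_trans ?_ hcard'
    refine le_card_Fix _ hfin' (a := QuotientAddGroup.mk' L (p ^ m • h)) ?_ ?_
    · change QuotientAddGroup.mk' L (F • (p ^ m • h)) = QuotientAddGroup.mk' L (p ^ m • h)
      rw [← sub_eq_zero, ← map_sub]
      exact (QuotientAddGroup.eq_zero_iff _).mpr (hfix F)
    · rw [map_nsmul]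
      refine hmul ?_
      apply Nat.dvd_antisymm
      · apply addOrderOf_dvd_of_nsmul_eq_zero
        rw [← map_nsmul, hhn, _root_.map_zero]
      · have h1 := hord (addOrderOf (QuotientAddGroup.mk' L h)) (by
          rw [← QuotientAddGroup.eq_zero_iff]
          change QuotientAddGroup.mk' L _ = 0
          rw [map_zsmul, natCast_zsmul, addOrderOf_nsmul_eq_zero])
        exact_mod_cast h1

/-- **`V_p(E)` is irreducible**: the orders of the stable cyclic subgroups of `p`-power order are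
bounded. -/
theorem exists_bound_stable_of (hNS : NotSS W p) : ∃ N : ℕ, ∀ (n : ℕ) (g : Pt W),
    addOrderOf g = p ^ n → (∀ σ : Gam, σ • g ∈ AddSubgroup.zmultiples g) → n ≤ N := by
  obtain ⟨F, hF⟩ := Fermat.Agent.Cor.Mazur.exists_finite_Fix hΔ hp
  refine ⟨2 * Nat.card (Fix p (act W F)), fun n g hg hst => ?_⟩
  have h1 := pow_le_card_Fix_of hΔ hW hp hp2 hNS hF hg hst (m := n / 2) (by omega) (by omega)
  have h2 : n - n / 2 < p ^ (n - n / 2) := Nat.lt_pow_self hp.one_lt
  omega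

end

end Fermat.Agent.Cor.Isog
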