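import Fermat.Agent.Corollaries.Isog.Loc
import Fermat.Agent.Corollaries.Surj.Inertia

/-!
# A point of order four in the kernel of reduction at `2` is moved by inertia

If `x(g)`, `y(g)` were fixed by inertia, their `2`-adic values would be integers and
`v(x(g)) ≤ -2`; then `v(x(2 g)) ≤ -4`, but `x(2 g)` is a root of `4 x³ + b₂ x² + 2 b₄ x + b₆`.
-/

set_option autoImplicit false

noncomputable section

open WeierstrassCurve WeierstrassCurve.Affine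
open Fermat.Agent.ECRed FermatAgent.ECVal
open scoped WeierstrassCurve.Affine

namespace Fermat.Agent.Cor.Isog

open Fermat.Agent.Cor.K1 (Gam Pts)
open Fermat.Agent.Cor.Mazur (Pt)

section val

variable {K : Type*} [Field K] {w : QVal K}

/-- The value of the abscissa and of the ordinate of a point in the kernel of reduction. -/
theorem two_mul_eq {a₁ a₂ a₃ a₄ a₆ x y : K} (h1 : w.Ge 0 a₁) (h2 : w.Ge 0 a₂) (h3 : w.Ge 0 a₃)
    (h4 : w.Ge 0 a₄) (h6 : w.Ge 0 a₆)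
    (heq : y ^ 2 + (a₁ * x + a₃) * y = x ^ 3 + a₂ * x ^ 2 + a₄ * x + a₆) {c : ℚ} (hc : c < 0)
    (hx : w.Is c x) : y ≠ 0 ∧ 2 * w.val y = 3 * c := by
  have hR : w.Is (3 * c) (x ^ 3 + a₂ * x ^ 2 + a₄ * x + a₆) := by
    have e3 : w.Is (3 * c) (x ^ 3) := (hx.pow 3).congr (by norm_num)
    have e2 : w.Gt (3 * c) (a₂ * x ^ 2) := (h2.mul hx.sq.ge).gt (by linarith)
    have e1 : w.Gt (3 * c) (a₄ * x) := (h4.mul hx.ge).gt (by linarith)
    have e0 : w.Gt (3 * c) a₆ := h6.gt (by linarith)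
    exact ((e3.add_gt e2).add_gt e1).add_gt e0
  have hl : w.Ge c (a₁ * x + a₃) :=
    ((h1.mul hx.ge).mono (by linarith)).add (h3.mono hc.le)
  have hy0 : y ≠ 0 := by
    rintro rfl
    apply hR.1
    rw [← heq]
    ring
  refine ⟨hy0, ?_⟩
  have hy : w.Is (w.val y) y := QVal.Is.of_ne hy0
  rcases lt_or_ge (w.val y) c with h | h
  · have hL : w.Is (2 * w.val y) (y ^ 2 + (a₁ * x + a₃) * y) :=
      hy.sq.add_gt ((hl.mul hy.ge).gt (by linarith))
    rw [heq] at hL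
    exact hL.unique hR
  · exfalso
    have hL : w.Ge (2 * c) (y ^ 2 + (a₁ * x + a₃) * y) :=
      (hy.sq.ge.mono (by linarith)).add ((hl.mul hy.ge).mono (by linarith))
    rw [heq] at hL
    have := hR.le_of_ge hL
    linarith

/-- The duplication formula in the kernel of reduction at `2`. -/
theorem val_double_le {b₂ b₄ b₆ b₈ x X : K} (h2 : w.Ge 0 b₂) (h4 : w.Ge 0 b₄) (h6 : w.Ge 0 b₆)
    (h8 : w.Ge 0 b₈) (htwo : w.Is 1 (2 : K))
    (heq : X * (4 * x ^ 3 + b₂ * x ^ 2 + 2 * b₄ * x + b₆) = x ^ 4 - b₄ * x ^ 2 - 2 * b₆ * x - b₈)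
    {c : ℚ} (hc : c ≤ -2) (hx : w.Is c x) : X ≠ 0 ∧ w.val X ≤ c - 2 := by
  have hfour : w.Is 2 (4 : K) := by
    have h := (htwo.mul htwo).congr (show (1 : ℚ) + 1 = 2 by norm_num)
    rwa [show (2 : K) * 2 = 4 by norm_num] at h
  have hD : w.Ge (2 + 3 * c) (4 * x ^ 3 + b₂ * x ^ 2 + 2 * b₄ * x + b₆) := by
    have e3 : w.Ge (2 + 3 * c) (4 * x ^ 3) :=
      (hfour.mul (hx.pow 3)).ge.mono (by push_cast; linarith)
    have e2 : w.Ge (2 + 3 * c) (b₂ * x ^ 2) := (h2.mul hx.sq.ge).mono (by linarith)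
    have e1 : w.Ge (2 + 3 * c) (2 * b₄ * x) :=
      ((htwo.ge.mul h4).mul hx.ge).mono (by linarith)
    have e0 : w.Ge (2 + 3 * c) b₆ := h6.mono (by linarith)
    exact ((e3.add e2).add e1).add e0
  have hN : w.Is (4 * c) (x ^ 4 - b₄ * x ^ 2 - 2 * b₆ * x - b₈) := by
    have e4 : w.Is (4 * c) (x ^ 4) := (hx.pow 4).congr (by norm_num)
    have e2 : w.Gt (4 * c) (b₄ * x ^ 2) := (h4.mul hx.sq.ge).gt (by linarith)
    have e1 : w.Gt (4 * c) (2 * b₆ * x) := ((htwo.ge.mul h6).mul hx.ge).gt (by linarith)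
    have e0 : w.Gt (4 * c) b₈ := h8.gt (by linarith)
    exact ((e4.sub_gt e2).sub_gt e1).sub_gt e0
  rw [← heq] at hN
  have hX0 : X ≠ 0 := left_ne_zero_of_mul hN.1
  have hD0 : 4 * x ^ 3 + b₂ * x ^ 2 + 2 * b₄ * x + b₆ ≠ 0 := right_ne_zero_of_mul hN.1
  refine ⟨hX0, ?_⟩
  have h1 := hD.resolve_left hD0
  have h3 := ((QVal.Is.of_ne (w := w) hX0).mul (QVal.Is.of_ne hD0)).unique hN
  linarith

/-- A root of `4 x³ + b₂ x² + 2 b₄ x + b₆` has value at least `-2` (`v (2) = 1`). -/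
theorem neg_two_le_val {b₂ b₄ b₆ X : K} (h2 : w.Ge 0 b₂) (h4 : w.Ge 0 b₄) (h6 : w.Ge 0 b₆)
    (htwo : w.Is 1 (2 : K)) (heq : 4 * X ^ 3 + b₂ * X ^ 2 + 2 * b₄ * X + b₆ = 0) (hX0 : X ≠ 0) :
    -2 ≤ w.val X := by
  by_contra hcon
  rw [not_le] at hcon
  set k := w.val X with hk
  have hX : w.Is k X := ⟨hX0, rfl⟩
  have hfour : w.Is 2 (4 : K) := by
    have h := (htwo.mul htwo).congr (show (1 : ℚ) + 1 = 2 by norm_num)
    rwa [show (2 : K) * 2 = 4 by norm_num] at h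
  have e3 : w.Is (2 + 3 * k) (4 * X ^ 3) := (hfour.mul (hX.pow 3)).congr (by push_cast; ring)
  have e2 : w.Gt (2 + 3 * k) (b₂ * X ^ 2) := (h2.mul hX.sq.ge).gt (by linarith)
  have e1 : w.Gt (2 + 3 * k) (2 * b₄ * X) := ((htwo.ge.mul h4).mul hX.ge).gt (by linarith)
  have e0 : w.Gt (2 + 3 * k) b₆ := h6.gt (by linarith)
  exact (((e3.add_gt e2).add_gt e1).add_gt e0).1 heq

end val

variable {W : WeierstrassCurve ℤ}

/-- **A point of order four in the kernel of reduction at `2` is moved by inertia.** -/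
theorem exists_inertia_ne_four {B : ValuationSubring (AlgebraicClosure ℚ)}
    (hB : B.LiesOverPrime 2) {g : Pt W} (hg : addOrderOf g = 4) (hgB : g ∈ kerR W B) :
    ∃ σ ∈ B.inertiaSubgroupIn ℚ, σ • g ≠ g := by
  by_contra hcon
  push Not at hcon
  have hg0 : g ≠ 0 := by
    rintro rfl
    rw [addOrderOf_zero] at hg
    norm_num at hg
  have h2g : g + g ≠ 0 := by
    intro h
    have h1 : addOrderOf g ∣ 2 := addOrderOf_dvd_of_nsmul_eq_zero (by rw [two_nsmul]; exact h)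
    rw [hg] at h1
    norm_num at h1
  have h4g : (g + g) + (g + g) = 0 := by
    have h1 : (4 : ℕ) • g = 0 := by rw [← hg]; exact addOrderOf_nsmul_eq_zero g
    rw [← h1, show (4 : ℕ) = 2 + 2 from rfl, add_smul, two_nsmul]
  set w := valOf Nat.prime_two hB with hw
  have hval : 1 < B.valuation (xc g) := (mem_kerR.mp hgB).resolve_left hg0
  have hx0 : xc g ≠ 0 := by
    intro h
    rw [h, map_zero] at hval
    exact absurd hval (by simp)
  have hxB : ¬ w.Ge 0 (xc g) := by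
    rw [hw, valOf_ge_zero_iff, ← B.valuation_le_one_iff, not_le]
    exact hval
  have hxneg := (QVal.not_ge_iff.mp hxB).2
  have hfixx : ∀ σ ∈ B.inertiaSubgroupIn ℚ, σ (xc g) = xc g := fun σ hσ => by
    rw [← xc_smul, hcon σ hσ]
  have hfixy : ∀ σ ∈ B.inertiaSubgroupIn ℚ, σ (yc g) = yc g := fun σ hσ => by
    rw [← yc_smul, hcon σ hσ]
  obtain ⟨c, hc⟩ := Fermat.Agent.Cor.val_int_of_inertia_fixed Nat.prime_two hB hx0 hfixx
  have hc0 : (c : ℚ) < 0 := by rw [← hc.2]; exact hxneg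
  obtain ⟨hgn, eg⟩ := exists_eq_some hg0
  have heq := (equation_iff _ _).mp hgn.1
  have hga : ∀ {z : AlgebraicClosure ℚ} {a : ℤ}, z = ((a : ℤ) : AlgebraicClosure ℚ) →
      w.Ge 0 z := fun h => h ▸ QVal.ge_intCast _
  obtain ⟨hy0, hyc⟩ := two_mul_eq (w := w) (a₁ := (EQ W).a₁) (a₂ := (EQ W).a₂) (a₃ := (EQ W).a₃)
    (a₄ := (EQ W).a₄) (a₆ := (EQ W).a₆) (x := xc g) (y := yc g) (hga (EQ_a₁ W))
    (hga (EQ_a₂ W)) (hga (EQ_a₃ W)) (hga (EQ_a₄ W)) (hga (EQ_a₆ W)) (by linear_combination heq) hc0 hc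
  obtain ⟨m, hm⟩ := Fermat.Agent.Cor.val_int_of_inertia_fixed Nat.prime_two hB hy0 hfixy
  have hmc : 2 * m = 3 * c := by
    have h1 : (2 : ℚ) * m = 3 * c := by rw [← hyc, ← hm.2]
    exact_mod_cast h1
  have hc2 : (c : ℚ) ≤ -2 := by
    have h1 : c < 0 := by exact_mod_cast hc0
    have h2 : c ≤ -2 := by omega
    exact_mod_cast h2
  have htwo : w.Is 1 (2 : AlgebraicClosure ℚ) := by
    exact_mod_cast valOf_prime Nat.prime_two hB
  have hb2 : w.Ge 0 (EQ W).b₂ := by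
    rw [EQ_b₂]
    exact QVal.ge_intCast _
  have hb4 : w.Ge 0 (EQ W).b₄ := by
    rw [EQ_b₄]
    exact QVal.ge_intCast _
  have hb6 : w.Ge 0 (EQ W).b₆ := by
    rw [EQ_b₆]
    exact QVal.ge_intCast _
  have hb8 : w.Ge 0 (EQ W).b₈ := by
    rw [EQ_b₈]
    exact QVal.ge_intCast _
  obtain ⟨hX0, hX⟩ := val_double_le hb2 hb4 hb6 hb8 htwo (xc_double h2g) hc2 hc
  have h5 := neg_two_le_val hb2 hb4 hb6 htwo (psi_eq_zero h2g h4g) hX0
  linarith

end Fermat.Agent.Cor.Isog
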