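import Fermat.Agent.Corollaries.Surj.Serre

/-!
# Closed submonoids of `GL₂(ℤ_p)` containing two unipotents

`I` a submonoid of `M₂(ℤ_p)`, closed under congruences modulo all powers of `p`, containing
`1 + N` and `1 + N'` with `N² = N'² = 0` and `tr (N N') ≠ 0`. Then `I` contains all matrices of
determinant one which are sufficiently close to one (`mem_of_det_one`). If moreover the
determinants of the elements of `I` close to one fill a neighbourhood of one, then `I` contains all
matrices sufficiently close to one (`exists_forall_mem`).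
-/

set_option autoImplicit false

noncomputable section

open Matrix

namespace Fermat.Agent.Cor.Isog

section Ring

variable {R : Type*} [CommRing R] {N N' : Matrix (Fin 2) (Fin 2) R}

theorem mul_mul_self_of_det (hdet : N.det = 0) (B : Matrix (Fin 2) (Fin 2) R) :
    N * B * N = (N * B).trace • N := by
  rw [det_fin_two] at hdet
  ext i j
  simp only [mul_apply, Fin.sum_univ_two, trace_fin_two, Matrix.smul_apply, smul_eq_mul]
  fin_cases i <;> fin_cases j <;> simp only [Fin.zero_eta, Fin.mk_one]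
  · linear_combination (-B 1 1) * hdet
  · linear_combination (B 0 1) * hdet
  · linear_combination (B 1 0) * hdet
  · linear_combination (-B 0 0) * hdet

theorem mul_add_mul_of_trace (htr : N.trace = 0) (htr' : N'.trace = 0) :
    N * N' + N' * N = (N * N').trace • (1 : Matrix (Fin 2) (Fin 2) R) := by
  rw [trace_fin_two] at htr htr'
  ext i j
  simp only [mul_apply, Fin.sum_univ_two, trace_fin_two, Matrix.smul_apply, smul_eq_mul,
    Matrix.add_apply]
  fin_cases i <;> fin_cases j
  · simp only [Fin.zero_eta, one_apply_eq]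
    linear_combination (N 0 0) * htr' - (N' 1 1) * htr
  · simp only [Fin.zero_eta, Fin.mk_one, ne_eq, zero_ne_one, not_false_eq_true, one_apply_ne]
    linear_combination (N' 0 1) * htr + (N 0 1) * htr'
  · simp only [Fin.zero_eta, Fin.mk_one, ne_eq, one_ne_zero, not_false_eq_true, one_apply_ne]
    linear_combination (N' 1 0) * htr + (N 1 0) * htr'
  · simp only [Fin.mk_one, one_apply_eq]
    linear_combination (N' 1 1) * htr - (N 0 0) * htr'

/-- The coordinates of a matrix with respect to `N, N', N N', N' N`. -/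
theorem sq_smul_eq (hdet : N.det = 0) (hdet' : N'.det = 0) (htr : N.trace = 0)
    (htr' : N'.trace = 0) (A : Matrix (Fin 2) (Fin 2) R) :
    ((N * N').trace * (N * N').trace) • A =
      ((N * N').trace * (N' * A).trace) • N + ((N * N').trace * (N * A).trace) • N' +
        (N * (N' * A)).trace • (N * N') + (N' * (N * A)).trace • (N' * N) := by
  set t := (N * N').trace with ht
  have h1 : N * N' + N' * N = t • (1 : Matrix (Fin 2) (Fin 2) R) := mul_add_mul_of_trace htr htr'
  have h2 : N * N' * N = t • N := mul_mul_self_of_det hdet N'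
  have h3 : N' * N * N' = t • N' := by
    rw [mul_mul_self_of_det hdet' N, trace_mul_comm N' N]
  have e1 : (N * N' + N' * N) * A * (N * N' + N' * N) = (t * t) • A := by
    rw [h1, smul_mul_assoc, one_mul, smul_mul_smul_comm, mul_one]
  have a1 : N * N' * A * (N * N') = (N * (N' * A)).trace • (N * N') := by
    have := mul_mul_self_of_det hdet (N' * A)
    calc N * N' * A * (N * N') = (N * (N' * A) * N) * N' := by simp only [mul_assoc]
      _ = (N * (N' * A)).trace • (N * N') := by rw [this, smul_mul_assoc]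
  have a2 : N' * N * A * (N' * N) = (N' * (N * A)).trace • (N' * N) := by
    have := mul_mul_self_of_det hdet' (N * A)
    calc N' * N * A * (N' * N) = (N' * (N * A) * N') * N := by simp only [mul_assoc]
      _ = (N' * (N * A)).trace • (N' * N) := by rw [this, smul_mul_assoc]
  have a3 : N * N' * A * (N' * N) = (t * (N' * A).trace) • N := by
    have := mul_mul_self_of_det hdet' A
    calc N * N' * A * (N' * N) = N * (N' * A * N') * N := by simp only [mul_assoc]
      _ = (t * (N' * A).trace) • N := by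
        rw [this, mul_smul_comm, smul_mul_assoc, h2, smul_smul, mul_comm]
  have a4 : N' * N * A * (N * N') = (t * (N * A).trace) • N' := by
    have := mul_mul_self_of_det hdet A
    calc N' * N * A * (N * N') = N' * (N * A * N) * N' := by simp only [mul_assoc]
      _ = (t * (N * A).trace) • N' := by
        rw [this, mul_smul_comm, smul_mul_assoc, h3, smul_smul, mul_comm]
  rw [← e1, add_mul, add_mul, mul_add, mul_add, a1, a2, a3, a4]
  abel

theorem det_one_add_eq (B : Matrix (Fin 2) (Fin 2) R) :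
    (1 + B).det = 1 + B.trace + B.det := by
  rw [det_fin_two, det_fin_two, trace_fin_two]
  simp only [Matrix.add_apply, one_apply_eq, ne_eq, zero_ne_one, not_false_eq_true, one_apply_ne,
    one_ne_zero, zero_add]
  ring

theorem det_add_eq (X Y : Matrix (Fin 2) (Fin 2) R) :
    (X + Y).det = X.det + Y.det + X.trace * Y.trace - (X * Y).trace := by
  simp only [det_fin_two, trace_fin_two, Matrix.add_apply, mul_apply, Fin.sum_univ_two]
  ring

/-- The determinant of `1 + α N + β N' + γ N N' + ε N' N`. -/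
theorem det_eq (hN' : N' * N' = 0) (hdet : N.det = 0) (hdet' : N'.det = 0)
    (htr : N.trace = 0) (htr' : N'.trace = 0) (α β γ ε : R) :
    (1 + α • N + β • N' + γ • (N * N') + ε • (N' * N)).det =
      (1 + γ * (N * N').trace) * (1 + ε * (N * N').trace) - α * β * (N * N').trace := by
  set t := (N * N').trace with ht
  have h2 : N * N' * N = t • N := mul_mul_self_of_det hdet N'
  have h3 : N' * N * N' = t • N' := by
    rw [mul_mul_self_of_det hdet' N, trace_mul_comm N' N]
  set X := α • N + γ • (N * N') with hX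
  set Y := β • N' + ε • (N' * N) with hY
  have e0 : 1 + α • N + β • N' + γ • (N * N') + ε • (N' * N) = 1 + (X + Y) := by
    rw [hX, hY]; abel
  have tX : X.trace = γ * t := by
    rw [hX, trace_add, trace_smul, trace_smul, htr, smul_zero, zero_add, smul_eq_mul]
  have tY : Y.trace = ε * t := by
    rw [hY, trace_add, trace_smul, trace_smul, htr', smul_zero, zero_add, smul_eq_mul,
      trace_mul_comm N' N]
  have dX : X.det = 0 := by
    have : X = N * (α • (1 : Matrix (Fin 2) (Fin 2) R) + γ • N') := by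
      rw [hX, mul_add, mul_smul_comm, mul_smul_comm, mul_one]
    rw [this, det_mul, hdet, zero_mul]
  have dY : Y.det = 0 := by
    have : Y = N' * (β • (1 : Matrix (Fin 2) (Fin 2) R) + ε • N) := by
      rw [hY, mul_add, mul_smul_comm, mul_smul_comm, mul_one]
    rw [this, det_mul, hdet', zero_mul]
  have tXY : (X * Y).trace = α * β * t := by
    have b1 : N * (N' * N) = t • N := by rw [← mul_assoc, h2]
    have b2 : N * N' * N' = 0 := by rw [mul_assoc, hN', mul_zero]
    have b3 : N * N' * (N' * N) = 0 := by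
      rw [← mul_assoc, b2, zero_mul]
    have : X * Y = (α * β) • (N * N') + (α * ε * t) • N := by
      rw [hX, hY, add_mul, mul_add, mul_add, smul_mul_smul_comm, smul_mul_smul_comm,
        smul_mul_smul_comm, smul_mul_smul_comm, b1, b2, b3, smul_zero, smul_zero, add_zero,
        add_zero, smul_smul]
    rw [this, trace_add, trace_smul, trace_smul, htr, smul_zero, add_zero, smul_eq_mul]
  rw [e0, det_one_add_eq, det_add_eq, trace_add, tX, tY, dX, dY, tXY]
  ring

/-- `D = 1 + γ N N' - γ μ N' N` as a product of four unipotents. -/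
theorem four_unip (hN : N * N = 0) (hN' : N' * N' = 0) (hdet : N.det = 0) (hdet' : N'.det = 0)
    {γ μ : R} (hμ : μ * (1 + γ * (N * N').trace) = 1) :
    (1 + (-μ) • N') * (1 + γ • N) * (1 + (1 : R) • N') * (1 + (-(γ * μ)) • N) =
      1 + γ • (N * N') + (-(γ * μ)) • (N' * N) := by
  set t := (N * N').trace with ht
  have h2 : N * N' * N = t • N := mul_mul_self_of_det hdet N'
  have h3 : N' * N * N' = t • N' := by
    rw [mul_mul_self_of_det hdet' N, trace_mul_comm N' N]
  have hμ' : μ + μ * γ * t = 1 := by linear_combination hμ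
  have e1 : (1 + γ • N) * (1 + (1 : R) • N') = 1 + γ • N + N' + γ • (N * N') := by
    rw [one_smul, add_mul, mul_add, one_mul, one_mul, smul_mul_assoc, mul_add, mul_one, smul_add]
    abel
  have e2 : (1 + (-μ) • N') * (1 + γ • N + N' + γ • (N * N')) =
      1 + γ • N + γ • (N * N') + (-(γ * μ)) • (N' * N) := by
    have c1 : N' * (N * N') = t • N' := by rw [← mul_assoc, h3]
    have c2 : (-μ) • N' * (1 + γ • N + N' + γ • (N * N')) =
        (-μ) • N' + (-(γ * μ)) • (N' * N) + (-(μ * γ * t)) • N' := by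
      rw [mul_add, mul_add, mul_add, mul_one, smul_mul_smul_comm, smul_mul_assoc, hN', smul_zero,
        smul_mul_smul_comm, c1, smul_smul, add_zero]
      congr 2
      · congr 1
        ring
      · ring
    rw [add_mul, one_mul, c2]
    have c3 : (-μ) • N' + (-(γ * μ)) • (N' * N) + (-(μ * γ * t)) • N' =
        (-(γ * μ)) • (N' * N) + (-(μ + μ * γ * t)) • N' := by
      rw [neg_add (μ), add_smul]
      abel
    rw [c3, hμ', neg_one_smul]
    abel
  have e3 : (1 + γ • N + γ • (N * N') + (-(γ * μ)) • (N' * N)) * (1 + (-(γ * μ)) • N) =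
      1 + γ • (N * N') + (-(γ * μ)) • (N' * N) := by
    have d1 : N' * N * N = 0 := by rw [mul_assoc, hN, mul_zero]
    rw [mul_add, mul_one, add_mul, add_mul, add_mul, one_mul, smul_mul_smul_comm, hN, smul_zero,
      smul_mul_smul_comm, h2, smul_mul_smul_comm, d1, smul_zero, smul_smul, add_zero, add_zero]
    have d2 : (-(γ * μ)) • N + (γ * -(γ * μ) * t) • N = (-γ) • N := by
      rw [← add_smul]
      congr 1
      linear_combination (-γ) * hμ'
    rw [d2]
    module
  rw [mul_assoc (1 + (-μ) • N'), e1, e2, e3]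

/-- `1 + α N + β N' + γ N N' + ε N' N` of determinant one as a product of unipotents. -/
theorem prod_unip (hN : N * N = 0) (hN' : N' * N' = 0) (hdet : N.det = 0) (hdet' : N'.det = 0)
    {α β γ ε μ : R} (hμ : μ * (1 + γ * (N * N').trace) = 1)
    (hε : ε * (1 + γ * (N * N').trace) = α * β - γ) :
    (1 + (β * μ) • N') * (1 + γ • (N * N') + (-(γ * μ)) • (N' * N)) * (1 + (α * μ) • N) =
      1 + α • N + β • N' + γ • (N * N') + ε • (N' * N) := by
  set t := (N * N').trace with ht
  have h2 : N * N' * N = t • N := mul_mul_self_of_det hdet N'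
  have h3 : N' * N * N' = t • N' := by
    rw [mul_mul_self_of_det hdet' N, trace_mul_comm N' N]
  have hε' : ε = α * β * μ - γ * μ := by
    linear_combination μ * hε - ε * hμ
  have e1 : (1 + (β * μ) • N') * (1 + γ • (N * N') + (-(γ * μ)) • (N' * N)) =
      1 + γ • (N * N') + (-(γ * μ)) • (N' * N) + β • N' := by
    have c1 : N' * (N * N') = t • N' := by rw [← mul_assoc, h3]
    have c2 : N' * (N' * N) = 0 := by rw [← mul_assoc, hN', zero_mul]
    rw [add_mul, one_mul, mul_add, mul_add, mul_one, smul_mul_smul_comm, c1, smul_mul_smul_comm, c2,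
      smul_zero, add_zero, smul_smul, ← add_smul]
    congr 2
    linear_combination β * hμ
  have e2 : (1 + γ • (N * N') + (-(γ * μ)) • (N' * N) + β • N') * (1 + (α * μ) • N) =
      1 + α • N + β • N' + γ • (N * N') + (α * β * μ - γ * μ) • (N' * N) := by
    have d1 : N' * N * N = 0 := by rw [mul_assoc, hN, mul_zero]
    rw [mul_add, mul_one, add_mul, add_mul, add_mul, one_mul, smul_mul_smul_comm, h2,
      smul_mul_smul_comm, d1, smul_zero, smul_mul_smul_comm, smul_smul, add_zero]
    have d2 : (α * μ) • N + (γ * (α * μ) * t) • N = α • N := by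
      rw [← add_smul]
      congr 1
      linear_combination α * hμ
    have d3 : (α * β * μ - γ * μ) • (N' * N) =
        (-(γ * μ)) • (N' * N) + (β * (α * μ)) • (N' * N) := by
      rw [← add_smul]
      congr 1
      ring
    rw [d3, d2]
    abel
  rw [e1, e2, hε']

end Ring

section Padic

open Serre (Cg cg_iff)

variable {p : ℕ} [hp : Fact p.Prime] {N N' : Matrix (Fin 2) (Fin 2) ℤ_[p]}
  {I : Submonoid (Matrix (Fin 2) (Fin 2) ℤ_[p])}

/-- Powers of a unipotent with exponents in `ℤ_p`. -/
theorem one_add_smul_mem (hI : ∀ g, (∀ n, ∃ h ∈ I, Cg p n h g) → g ∈ I) (hN : N * N = 0)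
    (h1 : 1 + N ∈ I) (z : ℤ_[p]) : 1 + z • N ∈ I := by
  refine hI _ fun n => ⟨(1 + N) ^ (z.appr n), pow_mem h1 _, ?_⟩
  have h2 : ∀ k : ℕ, (1 + N) ^ k = 1 + (k : ℤ_[p]) • N := by
    intro k
    induction k with
    | zero => rw [pow_zero, Nat.cast_zero, zero_smul, add_zero]
    | succ k ih =>
      rw [pow_succ, ih, mul_add, mul_one, add_mul, one_mul, smul_mul_assoc, hN, smul_zero,
        add_zero, Nat.cast_succ, add_smul, one_smul]
      abel
  obtain ⟨w, hw⟩ := Ideal.mem_span_singleton.mp (PadicInt.appr_spec n z)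
  rw [h2, cg_iff]
  intro i j
  refine ⟨-w * N i j, ?_⟩
  rw [Matrix.add_apply, Matrix.add_apply, Matrix.smul_apply, Matrix.smul_apply, smul_eq_mul,
    smul_eq_mul]
  linear_combination (-N i j) * hw

theorem cg_one_iff {n : ℕ} {g : Matrix (Fin 2) (Fin 2) ℤ_[p]} :
    Cg p n g 1 ↔ ∃ A : Matrix (Fin 2) (Fin 2) ℤ_[p], g = 1 + ((p : ℤ_[p]) ^ n) • A := by
  constructor
  · rintro ⟨A, hA⟩
    refine ⟨A, ?_⟩
    rw [sub_eq_iff_eq_add] at hA
    rw [hA, add_comm]
    congr 1
    ext i j
    rw [Serre.pow_mul_apply, Matrix.smul_apply, smul_eq_mul]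
  · rintro ⟨A, rfl⟩
    refine ⟨A, ?_⟩
    rw [add_sub_cancel_left]
    ext i j
    rw [Serre.pow_mul_apply, Matrix.smul_apply, smul_eq_mul]

theorem exists_pow_eq_mul {t : ℤ_[p]} (ht : t ≠ 0) :
    ∃ (c : ℕ) (s : ℤ_[p]), (p : ℤ_[p]) ^ c = t * s := by
  obtain ⟨u, n, h⟩ : ∃ (u : ℤ_[p]ˣ) (n : ℕ), t = (u : ℤ_[p]) * (p : ℤ_[p]) ^ n :=
    ⟨_, _, PadicInt.unitCoeff_spec ht⟩
  refine ⟨n, ((u⁻¹ : ℤ_[p]ˣ) : ℤ_[p]), ?_⟩
  rw [h, mul_comm (u : ℤ_[p]), mul_assoc, Units.mul_inv, mul_one]

/-- **Two unipotents generate a neighbourhood of one in `SL₂(ℤ_p)`** (as a closed submonoid). -/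
theorem mem_of_det_one (hI : ∀ g, (∀ n, ∃ h ∈ I, Cg p n h g) → g ∈ I) (hN : N * N = 0)
    (hN' : N' * N' = 0) (hdet : N.det = 0) (hdet' : N'.det = 0) (htr : N.trace = 0)
    (htr' : N'.trace = 0) (h1 : 1 + N ∈ I) (h1' : 1 + N' ∈ I) {c : ℕ} {s : ℤ_[p]}
    (hc : (p : ℤ_[p]) ^ c = (N * N').trace * s) {g : Matrix (Fin 2) (Fin 2) ℤ_[p]}
    (hg : Cg p (2 * c + 1) g 1) (hg1 : g.det = 1) : g ∈ I := by
  set t := (N * N').trace with ht
  have ht0 : t ≠ 0 := by
    rintro h
    rw [h, zero_mul] at hc
    exact pow_ne_zero c (by exact_mod_cast hp.out.ne_zero) hc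
  obtain ⟨A, hA⟩ := cg_one_iff.mp hg
  set B := (s * s * p) • A with hB
  have hB1 : (t * t) • B = ((p : ℤ_[p]) ^ (2 * c + 1)) • A := by
    rw [hB, smul_smul]
    congr 1
    rw [pow_succ, two_mul, pow_add, hc]
    ring
  have h3 := sq_smul_eq hdet hdet' htr htr' B
  rw [← ht, hB1] at h3
  set α := t * (N' * B).trace with hα
  set β := t * (N * B).trace with hβ
  set γ := (N * (N' * B)).trace with hγ
  set ε := (N' * (N * B)).trace with hε
  have hg2 : g = 1 + α • N + β • N' + γ • (N * N') + ε • (N' * N) := by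
    rw [hA, h3]
    abel
  have hpγ : (p : ℤ_[p]) ∣ γ := by
    refine ⟨s * s * (N * (N' * A)).trace, ?_⟩
    rw [hγ, hB, mul_smul_comm, mul_smul_comm, trace_smul, smul_eq_mul]
    ring
  have hunit : IsUnit (1 + γ * t) := Serre.isUnit_of_dvd_sub_one (by
    rw [add_sub_cancel_left]
    exact Dvd.dvd.mul_right hpγ t)
  obtain ⟨μ, hμ⟩ := hunit.exists_left_inv
  have hd := det_eq hN' hdet hdet' htr htr' α β γ ε
  rw [← hg2, hg1, ← ht] at hd
  have hε2 : ε * (1 + γ * t) = α * β - γ := by
    apply mul_left_cancel₀ ht0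
    linear_combination (-1 : ℤ_[p]) * hd
  rw [hg2, ← prod_unip hN hN' hdet hdet' hμ hε2, ← four_unip hN hN' hdet hdet' hμ]
  have U : ∀ z : ℤ_[p], 1 + z • N ∈ I := one_add_smul_mem hI hN h1
  have U' : ∀ z : ℤ_[p], 1 + z • N' ∈ I := one_add_smul_mem hI hN' h1'
  exact mul_mem (mul_mem (U' _) (mul_mem (mul_mem (mul_mem (U' _) (U _)) (U' _)) (U _))) (U _)

/-- **Open image.** A submonoid of `M₂(ℤ_p)`, closed under congruences modulo all powers of `p`,
containing `1 + N`, `1 + N'` with `N² = N'² = 0`, `tr (N N') ≠ 0`, and with enough determinants,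
contains all matrices sufficiently close to one. -/
theorem exists_forall_mem (hI : ∀ g, (∀ n, ∃ h ∈ I, Cg p n h g) → g ∈ I) (hN : N * N = 0)
    (hN' : N' * N' = 0) (hdet : N.det = 0) (hdet' : N'.det = 0) (htr : N.trace = 0)
    (htr' : N'.trace = 0) (h1 : 1 + N ∈ I) (h1' : 1 + N' ∈ I) (ht : (N * N').trace ≠ 0)
    (hd : ∀ m, ∃ n, ∀ d : ℤ_[p], (p : ℤ_[p]) ^ n ∣ d - 1 → ∃ h ∈ I, Cg p m h 1 ∧ h.det = d) :
    ∃ n, ∀ g, Cg p n g 1 → g ∈ I := by
  obtain ⟨c, s, hc⟩ := exists_pow_eq_mul ht
  obtain ⟨n, hn⟩ := hd (2 * c + 1)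
  refine ⟨max n (2 * c + 1), fun g hg => ?_⟩
  have hgd : (p : ℤ_[p]) ^ (max n (2 * c + 1)) ∣ g.det - 1 := by
    have := hg.det
    rwa [det_one] at this
  obtain ⟨h, hhI, hh1, hhd⟩ := hn g.det ((pow_dvd_pow _ (le_max_left _ _)).trans hgd)
  have hu : IsUnit h.det := by
    rw [hhd]
    refine Serre.isUnit_of_dvd_sub_one ((dvd_pow_self _ ?_).trans hgd)
    have := le_max_right n (2 * c + 1)
    omega
  have e1 : h * h⁻¹ = 1 := Matrix.mul_nonsing_inv h hu
  have e2 : h⁻¹ * h = 1 := Matrix.nonsing_inv_mul h hu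
  have h5 : Cg p (2 * c + 1) (h⁻¹ * g) 1 := by
    have h6 : Cg p (2 * c + 1) g h := (hg.mono (le_max_right _ _)).trans hh1.symm
    have h7 := h6.mul_left h⁻¹
    rwa [e2] at h7
  have h6 : (h⁻¹ * g).det = 1 := by
    have e3 : (h⁻¹).det * h.det = 1 := by rw [← det_mul, e2, det_one]
    rw [det_mul, ← hhd, e3]
  have h7 := mem_of_det_one hI hN hN' hdet hdet' htr htr' h1 h1' hc h5 h6
  have h8 : g = h * (h⁻¹ * g) := by rw [← mul_assoc, e1, one_mul]
  rw [h8]
  exact mul_mem hhI h7

end Padic

end Fermat.Agent.Cor.Isog
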