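import Fermat.Agent.Corollaries.Isog.Cyclic
import Fermat.Agent.Corollaries.Surj.Semi

/-!
# Uniform bounds for the torsion of semistable curves over number fields

`E` a semistable elliptic curve over `ℚ`, `n` an integer all of whose prime divisors are `11` or
`≥ 17` (equivalently `n` is prime to `2730 = 2 · 3 · 5 · 7 · 13`), so every automorphism of `E[n]`
comes from Galois. Then the conjugates of a point of order `n` are all points of order `n`
(`orbit_eq_of_surjMod`), and for every number field `K`, with constants which depend neither on `E`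
nor on `K`:

* `sq_addOrderOf_le_of_semistable`: `n² ≤ 2 [K : ℚ]` for `x ∈ E(K)` of order `n`;
* `sq_sub_one_le_of_semistable`: `p² - 1 ≤ [K : ℚ]` if `n = p` is prime;
* `order_le_of_stable_of_semistable`: `n ≤ 2 [K : ℚ]` for cyclic subgroups of order `n` which are
  rational over `K`;
* `card_torsion_coprime_le`: the part of `E(K)_tors` prime to `2 · 3 · 5 · 7 · 13` has at most
  `2 [K : ℚ]` elements;
* `add_one_le_of_stable_prime`: `p + 1 ≤ [K : ℚ]` if `E` has a `K`-rational isogeny of degree `p`;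
* `prime_dvd_order_of_finrank_lt`: if `[K : ℚ] < 120`, only the primes `2, 3, 5, 7, 13` divide
  orders of torsion points of `E(K)`.
-/

set_option autoImplicit false

noncomputable section

open WeierstrassCurve WeierstrassCurve.Affine.Point Module
open scoped WeierstrassCurve.Affine
open Fermat.Agent.Tate

namespace Fermat.Agent.Cor

local notation "Γℚ" => (AlgebraicClosure ℚ ≃ₐ[ℚ] AlgebraicClosure ℚ)

variable {W : WeierstrassCurve ℤ}

/-- **The conjugates of a torsion point**, if every automorphism of `E[n]` comes from Galois. -/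
theorem orbit_eq_of_surjMod (hΔ : W.Δ ≠ 0)
    {x : ((W.map (Int.castRingHom ℚ))⁄(AlgebraicClosure ℚ)).Point} (hx : addOrderOf x ≠ 0)
    (h : SurjMod W (addOrderOf x)) : MulAction.orbit Γℚ x = {y | addOrderOf y = addOrderOf x} := by
  obtain ⟨n, hn⟩ : ∃ n, n = addOrderOf x := ⟨_, rfl⟩
  rw [← hn] at hx h ⊢
  have hmem : ∀ y : ((W.map (Int.castRingHom ℚ))⁄(AlgebraicClosure ℚ)).Point, addOrderOf y = n →
      y ∈ Submodule.torsionBy ℤ ((W.map (Int.castRingHom ℚ))⁄(AlgebraicClosure ℚ)).Point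
        (n : ℤ) := by
    intro y hy
    rw [Submodule.mem_torsionBy_iff, natCast_zsmul, ← hy]
    exact addOrderOf_nsmul_eq_zero y
  have hordE : ∀ y : Tors W n, addOrderOf y =
      addOrderOf (y : ((W.map (Int.castRingHom ℚ))⁄(AlgebraicClosure ℚ)).Point) := fun y =>
    (addOrderOf_injective (Submodule.subtype (Submodule.torsionBy ℤ
      ((W.map (Int.castRingHom ℚ))⁄(AlgebraicClosure ℚ)).Point (n : ℤ))).toAddMonoidHom
      Subtype.val_injective y).symm
  ext y
  constructor
  · rintro ⟨σ, rfl⟩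
    have h1 := addOrderOf_injective
      (DistribSMul.toAddMonoidHom ((W.map (Int.castRingHom ℚ))⁄(AlgebraicClosure ℚ)).Point σ)
      (MulAction.injective σ) x
    exact h1.trans hn.symm
  · intro hy
    obtain ⟨g, hg⟩ := exists_linearEquiv_apply_eq hΔ hx (x := ⟨x, hmem x hn.symm⟩)
      (y := ⟨y, hmem y hy⟩) (by rw [hordE]; exact hn.symm) (by rw [hordE]; exact hy)
    obtain ⟨σ, hσ⟩ := h g
    have h1 := (hσ ⟨x, hmem x hn.symm⟩).trans hg
    exact ⟨σ, congrArg Subtype.val h1⟩

/-- The number of points of the same order, if `x` is defined over `F`. -/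
theorem ncard_order_le_finrank (hΔ : W.Δ ≠ 0)
    (F : IntermediateField ℚ (AlgebraicClosure ℚ)) [FiniteDimensional ℚ F]
    {x : ((W.map (Int.castRingHom ℚ))⁄(AlgebraicClosure ℚ)).Point} (hx : addOrderOf x ≠ 0)
    (h : SurjMod W (addOrderOf x)) (hfix : ∀ σ ∈ F.fixingSubgroup, σ • x = x) :
    {y : ((W.map (Int.castRingHom ℚ))⁄(AlgebraicClosure ℚ)).Point |
      addOrderOf y = addOrderOf x}.ncard ≤ Module.finrank ℚ F := by
  have hidx : F.fixingSubgroup.index = Module.finrank ℚ F :=
    (IntermediateField.finrank_eq_fixingSubgroup_index (AlgebraicClosure ℚ) F).symm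
  have h3 := ncard_orbit_le_of_mapsTo (G := Γℚ) F.fixingSubgroup
    (by rw [hidx]; exact Module.finrank_pos.ne') x (Set.finite_singleton x) hfix
  rwa [hidx, Set.ncard_singleton, mul_one, orbit_eq_of_surjMod hΔ hx h] at h3

theorem order_le_of_stable_of_surjMod (hΔ : W.Δ ≠ 0)
    (F : IntermediateField ℚ (AlgebraicClosure ℚ)) [FiniteDimensional ℚ F]
    {x : ((W.map (Int.castRingHom ℚ))⁄(AlgebraicClosure ℚ)).Point} (hx : addOrderOf x ≠ 0)
    (h : SurjMod W (addOrderOf x))
    (hst : ∀ σ ∈ F.fixingSubgroup, σ • x ∈ AddSubgroup.zmultiples x) :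
    addOrderOf x ≤ 2 * Module.finrank ℚ F := by
  have hidx : F.fixingSubgroup.index = Module.finrank ℚ F :=
    (IntermediateField.finrank_eq_fixingSubgroup_index (AlgebraicClosure ℚ) F).symm
  have hfin : (AddSubgroup.zmultiples x :
      Set ((W.map (Int.castRingHom ℚ))⁄(AlgebraicClosure ℚ)).Point).Finite := by
    have : Finite (AddSubgroup.zmultiples x) := by
      apply Nat.finite_of_card_ne_zero
      rw [Nat.card_zmultiples]
      exact hx
    exact Set.toFinite _
  have hcard : (AddSubgroup.zmultiples x :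
      Set ((W.map (Int.castRingHom ℚ))⁄(AlgebraicClosure ℚ)).Point).ncard = addOrderOf x :=
    Nat.card_zmultiples x
  have h1 := sq_le_two_mul_card_order hΔ hx
  have h3 := ncard_orbit_le_of_mapsTo (G := Γℚ) F.fixingSubgroup
    (by rw [hidx]; exact Module.finrank_pos.ne') x hfin hst
  rw [hidx, hcard, orbit_eq_of_surjMod hΔ hx h] at h3
  have h4 : addOrderOf x * addOrderOf x ≤ (2 * Module.finrank ℚ F) * addOrderOf x := by
    calc addOrderOf x * addOrderOf x = addOrderOf x ^ 2 := (sq _).symm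
      _ ≤ 2 * (Module.finrank ℚ F * addOrderOf x) := h1.trans (Nat.mul_le_mul_left 2 h3)
      _ = (2 * Module.finrank ℚ F) * addOrderOf x := by ring
  exact Nat.le_of_mul_le_mul_right h4 (Nat.pos_of_ne_zero hx)

/-! ### Semistable curves -/

/-- **The number of conjugates of a torsion point over a number field, uniform in the semistable
curve `E`**: if `x ∈ E(K)` has order `n` and every prime divisor of `n` is `11` or `≥ 17`, then
`#{points of order n} ≤ [K : ℚ]`. -/
theorem ncard_order_le_of_semistable (hΔ : W.Δ ≠ 0) (hW : W.IsSemistableModel) (K : Type*) [Field K]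
    [NumberField K] [DecidableEq K] (x : ((W.map (Int.castRingHom ℚ))⁄K).Point)
    (hx0 : addOrderOf x ≠ 0) (hx : ∀ p, p.Prime → p ∣ addOrderOf x → p = 11 ∨ 17 ≤ p) :
    {y : ((W.map (Int.castRingHom ℚ))⁄(AlgebraicClosure ℚ)).Point |
      addOrderOf y = addOrderOf x}.ncard ≤ Module.finrank ℚ K := by
  obtain ⟨f⟩ : Nonempty (K →ₐ[ℚ] AlgebraicClosure ℚ) := ⟨IsAlgClosed.lift⟩
  have hfd : FiniteDimensional ℚ f.fieldRange :=
    (AlgEquiv.ofInjectiveField f).toLinearEquiv.finiteDimensional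
  have hord := addOrderOf_injective (Affine.Point.map (W' := W.map (Int.castRingHom ℚ)) f)
    (Affine.Point.map_injective f) x
  have h1 := ncard_order_le_finrank hΔ f.fieldRange
    (x := Affine.Point.map (W' := W.map (Int.castRingHom ℚ)) f x) (by rw [hord]; exact hx0)
    (surjMod_of_ge hΔ hW (by rw [hord]; exact hx0) (by rw [hord]; exact hx)) (fun σ hσ => by
      have h2 : (σ : AlgebraicClosure ℚ →ₐ[ℚ] AlgebraicClosure ℚ).comp f = f := by
        ext a
        exact (IntermediateField.mem_fixingSubgroup_iff _ _).mp hσ _ ⟨a, rfl⟩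
      rw [algEquiv_smul_def, Affine.Point.map_map]
      exact congrArg (fun g : K →ₐ[ℚ] AlgebraicClosure ℚ =>
        Affine.Point.map (W' := W.map (Int.castRingHom ℚ)) g x) h2)
  rw [hord] at h1
  have h2 : Module.finrank ℚ f.fieldRange = Module.finrank ℚ K :=
    (LinearEquiv.finrank_eq (AlgEquiv.ofInjectiveField f).toLinearEquiv).symm
  rwa [h2] at h1

/-- **Torsion points of semistable curves over number fields, uniform in the curve**: `n² ≤ 2 [K : ℚ]`
for `x ∈ E(K)` of order `n`, if every prime divisor of `n` is `11` or `≥ 17`. -/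
theorem sq_addOrderOf_le_of_semistable (hΔ : W.Δ ≠ 0) (hW : W.IsSemistableModel) (K : Type*)
    [Field K] [NumberField K] [DecidableEq K] (x : ((W.map (Int.castRingHom ℚ))⁄K).Point)
    (hx : ∀ p, p.Prime → p ∣ addOrderOf x → p = 11 ∨ 17 ≤ p) :
    addOrderOf x ^ 2 ≤ 2 * Module.finrank ℚ K := by
  by_cases hx0 : addOrderOf x = 0
  · rw [hx0]
    exact Nat.zero_le _
  · exact (sq_le_two_mul_card_order hΔ hx0).trans
      (Nat.mul_le_mul_left 2 (ncard_order_le_of_semistable hΔ hW K x hx0 hx))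

theorem ncard_order_prime (hΔ : W.Δ ≠ 0) {p : ℕ} (hp : p.Prime) :
    {y : ((W.map (Int.castRingHom ℚ))⁄(AlgebraicClosure ℚ)).Point | addOrderOf y = p}.ncard =
      p ^ 2 - 1 := by
  have : Fact p.Prime := ⟨hp⟩
  have hcard : {x : ((W.map (Int.castRingHom ℚ))⁄(AlgebraicClosure ℚ)).Point | p • x = 0}.ncard =
    p ^ 2 := Isog.card_torsion hΔ hp.ne_zero
  have h1 : {y : ((W.map (Int.castRingHom ℚ))⁄(AlgebraicClosure ℚ)).Point | addOrderOf y = p} =
      {y : ((W.map (Int.castRingHom ℚ))⁄(AlgebraicClosure ℚ)).Point | p • y = 0} \ {0} := by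
    ext y
    rw [Set.mem_sdiff, Set.mem_singleton_iff, Set.mem_ofPred_eq, Set.mem_ofPred_eq]
    constructor
    · intro h
      refine ⟨by rw [← h]; exact addOrderOf_nsmul_eq_zero y, fun h0 => ?_⟩
      rw [h0, addOrderOf_zero] at h
      exact hp.one_lt.ne h
    · intro h
      exact addOrderOf_eq_prime h.1 h.2
  have h0 : (0 : ((W.map (Int.castRingHom ℚ))⁄(AlgebraicClosure ℚ)).Point) ∈
      {y : ((W.map (Int.castRingHom ℚ))⁄(AlgebraicClosure ℚ)).Point | p • y = 0} :=
    smul_zero (M := ℕ) (A := ((W.map (Int.castRingHom ℚ))⁄(AlgebraicClosure ℚ)).Point) p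
  rw [h1, Set.ncard_sdiff_singleton_of_mem h0, hcard]

/-- **Points of prime order**: `x ∈ E(K)` of prime order `p = 11` or `p ≥ 17`, `E` semistable over
`ℚ`: `p² - 1 ≤ [K : ℚ]`. -/
theorem sq_sub_one_le_of_semistable (hΔ : W.Δ ≠ 0) (hW : W.IsSemistableModel) (K : Type*) [Field K]
    [NumberField K] [DecidableEq K] {p : ℕ} (hp : p.Prime) (hp17 : p = 11 ∨ 17 ≤ p)
    (x : ((W.map (Int.castRingHom ℚ))⁄K).Point) (hx : addOrderOf x = p) :
    p ^ 2 - 1 ≤ Module.finrank ℚ K := by
  have h1 := ncard_order_le_of_semistable hΔ hW K x (by rw [hx]; exact hp.ne_zero) (by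
    intro q hq hqx
    rw [hx] at hqx
    rwa [(Nat.prime_dvd_prime_iff_eq hq hp).mp hqx])
  rwa [hx, ncard_order_prime hΔ hp] at h1

/-- **Cyclic isogenies of semistable curves over number fields, uniform in the curve**: a cyclic
subgroup of `E(ℚ̄)` generated by `x` and stable under `Gal(ℚ̄/F)` has at most `2 [F : ℚ]`
elements, if every prime divisor of its order is `11` or `≥ 17`. -/
theorem order_le_of_stable_of_semistable (hΔ : W.Δ ≠ 0) (hW : W.IsSemistableModel)
    (F : IntermediateField ℚ (AlgebraicClosure ℚ)) [FiniteDimensional ℚ F]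
    (x : ((W.map (Int.castRingHom ℚ))⁄(AlgebraicClosure ℚ)).Point)
    (hx : ∀ p, p.Prime → p ∣ addOrderOf x → p = 11 ∨ 17 ≤ p)
    (hst : ∀ σ ∈ F.fixingSubgroup, σ • x ∈ AddSubgroup.zmultiples x) :
    addOrderOf x ≤ 2 * Module.finrank ℚ F := by
  by_cases hx0 : addOrderOf x = 0
  · rw [hx0]
    exact Nat.zero_le _
  · exact order_le_of_stable_of_surjMod hΔ F hx0 (surjMod_of_ge hΔ hW hx0 hx) hst

theorem eq_or_le_of_coprime {p n : ℕ} (hp : p.Prime) (hpn : p ∣ n) (hn : n.Coprime 2730) :
    p = 11 ∨ 17 ≤ p := by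
  by_contra hcon
  have h17 : p < 17 := by omega
  have h1 : ¬ p ∣ 2730 := fun h => hp.one_lt.ne' (Nat.eq_one_of_dvd_coprimes hn hpn h)
  interval_cases p <;> first | omega | (revert hp; decide)

/-- The points of `E(K)` whose order is prime to `2730 = 2 · 3 · 5 · 7 · 13`. -/
def torsionCoprime (W : WeierstrassCurve ℤ) (K : Type*) [Field K] [NumberField K] [DecidableEq K] :
    AddSubgroup ((W.map (Int.castRingHom ℚ))⁄K).Point where
  carrier := {x | ∃ n : ℕ, n.Coprime 2730 ∧ n • x = 0}
  zero_mem' := ⟨1, Nat.coprime_one_left _, by rw [one_smul]⟩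
  add_mem' := by
    rintro x y ⟨m, hm, hmx⟩ ⟨n, hn, hny⟩
    refine ⟨m * n, hm.mul_left hn, ?_⟩
    have h1 : (m * n) • x = 0 := by rw [mul_comm, mul_smul, hmx, nsmul_zero]
    have h2 : (m * n) • y = 0 := by rw [mul_smul, hny, nsmul_zero]
    rw [nsmul_add, h1, h2, add_zero]
  neg_mem' := by
    rintro x ⟨n, hn, hnx⟩
    exact ⟨n, hn, by rw [smul_neg, hnx, _root_.neg_zero]⟩

theorem mem_torsionCoprime {K : Type*} [Field K] [NumberField K] [DecidableEq K]
    {x : ((W.map (Int.castRingHom ℚ))⁄K).Point} :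
    x ∈ torsionCoprime W K ↔ ∃ n : ℕ, n.Coprime 2730 ∧ n • x = 0 := Iff.rfl

/-- **The torsion of semistable curves over number fields, uniform in the curve**: for EVERY
semistable elliptic curve `E` over `ℚ` and EVERY number field `K`, the part of `E(K)_tors` prime to
`2 · 3 · 5 · 7 · 13` has at most `2 [K : ℚ]` elements. -/
theorem card_torsion_coprime_le (hΔ : W.Δ ≠ 0) (hW : W.IsSemistableModel) (K : Type*) [Field K]
    [NumberField K] [DecidableEq K] :
    Finite (torsionCoprime W K) ∧ Nat.card (torsionCoprime W K) ≤ 2 * Module.finrank ℚ K := by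
  have hfin : Finite (torsionCoprime W K) := by
    obtain ⟨C, -, hC⟩ := exists_card_torsion_le hΔ hW
    refine ((hC K).1.subset ?_).to_subtype
    rintro x ⟨n, hn, hnx⟩
    have hn0 : n ≠ 0 := by
      rintro rfl
      exact absurd hn (by decide)
    exact fun h0 => hn0 (Nat.eq_zero_of_zero_dvd (h0 ▸ addOrderOf_dvd_of_nsmul_eq_zero hnx))
  refine ⟨hfin, ?_⟩
  obtain ⟨x, hx⟩ := AddMonoid.exists_addOrderOf_eq_exponent (G := torsionCoprime W K)
    AddMonoid.ExponentExists.of_finite
  have h1 : addOrderOf (x : ((W.map (Int.castRingHom ℚ))⁄K).Point) =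
      AddMonoid.exponent (torsionCoprime W K) := by
    rw [AddSubgroup.addOrderOf_coe]
    exact hx
  obtain ⟨n, hn, hnx⟩ := x.2
  have h2 := sq_addOrderOf_le_of_semistable hΔ hW K
    (x : ((W.map (Int.castRingHom ℚ))⁄K).Point) fun p hp hpx =>
      eq_or_le_of_coprime hp (hpx.trans (addOrderOf_dvd_of_nsmul_eq_zero hnx)) hn
  rw [h1] at h2
  refine le_trans ?_ h2
  -- `E(K)[e]` has at most `e²` elements
  obtain ⟨f⟩ : Nonempty (K →ₐ[ℚ] AlgebraicClosure ℚ) := ⟨IsAlgClosed.lift⟩
  set e := AddMonoid.exponent (torsionCoprime W K) with he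
  have he0 : e ≠ 0 := AddMonoid.exponent_ne_zero_of_finite
  have hcard : {y : ((W.map (Int.castRingHom ℚ))⁄(AlgebraicClosure ℚ)).Point |
    e • y = 0}.ncard = e ^ 2 := Isog.card_torsion hΔ he0
  rw [← hcard]
  refine Set.ncard_le_ncard_of_injOn (s := (torsionCoprime W K :
    Set ((W.map (Int.castRingHom ℚ))⁄K).Point))
    (Affine.Point.map (W' := W.map (Int.castRingHom ℚ)) f) (fun y hy => ?_)
    (Affine.Point.map_injective f).injOn (finite_killed_by hΔ he0)
  have h3 : e • y = 0 := congrArg Subtype.val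
    (AddMonoid.exponent_nsmul_eq_zero (⟨y, hy⟩ : torsionCoprime W K))
  rw [Set.mem_ofPred_eq, ← map_nsmul, h3, _root_.map_zero]

/-- **Isogenies of prime degree over number fields, uniform in the curve**: `E` semistable over `ℚ`,
`p = 11` or `p ≥ 17` prime. If `E` has a subgroup of order `p` which is stable under `Gal(ℚ̄/F)`,
then `p + 1 ≤ [F : ℚ]`. -/
theorem add_one_le_of_stable_prime (hΔ : W.Δ ≠ 0) (hW : W.IsSemistableModel)
    (F : IntermediateField ℚ (AlgebraicClosure ℚ)) [FiniteDimensional ℚ F] {p : ℕ} (hp : p.Prime)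
    (hp17 : p = 11 ∨ 17 ≤ p) {x : ((W.map (Int.castRingHom ℚ))⁄(AlgebraicClosure ℚ)).Point}
    (hx : addOrderOf x = p)
    (hst : ∀ σ ∈ F.fixingSubgroup, σ • x ∈ AddSubgroup.zmultiples x) :
    p + 1 ≤ Module.finrank ℚ F := by
  have hx0 : addOrderOf x ≠ 0 := by
    rw [hx]
    exact hp.ne_zero
  have hxne : x ≠ 0 := by
    rintro rfl
    rw [addOrderOf_zero] at hx
    exact hp.one_lt.ne hx
  have hidx : F.fixingSubgroup.index = Module.finrank ℚ F :=
    (IntermediateField.finrank_eq_fixingSubgroup_index (AlgebraicClosure ℚ) F).symm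
  have hfin : (AddSubgroup.zmultiples x :
      Set ((W.map (Int.castRingHom ℚ))⁄(AlgebraicClosure ℚ)).Point).Finite := by
    have : Finite (AddSubgroup.zmultiples x) := by
      apply Nat.finite_of_card_ne_zero
      rw [Nat.card_zmultiples]
      exact hx0
    exact Set.toFinite _
  have hcard : (AddSubgroup.zmultiples x :
      Set ((W.map (Int.castRingHom ℚ))⁄(AlgebraicClosure ℚ)).Point).ncard = p :=
    (Nat.card_zmultiples x).trans hx
  have h3 := ncard_orbit_le_of_mapsTo (G := Γℚ) F.fixingSubgroup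
    (by rw [hidx]; exact Module.finrank_pos.ne') x (S := (AddSubgroup.zmultiples x :
      Set ((W.map (Int.castRingHom ℚ))⁄(AlgebraicClosure ℚ)).Point) \ {0}) hfin.sdiff
    (fun σ hσ => ⟨hst σ hσ, fun h0 => hxne ((smul_eq_zero_iff_eq σ).mp h0)⟩)
  have hsurj : SurjMod W (addOrderOf x) := surjMod_of_ge hΔ hW hx0 (by
    intro q hq hqx
    rw [hx] at hqx
    rwa [(Nat.prime_dvd_prime_iff_eq hq hp).mp hqx])
  rw [hidx, Set.ncard_sdiff_singleton_of_mem (AddSubgroup.zero_mem _), hcard,
    orbit_eq_of_surjMod hΔ hx0 hsurj, hx, ncard_order_prime hΔ hp] at h3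
  have hp1 : 0 < p - 1 := by
    have := hp.one_lt
    omega
  have h4 : (p + 1) * (p - 1) = p ^ 2 - 1 := by
    rw [← Nat.sq_sub_sq, one_pow]
  rw [← h4] at h3
  exact Nat.le_of_mul_le_mul_right h3 hp1

/-- **Number fields of degree less than `120`**: for EVERY semistable elliptic curve `E` over `ℚ`
and EVERY number field `K` with `[K : ℚ] < 120`, only the primes `2, 3, 5, 7, 13` divide the orders
of the torsion points of `E(K)`. -/
theorem prime_dvd_order_of_finrank_lt (hΔ : W.Δ ≠ 0) (hW : W.IsSemistableModel) (K : Type*)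
    [Field K] [NumberField K] [DecidableEq K] (hK : Module.finrank ℚ K < 120)
    {x : ((W.map (Int.castRingHom ℚ))⁄K).Point} (hx : addOrderOf x ≠ 0) {p : ℕ} (hp : p.Prime)
    (hpx : p ∣ addOrderOf x) : p = 2 ∨ p = 3 ∨ p = 5 ∨ p = 7 ∨ p = 13 := by
  by_contra hcon
  have hp17 : p = 11 ∨ 17 ≤ p := by
    by_contra hcon2
    have h17 : p < 17 := by omega
    interval_cases p <;> first | omega | (revert hp; decide)
  obtain ⟨k, hk⟩ := hpx
  have hk0 : k ≠ 0 := fun h => hx (by rw [hk, h, mul_zero])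
  have : Fact p.Prime := ⟨hp⟩
  have hy : addOrderOf (k • x) = p := by
    apply addOrderOf_eq_prime
    · rw [← mul_smul, ← hk, addOrderOf_nsmul_eq_zero]
    · intro h0
      have h1 : addOrderOf x ≤ k := Nat.le_of_dvd (Nat.pos_of_ne_zero hk0)
        (addOrderOf_dvd_of_nsmul_eq_zero h0)
      have h2 := hp.one_lt
      have h3 : 1 * k < p * k := Nat.mul_lt_mul_of_pos_right h2 (Nat.pos_of_ne_zero hk0)
      omega
  have h1 := sq_sub_one_le_of_semistable hΔ hW K hp hp17 (k • x) hy
  have h2 : 11 ≤ p := by omega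
  have h3 : 11 ^ 2 ≤ p ^ 2 := Nat.pow_le_pow_left h2 2
  omega

end Fermat.Agent.Cor
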